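import Mathlib
import Fermat.Agent.TW.Aut.SeamsLG2

/-!
# M59 / block [E'] (helper3, block architect with helper22): THE SEAM  (prefix `m59ep_`)

Statements only (one structure + `Prop`s).  Formalises [E'] of the engine (#5180 OPERATORS,
#5199 (5)): the Taylor–Wiles modules along a CHAIN of levels
`N_0 = N ∣ N_1 = N·l_0 ∣ … ∣ N_m = N·l_0⋯l_{m-1}`, with the level-raising operators between
consecutive levels and the three properties (I1) split injective, (I2) onto, (I3) new quotient.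

CONVENTION: the bad set grows with the level, `S_k = S₀ ∪ {l_i : i < k}` with `l_i ∉ S₀`.  So the
chain primes not yet in the level are GOOD for `(N_k, S_k)`: `T_{l_k}` is an element of
`heckeAlgebra N_k 2 S_k` and `HeckeGaloisRepDatum.charpoly_frob` identifies it with the trace of
Frobenius at `l_k`.  The eigensystems `θ_k` at all the levels are INPUTS of the seam.

* `m59ep_lvl N l k`, `m59ep_bad S₀ l k` : the level and the bad set after `k` steps;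
* `m59ep_Rigid p N`  : the rigidity hypothesis (no elliptic element of order `3` when `p = 3`);
* `m59ep_Step L₀ L₁ l` : the operators `A, B` (pull-backs), `At, Bt` (transfers), the ring map
  `πT`, their relations and (I1), (I2), (I3);
* `m59ep_Chain_stmt`  : the statement block [E'] proves (shape of `twe_M2LG4_stmt`).
-/

set_option autoImplicit false
set_option linter.unusedSectionVars false

namespace Fermat.Agent.M59

open Polynomial CuspForm IsLocalRing Fermat.Agent.JT3 Fermat.Agent.TW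

noncomputable section

/-- the level after `k` steps of the chain: `N · ∏_{i < k} l i`. -/
def m59ep_lvl (N : ℕ) {m : ℕ} (l : Fin m → ℕ) (k : ℕ) : ℕ :=
  N * ∏ i : Fin m, if (i : ℕ) < k then l i else 1

/-- the bad set after `k` steps of the chain: `S₀ ∪ {l i : i < k}`. -/
def m59ep_bad (S₀ : Finset ℕ) {m : ℕ} (l : Fin m → ℕ) (k : ℕ) : Finset ℕ :=
  S₀ ∪ (Finset.univ.filter fun i : Fin m => (i : ℕ) < k).image l

/-- **rigidity**: for `p = 3` the level has a prime divisor `r ≡ 2 mod 3` (then `Γ₀(N)` has no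
elliptic element of order `3`); nothing is asked for `p ≠ 3`. -/
def m59ep_Rigid (p N : ℕ) : Prop :=
  p = 3 → ∃ r : ℕ, r.Prime ∧ r ∣ N ∧ r % 3 = 2

section step

variable {𝒪 : Type} [CommRing 𝒪] [IsDomain 𝒪] [IsDiscreteValuationRing 𝒪]
  [IsAdicComplete (maximalIdeal 𝒪) 𝒪]
  {N₀ N₁ : ℕ} [NeZero N₀] [NeZero N₁] {S₀ S₁ : Finset ℕ}
  {θ₀ : heckeAlgebra N₀ 2 (↑S₀ : Set ℕ) →+* ResidueField 𝒪}
  {θ₁ : heckeAlgebra N₁ 2 (↑S₁ : Set ℕ) →+* ResidueField 𝒪}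
  {B₀ : twe_Base 𝒪 N₀ S₀ θ₀} {B₁ : twe_Base 𝒪 N₁ S₁ θ₁} {p : ℕ} {Q : Finset ℕ}
  [NeZero (twe_Nbal N₀ Q ∅)] [NeZero (twe_Nbal N₁ Q ∅)]

/-- **one step of the chain**: `L₀` at the level `N₀` (prime to `l`), `L₁` at the level
`N₁ = N₀ · l`, the same Taylor–Wiles set `Q`.  `A, B` are the two pull-backs `α^*`, `β^*`
(fixed-determinant normalisation), `At, Bt` the two transfers `α_*`, `β_*`. -/
structure m59ep_Step (L₀ : twe_Level B₀ p Q) (L₁ : twe_Level B₁ p Q) (l : ℕ) : Type where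
  /-- `T'₁ → T'₀`, `T_q ↦ T_q` at the common good primes -/
  πT : L₁.T' →ₐ[𝒪] L₀.T'
  πT_T : ∀ (q : ℕ) (hq : q.Prime) (h1 : ¬ q ∣ twe_Nbal N₁ Q ∅) (h2 : q ∉ (↑(S₁ ∪ Q) : Set ℕ))
    (h3 : ¬ q ∣ twe_Nbal N₀ Q ∅) (h4 : q ∉ (↑(S₀ ∪ Q) : Set ℕ)),
    πT (L₁.H'.π (heckeAlgebra.T hq h1 h2)) = L₀.H'.π (heckeAlgebra.T hq h3 h4)
  /-- `α^*` -/
  A : L₀.M →ₗ[𝒪] L₁.M
  /-- `β^*` -/
  B : L₀.M →ₗ[𝒪] L₁.M
  /-- `α_*` -/
  At : L₁.M →ₗ[𝒪] L₀.M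
  /-- `β_*` -/
  Bt : L₁.M →ₗ[𝒪] L₀.M
  A_dia : ∀ (δ : twe_Delta p Q) (m : L₀.M),
    A (MonoidAlgebra.of 𝒪 (twe_Delta p Q) δ • m) = MonoidAlgebra.of 𝒪 (twe_Delta p Q) δ • A m
  B_dia : ∀ (δ : twe_Delta p Q) (m : L₀.M),
    B (MonoidAlgebra.of 𝒪 (twe_Delta p Q) δ • m) = MonoidAlgebra.of 𝒪 (twe_Delta p Q) δ • B m
  At_dia : ∀ (δ : twe_Delta p Q) (m : L₁.M),
    At (MonoidAlgebra.of 𝒪 (twe_Delta p Q) δ • m) = MonoidAlgebra.of 𝒪 (twe_Delta p Q) δ • At m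
  Bt_dia : ∀ (δ : twe_Delta p Q) (m : L₁.M),
    Bt (MonoidAlgebra.of 𝒪 (twe_Delta p Q) δ • m) = MonoidAlgebra.of 𝒪 (twe_Delta p Q) δ • Bt m
  A_hecke : ∀ (x : L₁.T') (m : L₀.M), x • A m = A (πT x • m)
  B_hecke : ∀ (x : L₁.T') (m : L₀.M), x • B m = B (πT x • m)
  At_hecke : ∀ (x : L₁.T') (m : L₁.M), At (x • m) = πT x • At m
  Bt_hecke : ∀ (x : L₁.T') (m : L₁.M), Bt (x • m) = πT x • Bt m
  /-- `α_* α^* = l + 1` -/
  At_A : ∀ m : L₀.M, At (A m) = ((l : 𝒪) + 1) • m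
  /-- `β_* β^* = l + 1` -/
  Bt_B : ∀ m : L₀.M, Bt (B m) = ((l : 𝒪) + 1) • m
  /-- `α_* β^* = T_l` -/
  At_B : ∀ (hl : l.Prime) (h1 : ¬ l ∣ twe_Nbal N₀ Q ∅) (h2 : l ∉ (↑(S₀ ∪ Q) : Set ℕ)) (m : L₀.M),
    At (B m) = L₀.H'.π (heckeAlgebra.T hl h1 h2) • m
  /-- `β_* α^* = T_l` -/
  Bt_A : ∀ (hl : l.Prime) (h1 : ¬ l ∣ twe_Nbal N₀ Q ∅) (h2 : l ∉ (↑(S₀ ∪ Q) : Set ℕ)) (m : L₀.M),
    Bt (A m) = L₀.H'.π (heckeAlgebra.T hl h1 h2) • m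
  /-- **(I1)** `i = α^* + β^* : M₀ × M₀ → M₁` has a retraction commuting with the diamonds -/
  split : ∃ r : L₁.M →ₗ[𝒪] L₀.M × L₀.M,
    (∀ (δ : twe_Delta p Q) (m : L₁.M),
      r (MonoidAlgebra.of 𝒪 (twe_Delta p Q) δ • m) =
        (MonoidAlgebra.of 𝒪 (twe_Delta p Q) δ • (r m).1,
          MonoidAlgebra.of 𝒪 (twe_Delta p Q) δ • (r m).2)) ∧
    ∀ x y : L₀.M, r (A x + B y) = (x, y)
  /-- **(I2)** `i' = (α_*, β_*) : M₁ → M₀ × M₀` is onto -/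
  onto : ∀ x y : L₀.M, ∃ m : L₁.M, At m = x ∧ Bt m = y
  /-- **(I3)** `tr ρ₁(Frob_l)² − (l + 1)²` is nilpotent on the `l`-new quotient `M₁ / im i`, with
  the uniform exponent `rank_𝒪[Δ] M₁` -/
  new : ∀ P : ValuationSubring (AlgebraicClosure ℚ), P.LiesOverPrime l →
    ∀ σ : AlgebraicClosure ℚ ≃ₐ[ℚ] AlgebraicClosure ℚ, P.IsFrobeniusAt σ l →
    ∀ m : L₁.M, ∃ x y : L₀.M,
      ((L₁.H'.ρ.trace σ) ^ 2 - ((l : L₁.T') + 1) ^ 2) ^ (B₁.d * 2 ^ Q.card) • m = A x + B y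

end step

/-- **block [E'], the chain**: ONE family of base packages along the chain, and over it, for every
nonempty Taylor–Wiles set `Q`, the unipotent systems at all the levels of the chain with the
[E] → [A] clauses at `t ∈ Q` and the level-raising steps between consecutive levels. -/
def m59ep_Chain_stmt : Prop :=
  ∀ (p : ℕ) [Fact p.Prime], p ≠ 2 →
  ∀ (𝒪 : Type) [CommRing 𝒪] [IsDomain 𝒪] [IsDiscreteValuationRing 𝒪]
    [IsAdicComplete (maximalIdeal 𝒪) 𝒪] [Finite (ResidueField 𝒪)] [CharZero 𝒪],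
    (p : 𝒪) ∈ maximalIdeal 𝒪 →
  ∀ (N : ℕ) [NeZero N], m59ep_Rigid p N →
  ∀ (S₀ : Finset ℕ), p ∈ S₀ → (∀ ℓ : ℕ, ℓ.Prime → ℓ ∣ N → ℓ ∈ S₀) →
  ∀ (m : ℕ) (l : Fin m → ℕ), Function.Injective l →
    (∀ i, (l i).Prime ∧ l i ∉ S₀ ∧ l i ≠ p) →
  ∀ [∀ k : ℕ, NeZero (m59ep_lvl N l k)]
    (θ : ∀ k : ℕ, heckeAlgebra (m59ep_lvl N l k) 2 (↑(m59ep_bad S₀ l k) : Set ℕ) →+*
      ResidueField 𝒪)
    (ρbar : ResidualGaloisRep (ResidueField 𝒪)),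
    (∀ k, twt_Compat (θ k) ρbar) → ρbar.IsAbsolutelyIrreducible →
    ∃ B : ∀ k : ℕ, twe_Base 𝒪 (m59ep_lvl N l k) (m59ep_bad S₀ l k) (θ k),
      ∀ (Q : Finset ℕ) [∀ k : ℕ, NeZero (twe_Nbal (m59ep_lvl N l k) Q ∅)],
        (∀ t ∈ Q, t ∉ S₀ ∧ ∀ i, t ≠ l i) → (∀ k, twe_IsTWSet (θ k) p Q) → Q.Nonempty →
        ∃ L : ∀ k : ℕ, twe_Level (B k) p Q,
          (∀ k, (L k).IsLG2) ∧
          ∀ k : Fin m, Nonempty (m59ep_Step (L (k : ℕ)) (L ((k : ℕ) + 1)) (l k))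

end

end Fermat.Agent.M59
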