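/-
Project M59 (S59), block [E'] (architect helper3), cell (5)(a) [AlgCH], tag `m59epa_` (helper22).

* `m59epa_reduced` : the group algebra `𝒪[Δ]` of a finite commutative group over a reduced ring in
  which `|Δ|` is a non-zero-divisor is reduced (trace form);
* `m59epa_matrix_pow_card` : a nilpotent square matrix `M` of size `n` over a reduced commutative
  ring has `M ^ n = 0` (characteristic polynomial `= X ^ n`, Cayley–Hamilton);
* `m59epa_end_pow_rank` : a nilpotent endomorphism of a free module with a basis of size `n` over a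
  reduced commutative ring has `φ ^ n = 0`.
-/
import Mathlib

set_option autoImplicit false
set_option linter.unusedSectionVars false

namespace Fermat.Agent.M59

open Polynomial

noncomputable section

section reduced

variable {𝒪 : Type*} [CommRing 𝒪] {Δ : Type*} [CommGroup Δ]

/-- the trace of the multiplication by `x` on `𝒪[Δ]` is `|Δ| · x(1)`. -/
theorem m59epa_trace_eq [Fintype Δ] (x : MonoidAlgebra 𝒪 Δ) :
    Algebra.trace 𝒪 (MonoidAlgebra 𝒪 Δ) x = (Fintype.card Δ : 𝒪) * x.coeff 1 := by
  classical
  rw [Algebra.trace_eq_matrix_trace (MonoidAlgebra.basis Δ 𝒪), Matrix.trace]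
  have : ∀ δ : Δ, Matrix.diag (Algebra.leftMulMatrix (MonoidAlgebra.basis Δ 𝒪) x) δ =
      x.coeff 1 := by
    intro δ
    rw [Matrix.diag_apply, Algebra.leftMulMatrix_eq_repr_mul, MonoidAlgebra.basis_apply]
    change (x * MonoidAlgebra.single δ 1).coeff δ = _
    rw [MonoidAlgebra.coeff_mul_single_apply, mul_inv_cancel, mul_one]
  rw [Finset.sum_congr rfl fun δ _ => this δ, Finset.sum_const, Finset.card_univ, nsmul_eq_mul]

/-- **the group algebra is reduced.** -/
theorem m59epa_reduced [Finite Δ] [IsReduced 𝒪]
    (hcard : ∀ a : 𝒪, (Nat.card Δ : 𝒪) * a = 0 → a = 0) : IsReduced (MonoidAlgebra 𝒪 Δ) := by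
  classical
  cases nonempty_fintype Δ
  refine ⟨fun x hx => ?_⟩
  apply MonoidAlgebra.coeff_injective
  ext δ
  have h1 : IsNilpotent (x * MonoidAlgebra.single δ⁻¹ (1 : 𝒪)) :=
    (Commute.all _ _).isNilpotent_mul_right hx
  have h2 := (Algebra.isNilpotent_trace_of_isNilpotent (R := 𝒪) h1).eq_zero
  rw [m59epa_trace_eq, MonoidAlgebra.coeff_mul_single_apply, inv_inv, one_mul, mul_one,
    ← Nat.card_eq_fintype_card] at h2
  exact hcard _ h2

end reduced

section CH

variable {R : Type*} [CommRing R] [IsReduced R]

/-- a nilpotent matrix of size `n` over a reduced ring has vanishing `n`-th power. -/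
theorem m59epa_matrix_pow_card {n : Type*} [Fintype n] [DecidableEq n] (M : Matrix n n R)
    (hM : IsNilpotent M) : M ^ Fintype.card n = 0 := by
  have h1 : M.charpoly = X ^ Fintype.card n := by
    rw [← sub_eq_zero]
    have h0 := Matrix.isNilpotent_charpoly_sub_pow_of_isNilpotent hM
    rw [Polynomial.isNilpotent_iff] at h0
    ext i
    rw [(h0 i).eq_zero, coeff_zero]
  have h2 := Matrix.aeval_self_charpoly M
  rwa [h1, map_pow, aeval_X] at h2

/-- a nilpotent endomorphism of a free module of rank `n` over a reduced ring has vanishing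
`n`-th power. -/
theorem m59epa_end_pow_rank {C : Type*} [AddCommGroup C] [Module R C] {n : Type*} [Fintype n]
    [DecidableEq n] (b : Module.Basis n R C) (φ : Module.End R C) (hφ : IsNilpotent φ) :
    φ ^ Fintype.card n = 0 := by
  have h1 : IsNilpotent (LinearMap.toMatrixAlgEquiv b φ) := hφ.map _
  have h2 := m59epa_matrix_pow_card _ h1
  rw [← map_pow] at h2
  exact (LinearMap.toMatrixAlgEquiv b).injective (h2.trans (map_zero _).symm)

end CH

end

end Fermat.Agent.M59
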