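/-
Project M59 (S59), block [E'] (architect helper3), cell (5)(b) [AlgJH], tag `m59epa_` (helper22).

Linear algebra over an algebraically closed field `K`:

* `m59epa_common_eigen` : a commuting family of endomorphisms of a finite dimensional space
  stabilising a nonzero subspace has a common eigenvector in it;
* `m59epa_eigenchar` : the eigensystem of a common eigenvector of an action of a commutative
  `𝒪`-algebra `T` is an `𝒪`-algebra homomorphism `T →ₐ[𝒪] K`;
* `m59epa_nil_on` : if `X` acts by `0` on every common eigenvector in a stable subspace `W`, then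
  `X ^ dim V` kills `W`;
* `m59epa_fitting` : `i : U → V` injective, `i' : V → U`, equivariant for `g` on `U` and `f` on `V`,
  `f` nilpotent on `ker i'` ⟹ `f ^ dim V` maps `V` into the range of `i`.
-/
import Mathlib

set_option autoImplicit false
set_option linter.unusedSectionVars false

namespace Fermat.Agent.M59

open Module

noncomputable section

section eigen

variable {K : Type*} [Field K] {V : Type*} [AddCommGroup V] [Module K V]

/-- **a common eigenvector** of a commuting family in a nonzero stable subspace. -/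
theorem m59epa_common_eigen [IsAlgClosed K] [FiniteDimensional K V] {T : Type*}
    (φ : T → Module.End K V) (hcomm : ∀ x y, Commute (φ x) (φ y)) :
    ∀ (S : Submodule K V), S ≠ ⊥ → (∀ x, ∀ s ∈ S, φ x s ∈ S) →
      ∃ v ∈ S, v ≠ 0 ∧ ∀ x, ∃ c : K, φ x v = c • v := by
  intro S
  induction h : finrank K S using Nat.strong_induction_on generalizing S with
  | _ n ih =>
    intro hS hstab
    by_cases hsc : ∀ x, ∃ c : K, ∀ s ∈ S, φ x s = c • s
    · obtain ⟨v, hvS, hv0⟩ := Submodule.exists_mem_ne_zero_of_ne_bot hS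
      exact ⟨v, hvS, hv0, fun x => ⟨(hsc x).choose, (hsc x).choose_spec v hvS⟩⟩
    · obtain ⟨x, hx⟩ := not_forall.1 hsc
      have : Nontrivial S := Submodule.nontrivial_iff_ne_bot.2 hS
      obtain ⟨c, hc⟩ := Module.End.exists_eigenvalue ((φ x).restrict (hstab x))
      obtain ⟨w, hw⟩ := hc.exists_hasEigenvector
      -- the eigenspace inside `S`
      let S' : Submodule K V := S ⊓ LinearMap.ker (φ x - c • (1 : Module.End K V))
      have hS'mem : ∀ s, s ∈ S' ↔ s ∈ S ∧ φ x s = c • s := by
        intro s
        rw [Submodule.mem_inf, LinearMap.mem_ker, LinearMap.sub_apply, LinearMap.smul_apply,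
          Module.End.one_apply, sub_eq_zero]
      have hwS' : (w : V) ∈ S' := by
        rw [hS'mem]
        refine ⟨w.2, ?_⟩
        have := hw.apply_eq_smul
        exact congrArg Subtype.val this
      have hS'ne : S' ≠ ⊥ := by
        intro h0
        rw [h0, Submodule.mem_bot] at hwS'
        exact hw.2 (Subtype.ext hwS')
      have hlt : S' < S := by
        refine lt_of_le_of_ne inf_le_left fun heq => ?_
        refine hx ⟨c, fun s hs => ?_⟩
        rw [← heq, hS'mem] at hs
        exact hs.2
      have hstab' : ∀ y, ∀ s ∈ S', φ y s ∈ S' := by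
        intro y s hs
        rw [hS'mem] at hs ⊢
        refine ⟨hstab y s hs.1, ?_⟩
        have := (hcomm x y).eq
        have h2 : φ x (φ y s) = φ y (φ x s) := by
          rw [← Module.End.mul_apply, ← Module.End.mul_apply, this]
        rw [h2, hs.2, map_smul]
      obtain ⟨v, hv, hv0, hv1⟩ := ih (finrank K S') (h ▸ Submodule.finrank_lt_finrank_of_lt hlt)
        S' rfl hS'ne hstab'
      exact ⟨v, hlt.le hv, hv0, hv1⟩

/-- the eigensystem of a common eigenvector is an algebra homomorphism. -/
theorem m59epa_eigenchar {𝒪 T : Type*} [CommRing 𝒪] [CommRing T] [Algebra 𝒪 T] [Algebra 𝒪 K]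
    (φ : T →+* Module.End K V)
    (hφ𝒪 : ∀ (a : 𝒪) (v : V), φ (algebraMap 𝒪 T a) v = algebraMap 𝒪 K a • v)
    (v : V) (hv : v ≠ 0) (h : ∀ x, ∃ c : K, φ x v = c • v) :
    ∃ χ : T →ₐ[𝒪] K, ∀ x, φ x v = χ x • v := by
  have huniq : ∀ c c' : K, c • v = c' • v → c = c' := fun c c' hcc =>
    smul_left_injective K hv hcc
  choose χ hχ using h
  refine ⟨{ toFun := χ
            map_one' := ?_
            map_mul' := ?_
            map_zero' := ?_
            map_add' := ?_
            commutes' := ?_ }, hχ⟩
  · apply huniq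
    rw [← hχ, map_one, Module.End.one_apply, one_smul]
  · intro x y
    apply huniq
    rw [← hχ, map_mul, Module.End.mul_apply, hχ y, map_smul, hχ x, smul_smul, mul_comm]
  · apply huniq
    rw [← hχ, map_zero, LinearMap.zero_apply, zero_smul]
  · intro x y
    apply huniq
    rw [← hχ, map_add, LinearMap.add_apply, hχ x, hχ y, add_smul]
  · intro a
    apply huniq
    rw [← hχ, hφ𝒪]

/-- **nilpotency on a stable subspace** from the vanishing on common eigenvectors. -/
theorem m59epa_nil_on [IsAlgClosed K] [FiniteDimensional K V] {T : Type*} [CommRing T]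
    (φ : T →+* Module.End K V) (W : Submodule K V) (hW : ∀ x, ∀ w ∈ W, φ x w ∈ W) (X : T)
    (h : ∀ v ∈ W, v ≠ 0 → (∀ x, ∃ c : K, φ x v = c • v) → φ X v = 0) :
    ∀ w ∈ W, ((φ X) ^ finrank K V) w = 0 := by
  have hcomm : ∀ x y, Commute (φ x) (φ y) := fun x y => by
    rw [Commute, SemiconjBy, ← map_mul, ← map_mul, mul_comm]
  have htop := Module.End.iSup_maxGenEigenspace_eq_top (φ X)
  have hdec := Submodule.eq_iSup_inf_genEigenspace (p := W) (f := φ X) ⊤ (hW X) htop
  have hbot : ∀ μ : K, μ ≠ 0 → W ⊓ (φ X).genEigenspace μ ⊤ = ⊥ := by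
    intro μ hμ
    by_contra hne
    obtain ⟨v, hvS, hv0, hv1⟩ := m59epa_common_eigen (fun x => φ x) hcomm _ hne (by
      intro x s hs
      exact ⟨hW x s hs.1, Module.End.mapsTo_maxGenEigenspace_of_comm (hcomm X x) μ hs.2⟩)
    have hXv : φ X v = 0 := h v hvS.1 hv0 hv1
    obtain ⟨k, hk⟩ := (Module.End.mem_maxGenEigenspace (φ X) μ v).1 hvS.2
    have hpow : ∀ n : ℕ, ((φ X - μ • (1 : Module.End K V)) ^ n) v = (-μ) ^ n • v := by
      intro n
      induction n with
      | zero => rw [pow_zero, pow_zero, Module.End.one_apply, one_smul]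
      | succ n ihn =>
        rw [pow_succ, Module.End.mul_apply, LinearMap.sub_apply, LinearMap.smul_apply,
          Module.End.one_apply, hXv, zero_sub, ← neg_smul, map_smul, ihn, smul_smul, pow_succ,
          mul_comm]
    rw [hpow k] at hk
    rcases smul_eq_zero.1 hk with h0 | h0
    · exact pow_ne_zero k (neg_ne_zero.2 hμ) h0
    · exact hv0 h0
  have hle : W ≤ (φ X).genEigenspace 0 ⊤ := by
    rw [hdec]
    refine iSup_le fun μ => ?_
    by_cases hμ : μ = 0
    · rw [hμ]
      exact inf_le_right
    · rw [hbot μ hμ]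
      exact bot_le
  intro w hw
  have h1 := hle hw
  change w ∈ (φ X).maxGenEigenspace 0 at h1
  rw [Module.End.maxGenEigenspace_eq_genEigenspace_finrank, Module.End.mem_genEigenspace_nat,
    zero_smul, sub_zero] at h1
  exact h1

end eigen

section fitting

variable {K : Type*} [Field K] {V U : Type*} [AddCommGroup V] [Module K V] [AddCommGroup U]
  [Module K U]

/-- **the Fitting comparison**: see the header. -/
theorem m59epa_fitting [FiniteDimensional K V] [FiniteDimensional K U]
    (f : Module.End K V) (g : Module.End K U) (i : U →ₗ[K] V) (i' : V →ₗ[K] U)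
    (hi : Function.Injective i) (hif : ∀ u, i (g u) = f (i u)) (hi'f : ∀ v, i' (f v) = g (i' v))
    (k : ℕ) (hnil : ∀ w, i' w = 0 → (f ^ k) w = 0) :
    ∀ v, (f ^ finrank K V) v ∈ LinearMap.range i := by
  set N := finrank K V with hN
  have hifn : ∀ (n : ℕ) u, i ((g ^ n) u) = (f ^ n) (i u) := by
    intro n
    induction n with
    | zero => intro u; rw [pow_zero, pow_zero, Module.End.one_apply, Module.End.one_apply]
    | succ n ih =>
      intro u
      rw [pow_succ, pow_succ, Module.End.mul_apply, Module.End.mul_apply, ih, hif]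
  have hi'fn : ∀ (n : ℕ) v, i' ((f ^ n) v) = (g ^ n) (i' v) := by
    intro n
    induction n with
    | zero => intro v; rw [pow_zero, pow_zero, Module.End.one_apply, Module.End.one_apply]
    | succ n ih =>
      intro v
      rw [pow_succ, pow_succ, Module.End.mul_apply, Module.End.mul_apply, ih, hi'f]
  let R₁ : Submodule K V := LinearMap.range (f ^ N)
  let R₀ : Submodule K U := LinearMap.range (g ^ N)
  -- `i'` is injective on `R₁`
  have hinj' : ∀ v ∈ R₁, i' v = 0 → v = 0 := by
    rintro _ ⟨u, rfl⟩ h0
    have h1 := hnil _ h0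
    rw [← Module.End.mul_apply, ← pow_add] at h1
    have h2 : u ∈ LinearMap.ker (f ^ (k + N)) := h1
    rw [Module.End.ker_pow_eq_ker_pow_finrank_of_le (by omega)] at h2
    exact h2
  -- `i' : R₁ → R₀`
  have h1 : finrank K R₁ ≤ finrank K R₀ := by
    let j : R₁ →ₗ[K] R₀ := (i'.domRestrict R₁).codRestrict R₀ (by
      rintro ⟨_, u, rfl⟩
      exact ⟨i' u, (hi'fn N u).symm⟩)
    refine LinearMap.finrank_le_finrank_of_injective (f := j) ?_
    rw [injective_iff_map_eq_zero]
    intro v hv
    have : i' (v : V) = 0 := congrArg Subtype.val hv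
    exact Subtype.ext (hinj' v v.2 this)
  -- `i : R₀ → R₁`
  have h2 : R₀.map i ≤ R₁ := by
    rintro _ ⟨_, ⟨u, rfl⟩, rfl⟩
    exact ⟨i u, (hifn N u).symm⟩
  have h3 : finrank K (R₀.map i) = finrank K R₀ :=
    (Submodule.equivMapOfInjective i hi R₀).finrank_eq.symm
  have h4 : R₀.map i = R₁ := Submodule.eq_of_le_of_finrank_le h2 (by rw [h3]; exact h1)
  intro v
  have : (f ^ N) v ∈ R₀.map i := by
    rw [h4]
    exact ⟨v, rfl⟩
  obtain ⟨u, _, hu⟩ := this
  exact ⟨u, hu⟩

end fitting

end

end Fermat.Agent.M59
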