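/-
Project M59 (S59), block [E'] (architect helper3), cell (5) [AlgNew], tag `m59epa_` (helper22).

THE ALGEBRA OF (I3): the field `new` of `m59eps_StepData` from the field `split` and the pointwise
statement over an algebraically closed field `K ⊇ 𝒪`
(`hnew` = helper2's `m59epn_NewOne` composed with `m59epn_gal`):
every common eigenvector `v ≠ 0` of `T` in `K ⊗ P₁` killed by `At_K` and `Bt_K` has `χ_v X = 0`.

`m59epa_new` : then `ψ₁ (X ^ r₁) m ∈ A P₀ + B P₀` for all `m`, `r₁` = the `Δ`-rank of `P₁`.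

Route: `Y := (1 - i ∘ r) ∘ ψ₁ X` (`i = A + B`, `r` the retraction) is `𝒪[Δ]`-linear on the free module
`P₁` of rank `r₁`, `Y ^ (n+1) = (1 - i ∘ r) ∘ ψ₁ X ^ (n+1)`; over `K` the Fitting comparison
(`m59epa_fitting`) and the nilpotency of `X` on `ker (At_K, Bt_K)` (`m59epa_nil_on`) make `Y`
nilpotent; `𝒪[Δ]` is reduced, so `Y ^ r₁ = 0` (`m59epa_end_pow_rank`).
-/
import Mathlib
import Fermat.Agent.TW.Aut.FreeMA
import Fermat.Agent.M59.EP.AlgNak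
import Fermat.Agent.M59.EP.AlgCH
import Fermat.Agent.M59.EP.AlgJH

set_option autoImplicit false
set_option linter.unusedSectionVars false
set_option linter.style.haveILetI false

namespace Fermat.Agent.M59

open Fermat.Agent.TW TensorProduct Module

noncomputable section

section new

variable {𝒪 : Type*} [CommRing 𝒪] [IsDomain 𝒪] [IsLocalRing 𝒪] [CharZero 𝒪]
  {Δ : Type*} [CommGroup Δ] [Finite Δ]
  {P₀ P₁ : Type*} [AddCommGroup P₀] [Module 𝒪 P₀] [AddCommGroup P₁] [Module 𝒪 P₁]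
  {ι₁ : Type*} [Fintype ι₁]
  {T : Type*} [CommRing T] [Algebra 𝒪 T]

/-- powers of the linearisation of an equivariant endomorphism. -/
theorem m59epa_lin_pow (ρ : Representation 𝒪 Δ P₁) (Y : Module.End 𝒪 P₁)
    (hY : ∀ δ m, Y (ρ δ m) = ρ δ (Y m)) (n : ℕ) (m : ρ.asModule) :
    ((m59epa_lin ρ ρ Y hY : Module.End (MonoidAlgebra 𝒪 Δ) ρ.asModule) ^ n) m =
      ρ.asModuleEquiv.symm ((Y ^ n) (ρ.asModuleEquiv m)) := by
  induction n generalizing m with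
  | zero =>
    rw [pow_zero, pow_zero, Module.End.one_apply, Module.End.one_apply,
      LinearEquiv.symm_apply_apply]
  | succ n ih =>
    rw [pow_succ, Module.End.mul_apply, ih, m59epa_lin_apply, LinearEquiv.apply_symm_apply,
      pow_succ, Module.End.mul_apply]

/-- **Cayley–Hamilton over the reduced ring `𝒪[Δ]`**: a nilpotent equivariant endomorphism of a
free `𝒪[Δ]`-module of rank `r₁` has vanishing `r₁`-th power. -/
theorem m59epa_pow_rank (ρ₁ : Representation 𝒪 Δ P₁) (v₁ : ι₁ → P₁)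
    (b₁ : Module.Basis (Δ × ι₁) 𝒪 P₁) (hb₁ : ∀ δ i, b₁ (δ, i) = ρ₁ δ (v₁ i))
    (Y : Module.End 𝒪 P₁) (hY : ∀ δ m, Y (ρ₁ δ m) = ρ₁ δ (Y m)) (hnil : IsNilpotent Y) :
    Y ^ Fintype.card ι₁ = 0 := by
  classical
  haveI : IsReduced (MonoidAlgebra 𝒪 Δ) := m59epa_reduced (fun a ha => by
    rcases mul_eq_zero.1 ha with h | h
    · exact absurd h (Nat.cast_ne_zero.2 Nat.card_pos.ne')
    · exact h)
  let bΛ : Module.Basis ι₁ (MonoidAlgebra 𝒪 Δ) ρ₁.asModule :=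
    twe_fm_basis (fun i => ρ₁.asModuleEquiv.symm (v₁ i)) (twe_fm_asBasis ρ₁ b₁)
      (twe_fm_asBasis_apply ρ₁ v₁ b₁ hb₁)
  have h1 : IsNilpotent (m59epa_lin ρ₁ ρ₁ Y hY : Module.End (MonoidAlgebra 𝒪 Δ) ρ₁.asModule) := by
    obtain ⟨n, hn⟩ := hnil
    refine ⟨n, LinearMap.ext fun m => ?_⟩
    rw [m59epa_lin_pow, hn, LinearMap.zero_apply, map_zero, LinearMap.zero_apply]
  have h2 := m59epa_end_pow_rank bΛ _ h1
  refine LinearMap.ext fun m => ?_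
  have h3 := LinearMap.congr_fun h2 (ρ₁.asModuleEquiv.symm m)
  rw [m59epa_lin_pow, LinearEquiv.apply_symm_apply, LinearMap.zero_apply] at h3
  rw [LinearMap.zero_apply]
  exact ρ₁.asModuleEquiv.symm.injective (h3.trans (map_zero _).symm)

/-- **THE ALGEBRA OF (I3)**: see the header. -/
theorem m59epa_new {K : Type*} [Field K] [IsAlgClosed K] [Algebra 𝒪 K]
    (hK : Function.Injective (algebraMap 𝒪 K)) [Module.Finite 𝒪 P₀]
    (ρ₀ : Representation 𝒪 Δ P₀) (ρ₁ : Representation 𝒪 Δ P₁) (v₁ : ι₁ → P₁)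
    (b₁ : Module.Basis (Δ × ι₁) 𝒪 P₁) (hb₁ : ∀ δ i, b₁ (δ, i) = ρ₁ δ (v₁ i))
    (ψ₀ : T →ₐ[𝒪] Module.End 𝒪 P₀) (ψ₁ : T →ₐ[𝒪] Module.End 𝒪 P₁)
    (comm₁ : ∀ x δ m, ψ₁ x (ρ₁ δ m) = ρ₁ δ (ψ₁ x m))
    (A B : P₀ →ₗ[𝒪] P₁) (At Bt : P₁ →ₗ[𝒪] P₀)
    (hA : ∀ δ m, A (ρ₀ δ m) = ρ₁ δ (A m)) (hB : ∀ δ m, B (ρ₀ δ m) = ρ₁ δ (B m))
    (A_hecke : ∀ x m, ψ₁ x (A m) = A (ψ₀ x m)) (B_hecke : ∀ x m, ψ₁ x (B m) = B (ψ₀ x m))
    (At_hecke : ∀ x m, At (ψ₁ x m) = ψ₀ x (At m)) (Bt_hecke : ∀ x m, Bt (ψ₁ x m) = ψ₀ x (Bt m))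
    (split : ∃ r : P₁ →ₗ[𝒪] P₀ × P₀,
      (∀ (δ : Δ) (m : P₁), r (ρ₁ δ m) = (ρ₀ δ (r m).1, ρ₀ δ (r m).2)) ∧
      ∀ x y : P₀, r (A x + B y) = (x, y))
    (X : T)
    (hnew : ∀ (χ : T →ₐ[𝒪] K) (v : K ⊗[𝒪] P₁), v ≠ 0 →
      (∀ x, (ψ₁ x).baseChange K v = χ x • v) → At.baseChange K v = 0 → Bt.baseChange K v = 0 →
      χ X = 0) :
    ∀ m : P₁, ∃ x y : P₀, ψ₁ (X ^ Fintype.card ι₁) m = A x + B y := by
  classical
  obtain ⟨r, hr1, hr2⟩ := split
  haveI : Module.Finite 𝒪 P₁ := Module.Finite.of_basis b₁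
  haveI : Module.Free 𝒪 P₁ := Module.Free.of_basis b₁
  haveI : FaithfulSMul 𝒪 K := (faithfulSMul_iff_algebraMap_injective 𝒪 K).2 hK
  -- the maps over `𝒪`
  let i : P₀ × P₀ →ₗ[𝒪] P₁ := A.coprod B
  have hi : ∀ z : P₀ × P₀, i z = A z.1 + B z.2 := fun z => LinearMap.coprod_apply A B z
  have hri : r ∘ₗ i = LinearMap.id := by
    refine LinearMap.ext fun z => ?_
    rw [LinearMap.comp_apply, hi, hr2, LinearMap.id_apply]
  let π : Module.End 𝒪 P₁ := LinearMap.id - i ∘ₗ r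
  let F : Module.End 𝒪 P₁ := ψ₁ X
  let G : Module.End 𝒪 (P₀ × P₀) := (ψ₀ X).prodMap (ψ₀ X)
  have hFi' : ∀ z, F (i z) = i (G z) := by
    intro z
    rw [hi, hi, map_add]
    change ψ₁ X (A z.1) + ψ₁ X (B z.2) = A (ψ₀ X z.1) + B (ψ₀ X z.2)
    rw [A_hecke, B_hecke]
  have hFi : F ∘ₗ i = i ∘ₗ G := LinearMap.ext hFi'
  have hπ : ∀ m, π m = m - i (r m) := fun m => rfl
  have hπi' : ∀ z, π (i z) = 0 := by
    intro z
    have h1 : r (i z) = z := LinearMap.congr_fun hri z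
    rw [hπ, h1, sub_self]
  have hπi : π ∘ₗ i = 0 := LinearMap.ext hπi'
  have hπFπ : ∀ m, π (F (π m)) = π (F m) := by
    intro m
    rw [hπ m, map_sub, hFi', map_sub, hπi', sub_zero]
  let Y : Module.End 𝒪 P₁ := π ∘ₗ F
  have hY : ∀ m, Y m = π (F m) := fun m => rfl
  have hYpow' : ∀ (n : ℕ) m, (Y ^ (n + 1)) m = π ((F ^ (n + 1)) m) := by
    intro n
    induction n with
    | zero => intro m; rw [zero_add, pow_one, pow_one, hY]
    | succ n ih =>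
      intro m
      rw [pow_succ' Y, Module.End.mul_apply, ih, hY, hπFπ, pow_succ' F (n + 1),
        Module.End.mul_apply]
  have hYpow : ∀ n : ℕ, Y ^ (n + 1) = π ∘ₗ F ^ (n + 1) := fun n =>
    LinearMap.ext (hYpow' n)
  have hYeq : ∀ δ m, Y (ρ₁ δ m) = ρ₁ δ (Y m) := by
    intro δ m
    have hπeq : ∀ m', π (ρ₁ δ m') = ρ₁ δ (π m') := by
      intro m'
      change ρ₁ δ m' - i (r (ρ₁ δ m')) = ρ₁ δ (m' - i (r m'))
      rw [hr1, hi, hA, hB, ← map_add, ← hi, map_sub]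
    change π (ψ₁ X (ρ₁ δ m)) = ρ₁ δ (π (ψ₁ X m))
    rw [comm₁, hπeq]
  -- over `K`
  let φ : T →+* Module.End K (K ⊗[𝒪] P₁) :=
    ((Module.End.baseChangeHom 𝒪 K P₁ : Module.End 𝒪 P₁ →ₐ[𝒪] _) : Module.End 𝒪 P₁ →+* _).comp
      (ψ₁ : T →+* Module.End 𝒪 P₁)
  have hφ : ∀ x, φ x = (ψ₁ x).baseChange K := fun x => rfl
  have hφ𝒪 : ∀ (a : 𝒪) (w : K ⊗[𝒪] P₁), φ (algebraMap 𝒪 T a) w = algebraMap 𝒪 K a • w := by
    intro a w
    rw [hφ, AlgHom.commutes, Algebra.algebraMap_eq_smul_one, LinearMap.baseChange_smul,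
      LinearMap.baseChange_one, LinearMap.smul_apply, Module.End.one_apply, algebraMap_smul]
  let iK : K ⊗[𝒪] (P₀ × P₀) →ₗ[K] K ⊗[𝒪] P₁ := i.baseChange K
  let i'K : K ⊗[𝒪] P₁ →ₗ[K] K ⊗[𝒪] (P₀ × P₀) := (At.prod Bt).baseChange K
  have hiK : Function.Injective iK := by
    have h1 : r.baseChange K ∘ₗ iK = LinearMap.id := by
      rw [← LinearMap.baseChange_comp, hri, LinearMap.baseChange_id]
    exact Function.HasLeftInverse.injective ⟨r.baseChange K, LinearMap.congr_fun h1⟩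
  have hif : ∀ u, iK (G.baseChange K u) = F.baseChange K (iK u) := by
    intro u
    have h1 : iK ∘ₗ G.baseChange K = F.baseChange K ∘ₗ iK := by
      rw [← LinearMap.baseChange_comp, ← LinearMap.baseChange_comp, hFi]
    exact LinearMap.congr_fun h1 u
  have hi'x : ∀ (x : T) w, i'K ((ψ₁ x).baseChange K w) =
      (((ψ₀ x).prodMap (ψ₀ x)).baseChange K) (i'K w) := by
    intro x w
    have h0 : (At.prod Bt) ∘ₗ (ψ₁ x) = ((ψ₀ x).prodMap (ψ₀ x)) ∘ₗ (At.prod Bt) := by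
      refine LinearMap.ext fun m => ?_
      change (At (ψ₁ x m), Bt (ψ₁ x m)) = (ψ₀ x (At m), ψ₀ x (Bt m))
      rw [At_hecke, Bt_hecke]
    have h1 : i'K ∘ₗ (ψ₁ x).baseChange K =
        (((ψ₀ x).prodMap (ψ₀ x)).baseChange K) ∘ₗ i'K := by
      rw [← LinearMap.baseChange_comp, ← LinearMap.baseChange_comp, h0]
    exact LinearMap.congr_fun h1 w
  have hAtK : ∀ w, i'K w = 0 → At.baseChange K w = 0 ∧ Bt.baseChange K w = 0 := by
    intro w hw
    have h1 : At.baseChange K = (LinearMap.fst 𝒪 P₀ P₀).baseChange K ∘ₗ i'K := by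
      rw [← LinearMap.baseChange_comp, LinearMap.fst_prod]
    have h2 : Bt.baseChange K = (LinearMap.snd 𝒪 P₀ P₀).baseChange K ∘ₗ i'K := by
      rw [← LinearMap.baseChange_comp, LinearMap.snd_prod]
    rw [h1, h2, LinearMap.comp_apply, LinearMap.comp_apply, hw, map_zero, map_zero]
    exact ⟨rfl, rfl⟩
  have hnilW := m59epa_nil_on φ (LinearMap.ker i'K) (by
      intro x w hw
      rw [LinearMap.mem_ker] at hw ⊢
      rw [hφ, hi'x, hw, map_zero]) X (by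
      intro v hv hv0 hv1
      rw [LinearMap.mem_ker] at hv
      obtain ⟨χ, hχ⟩ := m59epa_eigenchar (𝒪 := 𝒪) φ hφ𝒪 v hv0 hv1
      have h0 := hnew χ v hv0 (fun x => hχ x) (hAtK v hv).1 (hAtK v hv).2
      rw [hχ, h0, zero_smul])
  have hfit := m59epa_fitting (F.baseChange K) (G.baseChange K) iK i'K hiK hif
    (fun v => hi'x X v) (finrank K (K ⊗[𝒪] P₁)) (fun w hw => hnilW w hw)
  -- `Y` is nilpotent
  have hYnil : IsNilpotent Y := by
    refine ⟨finrank K (K ⊗[𝒪] P₁) + 1, ?_⟩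
    have h1 : (Y ^ (finrank K (K ⊗[𝒪] P₁) + 1)).baseChange K = 0 := by
      rw [hYpow, LinearMap.baseChange_comp, LinearMap.baseChange_pow]
      refine LinearMap.ext fun v => ?_
      rw [LinearMap.comp_apply, pow_succ, Module.End.mul_apply, LinearMap.zero_apply]
      obtain ⟨u, hu⟩ := hfit (F.baseChange K v)
      rw [← hu]
      have h2 : π.baseChange K ∘ₗ iK = 0 := by
        rw [← LinearMap.baseChange_comp, hπi, LinearMap.baseChange_zero]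
      exact LinearMap.congr_fun h2 u
    refine LinearMap.ext fun m => ?_
    have h2 := LinearMap.congr_fun h1 ((1 : K) ⊗ₜ[𝒪] m)
    rw [LinearMap.baseChange_tmul, LinearMap.zero_apply] at h2
    rw [LinearMap.zero_apply]
    apply Module.Flat.tensorProduct_mk_injective 𝒪 P₁ K
    rw [TensorProduct.mk_apply, h2, map_zero]
  have hY0 := m59epa_pow_rank ρ₁ v₁ b₁ hb₁ Y hYeq hYnil
  -- conclusion
  intro m
  rcases Nat.eq_zero_or_pos (Fintype.card ι₁) with h0 | hpos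
  · haveI : IsEmpty ι₁ := Fintype.card_eq_zero_iff.1 h0
    have hsub : ∀ m' : P₁, m' = 0 := fun m' => b₁.repr.injective (Subsingleton.elim _ _)
    exact ⟨0, 0, (hsub _).trans (by rw [map_zero, map_zero, add_zero])⟩
  · obtain ⟨n, hn⟩ : ∃ n, Fintype.card ι₁ = n + 1 := ⟨Fintype.card ι₁ - 1, by omega⟩
    rw [hn, hYpow] at hY0
    have h1 := LinearMap.congr_fun hY0 m
    rw [LinearMap.zero_apply] at h1
    change (F ^ (n + 1)) m - i (r ((F ^ (n + 1)) m)) = 0 at h1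
    rw [sub_eq_zero, hi] at h1
    refine ⟨(r ((F ^ (n + 1)) m)).1, (r ((F ^ (n + 1)) m)).2, ?_⟩
    rw [hn, map_pow]
    exact h1

end new

end

end Fermat.Agent.M59
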