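/-
Project M59 (S59), block [E'] (architect helper3), cell [EP-ASM], tag `m59eps_`.

The P-LEVEL INTERFACE of one step of the chain: for two level data `D₀ : twe_mk_LevelData B₀ p Q`,
`D₁ : twe_mk_LevelData B₁ p Q` (main's smart-constructor input, `TW/Aut/SeamMk.lean`), the structure
`m59eps_StepData D₀ D₁ l` carries the four operators and the three properties (I1), (I2), (I3) in the
language of the fields `P`, `ψ`, `ρ` of the data (no `asModule`, no `MonoidAlgebra`), and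
`m59eps_StepData.toStep` converts it into `m59ep_Step D₀.toLevel D₁.toLevel l` (pure plumbing).
-/
import Mathlib
import Fermat.Agent.TW.Aut.SeamMk
import Fermat.Agent.M59.EP.Seams

set_option autoImplicit false
set_option linter.unusedSectionVars false

namespace Fermat.Agent.M59

open Polynomial CuspForm IsLocalRing Fermat.Agent.JT3 Fermat.Agent.TW

noncomputable section

variable {𝒪 : Type} [CommRing 𝒪] [IsDomain 𝒪] [IsDiscreteValuationRing 𝒪]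
  [IsAdicComplete (maximalIdeal 𝒪) 𝒪]
  {N₀ N₁ : ℕ} [NeZero N₀] [NeZero N₁] {S₀ S₁ : Finset ℕ}
  {θ₀ : heckeAlgebra N₀ 2 (↑S₀ : Set ℕ) →+* ResidueField 𝒪}
  {θ₁ : heckeAlgebra N₁ 2 (↑S₁ : Set ℕ) →+* ResidueField 𝒪}
  {B₀ : twe_Base 𝒪 N₀ S₀ θ₀} {B₁ : twe_Base 𝒪 N₁ S₁ θ₁} {p : ℕ} {Q : Finset ℕ}
  [NeZero (twe_Nbal N₀ Q ∅)] [NeZero (twe_Nbal N₁ Q ∅)]

/-- **one step of the chain at the level of the data** (`P`, `ψ`, `ρ`): the fields of `m59ep_Step`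
before the passage to `ρ.asModule`. -/
structure m59eps_StepData (D₀ : twe_mk_LevelData B₀ p Q) (D₁ : twe_mk_LevelData B₁ p Q)
    (l : ℕ) : Type where
  πT : D₁.B'.T →ₐ[𝒪] D₀.B'.T
  πT_T : ∀ (q : ℕ) (hq : q.Prime) (h1 : ¬ q ∣ twe_Nbal N₁ Q ∅) (h2 : q ∉ (↑(S₁ ∪ Q) : Set ℕ))
    (h3 : ¬ q ∣ twe_Nbal N₀ Q ∅) (h4 : q ∉ (↑(S₀ ∪ Q) : Set ℕ)),
    πT (D₁.B'.H.π (heckeAlgebra.T hq h1 h2)) = D₀.B'.H.π (heckeAlgebra.T hq h3 h4)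
  A : D₀.P →ₗ[𝒪] D₁.P
  B : D₀.P →ₗ[𝒪] D₁.P
  At : D₁.P →ₗ[𝒪] D₀.P
  Bt : D₁.P →ₗ[𝒪] D₀.P
  A_dia : ∀ (δ : twe_Delta p Q) (m : D₀.P), A (D₀.ρ δ m) = D₁.ρ δ (A m)
  B_dia : ∀ (δ : twe_Delta p Q) (m : D₀.P), B (D₀.ρ δ m) = D₁.ρ δ (B m)
  At_dia : ∀ (δ : twe_Delta p Q) (m : D₁.P), At (D₁.ρ δ m) = D₀.ρ δ (At m)
  Bt_dia : ∀ (δ : twe_Delta p Q) (m : D₁.P), Bt (D₁.ρ δ m) = D₀.ρ δ (Bt m)
  A_hecke : ∀ (x : D₁.B'.T) (m : D₀.P), D₁.ψ x (A m) = A (D₀.ψ (πT x) m)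
  B_hecke : ∀ (x : D₁.B'.T) (m : D₀.P), D₁.ψ x (B m) = B (D₀.ψ (πT x) m)
  At_hecke : ∀ (x : D₁.B'.T) (m : D₁.P), At (D₁.ψ x m) = D₀.ψ (πT x) (At m)
  Bt_hecke : ∀ (x : D₁.B'.T) (m : D₁.P), Bt (D₁.ψ x m) = D₀.ψ (πT x) (Bt m)
  At_A : ∀ m : D₀.P, At (A m) = ((l : 𝒪) + 1) • m
  Bt_B : ∀ m : D₀.P, Bt (B m) = ((l : 𝒪) + 1) • m
  At_B : ∀ (hl : l.Prime) (h1 : ¬ l ∣ twe_Nbal N₀ Q ∅) (h2 : l ∉ (↑(S₀ ∪ Q) : Set ℕ)) (m : D₀.P),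
    At (B m) = D₀.ψ (D₀.B'.H.π (heckeAlgebra.T hl h1 h2)) m
  Bt_A : ∀ (hl : l.Prime) (h1 : ¬ l ∣ twe_Nbal N₀ Q ∅) (h2 : l ∉ (↑(S₀ ∪ Q) : Set ℕ)) (m : D₀.P),
    Bt (A m) = D₀.ψ (D₀.B'.H.π (heckeAlgebra.T hl h1 h2)) m
  /-- (I1) -/
  split : ∃ r : D₁.P →ₗ[𝒪] D₀.P × D₀.P,
    (∀ (δ : twe_Delta p Q) (m : D₁.P), r (D₁.ρ δ m) = (D₀.ρ δ (r m).1, D₀.ρ δ (r m).2)) ∧
    ∀ x y : D₀.P, r (A x + B y) = (x, y)
  /-- (I2) -/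
  onto : ∀ x y : D₀.P, ∃ m : D₁.P, At m = x ∧ Bt m = y
  /-- (I3) -/
  new : ∀ P : ValuationSubring (AlgebraicClosure ℚ), P.LiesOverPrime l →
    ∀ σ : AlgebraicClosure ℚ ≃ₐ[ℚ] AlgebraicClosure ℚ, P.IsFrobeniusAt σ l →
    ∀ m : D₁.P, ∃ x y : D₀.P,
      D₁.ψ (((D₁.B'.H.ρ.trace σ) ^ 2 - ((l : D₁.B'.T) + 1) ^ 2) ^ (B₁.d * 2 ^ Q.card)) m =
        A x + B y

variable {D₀ : twe_mk_LevelData B₀ p Q} {D₁ : twe_mk_LevelData B₁ p Q} {l : ℕ}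

/-- transport of an `𝒪`-linear map between the `P`'s to the `asModule`'s. -/
def m59eps_lift {P₀ P₁ : Type*} [AddCommGroup P₀] [Module 𝒪 P₀] [AddCommGroup P₁] [Module 𝒪 P₁]
    {Δ : Type*} [Monoid Δ] (ρ₀ : Representation 𝒪 Δ P₀) (ρ₁ : Representation 𝒪 Δ P₁)
    (f : P₀ →ₗ[𝒪] P₁) : ρ₀.asModule →ₗ[𝒪] ρ₁.asModule :=
  (ρ₁.asModuleEquiv.symm : P₁ →ₗ[𝒪] ρ₁.asModule).comp
    (f.comp (ρ₀.asModuleEquiv : ρ₀.asModule →ₗ[𝒪] P₀))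

theorem m59eps_lift_apply {P₀ P₁ : Type*} [AddCommGroup P₀] [Module 𝒪 P₀] [AddCommGroup P₁]
    [Module 𝒪 P₁] {Δ : Type*} [Monoid Δ] (ρ₀ : Representation 𝒪 Δ P₀)
    (ρ₁ : Representation 𝒪 Δ P₁) (f : P₀ →ₗ[𝒪] P₁) (m : ρ₀.asModule) :
    m59eps_lift ρ₀ ρ₁ f m = ρ₁.asModuleEquiv.symm (f (ρ₀.asModuleEquiv m)) := rfl

theorem m59eps_lift_dia {P₀ P₁ : Type*} [AddCommGroup P₀] [Module 𝒪 P₀] [AddCommGroup P₁]
    [Module 𝒪 P₁] {Δ : Type*} [Monoid Δ] (ρ₀ : Representation 𝒪 Δ P₀)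
    (ρ₁ : Representation 𝒪 Δ P₁) (f : P₀ →ₗ[𝒪] P₁)
    (hf : ∀ δ m, f (ρ₀ δ m) = ρ₁ δ (f m)) (δ : Δ) (m : ρ₀.asModule) :
    m59eps_lift ρ₀ ρ₁ f (MonoidAlgebra.of 𝒪 Δ δ • m) =
      MonoidAlgebra.of 𝒪 Δ δ • m59eps_lift ρ₀ ρ₁ f m := by
  apply ρ₁.asModuleEquiv.injective
  rw [m59eps_lift_apply, LinearEquiv.apply_symm_apply, twe_fm_of_smul, twe_fm_of_smul, hf,
    m59eps_lift_apply, LinearEquiv.apply_symm_apply]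

/-- the `𝒪`-scalar action on `asModule` through the equivalence. -/
theorem m59eps_smul_symm {P₀ : Type*} [AddCommGroup P₀] [Module 𝒪 P₀] {Δ : Type*} [Monoid Δ]
    (ρ₀ : Representation 𝒪 Δ P₀) (c : 𝒪) (x : P₀) :
    ρ₀.asModuleEquiv.symm (c • x) = c • ρ₀.asModuleEquiv.symm x :=
  map_smul _ c x

/-- (I1) in the `asModule` language. -/
theorem m59eps_split_aux {P₀ P₁ : Type*} [AddCommGroup P₀] [Module 𝒪 P₀] [AddCommGroup P₁]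
    [Module 𝒪 P₁] {Δ : Type*} [Monoid Δ] (ρ₀ : Representation 𝒪 Δ P₀)
    (ρ₁ : Representation 𝒪 Δ P₁) (A B : P₀ →ₗ[𝒪] P₁) (r : P₁ →ₗ[𝒪] P₀ × P₀)
    (hr1 : ∀ (δ : Δ) (m : P₁), r (ρ₁ δ m) = (ρ₀ δ (r m).1, ρ₀ δ (r m).2))
    (hr2 : ∀ x y : P₀, r (A x + B y) = (x, y)) :
    ∃ r' : ρ₁.asModule →ₗ[𝒪] ρ₀.asModule × ρ₀.asModule,
      (∀ (δ : Δ) (m : ρ₁.asModule), r' (MonoidAlgebra.of 𝒪 Δ δ • m) =
        (MonoidAlgebra.of 𝒪 Δ δ • (r' m).1, MonoidAlgebra.of 𝒪 Δ δ • (r' m).2)) ∧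
      ∀ x y : ρ₀.asModule, r' (m59eps_lift ρ₀ ρ₁ A x + m59eps_lift ρ₀ ρ₁ B y) = (x, y) := by
  refine ⟨((ρ₀.asModuleEquiv.symm : P₀ →ₗ[𝒪] ρ₀.asModule).prodMap
      (ρ₀.asModuleEquiv.symm : P₀ →ₗ[𝒪] ρ₀.asModule)).comp
      (r.comp (ρ₁.asModuleEquiv : ρ₁.asModule →ₗ[𝒪] P₁)), ?_, ?_⟩
  · intro δ m
    change (ρ₀.asModuleEquiv.symm (r (ρ₁.asModuleEquiv (MonoidAlgebra.of 𝒪 Δ δ • m))).1,
        ρ₀.asModuleEquiv.symm (r (ρ₁.asModuleEquiv (MonoidAlgebra.of 𝒪 Δ δ • m))).2) =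
      (MonoidAlgebra.of 𝒪 Δ δ • ρ₀.asModuleEquiv.symm (r (ρ₁.asModuleEquiv m)).1,
        MonoidAlgebra.of 𝒪 Δ δ • ρ₀.asModuleEquiv.symm (r (ρ₁.asModuleEquiv m)).2)
    rw [twe_fm_of_smul, hr1]
    refine Prod.ext ?_ ?_
    · apply ρ₀.asModuleEquiv.injective
      rw [LinearEquiv.apply_symm_apply, twe_fm_of_smul, LinearEquiv.apply_symm_apply]
    · apply ρ₀.asModuleEquiv.injective
      rw [LinearEquiv.apply_symm_apply, twe_fm_of_smul, LinearEquiv.apply_symm_apply]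
  · intro x y
    change (ρ₀.asModuleEquiv.symm (r (ρ₁.asModuleEquiv
        (ρ₁.asModuleEquiv.symm (A (ρ₀.asModuleEquiv x)) +
          ρ₁.asModuleEquiv.symm (B (ρ₀.asModuleEquiv y))))).1,
      ρ₀.asModuleEquiv.symm (r (ρ₁.asModuleEquiv
        (ρ₁.asModuleEquiv.symm (A (ρ₀.asModuleEquiv x)) +
          ρ₁.asModuleEquiv.symm (B (ρ₀.asModuleEquiv y))))).2) = _
    rw [map_add, LinearEquiv.apply_symm_apply, LinearEquiv.apply_symm_apply, hr2,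
      LinearEquiv.symm_apply_apply, LinearEquiv.symm_apply_apply]

/-- **[EP-ASM], the converter**: the step of the chain between the levels built from the data. -/
def m59eps_StepData.toStep (X : m59eps_StepData D₀ D₁ l) :
    m59ep_Step D₀.toLevel D₁.toLevel l where
  πT := X.πT
  πT_T := X.πT_T
  A := m59eps_lift D₀.ρ D₁.ρ X.A
  B := m59eps_lift D₀.ρ D₁.ρ X.B
  At := m59eps_lift D₁.ρ D₀.ρ X.At
  Bt := m59eps_lift D₁.ρ D₀.ρ X.Bt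
  A_dia := m59eps_lift_dia D₀.ρ D₁.ρ X.A X.A_dia
  B_dia := m59eps_lift_dia D₀.ρ D₁.ρ X.B X.B_dia
  At_dia := m59eps_lift_dia D₁.ρ D₀.ρ X.At X.At_dia
  Bt_dia := m59eps_lift_dia D₁.ρ D₀.ρ X.Bt X.Bt_dia
  A_hecke := fun x m => by
    rw [twe_mk_toLevel_smul, twe_mk_toLevel_smul]
    change D₁.ρ.asModuleEquiv.symm (D₁.ψ x (D₁.ρ.asModuleEquiv
        (D₁.ρ.asModuleEquiv.symm (X.A (D₀.ρ.asModuleEquiv m))))) =
      D₁.ρ.asModuleEquiv.symm (X.A (D₀.ρ.asModuleEquiv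
        (D₀.ρ.asModuleEquiv.symm (D₀.ψ (X.πT x) (D₀.ρ.asModuleEquiv m)))))
    rw [LinearEquiv.apply_symm_apply, LinearEquiv.apply_symm_apply, X.A_hecke]
  B_hecke := fun x m => by
    rw [twe_mk_toLevel_smul, twe_mk_toLevel_smul]
    change D₁.ρ.asModuleEquiv.symm (D₁.ψ x (D₁.ρ.asModuleEquiv
        (D₁.ρ.asModuleEquiv.symm (X.B (D₀.ρ.asModuleEquiv m))))) =
      D₁.ρ.asModuleEquiv.symm (X.B (D₀.ρ.asModuleEquiv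
        (D₀.ρ.asModuleEquiv.symm (D₀.ψ (X.πT x) (D₀.ρ.asModuleEquiv m)))))
    rw [LinearEquiv.apply_symm_apply, LinearEquiv.apply_symm_apply, X.B_hecke]
  At_hecke := fun x m => by
    rw [twe_mk_toLevel_smul, twe_mk_toLevel_smul]
    change D₀.ρ.asModuleEquiv.symm (X.At (D₁.ρ.asModuleEquiv
        (D₁.ρ.asModuleEquiv.symm (D₁.ψ x (D₁.ρ.asModuleEquiv m))))) =
      D₀.ρ.asModuleEquiv.symm (D₀.ψ (X.πT x) (D₀.ρ.asModuleEquiv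
        (D₀.ρ.asModuleEquiv.symm (X.At (D₁.ρ.asModuleEquiv m)))))
    rw [LinearEquiv.apply_symm_apply, LinearEquiv.apply_symm_apply, X.At_hecke]
  Bt_hecke := fun x m => by
    rw [twe_mk_toLevel_smul, twe_mk_toLevel_smul]
    change D₀.ρ.asModuleEquiv.symm (X.Bt (D₁.ρ.asModuleEquiv
        (D₁.ρ.asModuleEquiv.symm (D₁.ψ x (D₁.ρ.asModuleEquiv m))))) =
      D₀.ρ.asModuleEquiv.symm (D₀.ψ (X.πT x) (D₀.ρ.asModuleEquiv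
        (D₀.ρ.asModuleEquiv.symm (X.Bt (D₁.ρ.asModuleEquiv m)))))
    rw [LinearEquiv.apply_symm_apply, LinearEquiv.apply_symm_apply, X.Bt_hecke]
  At_A := fun m => by
    change D₀.ρ.asModuleEquiv.symm (X.At (D₁.ρ.asModuleEquiv
        (D₁.ρ.asModuleEquiv.symm (X.A (D₀.ρ.asModuleEquiv m))))) = _
    rw [LinearEquiv.apply_symm_apply, X.At_A, m59eps_smul_symm, LinearEquiv.symm_apply_apply]
    rfl
  Bt_B := fun m => by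
    change D₀.ρ.asModuleEquiv.symm (X.Bt (D₁.ρ.asModuleEquiv
        (D₁.ρ.asModuleEquiv.symm (X.B (D₀.ρ.asModuleEquiv m))))) = _
    rw [LinearEquiv.apply_symm_apply, X.Bt_B, m59eps_smul_symm, LinearEquiv.symm_apply_apply]
    rfl
  At_B := fun hl h1 h2 m => by
    rw [twe_mk_toLevel_smul]
    change D₀.ρ.asModuleEquiv.symm (X.At (D₁.ρ.asModuleEquiv
        (D₁.ρ.asModuleEquiv.symm (X.B (D₀.ρ.asModuleEquiv m))))) = _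
    rw [LinearEquiv.apply_symm_apply, X.At_B hl h1 h2]
    rfl
  Bt_A := fun hl h1 h2 m => by
    rw [twe_mk_toLevel_smul]
    change D₀.ρ.asModuleEquiv.symm (X.Bt (D₁.ρ.asModuleEquiv
        (D₁.ρ.asModuleEquiv.symm (X.A (D₀.ρ.asModuleEquiv m))))) = _
    rw [LinearEquiv.apply_symm_apply, X.Bt_A hl h1 h2]
    rfl
  split := by
    obtain ⟨r, hr1, hr2⟩ := X.split
    exact m59eps_split_aux D₀.ρ D₁.ρ X.A X.B r hr1 hr2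
  onto := fun x y => by
    obtain ⟨m, h1, h2⟩ := X.onto (D₀.ρ.asModuleEquiv x) (D₀.ρ.asModuleEquiv y)
    refine ⟨D₁.ρ.asModuleEquiv.symm m, ?_, ?_⟩
    · change D₀.ρ.asModuleEquiv.symm (X.At (D₁.ρ.asModuleEquiv (D₁.ρ.asModuleEquiv.symm m))) = _
      rw [LinearEquiv.apply_symm_apply, h1, LinearEquiv.symm_apply_apply]
    · change D₀.ρ.asModuleEquiv.symm (X.Bt (D₁.ρ.asModuleEquiv (D₁.ρ.asModuleEquiv.symm m))) = _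
      rw [LinearEquiv.apply_symm_apply, h2, LinearEquiv.symm_apply_apply]
  new := fun P hP σ hσ m => by
    obtain ⟨x, y, h⟩ := X.new P hP σ hσ (D₁.ρ.asModuleEquiv m)
    refine ⟨D₀.ρ.asModuleEquiv.symm x, D₀.ρ.asModuleEquiv.symm y, ?_⟩
    rw [twe_mk_toLevel_smul]
    change D₁.ρ.asModuleEquiv.symm _ =
      D₁.ρ.asModuleEquiv.symm (X.A (D₀.ρ.asModuleEquiv (D₀.ρ.asModuleEquiv.symm x))) +
        D₁.ρ.asModuleEquiv.symm (X.B (D₀.ρ.asModuleEquiv (D₀.ρ.asModuleEquiv.symm y)))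
    rw [LinearEquiv.apply_symm_apply, LinearEquiv.apply_symm_apply, ← map_add, ← h]
    rfl

end

end Fermat.Agent.M59
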