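import Mathlib
import Fermat.Agent.LR.MTX.Transfer

/-!
# M59 / block [E'] / cell [EP-OPS], part 0 (helper8): THE ABSTRACT CALCULUS  (prefix `m59epo_abs_`)

Everything here is about an abstract `lrt_Data G X` (right action of `G` on a finite set `X` with a
`G`-valued cocycle; `LR/MTX/Transfer.lean`).  No modular groups.

* §1 `m59epo_abs_ev_conj`, `m59epo_abs_cor_indep` : characters are blind to inner automorphisms; the
  transfer `lrt_cor` does not depend on the representatives;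
* §2 THE FOUR RELATIONS.  Two base points `x₁` ("`∞`") and `x₀` ("`0`"), and a homomorphism
  `ψ : Stab(x₀) → Stab(x₁)` which is the cocycle at `x₀` (`hψ`), such that the cocycle at `x₁` of the
  cocycle at `x₀` is an inner automorphism of `G` (`hw`).  With
  `A = res`, `B = (coc x₁)^*` : `Hom(G) → Hom(Stab x₁)` and
  `At = cor_{x₁}`, `Bt = cor_{x₀} ∘ ψ^*` : `Hom(Stab x₁) → Hom(G)`:
  `At A = Bt B = |X|`, `At B = Bt A = T` (`m59epo_abs_At_A`, `…_At_B`, `…_Bt_A`, `…_Bt_B`);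
* §3 THE TRANSFER COMMUTES WITH A SECOND COCYCLE OPERATOR (`m59epo_abs_cor_T`): `E` a second datum
  on `G` (set `Y`), `E₁` its restriction to `Stab(x₀)`, and (K): `E.coc y g ∈ Stab(x₀) → g ∈ Stab(x₀)`;
  then `T_E ∘ cor = cor ∘ T_{E₁}`.
-/

set_option autoImplicit false

noncomputable section

namespace Fermat.Agent.M59

open Fermat.Agent.LR

/-! ### §1 Generalities -/

section gen

variable {G : Type*} {X : Type*} {A : Type*} [Group G] [AddCommGroup A]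

/-- characters do not see inner automorphisms. -/
theorem m59epo_abs_ev_conj (χ : Additive G →+ A) (w g : G) :
    lrt_ev χ (w * g * w⁻¹) = lrt_ev χ g := by
  rw [lrt_ev_mul, lrt_ev_mul, lrt_ev_inv]
  abel

variable (D : lrt_Data G X) (x₀ : X)

/-- the transfer does not depend on the representatives. -/
theorem m59epo_abs_cor_indep [Fintype X] (r r' : X → G) (hr : ∀ x, D.act (r x) x₀ = x)
    (hr' : ∀ x, D.act (r' x) x₀ = x) (φ : Additive (lrt_stab D x₀) →+ A) :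
    lrt_cor D x₀ r hr φ = lrt_cor D x₀ r' hr' φ := by
  refine lrt_ext fun g => ?_
  rw [lrt_cor_ev, lrt_cor_ev]
  -- `h x = r' x * (r x)⁻¹ ∈ Stab`
  have hmem : ∀ x, r' x * (r x)⁻¹ ∈ lrt_stab D x₀ := by
    intro x
    show D.act (r' x * (r x)⁻¹) x₀ = x₀
    rw [D.act_mul, hr']
    have h := lrt_act_inv D (r x) x₀
    rwa [hr] at h
  have key : ∀ x, lrt_ev φ (lrt_a D x₀ r' hr' x g) =
      lrt_ev φ (⟨_, hmem x⟩ : lrt_stab D x₀) + lrt_ev φ (lrt_a D x₀ r hr x g) -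
        lrt_ev φ (⟨_, hmem (D.act g x)⟩ : lrt_stab D x₀) := by
    intro x
    have h1 : lrt_a D x₀ r' hr' x g * (⟨_, hmem (D.act g x)⟩ : lrt_stab D x₀) =
        (⟨_, hmem x⟩ : lrt_stab D x₀) * lrt_a D x₀ r hr x g := by
      apply Subtype.ext
      rw [Subgroup.coe_mul, Subgroup.coe_mul, lrt_a_coe, lrt_a_coe]
      show r' x * g * (r' (D.act g x))⁻¹ * (r' (D.act g x) * (r (D.act g x))⁻¹) =
        r' x * (r x)⁻¹ * (r x * g * (r (D.act g x))⁻¹)
      group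
    have h2 := congrArg (lrt_ev φ) h1
    rw [lrt_ev_mul, lrt_ev_mul] at h2
    rw [← h2]
    abel
  rw [Finset.sum_congr rfl fun x _ => key x, Finset.sum_sub_distrib, Finset.sum_add_distrib]
  have h3 : ∑ x : X, lrt_ev φ (⟨_, hmem (D.act g x)⟩ : lrt_stab D x₀) =
      ∑ x : X, lrt_ev φ (⟨_, hmem x⟩ : lrt_stab D x₀) :=
    Equiv.sum_comp (lrt_perm D g) fun x => lrt_ev φ (⟨_, hmem x⟩ : lrt_stab D x₀)
  rw [h3]
  abel

end gen

/-! ### §2 The four relations -/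

section rel

variable {G : Type*} {X : Type*} {A : Type*} [Group G] [AddCommGroup A] [Fintype X]
variable (D : lrt_Data G X) (x₁ x₀ : X) (r₁ r₀ : X → G)
  (hr₁ : ∀ x, D.act (r₁ x) x₁ = x) (hr₀ : ∀ x, D.act (r₀ x) x₀ = x)
  (ψ : lrt_stab D x₀ →* lrt_stab D x₁)

/-- `A = res` to the stabiliser of `x₁`. -/
def m59epo_abs_A : (Additive G →+ A) →+ (Additive (lrt_stab D x₁) →+ A) where
  toFun χ := χ.comp (MonoidHom.toAdditive (lrt_stab D x₁).subtype)
  map_zero' := rfl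
  map_add' _ _ := rfl

/-- `B = (coc x₁)^*`. -/
def m59epo_abs_B : (Additive G →+ A) →+ (Additive (lrt_stab D x₁) →+ A) where
  toFun χ := χ.comp (MonoidHom.toAdditive (lrt_beta D x₁))
  map_zero' := rfl
  map_add' _ _ := rfl

/-- `At = cor` from the stabiliser of `x₁`. -/
def m59epo_abs_At : (Additive (lrt_stab D x₁) →+ A) →+ (Additive G →+ A) :=
  lrt_cor D x₁ r₁ hr₁

/-- `Bt = cor_{x₀} ∘ ψ^*`. -/
def m59epo_abs_Bt : (Additive (lrt_stab D x₁) →+ A) →+ (Additive G →+ A) :=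
  (lrt_cor D x₀ r₀ hr₀).comp
    { toFun := fun φ => φ.comp (MonoidHom.toAdditive ψ)
      map_zero' := rfl
      map_add' := fun _ _ => rfl }

omit [Fintype X] in
theorem m59epo_abs_A_ev (χ : Additive G →+ A) (γ : lrt_stab D x₁) :
    lrt_ev (m59epo_abs_A D x₁ χ) γ = lrt_ev χ (γ : G) := rfl

omit [Fintype X] in
theorem m59epo_abs_B_ev (χ : Additive G →+ A) (γ : lrt_stab D x₁) :
    lrt_ev (m59epo_abs_B D x₁ χ) γ = lrt_ev χ (D.coc x₁ (γ : G)) := rfl

theorem m59epo_abs_Bt_eq (φ : Additive (lrt_stab D x₁) →+ A) :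
    m59epo_abs_Bt D x₁ x₀ r₀ hr₀ ψ φ =
      lrt_cor D x₀ r₀ hr₀ (φ.comp (MonoidHom.toAdditive ψ)) := rfl

/-- **`At ∘ A = |X|`**. -/
theorem m59epo_abs_At_A (χ : Additive G →+ A) :
    m59epo_abs_At D x₁ r₁ hr₁ (m59epo_abs_A D x₁ χ) = Fintype.card X • χ :=
  lrt_cor_res D x₁ r₁ hr₁ χ

/-- **`At ∘ B = T`**. -/
theorem m59epo_abs_At_B (χ : Additive G →+ A) :
    m59epo_abs_At D x₁ r₁ hr₁ (m59epo_abs_B D x₁ χ) = lrt_T D χ :=
  (lrt_T_eq_cor D x₁ r₁ hr₁ χ).symm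

variable (hψ : ∀ γ : lrt_stab D x₀, ((ψ γ : lrt_stab D x₁) : G) = D.coc x₀ (γ : G))

include hψ in
/-- **`Bt ∘ A = T`**. -/
theorem m59epo_abs_Bt_A (χ : Additive G →+ A) :
    m59epo_abs_Bt D x₁ x₀ r₀ hr₀ ψ (m59epo_abs_A D x₁ χ) = lrt_T D χ := by
  rw [m59epo_abs_Bt_eq, lrt_T_eq_cor D x₀ r₀ hr₀ χ]
  congr 1
  refine lrt_ext fun γ => ?_
  show lrt_ev χ ((ψ γ : lrt_stab D x₁) : G) = lrt_ev χ (D.coc x₀ (γ : G))
  rw [hψ]

include hψ in
/-- **`Bt ∘ B = |X|`**, when `coc x₁ ∘ coc x₀` is inner on `Stab(x₀)`. -/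
theorem m59epo_abs_Bt_B (w : G)
    (hw : ∀ γ : lrt_stab D x₀, D.coc x₁ (D.coc x₀ (γ : G)) = w * (γ : G) * w⁻¹)
    (χ : Additive G →+ A) :
    m59epo_abs_Bt D x₁ x₀ r₀ hr₀ ψ (m59epo_abs_B D x₁ χ) = Fintype.card X • χ := by
  rw [m59epo_abs_Bt_eq, ← lrt_cor_res D x₀ r₀ hr₀ χ]
  congr 1
  refine lrt_ext fun γ => ?_
  show lrt_ev χ (D.coc x₁ ((ψ γ : lrt_stab D x₁) : G)) = lrt_ev χ (γ : G)
  rw [hψ, hw, m59epo_abs_ev_conj]

end rel

/-! ### §3 The transfer commutes with a second cocycle operator -/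

section corT

variable {G : Type*} {X Y : Type*} {A : Type*} [Group G] [AddCommGroup A]
variable (D : lrt_Data G X) (x₀ : X) (r : X → G) (hr : ∀ x, D.act (r x) x₀ = x)
variable (E : lrt_Data G Y) (E₁ : lrt_Data (lrt_stab D x₀) Y)
  (hcoc : ∀ (y : Y) (s : lrt_stab D x₀), ((E₁.coc y s : lrt_stab D x₀) : G) = E.coc y (s : G))
  (hK : ∀ (y : Y) (g : G), E.coc y g ∈ lrt_stab D x₀ → g ∈ lrt_stab D x₀)

/-- `ω(x, y) = x₀ ⋆ c_y(r_x)`. -/
def m59epo_abs_om (z : X × Y) : X := D.act (E.coc z.2 (r z.1)) x₀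

include hr in
theorem m59epo_abs_h_mem (z : X × Y) :
    E.coc z.2 (r z.1) * (r (m59epo_abs_om D x₀ r E z))⁻¹ ∈ lrt_stab D x₀ := by
  show D.act (E.coc z.2 (r z.1) * (r (m59epo_abs_om D x₀ r E z))⁻¹) x₀ = x₀
  rw [D.act_mul]
  have h := lrt_act_inv D (r (m59epo_abs_om D x₀ r E z)) x₀
  rw [hr] at h
  exact h

/-- `h(x, y) = c_y(r_x) · r_{ω(x,y)}⁻¹ ∈ Stab(x₀)`. -/
def m59epo_abs_h (z : X × Y) : lrt_stab D x₀ :=
  ⟨E.coc z.2 (r z.1) * (r (m59epo_abs_om D x₀ r E z))⁻¹, m59epo_abs_h_mem D x₀ r hr E z⟩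

/-- the matching `Ω(x, y) = (ω(x, y), y ⋆ r_x)`. -/
def m59epo_abs_Om (z : X × Y) : X × Y := (m59epo_abs_om D x₀ r E z, E.act (r z.1) z.2)

include hr hK in
theorem m59epo_abs_Om_injective : Function.Injective (m59epo_abs_Om D x₀ r E) := by
  rintro ⟨x, y⟩ ⟨x₂, y₂⟩ h
  have h1 : D.act (E.coc y (r x)) x₀ = D.act (E.coc y₂ (r x₂)) x₀ := congrArg Prod.fst h
  have h2 : E.act (r x) y = E.act (r x₂) y₂ := congrArg Prod.snd h
  set t : G := r x₂ * (r x)⁻¹ with ht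
  have hty : E.act t y₂ = y := by
    rw [ht, E.act_mul, ← h2]
    exact lrt_act_inv E (r x) y
  have hc : E.coc y₂ (r x₂) = E.coc y₂ t * E.coc y (r x) := by
    have : r x₂ = t * r x := by rw [ht, inv_mul_cancel_right]
    rw [this, E.coc_mul, hty]
  rw [hc, D.act_mul] at h1
  have h3 : D.act (E.coc y₂ t) x₀ = x₀ :=
    ((lrt_perm D (E.coc y (r x))).injective h1).symm
  have h4 : t ∈ lrt_stab D x₀ := hK y₂ t h3
  have h5 : D.act (r x)⁻¹ x₂ = x₀ := by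
    have : D.act t x₀ = x₀ := h4
    rwa [ht, D.act_mul, hr] at this
  have hx : x₂ = x := by
    have := congrArg (D.act (r x)) h5
    rwa [lrt_act_inv' D (r x) x₂, hr] at this
  subst hx
  have hy : y = y₂ := (lrt_perm E (r x₂)).injective h2
  rw [hy]

include hcoc in
/-- the cocycle identity behind the commutation. -/
theorem m59epo_abs_key (x : X) (y : Y) (g : G) :
    m59epo_abs_om D x₀ r E (D.act g x, E.act (lrt_a D x₀ r hr x g : G) y) =
        D.act (E.coc (E.act (r x) y) g) (m59epo_abs_om D x₀ r E (x, y)) ∧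
    E₁.coc y (lrt_a D x₀ r hr x g) *
        m59epo_abs_h D x₀ r hr E (D.act g x, E.act (lrt_a D x₀ r hr x g : G) y) =
      m59epo_abs_h D x₀ r hr E (x, y) *
        lrt_a D x₀ r hr (m59epo_abs_om D x₀ r E (x, y)) (E.coc (E.act (r x) y) g) := by
  set a := lrt_a D x₀ r hr x g with ha
  have hmul : (a : G) * r (D.act g x) = r x * g := by
    rw [ha, lrt_a_coe, inv_mul_cancel_right]
  have hsplit : E.coc y (a : G) * E.coc (E.act (a : G) y) (r (D.act g x)) =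
      E.coc y (r x) * E.coc (E.act (r x) y) g := by
    rw [← E.coc_mul, ← E.coc_mul, hmul]
  have hstab : D.act (E.coc y (a : G)) x₀ = x₀ := by
    rw [← hcoc y a]
    exact (E₁.coc y a).2
  have hom : m59epo_abs_om D x₀ r E (D.act g x, E.act (a : G) y) =
      D.act (E.coc (E.act (r x) y) g) (m59epo_abs_om D x₀ r E (x, y)) := by
    show D.act (E.coc (E.act (a : G) y) (r (D.act g x))) x₀ =
      D.act (E.coc (E.act (r x) y) g) (D.act (E.coc y (r x)) x₀)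
    rw [← D.act_mul, ← hsplit, D.act_mul, hstab]
  refine ⟨hom, ?_⟩
  apply Subtype.ext
  rw [Subgroup.coe_mul, Subgroup.coe_mul, hcoc, lrt_a_coe]
  show E.coc y (a : G) * (E.coc (E.act (a : G) y) (r (D.act g x)) *
      (r (m59epo_abs_om D x₀ r E (D.act g x, E.act (a : G) y)))⁻¹) =
    E.coc y (r x) * (r (m59epo_abs_om D x₀ r E (x, y)))⁻¹ *
      (r (m59epo_abs_om D x₀ r E (x, y)) * E.coc (E.act (r x) y) g *
        (r (D.act (E.coc (E.act (r x) y) g) (m59epo_abs_om D x₀ r E (x, y))))⁻¹)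
  rw [hom, ← mul_assoc, hsplit]
  group

variable [Fintype X] [Fintype Y]

include hcoc hK in
/-- **the transfer commutes with the cocycle operator of a second datum** which restricts to the
stabiliser and satisfies (K). -/
theorem m59epo_abs_cor_T (φ : Additive (lrt_stab D x₀) →+ A) :
    lrt_T E (lrt_cor D x₀ r hr φ) = lrt_cor D x₀ r hr (lrt_T E₁ φ) := by
  classical
  refine lrt_ext fun g => ?_
  have hL : lrt_ev (lrt_T E (lrt_cor D x₀ r hr φ)) g =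
      ∑ z : X × Y, lrt_ev φ (lrt_a D x₀ r hr z.1 (E.coc z.2 g)) := by
    rw [lrt_T_ev, Fintype.sum_prod_type, Finset.sum_comm]
    refine Finset.sum_congr rfl fun y _ => ?_
    rw [lrt_cor_ev]
  have hR : lrt_ev (lrt_cor D x₀ r hr (lrt_T E₁ φ)) g =
      ∑ z : X × Y, lrt_ev φ (E₁.coc z.2 (lrt_a D x₀ r hr z.1 g)) := by
    rw [lrt_cor_ev, Fintype.sum_prod_type]
    refine Finset.sum_congr rfl fun x _ => ?_
    rw [lrt_T_ev]
  rw [hL, hR]
  -- the shear `(x, y) ↦ (x ⋆ g, y ⋆ a(x, g))`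
  set S : X × Y ≃ X × Y := Equiv.prodShear (lrt_perm D g)
    (fun x => lrt_perm E (lrt_a D x₀ r hr x g : G)) with hS
  have hSz : ∀ z : X × Y, S z = (D.act g z.1, E.act (lrt_a D x₀ r hr z.1 g : G) z.2) :=
    fun z => rfl
  -- the matching
  have hΩ : Function.Bijective (m59epo_abs_Om D x₀ r E) := by
    rw [Fintype.bijective_iff_injective_and_card]
    exact ⟨m59epo_abs_Om_injective D x₀ r hr E hK, rfl⟩
  have hterm : ∀ z : X × Y, lrt_ev φ (E₁.coc z.2 (lrt_a D x₀ r hr z.1 g)) =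
      lrt_ev φ (m59epo_abs_h D x₀ r hr E z) +
        lrt_ev φ (lrt_a D x₀ r hr (m59epo_abs_Om D x₀ r E z).1
          (E.coc (m59epo_abs_Om D x₀ r E z).2 g)) -
        lrt_ev φ (m59epo_abs_h D x₀ r hr E (S z)) := by
    rintro ⟨x, y⟩
    have h := congrArg (lrt_ev φ) (m59epo_abs_key D x₀ r hr E E₁ hcoc x y g).2
    rw [lrt_ev_mul, lrt_ev_mul] at h
    rw [hSz]
    show _ = lrt_ev φ (m59epo_abs_h D x₀ r hr E (x, y)) +
      lrt_ev φ (lrt_a D x₀ r hr (m59epo_abs_om D x₀ r E (x, y)) (E.coc (E.act (r x) y) g)) -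
      lrt_ev φ (m59epo_abs_h D x₀ r hr E (D.act g x, E.act (lrt_a D x₀ r hr x g : G) y))
    rw [← h]
    abel
  rw [Finset.sum_congr rfl fun z _ => hterm z, Finset.sum_sub_distrib, Finset.sum_add_distrib,
    Equiv.sum_comp S fun z => lrt_ev φ (m59epo_abs_h D x₀ r hr E z)]
  have h4 : ∑ z : X × Y, lrt_ev φ (lrt_a D x₀ r hr (m59epo_abs_Om D x₀ r E z).1
      (E.coc (m59epo_abs_Om D x₀ r E z).2 g)) =
      ∑ z : X × Y, lrt_ev φ (lrt_a D x₀ r hr z.1 (E.coc z.2 g)) :=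
    (Equiv.ofBijective _ hΩ).sum_comp fun z => lrt_ev φ (lrt_a D x₀ r hr z.1 (E.coc z.2 g))
  rw [h4]
  abel

end corT

end Fermat.Agent.M59
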