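import Mathlib
import Fermat.Agent.LR.MTX.Level

/-!
# M59 / block [E'] / cell [EP-OPS], part 0 (helper3): the four level-raising maps of a cocycle datum (file renamed from OpsAbs.lean, which is now the abstract calculus of helper8)
(prefix `m59epo_`)

ABSTRACT.  `D : lrt_Data G X` (right action of `G` on the finite set `X`, `G`-valued cocycle), two
base points `x₀`, `x₁` with representatives, a homomorphism `ω : Stab(x₁) → Stab(x₀)` lifting
`β₁ = coc x₁` (`incl ∘ ω = β₁`) and an element `h ∈ G` with `β₀ ∘ ω = Ad h` on `Stab(x₁)`.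
On additive characters:

* `m59epo_a  = res : Hom(G) → Hom(Stab x₀)`,   `m59epo_b  = β₀^* : Hom(G) → Hom(Stab x₀)`,
* `m59epo_at = cor₀ : Hom(Stab x₀) → Hom(G)`,  `m59epo_bt = cor₁ ∘ ω^* : Hom(Stab x₀) → Hom(G)`,

and `at a = bt b = |X|`, `at b = bt a = T` (`lrt_T D`).  This is `LR/MTX/Level.lean`
(`lrm_corA_resA … lrm_corB_resB`) with the level structure abstracted away.
-/

set_option autoImplicit false

noncomputable section

namespace Fermat.Agent.M59

open Fermat.Agent.LR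

/-- the extra data on a cocycle datum from which the four maps are built. -/
structure m59epo_Pair {G X : Type*} [Group G] (D : lrt_Data G X) where
  x0 : X
  x1 : X
  r0 : X → G
  hr0 : ∀ x, D.act (r0 x) x0 = x
  r1 : X → G
  hr1 : ∀ x, D.act (r1 x) x1 = x
  /-- `ω : Stab(x₁) → Stab(x₀)` -/
  om : lrt_stab D x1 →* lrt_stab D x0
  /-- `incl ∘ ω = β₁` -/
  hom : ∀ g : lrt_stab D x1, ((om g : lrt_stab D x0) : G) = D.coc x1 (g : G)
  h : G
  /-- `β₀ ∘ ω = Ad h` -/
  hh : ∀ g : lrt_stab D x1, D.coc x0 ((om g : lrt_stab D x0) : G) = h * (g : G) * h⁻¹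

variable {G X : Type*} [Group G] [Fintype X] {D : lrt_Data G X} {A : Type*} [AddCommGroup A]

/-- `a = res` -/
def m59epo_a (P : m59epo_Pair D) : (Additive G →+ A) →+ (Additive (lrt_stab D P.x0) →+ A) :=
  lrm_pull (lrt_stab D P.x0).subtype

/-- `b = β₀^*` -/
def m59epo_b (P : m59epo_Pair D) : (Additive G →+ A) →+ (Additive (lrt_stab D P.x0) →+ A) :=
  lrm_pull (lrt_beta D P.x0)

/-- `at = cor₀` -/
def m59epo_at (P : m59epo_Pair D) : (Additive (lrt_stab D P.x0) →+ A) →+ (Additive G →+ A) :=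
  lrt_cor D P.x0 P.r0 P.hr0

/-- `bt = cor₁ ∘ ω^*` -/
def m59epo_bt (P : m59epo_Pair D) : (Additive (lrt_stab D P.x0) →+ A) →+ (Additive G →+ A) :=
  (lrt_cor D P.x1 P.r1 P.hr1).comp (lrm_pull P.om)

theorem m59epo_a_ev (P : m59epo_Pair D) (χ : Additive G →+ A) (g : lrt_stab D P.x0) :
    lrt_ev (m59epo_a P χ) g = lrt_ev χ (g : G) := rfl

theorem m59epo_b_ev (P : m59epo_Pair D) (χ : Additive G →+ A) (g : lrt_stab D P.x0) :
    lrt_ev (m59epo_b P χ) g = lrt_ev χ (D.coc P.x0 (g : G)) := rfl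

/-- `at a = |X|` -/
theorem m59epo_at_a (P : m59epo_Pair D) (χ : Additive G →+ A) :
    m59epo_at P (m59epo_a P χ) = Fintype.card X • χ :=
  lrt_cor_res D P.x0 P.r0 P.hr0 χ

/-- `at b = T` -/
theorem m59epo_at_b (P : m59epo_Pair D) (χ : Additive G →+ A) :
    m59epo_at P (m59epo_b P χ) = lrt_T D χ :=
  (lrt_T_eq_cor D P.x0 P.r0 P.hr0 χ).symm

/-- `bt a = T` -/
theorem m59epo_bt_a (P : m59epo_Pair D) (χ : Additive G →+ A) :
    m59epo_bt P (m59epo_a P χ) = lrt_T D χ := by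
  have h : lrm_pull P.om (m59epo_a P χ) =
      χ.comp (MonoidHom.toAdditive (lrt_beta D P.x1)) := by
    refine lrt_ext fun g => ?_
    show lrt_ev χ ((P.om g : lrt_stab D P.x0) : G) = lrt_ev χ (D.coc P.x1 (g : G))
    rw [P.hom]
  rw [m59epo_bt, AddMonoidHom.comp_apply, h, ← lrt_T_eq_cor]

/-- `bt b = |X|` -/
theorem m59epo_bt_b (P : m59epo_Pair D) (χ : Additive G →+ A) :
    m59epo_bt P (m59epo_b P χ) = Fintype.card X • χ := by
  have h : lrm_pull P.om (m59epo_b P χ) =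
      χ.comp (MonoidHom.toAdditive (lrt_stab D P.x1).subtype) := by
    refine lrt_ext fun g => ?_
    show lrt_ev χ (D.coc P.x0 ((P.om g : lrt_stab D P.x0) : G)) = lrt_ev χ (g : G)
    rw [P.hh, lrt_ev_mul, lrt_ev_mul, lrt_ev_inv]
    abel
  rw [m59epo_bt, AddMonoidHom.comp_apply, h, lrt_cor_res]

end Fermat.Agent.M59
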