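import Mathlib
import Fermat.Agent.M59.EP.OpsPair
import Fermat.Agent.TW.Aut.HeckeComm

/-!
# M59 / block [E'] / cell [EP-OPS], part 1 (helper3): the group theory at the level `Γ_H`
(prefix `m59epo_`)

`l ∤ M` prime, `H ≤ (ℤ/M)ˣ`, `H' = H.comap ((ℤ/Ml)ˣ → (ℤ/M)ˣ)`, `s ∈ Γ₀(M)` with `d(s)² ≡ l` modulo
`H` and `s ≡ 1` modulo `l` (`twe_hc_Nice`), `D = twe_hk_data hlM H s hs` the Hecke datum at `l` on
`Γ_H = twe_GamH M H`.

* `m59epo_Hl`, `m59epo_mem_GamHl` : `Γ_{H'}(Ml) = Γ_H(M) ∩ Γ₀(l)`;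
* `m59epo_toStab`, `m59epo_ofStab` : `Γ_{H'}(Ml) ≃ Stab_D(∞)`;
* `m59epo_exists_rep_infty`, `m59epo_exists_rep_zero` : `Γ_H(M)` is transitive on `ℙ¹(𝔽_l)`
  (representatives with `d ≡ 1` modulo `M`);
* `m59epo_pair` : the `m59epo_Pair` of `OpsPair.lean` (base points `∞`, `0`).
-/

set_option autoImplicit false
set_option linter.unusedSectionVars false

noncomputable section

open CongruenceSubgroup Matrix.SpecialLinearGroup
open P2MW.S_ModularForm_heckeT_slash_eq_self_of_mem_Gamma0.ModularForm.HeckeSlashInvariance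
open scoped MatrixGroups OnePoint

namespace Fermat.Agent.M59

open Fermat.Agent.JT3 Fermat.Agent.LR Fermat.Agent.TW

/-- `H' = ` the preimage of `H` in `(ℤ/Ml)ˣ`. -/
def m59epo_Hl (M l : ℕ) (H : Subgroup (ZMod M)ˣ) : Subgroup (ZMod (M * l))ˣ :=
  H.comap (ZMod.unitsMap (dvd_mul_right M l))

section mem

variable {M l : ℕ} [Fact l.Prime]

theorem m59epo_unitsMap_dUnit (γ : SL(2, ℤ)) (h1 : γ ∈ Gamma0 (M * l)) (h0 : γ ∈ Gamma0 M) :
    ZMod.unitsMap (dvd_mul_right M l) (twe_dUnit (M * l) ⟨γ, h1⟩) = twe_dUnit M ⟨γ, h0⟩ := by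
  apply Units.ext
  rw [ZMod.unitsMap_def, Units.coe_map, twe_dUnit_coe, twe_dUnit_coe]
  simp

/-- `Γ_{H'}(Ml) = Γ_H(M) ∩ Γ₀(l)`. -/
theorem m59epo_mem_GamHl (hlM : ¬ l ∣ M) (H : Subgroup (ZMod M)ˣ) (γ : SL(2, ℤ)) :
    γ ∈ twe_GamH (M * l) (m59epo_Hl M l H) ↔ γ ∈ twe_GamH M H ∧ (l : ℤ) ∣ γ 1 0 := by
  constructor
  · intro hγ
    obtain ⟨h1, h2⟩ := twe_mem_GamH.mp hγ
    have h0 : γ ∈ Gamma0 M := lrm_le M l h1
    refine ⟨twe_mem_GamH.mpr ⟨h0, ?_⟩, lrm_dvd_q M ⟨γ, h1⟩⟩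
    rw [← m59epo_unitsMap_dUnit γ h1 h0]
    exact h2
  · rintro ⟨hγ, hl⟩
    obtain ⟨h0, h2⟩ := twe_mem_GamH.mp hγ
    have h1 : γ ∈ Gamma0 (M * l) := lrm_mem_of_dvd_dvd hlM (t2c_dvd_of_mem h0) hl
    refine twe_mem_GamH.mpr ⟨h1, ?_⟩
    show ZMod.unitsMap (dvd_mul_right M l) (twe_dUnit (M * l) ⟨γ, h1⟩) ∈ H
    rw [m59epo_unitsMap_dUnit γ h1 h0]
    exact h2

theorem m59epo_GamHl_le (hlM : ¬ l ∣ M) (H : Subgroup (ZMod M)ˣ) :
    twe_GamH (M * l) (m59epo_Hl M l H) ≤ twe_GamH M H :=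
  fun γ hγ => ((m59epo_mem_GamHl hlM H γ).mp hγ).1

/-- an element of `SL(2, ℤ)` with `M ∣ c` and `d ≡ 1` modulo `M` lies in `Γ_H(M)`. -/
theorem m59epo_mem_of_d_one (H : Subgroup (ZMod M)ˣ) (γ : SL(2, ℤ)) (hc : (M : ℤ) ∣ γ 1 0)
    (hd : ((γ 1 1 : ℤ) : ZMod M) = 1) : γ ∈ twe_GamH M H := by
  have h0 : γ ∈ Gamma0 M := t2c_mem_of_dvd hc
  refine twe_mem_GamH.mpr ⟨h0, ?_⟩
  have : twe_dUnit M ⟨γ, h0⟩ = 1 := by
    apply Units.ext
    rw [twe_dUnit_coe]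
    exact hd
  rw [this]
  exact one_mem H

/-- `Γ_H(M)` is transitive on `ℙ¹(𝔽_l)`: representatives for the base point `∞`. -/
theorem m59epo_exists_rep_infty (hlM : ¬ l ∣ M) (H : Subgroup (ZMod M)ˣ) (x : OnePoint (ZMod l)) :
    ∃ γ : ↥(twe_GamH M H), t2c_act (γ : SL(2, ℤ)) (∞ : OnePoint (ZMod l)) = x := by
  induction x using OnePoint.rec with
  | infty => exact ⟨1, by rw [Subgroup.coe_one, t2c_act_one]⟩
  | coe j =>
    have hN : ((M : ℕ) : ZMod l) ≠ 0 := by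
      rw [Ne, ZMod.natCast_eq_zero_iff]
      exact hlM
    set c' : ℤ := (((M : ZMod l)⁻¹).val : ℤ) with hc'
    have hc1 : (((M : ℤ) * c' : ℤ) : ZMod l) = 1 := by
      rw [hc']
      push_cast
      rw [ZMod.natCast_zmod_val, mul_inv_cancel₀ hN]
    set t : ℤ := (j.val : ℤ) - 1 with ht
    have htj : ((t : ℤ) : ZMod l) = j - 1 := by
      rw [ht]
      push_cast
      rw [ZMod.natCast_zmod_val]
    let g : SL(2, ℤ) := ⟨!![1, t; (M : ℤ) * c', 1 + (M : ℤ) * c' * t], by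
      rw [Matrix.det_fin_two_of]; ring⟩
    have hg : g ∈ twe_GamH M H := by
      refine m59epo_mem_of_d_one H g ?_ ?_
      · show (M : ℤ) ∣ (M : ℤ) * c'
        exact dvd_mul_right _ _
      · show (((1 + (M : ℤ) * c' * t : ℤ)) : ZMod M) = 1
        push_cast
        simp
    refine ⟨⟨g, hg⟩, ?_⟩
    show t2c_act g (∞ : OnePoint (ZMod l)) = (j : OnePoint (ZMod l))
    rw [t2c_act, OnePoint.smul_infty_eq_ite, redMatrix_apply_one_zero, redMatrix_apply_zero_zero]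
    have h10 : ((g 1 0 : ℤ) : ZMod l) = 1 := hc1
    have h11 : ((g 1 1 : ℤ) : ZMod l) = j := by
      show (((1 + (M : ℤ) * c' * t : ℤ)) : ZMod l) = j
      have : ((1 + (M : ℤ) * c' * t : ℤ) : ZMod l) =
          1 + (((M : ℤ) * c' : ℤ) : ZMod l) * (t : ZMod l) := by
        push_cast; ring
      rw [this, hc1, htj]
      ring
    rw [h10, h11, if_neg one_ne_zero, div_one]

/-- `Γ_H(M)` is transitive on `ℙ¹(𝔽_l)`: representatives for the base point `0`. -/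
theorem m59epo_exists_rep_zero (hlM : ¬ l ∣ M) (H : Subgroup (ZMod M)ˣ) (x : OnePoint (ZMod l)) :
    ∃ γ : ↥(twe_GamH M H),
      t2c_act (γ : SL(2, ℤ)) ((0 : ZMod l) : OnePoint (ZMod l)) = x := by
  induction x using OnePoint.rec with
  | infty =>
    have hN : ((M : ℕ) : ZMod l) ≠ 0 := by
      rw [Ne, ZMod.natCast_eq_zero_iff]
      exact hlM
    -- `e` with `1 + M e ≡ 0` modulo `l`
    set e : ℤ := -(((M : ZMod l)⁻¹).val : ℤ) with he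
    have he1 : (((1 + (M : ℤ) * e : ℤ)) : ZMod l) = 0 := by
      rw [he]
      push_cast
      rw [ZMod.natCast_zmod_val, mul_neg, mul_inv_cancel₀ hN]
      ring
    let g : SL(2, ℤ) := ⟨!![1 + (M : ℤ) * e, e; (M : ℤ), 1], by
      rw [Matrix.det_fin_two_of]; ring⟩
    have hg : g ∈ twe_GamH M H := by
      refine m59epo_mem_of_d_one H g ?_ ?_
      · show (M : ℤ) ∣ (M : ℤ)
        exact dvd_refl _
      · show (((1 : ℤ)) : ZMod M) = 1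
        simp
    refine ⟨⟨g, hg⟩, ?_⟩
    show t2c_act g ((0 : ZMod l) : OnePoint (ZMod l)) = ∞
    rw [t2c_act, OnePoint.smul_some_eq_ite, redMatrix_apply_one_zero, redMatrix_apply_one_one,
      mul_zero, zero_add]
    have h00 : ((g 0 0 : ℤ) : ZMod l) = 0 := he1
    rw [if_pos h00]
  | coe j =>
    let g : SL(2, ℤ) := ⟨!![1, (j.val : ℤ); 0, 1], by
      rw [Matrix.det_fin_two_of]; ring⟩
    have hg : g ∈ twe_GamH M H := by
      refine m59epo_mem_of_d_one H g ?_ ?_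
      · show (M : ℤ) ∣ (0 : ℤ)
        exact dvd_zero _
      · show (((1 : ℤ)) : ZMod M) = 1
        simp
    refine ⟨⟨g, hg⟩, ?_⟩
    show t2c_act g ((0 : ZMod l) : OnePoint (ZMod l)) = (j : OnePoint (ZMod l))
    rw [t2c_act, OnePoint.smul_some_eq_ite, redMatrix_apply_one_zero, redMatrix_apply_one_one,
      redMatrix_apply_zero_zero, redMatrix_apply_zero_one, mul_zero, zero_add, mul_zero, zero_add]
    have h00 : ((g 0 0 : ℤ) : ZMod l) = 1 := by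
      show (((1 : ℤ)) : ZMod l) = 1
      simp
    have h01 : ((g 0 1 : ℤ) : ZMod l) = j := by
      show ((((j.val : ℤ))) : ZMod l) = j
      push_cast
      rw [ZMod.natCast_zmod_val]
    rw [h00, h01, if_neg one_ne_zero, div_one]

end mem

section pair

variable {M l : ℕ} [Fact l.Prime] (hlM : ¬ l ∣ M) (H : Subgroup (ZMod M)ˣ) (s : Gamma0 M)
  (hs : twe_dUnit M s * twe_dUnit M s * (twe_hk_lU hlM)⁻¹ ∈ H)

/-- chosen representatives for the base point `∞`. -/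
def m59epo_r0 (x : OnePoint (ZMod l)) : ↥(twe_GamH M H) :=
  (m59epo_exists_rep_infty hlM H x).choose

theorem m59epo_r0_spec (x : OnePoint (ZMod l)) :
    (twe_hk_data hlM H s hs).act (m59epo_r0 hlM H x) ∞ = x :=
  (m59epo_exists_rep_infty hlM H x).choose_spec

/-- chosen representatives for the base point `0`. -/
def m59epo_r1 (x : OnePoint (ZMod l)) : ↥(twe_GamH M H) :=
  (m59epo_exists_rep_zero hlM H x).choose

theorem m59epo_r1_spec (x : OnePoint (ZMod l)) :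
    (twe_hk_data hlM H s hs).act (m59epo_r1 hlM H x) ((0 : ZMod l) : OnePoint (ZMod l)) = x :=
  (m59epo_exists_rep_zero hlM H x).choose_spec

/-- for nice `s` the corrected cocycle acts on `ℙ¹(𝔽_l)` as the plain one. -/
theorem m59epo_act_coc (hnice : twe_hc_Nice l (s : SL(2, ℤ))) (x y : OnePoint (ZMod l))
    (γ : Gamma0 M) :
    t2c_act ((twe_hk_coc hlM s x γ : Gamma0 M) : SL(2, ℤ)) y =
      t2c_act ((t2c_coc hlM x γ : Gamma0 M) : SL(2, ℤ)) y := by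
  unfold twe_hk_coc
  rw [Subgroup.coe_mul, Subgroup.coe_mul, Subgroup.coe_inv, t2c_act_mul, t2c_act_mul,
    twe_hc_nice_act (twe_hc_nice_inv (twe_hc_nice_sx hnice x)),
    twe_hc_nice_act (twe_hc_nice_sx hnice _)]

/-- the plain cocycle at `0` of an element fixing `0` fixes `∞`. -/
theorem m59epo_coc_zero_fix (γ : Gamma0 M)
    (hγ : t2c_act (γ : SL(2, ℤ)) ((0 : ZMod l) : OnePoint (ZMod l)) =
      ((0 : ZMod l) : OnePoint (ZMod l))) :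
    t2c_act ((t2c_coc hlM ((0 : ZMod l) : OnePoint (ZMod l)) γ : Gamma0 M) : SL(2, ℤ))
      (∞ : OnePoint (ZMod l)) = ∞ := by
  rw [lrm_act_infty]
  have h := t2c_coc_spec hlM ((0 : ZMod l) : OnePoint (ZMod l)) γ
  rw [hγ] at h
  rw [(lrm_entries_zero h).2.2.1]
  exact dvd_mul_right _ _

/-- `ω : Stab(0) → Stab(∞)`, the corrected cocycle at `0`. -/
def m59epo_om (hnice : twe_hc_Nice l (s : SL(2, ℤ))) :
    lrt_stab (twe_hk_data hlM H s hs) ((0 : ZMod l) : OnePoint (ZMod l)) →*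
      lrt_stab (twe_hk_data hlM H s hs) (∞ : OnePoint (ZMod l)) :=
  (lrt_beta (twe_hk_data hlM H s hs) ((0 : ZMod l) : OnePoint (ZMod l))).codRestrict _ fun g => by
    show t2c_act ((twe_hk_coc hlM s ((0 : ZMod l) : OnePoint (ZMod l))
      (twe_hk_up H (g : ↥(twe_GamH M H))) : Gamma0 M) : SL(2, ℤ)) (∞ : OnePoint (ZMod l)) = ∞
    rw [m59epo_act_coc hlM s hnice]
    exact m59epo_coc_zero_fix hlM _ g.2

/-- `c_∞` is multiplicative on the elements fixing `∞`. -/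
theorem m59epo_coc_inf_mul (γ γ' : Gamma0 M)
    (hγ : t2c_act (γ : SL(2, ℤ)) (∞ : OnePoint (ZMod l)) = ∞) :
    t2c_coc hlM (∞ : OnePoint (ZMod l)) (γ * γ') =
      t2c_coc hlM (∞ : OnePoint (ZMod l)) γ * t2c_coc hlM (∞ : OnePoint (ZMod l)) γ' := by
  rw [t2c_coc_mul, hγ]

theorem m59epo_coc_inf_inv (γ : Gamma0 M)
    (hγ : t2c_act (γ : SL(2, ℤ)) (∞ : OnePoint (ZMod l)) = ∞) :
    t2c_coc hlM (∞ : OnePoint (ZMod l)) γ⁻¹ = (t2c_coc hlM (∞ : OnePoint (ZMod l)) γ)⁻¹ := by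
  have h := t2c_coc_mul hlM (∞ : OnePoint (ZMod l)) γ γ⁻¹
  rw [mul_inv_cancel, t2c_coc_one, hγ] at h
  exact eq_inv_of_mul_eq_one_right h.symm

/-- `c_∞ (c_0 γ) = γ` for `γ` fixing `0`. -/
theorem m59epo_coc_inf_zero (γ : Gamma0 M)
    (hγ : t2c_act (γ : SL(2, ℤ)) ((0 : ZMod l) : OnePoint (ZMod l)) =
      ((0 : ZMod l) : OnePoint (ZMod l))) :
    t2c_coc hlM (∞ : OnePoint (ZMod l))
      (t2c_coc hlM ((0 : ZMod l) : OnePoint (ZMod l)) γ) = γ := by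
  have h := lrm_beta_gamZero hlM ⟨γ, hγ⟩
  have e : lrm_incl M l (lrm_gamZero hlM ⟨γ, hγ⟩) =
      t2c_coc hlM ((0 : ZMod l) : OnePoint (ZMod l)) γ := Subtype.ext rfl
  have h2 : lrm_beta hlM (lrm_gamZero hlM ⟨γ, hγ⟩) =
      t2c_coc hlM (∞ : OnePoint (ZMod l)) (lrm_incl M l (lrm_gamZero hlM ⟨γ, hγ⟩)) := rfl
  rw [← e, ← h2]
  exact h

/-- `h₀ = s · c_∞(s)⁻¹`. -/
def m59epo_h0 : Gamma0 M := s * (t2c_coc hlM (∞ : OnePoint (ZMod l)) s)⁻¹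

theorem m59epo_h0_mem (hnice : twe_hc_Nice l (s : SL(2, ℤ))) :
    ((m59epo_h0 hlM s : Gamma0 M) : SL(2, ℤ)) ∈ twe_GamH M H := by
  refine twe_mem_GamH.mpr ⟨(m59epo_h0 hlM s).2, ?_⟩
  have h1 : (⟨((m59epo_h0 hlM s : Gamma0 M) : SL(2, ℤ)), (m59epo_h0 hlM s).2⟩ : Gamma0 M) =
      m59epo_h0 hlM s := rfl
  rw [h1, m59epo_h0, map_mul, map_inv, twe_hk_dUnit_coc, twe_hc_nice_act hnice,
    mul_comm (twe_hk_eU hlM (∞ : OnePoint (ZMod l))), mul_assoc, mul_inv_cancel, mul_one,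
    mul_inv_cancel]
  exact one_mem H

/-- `h = s · c_∞(s)⁻¹ ∈ Γ_H`. -/
def m59epo_h (hnice : twe_hc_Nice l (s : SL(2, ℤ))) : ↥(twe_GamH M H) :=
  ⟨((m59epo_h0 hlM s : Gamma0 M) : SL(2, ℤ)), m59epo_h0_mem hlM H s hnice⟩

/-- **the key identity** `c'_∞ (c'_0 γ) = h₀ γ h₀⁻¹` for `γ` fixing `0`. -/
theorem m59epo_key (hnice : twe_hc_Nice l (s : SL(2, ℤ))) (γ : Gamma0 M)
    (hγ : t2c_act (γ : SL(2, ℤ)) ((0 : ZMod l) : OnePoint (ZMod l)) =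
      ((0 : ZMod l) : OnePoint (ZMod l))) :
    twe_hk_coc hlM s (∞ : OnePoint (ZMod l))
        (twe_hk_coc hlM s ((0 : ZMod l) : OnePoint (ZMod l)) γ) =
      m59epo_h0 hlM s * γ * (m59epo_h0 hlM s)⁻¹ := by
  have hsI : t2c_act ((s : Gamma0 M) : SL(2, ℤ)) (∞ : OnePoint (ZMod l)) = ∞ :=
    twe_hc_nice_act hnice _
  have hsiI : t2c_act (((s⁻¹ : Gamma0 M) : Gamma0 M) : SL(2, ℤ)) (∞ : OnePoint (ZMod l)) = ∞ := by
    rw [Subgroup.coe_inv]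
    exact twe_hc_nice_act (twe_hc_nice_inv hnice) _
  have hcI := m59epo_coc_zero_fix hlM γ hγ
  have h0 : twe_hk_coc hlM s ((0 : ZMod l) : OnePoint (ZMod l)) γ =
      s⁻¹ * t2c_coc hlM ((0 : ZMod l) : OnePoint (ZMod l)) γ * s := by
    unfold twe_hk_coc
    rw [hγ]
    rfl
  have hfix : t2c_act ((s⁻¹ * t2c_coc hlM ((0 : ZMod l) : OnePoint (ZMod l)) γ * s : Gamma0 M) :
      SL(2, ℤ)) (∞ : OnePoint (ZMod l)) = ∞ := by
    rw [Subgroup.coe_mul, Subgroup.coe_mul, t2c_act_mul, t2c_act_mul, hsiI, hcI, hsI]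
  have hfix2 : t2c_act ((s⁻¹ * t2c_coc hlM ((0 : ZMod l) : OnePoint (ZMod l)) γ : Gamma0 M) :
      SL(2, ℤ)) (∞ : OnePoint (ZMod l)) = ∞ := by
    rw [Subgroup.coe_mul, t2c_act_mul, hsiI, hcI]
  rw [h0]
  unfold twe_hk_coc
  rw [hfix, m59epo_coc_inf_mul hlM _ _ hfix2, m59epo_coc_inf_mul hlM _ _ hsiI,
    m59epo_coc_inf_inv hlM _ hsI, m59epo_coc_inf_zero hlM γ hγ, m59epo_h0]
  show (s⁻¹)⁻¹ * _ * s⁻¹ = _
  group

end pair

end Fermat.Agent.M59
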