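import Mathlib
import Fermat.Agent.M59.EP.OpsGrp
import Fermat.Agent.LR.MTX.Homology
import Fermat.Agent.TW.Aut.WLin

/-!
# M59 / block [E'] / cell [EP-OPS], part 2 (helper3): the four level-raising maps between
`Hom(Γ_H(M), A)` and `Hom(Γ_{H'}(Ml), A)` and their relations (prefix `m59epo_`)

`l ∤ M` prime, `H ≤ (ℤ/M)ˣ`, `H' = m59epo_Hl M l H`, `s ∈ Γ₀(M)` with `d(s)² ≡ l` modulo `H`,
`s ≡ 1` modulo `l`.  With `Γ = twe_GamH M H`, `Γ' = twe_GamH (M * l) H'`:

* `m59epo_A, m59epo_B : Hom(Γ, A) →+ Hom(Γ', A)` (restriction; pull-back along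
  `β' = Ad(s) ∘ Ad(diag(l, 1))`),
* `m59epo_At, m59epo_Bt : Hom(Γ', A) →+ Hom(Γ, A)` (the two transfers),
* `m59epo_At_A`, `m59epo_Bt_B` (`= l + 1`), `m59epo_At_B`, `m59epo_Bt_A` (`= T'_l = twe_hk_T`),
* `m59epo_*_PE` : all four preserve the parabolic-elliptic-killing characters,
* `m59epo_*_comp` : naturality in the coefficients,
* `m59epo_lA … m59epo_lBt` : the `R`-linear maps on `twe_wl_V R A ·` and their relations.
-/

set_option autoImplicit false
set_option linter.unusedSectionVars false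

noncomputable section

open CongruenceSubgroup Matrix.SpecialLinearGroup
open P2MW.S_ModularForm_heckeT_slash_eq_self_of_mem_Gamma0.ModularForm.HeckeSlashInvariance
open scoped MatrixGroups OnePoint

namespace Fermat.Agent.M59

open Fermat.Agent.JT3 Fermat.Agent.LR Fermat.Agent.TW

section ops

variable {M l : ℕ} [Fact l.Prime] (hlM : ¬ l ∣ M) (H : Subgroup (ZMod M)ˣ) (s : Gamma0 M)
  (hs : twe_dUnit M s * twe_dUnit M s * (twe_hk_lU hlM)⁻¹ ∈ H)
  (hnice : twe_hc_Nice l (s : SL(2, ℤ)))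

/-- the pair of base points `∞`, `0` for the Hecke datum at `l` on `Γ_H`. -/
def m59epo_pair : m59epo_Pair (twe_hk_data hlM H s hs) where
  x0 := ∞
  x1 := ((0 : ZMod l) : OnePoint (ZMod l))
  r0 := m59epo_r0 hlM H
  hr0 := m59epo_r0_spec hlM H s hs
  r1 := m59epo_r1 hlM H
  hr1 := m59epo_r1_spec hlM H s hs
  om := m59epo_om hlM H s hs hnice
  hom := fun _ => rfl
  h := m59epo_h hlM H s hnice
  hh := fun g => by
    apply Subtype.ext
    have h := m59epo_key hlM s hnice (twe_hk_up H (g : ↥(twe_GamH M H))) g.2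
    exact congrArg (fun x : Gamma0 M => (x : SL(2, ℤ))) h

/-- `Γ_{H'}(Ml) → Stab(∞)`. -/
def m59epo_toStab :
    ↥(twe_GamH (M * l) (m59epo_Hl M l H)) →*
      lrt_stab (twe_hk_data hlM H s hs) (∞ : OnePoint (ZMod l)) :=
  (Subgroup.inclusion (m59epo_GamHl_le hlM H)).codRestrict _ fun g =>
    (lrm_act_infty _).mpr ((m59epo_mem_GamHl hlM H (g : SL(2, ℤ))).mp g.2).2

/-- `Stab(∞) → Γ_{H'}(Ml)`. -/
def m59epo_ofStab :
    lrt_stab (twe_hk_data hlM H s hs) (∞ : OnePoint (ZMod l)) →*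
      ↥(twe_GamH (M * l) (m59epo_Hl M l H)) :=
  ((twe_GamH M H).subtype.comp
    (lrt_stab (twe_hk_data hlM H s hs) (∞ : OnePoint (ZMod l))).subtype).codRestrict _ fun g =>
    (m59epo_mem_GamHl hlM H _).mpr ⟨(g : ↥(twe_GamH M H)).2, (lrm_act_infty _).mp g.2⟩

theorem m59epo_toStab_ofStab
    (g : lrt_stab (twe_hk_data hlM H s hs) (∞ : OnePoint (ZMod l))) :
    m59epo_toStab hlM H s hs (m59epo_ofStab hlM H s hs g) = g :=
  Subtype.ext (Subtype.ext rfl)

theorem m59epo_ofStab_toStab (g : ↥(twe_GamH (M * l) (m59epo_Hl M l H))) :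
    m59epo_ofStab hlM H s hs (m59epo_toStab hlM H s hs g) = g :=
  Subtype.ext rfl

theorem m59epo_toStab_coe (g : ↥(twe_GamH (M * l) (m59epo_Hl M l H))) :
    (((m59epo_toStab hlM H s hs g : lrt_stab (twe_hk_data hlM H s hs) _) :
      ↥(twe_GamH M H)) : SL(2, ℤ)) = (g : SL(2, ℤ)) := rfl

variable {A : Type*} [AddCommGroup A]

/-- `A = res : Hom(Γ_H(M), A) → Hom(Γ_{H'}(Ml), A)`. -/
def m59epo_A :
    (Additive ↥(twe_GamH M H) →+ A) →+
      (Additive ↥(twe_GamH (M * l) (m59epo_Hl M l H)) →+ A) :=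
  (lrm_pull (m59epo_toStab hlM H s hs)).comp (m59epo_a (m59epo_pair hlM H s hs hnice))

/-- `B = β'^*`, `β' = Ad(s) ∘ Ad(diag(l, 1))`. -/
def m59epo_B :
    (Additive ↥(twe_GamH M H) →+ A) →+
      (Additive ↥(twe_GamH (M * l) (m59epo_Hl M l H)) →+ A) :=
  (lrm_pull (m59epo_toStab hlM H s hs)).comp (m59epo_b (m59epo_pair hlM H s hs hnice))

/-- `At` : the transfer along the inclusion. -/
def m59epo_At :
    (Additive ↥(twe_GamH (M * l) (m59epo_Hl M l H)) →+ A) →+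
      (Additive ↥(twe_GamH M H) →+ A) :=
  (m59epo_at (m59epo_pair hlM H s hs hnice)).comp (lrm_pull (m59epo_ofStab hlM H s hs))

/-- `Bt` : the transfer along `β'`. -/
def m59epo_Bt :
    (Additive ↥(twe_GamH (M * l) (m59epo_Hl M l H)) →+ A) →+
      (Additive ↥(twe_GamH M H) →+ A) :=
  (m59epo_bt (m59epo_pair hlM H s hs hnice)).comp (lrm_pull (m59epo_ofStab hlM H s hs))

theorem m59epo_pull_of_to
    (φ : Additive (lrt_stab (twe_hk_data hlM H s hs) (m59epo_pair hlM H s hs hnice).x0) →+ A) :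
    lrm_pull (m59epo_ofStab hlM H s hs) (lrm_pull (m59epo_toStab hlM H s hs) φ) = φ := by
  refine lrt_ext fun g => ?_
  show lrt_ev φ (m59epo_toStab hlM H s hs (m59epo_ofStab hlM H s hs g)) = lrt_ev φ g
  rw [m59epo_toStab_ofStab]

/-- `A` is the restriction. -/
theorem m59epo_A_eq (χ : Additive ↥(twe_GamH M H) →+ A) :
    m59epo_A hlM H s hs hnice χ =
      lrpd_pull (Subgroup.inclusion (m59epo_GamHl_le hlM H)) χ := rfl

theorem m59epo_card : Fintype.card (OnePoint (ZMod l)) = l + 1 := lrm_card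

/-- `At A = l + 1`. -/
theorem m59epo_At_A (χ : Additive ↥(twe_GamH M H) →+ A) :
    m59epo_At hlM H s hs hnice (m59epo_A hlM H s hs hnice χ) = (l + 1) • χ := by
  have h := m59epo_pull_of_to hlM H s hs hnice (m59epo_a (m59epo_pair hlM H s hs hnice) χ)
  show m59epo_at (m59epo_pair hlM H s hs hnice) (lrm_pull (m59epo_ofStab hlM H s hs)
    (lrm_pull (m59epo_toStab hlM H s hs) (m59epo_a (m59epo_pair hlM H s hs hnice) χ))) = _
  rw [h, m59epo_at_a, m59epo_card]

/-- `Bt B = l + 1`. -/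
theorem m59epo_Bt_B (χ : Additive ↥(twe_GamH M H) →+ A) :
    m59epo_Bt hlM H s hs hnice (m59epo_B hlM H s hs hnice χ) = (l + 1) • χ := by
  have h := m59epo_pull_of_to hlM H s hs hnice (m59epo_b (m59epo_pair hlM H s hs hnice) χ)
  show m59epo_bt (m59epo_pair hlM H s hs hnice) (lrm_pull (m59epo_ofStab hlM H s hs)
    (lrm_pull (m59epo_toStab hlM H s hs) (m59epo_b (m59epo_pair hlM H s hs hnice) χ))) = _
  rw [h, m59epo_bt_b, m59epo_card]

/-- `At B = T'_l`. -/
theorem m59epo_At_B (χ : Additive ↥(twe_GamH M H) →+ A) :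
    m59epo_At hlM H s hs hnice (m59epo_B hlM H s hs hnice χ) = twe_hk_T hlM H s hs χ := by
  have h := m59epo_pull_of_to hlM H s hs hnice (m59epo_b (m59epo_pair hlM H s hs hnice) χ)
  show m59epo_at (m59epo_pair hlM H s hs hnice) (lrm_pull (m59epo_ofStab hlM H s hs)
    (lrm_pull (m59epo_toStab hlM H s hs) (m59epo_b (m59epo_pair hlM H s hs hnice) χ))) = _
  rw [h, m59epo_at_b]
  rfl

/-- `Bt A = T'_l`. -/
theorem m59epo_Bt_A (χ : Additive ↥(twe_GamH M H) →+ A) :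
    m59epo_Bt hlM H s hs hnice (m59epo_A hlM H s hs hnice χ) = twe_hk_T hlM H s hs χ := by
  have h := m59epo_pull_of_to hlM H s hs hnice (m59epo_a (m59epo_pair hlM H s hs hnice) χ)
  show m59epo_bt (m59epo_pair hlM H s hs hnice) (lrm_pull (m59epo_ofStab hlM H s hs)
    (lrm_pull (m59epo_toStab hlM H s hs) (m59epo_a (m59epo_pair hlM H s hs hnice) χ))) = _
  rw [h, m59epo_bt_a]
  rfl

end ops

end Fermat.Agent.M59
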