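import Mathlib
import Fermat.Agent.M59.EP.OpsDef

/-!
# M59 / block [E'] / cell [EP-OPS], part 3 (helper3): the four maps on `W(Γ_H, A)` as `R`-linear
maps (prefix `m59epo_`)

* `m59epo_A_PE`, `m59epo_B_PE`, `m59epo_At_PE`, `m59epo_Bt_PE` : the four maps of `OpsDef.lean`
  preserve the parabolic-elliptic-killing characters;
* `m59epo_*_comp` : naturality in the coefficients;
* `m59epo_lA, m59epo_lB : twe_wl_V R A (Γ_H(M)) →ₗ[R] twe_wl_V R A (Γ_{H'}(Ml))`,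
  `m59epo_lAt, m59epo_lBt` the other way, and
  `m59epo_lAt_lA`, `m59epo_lBt_lB` (`= l + 1`), `m59epo_lAt_lB`, `m59epo_lBt_lA` (`= twe_wl_T`).
-/

set_option autoImplicit false
set_option linter.unusedSectionVars false

noncomputable section

open CongruenceSubgroup Matrix.SpecialLinearGroup
open P2MW.S_ModularForm_heckeT_slash_eq_self_of_mem_Gamma0.ModularForm.HeckeSlashInvariance
open scoped MatrixGroups OnePoint

namespace Fermat.Agent.M59

open Fermat.Agent.JT3 Fermat.Agent.LR Fermat.Agent.TW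

section pe

variable {M l : ℕ} [Fact l.Prime] (hlM : ¬ l ∣ M) (H : Subgroup (ZMod M)ˣ) (s : Gamma0 M)
  (hs : twe_dUnit M s * twe_dUnit M s * (twe_hk_lU hlM)⁻¹ ∈ H)
  (hnice : twe_hc_Nice l (s : SL(2, ℤ)))
  {A : Type*} [AddCommGroup A]

/-- the class of parabolic-elliptic elements of `Γ_H`. -/
def m59epo_isPE (H : Subgroup (ZMod M)ˣ) (g : ↥(twe_GamH M H)) : Prop :=
  lrpd_tr (g : SL(2, ℤ)) ^ 2 ≤ 4

theorem m59epo_isPE_pow (g : ↥(twe_GamH M H)) (n : ℕ) (hg : m59epo_isPE H g) :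
    m59epo_isPE H (g ^ n) := by
  unfold m59epo_isPE at hg ⊢
  rw [Subgroup.coe_pow]
  exact twe_rc_tr_pow _ hg n

theorem m59epo_isPE_conj (g h : ↥(twe_GamH M H)) (hg : m59epo_isPE H g) :
    m59epo_isPE H (h * g * h⁻¹) := by
  unfold m59epo_isPE at hg ⊢
  rw [Subgroup.coe_mul, Subgroup.coe_mul, Subgroup.coe_inv]
  have h1 := twe_rc_tr_conj ((h : SL(2, ℤ))⁻¹) (g : SL(2, ℤ))
  rw [inv_inv] at h1
  rw [h1]
  exact hg

/-- the corrected cocycle at a fixed point preserves the trace (in `Γ_H`). -/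
theorem m59epo_tr_coc (x : OnePoint (ZMod l)) (g : ↥(twe_GamH M H))
    (hfix : (twe_hk_data hlM H s hs).act g x = x) :
    lrpd_tr (((twe_hk_data hlM H s hs).coc x g : ↥(twe_GamH M H)) : SL(2, ℤ)) =
      lrpd_tr (g : SL(2, ℤ)) :=
  twe_hk_tr_coc hlM s x (twe_hk_up H g) hfix

theorem m59epo_A_PE {χ : Additive ↥(twe_GamH M H) →+ A} (hχ : lrpd_PE (twe_GamH M H) χ) :
    lrpd_PE (twe_GamH (M * l) (m59epo_Hl M l H)) (m59epo_A hlM H s hs hnice χ) := by
  rw [m59epo_A_eq]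
  exact twe_res_PE (m59epo_GamHl_le hlM H) hχ

theorem m59epo_B_PE {χ : Additive ↥(twe_GamH M H) →+ A} (hχ : lrpd_PE (twe_GamH M H) χ) :
    lrpd_PE (twe_GamH (M * l) (m59epo_Hl M l H)) (m59epo_B hlM H s hs hnice χ) := by
  intro γ hγ
  show χ (Additive.ofMul ((twe_hk_data hlM H s hs).coc (∞ : OnePoint (ZMod l))
    ((m59epo_toStab hlM H s hs γ : lrt_stab (twe_hk_data hlM H s hs) _) : ↥(twe_GamH M H)))) = 0
  refine hχ _ ?_
  rw [m59epo_tr_coc hlM H s hs _ _ (m59epo_toStab hlM H s hs γ).2]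
  exact hγ

theorem m59epo_At_PE {φ : Additive ↥(twe_GamH (M * l) (m59epo_Hl M l H)) →+ A}
    (hφ : lrpd_PE (twe_GamH (M * l) (m59epo_Hl M l H)) φ) :
    lrpd_PE (twe_GamH M H) (m59epo_At hlM H s hs hnice φ) := by
  intro γ hγ
  refine lrh_cor_kills (twe_hk_data hlM H s hs) (∞ : OnePoint (ZMod l)) (m59epo_r0 hlM H)
    (m59epo_r0_spec hlM H s hs) (m59epo_isPE H) (fun g n hg => m59epo_isPE_pow H g n hg)
    (fun g h hg => m59epo_isPE_conj H g h hg)
    (lrm_pull (m59epo_ofStab hlM H s hs) φ) ?_ γ hγ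
  intro g hg
  exact hφ (m59epo_ofStab hlM H s hs g) hg

theorem m59epo_Bt_PE {φ : Additive ↥(twe_GamH (M * l) (m59epo_Hl M l H)) →+ A}
    (hφ : lrpd_PE (twe_GamH (M * l) (m59epo_Hl M l H)) φ) :
    lrpd_PE (twe_GamH M H) (m59epo_Bt hlM H s hs hnice φ) := by
  intro γ hγ
  refine lrh_cor_kills (twe_hk_data hlM H s hs) ((0 : ZMod l) : OnePoint (ZMod l))
    (m59epo_r1 hlM H) (m59epo_r1_spec hlM H s hs) (m59epo_isPE H)
    (fun g n hg => m59epo_isPE_pow H g n hg) (fun g h hg => m59epo_isPE_conj H g h hg)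
    (lrm_pull (m59epo_om hlM H s hs hnice) (lrm_pull (m59epo_ofStab hlM H s hs) φ)) ?_ γ hγ
  intro g hg
  refine hφ (m59epo_ofStab hlM H s hs (m59epo_om hlM H s hs hnice g)) ?_
  show lrpd_tr (((twe_hk_data hlM H s hs).coc ((0 : ZMod l) : OnePoint (ZMod l))
    (g : ↥(twe_GamH M H)) : ↥(twe_GamH M H)) : SL(2, ℤ)) ^ 2 ≤ 4
  rw [m59epo_tr_coc hlM H s hs _ _ g.2]
  exact hg

/-! ### Naturality in the coefficients -/

variable {A' : Type*} [AddCommGroup A'] (f : A →+ A')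

theorem m59epo_A_comp (χ : Additive ↥(twe_GamH M H) →+ A) :
    m59epo_A hlM H s hs hnice (f.comp χ) = f.comp (m59epo_A hlM H s hs hnice χ) := rfl

theorem m59epo_B_comp (χ : Additive ↥(twe_GamH M H) →+ A) :
    m59epo_B hlM H s hs hnice (f.comp χ) = f.comp (m59epo_B hlM H s hs hnice χ) := rfl

theorem m59epo_At_comp (φ : Additive ↥(twe_GamH (M * l) (m59epo_Hl M l H)) →+ A) :
    m59epo_At hlM H s hs hnice (f.comp φ) = f.comp (m59epo_At hlM H s hs hnice φ) := by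
  show lrt_cor (twe_hk_data hlM H s hs) (∞ : OnePoint (ZMod l)) (m59epo_r0 hlM H)
      (m59epo_r0_spec hlM H s hs) (f.comp (lrm_pull (m59epo_ofStab hlM H s hs) φ)) =
    f.comp (lrt_cor (twe_hk_data hlM H s hs) (∞ : OnePoint (ZMod l)) (m59epo_r0 hlM H)
      (m59epo_r0_spec hlM H s hs) (lrm_pull (m59epo_ofStab hlM H s hs) φ))
  rw [lrh_cor_comp]

theorem m59epo_Bt_comp (φ : Additive ↥(twe_GamH (M * l) (m59epo_Hl M l H)) →+ A) :
    m59epo_Bt hlM H s hs hnice (f.comp φ) = f.comp (m59epo_Bt hlM H s hs hnice φ) := by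
  show lrt_cor (twe_hk_data hlM H s hs) ((0 : ZMod l) : OnePoint (ZMod l)) (m59epo_r1 hlM H)
      (m59epo_r1_spec hlM H s hs)
      (f.comp (lrm_pull (m59epo_om hlM H s hs hnice) (lrm_pull (m59epo_ofStab hlM H s hs) φ))) =
    f.comp (lrt_cor (twe_hk_data hlM H s hs) ((0 : ZMod l) : OnePoint (ZMod l)) (m59epo_r1 hlM H)
      (m59epo_r1_spec hlM H s hs)
      (lrm_pull (m59epo_om hlM H s hs hnice) (lrm_pull (m59epo_ofStab hlM H s hs) φ)))
  rw [lrh_cor_comp]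

end pe

/-! ### The linear maps -/

section lin

variable {R : Type*} [CommRing R] {A : Type*} [AddCommGroup A] [Module R A]
variable {M l : ℕ} [Fact l.Prime] (hlM : ¬ l ∣ M) (H : Subgroup (ZMod M)ˣ) (s : Gamma0 M)
  (hs : twe_dUnit M s * twe_dUnit M s * (twe_hk_lU hlM)⁻¹ ∈ H)
  (hnice : twe_hc_Nice l (s : SL(2, ℤ)))

/-- `A` on `W(Γ_H(M), A)`. -/
def m59epo_lA : ↥(twe_wl_V R A (twe_GamH M H)) →ₗ[R]
    ↥(twe_wl_V R A (twe_GamH (M * l) (m59epo_Hl M l H))) where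
  toFun z := ⟨m59epo_A hlM H s hs hnice z.1, m59epo_A_PE hlM H s hs hnice z.2⟩
  map_add' z z' := by
    apply Subtype.ext
    show m59epo_A hlM H s hs hnice (z.1 + z'.1) = _
    rw [map_add]
    rfl
  map_smul' a z := by
    apply Subtype.ext
    show m59epo_A hlM H s hs hnice (a • z.1) = a • m59epo_A hlM H s hs hnice z.1
    rw [twe_wl_smul_eq_comp, m59epo_A_comp, ← twe_wl_smul_eq_comp]

/-- `B` on `W(Γ_H(M), A)`. -/
def m59epo_lB : ↥(twe_wl_V R A (twe_GamH M H)) →ₗ[R]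
    ↥(twe_wl_V R A (twe_GamH (M * l) (m59epo_Hl M l H))) where
  toFun z := ⟨m59epo_B hlM H s hs hnice z.1, m59epo_B_PE hlM H s hs hnice z.2⟩
  map_add' z z' := by
    apply Subtype.ext
    show m59epo_B hlM H s hs hnice (z.1 + z'.1) = _
    rw [map_add]
    rfl
  map_smul' a z := by
    apply Subtype.ext
    show m59epo_B hlM H s hs hnice (a • z.1) = a • m59epo_B hlM H s hs hnice z.1
    rw [twe_wl_smul_eq_comp, m59epo_B_comp, ← twe_wl_smul_eq_comp]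

/-- `At` on `W(Γ_{H'}(Ml), A)`. -/
def m59epo_lAt : ↥(twe_wl_V R A (twe_GamH (M * l) (m59epo_Hl M l H))) →ₗ[R]
    ↥(twe_wl_V R A (twe_GamH M H)) where
  toFun z := ⟨m59epo_At hlM H s hs hnice z.1, m59epo_At_PE hlM H s hs hnice z.2⟩
  map_add' z z' := by
    apply Subtype.ext
    show m59epo_At hlM H s hs hnice (z.1 + z'.1) = _
    rw [map_add]
    rfl
  map_smul' a z := by
    apply Subtype.ext
    show m59epo_At hlM H s hs hnice (a • z.1) = a • m59epo_At hlM H s hs hnice z.1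
    rw [twe_wl_smul_eq_comp, m59epo_At_comp, ← twe_wl_smul_eq_comp]

/-- `Bt` on `W(Γ_{H'}(Ml), A)`. -/
def m59epo_lBt : ↥(twe_wl_V R A (twe_GamH (M * l) (m59epo_Hl M l H))) →ₗ[R]
    ↥(twe_wl_V R A (twe_GamH M H)) where
  toFun z := ⟨m59epo_Bt hlM H s hs hnice z.1, m59epo_Bt_PE hlM H s hs hnice z.2⟩
  map_add' z z' := by
    apply Subtype.ext
    show m59epo_Bt hlM H s hs hnice (z.1 + z'.1) = _
    rw [map_add]
    rfl
  map_smul' a z := by
    apply Subtype.ext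
    show m59epo_Bt hlM H s hs hnice (a • z.1) = a • m59epo_Bt hlM H s hs hnice z.1
    rw [twe_wl_smul_eq_comp, m59epo_Bt_comp, ← twe_wl_smul_eq_comp]

theorem m59epo_lA_coe (z : ↥(twe_wl_V R A (twe_GamH M H))) :
    ((m59epo_lA (R := R) hlM H s hs hnice z : ↥(twe_wl_V R A _)) :
      Additive ↥(twe_GamH (M * l) (m59epo_Hl M l H)) →+ A) = m59epo_A hlM H s hs hnice z.1 := rfl

theorem m59epo_lB_coe (z : ↥(twe_wl_V R A (twe_GamH M H))) :
    ((m59epo_lB (R := R) hlM H s hs hnice z : ↥(twe_wl_V R A _)) :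
      Additive ↥(twe_GamH (M * l) (m59epo_Hl M l H)) →+ A) = m59epo_B hlM H s hs hnice z.1 := rfl

theorem m59epo_lAt_coe (z : ↥(twe_wl_V R A (twe_GamH (M * l) (m59epo_Hl M l H)))) :
    ((m59epo_lAt (R := R) hlM H s hs hnice z : ↥(twe_wl_V R A _)) :
      Additive ↥(twe_GamH M H) →+ A) = m59epo_At hlM H s hs hnice z.1 := rfl

theorem m59epo_lBt_coe (z : ↥(twe_wl_V R A (twe_GamH (M * l) (m59epo_Hl M l H)))) :
    ((m59epo_lBt (R := R) hlM H s hs hnice z : ↥(twe_wl_V R A _)) :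
      Additive ↥(twe_GamH M H) →+ A) = m59epo_Bt hlM H s hs hnice z.1 := rfl

/-- `A` is `twe_wl_res`. -/
theorem m59epo_lA_eq_res :
    m59epo_lA (R := R) (A := A) hlM H s hs hnice = twe_wl_res (m59epo_GamHl_le hlM H) := rfl

/-- `At A = l + 1`. -/
theorem m59epo_lAt_lA (z : ↥(twe_wl_V R A (twe_GamH M H))) :
    m59epo_lAt (R := R) hlM H s hs hnice (m59epo_lA hlM H s hs hnice z) = (l + 1) • z := by
  apply Subtype.ext
  rw [m59epo_lAt_coe, m59epo_lA_coe, m59epo_At_A]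
  rfl

/-- `Bt B = l + 1`. -/
theorem m59epo_lBt_lB (z : ↥(twe_wl_V R A (twe_GamH M H))) :
    m59epo_lBt (R := R) hlM H s hs hnice (m59epo_lB hlM H s hs hnice z) = (l + 1) • z := by
  apply Subtype.ext
  rw [m59epo_lBt_coe, m59epo_lB_coe, m59epo_Bt_B]
  rfl

/-- `At B = T'_l`. -/
theorem m59epo_lAt_lB (z : ↥(twe_wl_V R A (twe_GamH M H))) :
    m59epo_lAt (R := R) hlM H s hs hnice (m59epo_lB hlM H s hs hnice z) =
      twe_wl_T hlM H s hs z := by
  apply Subtype.ext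
  rw [m59epo_lAt_coe, m59epo_lB_coe, m59epo_At_B, twe_wl_T_coe]

/-- `Bt A = T'_l`. -/
theorem m59epo_lBt_lA (z : ↥(twe_wl_V R A (twe_GamH M H))) :
    m59epo_lBt (R := R) hlM H s hs hnice (m59epo_lA hlM H s hs hnice z) =
      twe_wl_T hlM H s hs z := by
  apply Subtype.ext
  rw [m59epo_lBt_coe, m59epo_lA_coe, m59epo_Bt_A, twe_wl_T_coe]

end lin

end Fermat.Agent.M59
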