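import Mathlib
import Fermat.Agent.M59.EP.OpsLin
import Fermat.Agent.M59.EP.OpsAbsT
import Fermat.Agent.TW.Aut.HeckeConj

/-!
# M59 / block [E'] / cell [EP-OPS], part 4 (helper3): the four maps commute with the diamonds
(prefix `m59epo_`)

`g ∈ Γ₀(M)` with `g ≡ 1` modulo `l` (`twe_hc_Nice`; every class of `Γ₀(M) / Γ_H(M)` has such a
representative, `twe_hc_exists_nice`) lies in `Γ₀(M l)` (`m59epo_up`), and

* `m59epo_A_conj`, `m59epo_B_conj`   : `A (g • z) = g • A z`, `B (g • z) = g • B z`;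
* `m59epo_At_conj`, `m59epo_Bt_conj` : `At (g • w) = g • At w`, `Bt (g • w) = g • Bt w`;
* `m59epo_l*_conj` : the same for the linear maps and `twe_wl_conj`.

Abstract input: `m59epo_cor_aut` (the transfer commutes with an endomorphism of the group which
preserves the action on `X`), from helper8's `m59epo_abs_cor_indep`.
-/

set_option autoImplicit false
set_option linter.unusedSectionVars false

noncomputable section

open CongruenceSubgroup Matrix.SpecialLinearGroup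
open P2MW.S_ModularForm_heckeT_slash_eq_self_of_mem_Gamma0.ModularForm.HeckeSlashInvariance
open scoped MatrixGroups OnePoint

namespace Fermat.Agent.M59

open Fermat.Agent.JT3 Fermat.Agent.LR Fermat.Agent.TW

/-! ### Abstract: the transfer and an endomorphism preserving the action -/

section abs

variable {G X : Type*} [Group G] [Fintype X] (D : lrt_Data G X) {A : Type*} [AddCommGroup A]
  (x₀ : X) (r : X → G) (hr : ∀ x, D.act (r x) x₀ = x)
  (θ : G →* G) (hact : ∀ γ x, D.act (θ γ) x = D.act γ x)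

/-- `θ` restricted to the stabiliser. -/
def m59epo_stabMap : lrt_stab D x₀ →* lrt_stab D x₀ :=
  (θ.comp (lrt_stab D x₀).subtype).codRestrict _ fun γ => by
    show D.act (θ (γ : G)) x₀ = x₀
    rw [hact]
    exact γ.2

theorem m59epo_stabMap_coe (γ : lrt_stab D x₀) :
    ((m59epo_stabMap D x₀ θ hact γ : lrt_stab D x₀) : G) = θ (γ : G) := rfl

/-- **the transfer commutes with `θ`.** -/
theorem m59epo_cor_aut (φ : Additive (lrt_stab D x₀) →+ A) :
    lrm_pull θ (lrt_cor D x₀ r hr φ) =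
      lrt_cor D x₀ r hr (lrm_pull (m59epo_stabMap D x₀ θ hact) φ) := by
  have hr' : ∀ x, D.act (θ (r x)) x₀ = x := fun x => by rw [hact, hr]
  refine lrt_ext fun γ => ?_
  rw [lrm_pull_ev, m59epo_abs_cor_indep D x₀ r (fun x => θ (r x)) hr hr' φ, lrt_cor_ev, lrt_cor_ev]
  refine Finset.sum_congr rfl fun x _ => ?_
  rw [lrm_pull_ev]
  congr 1
  apply Subtype.ext
  rw [m59epo_stabMap_coe, lrt_a_coe, lrt_a_coe, hact, map_mul, map_mul, map_inv]

end abs

/-! ### The conjugation by a nice element -/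

section dia

variable {M l : ℕ} [Fact l.Prime] (hlM : ¬ l ∣ M) (H : Subgroup (ZMod M)ˣ) (s : Gamma0 M)
  (hs : twe_dUnit M s * twe_dUnit M s * (twe_hk_lU hlM)⁻¹ ∈ H)
  (hnice : twe_hc_Nice l (s : SL(2, ℤ)))
  (g : Gamma0 M) (hg : twe_hc_Nice l (g : SL(2, ℤ)))
  {A : Type*} [AddCommGroup A]

theorem m59epo_nice_dvd {γ : SL(2, ℤ)} (hγ : twe_hc_Nice l γ) : (l : ℤ) ∣ γ 1 0 :=
  (lrm_act_infty γ).mp (twe_hc_nice_act hγ _)

/-- a nice element of `Γ₀(M)` as an element of `Γ₀(M l)`. -/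
def m59epo_up : Gamma0 (M * l) :=
  ⟨(g : SL(2, ℤ)), lrm_mem_of_dvd_dvd hlM (t2c_dvd_of_mem g.2) (m59epo_nice_dvd hg)⟩

theorem m59epo_up_coe : ((m59epo_up hlM g hg : Gamma0 (M * l)) : SL(2, ℤ)) = (g : SL(2, ℤ)) := rfl

include hg in
/-- conjugation by a nice element preserves the action on `ℙ¹(𝔽_l)`. -/
theorem m59epo_conj_act (γ : ↥(twe_GamH M H)) (x : OnePoint (ZMod l)) :
    (twe_hk_data hlM H s hs).act (twe_conjHom H g γ) x = (twe_hk_data hlM H s hs).act γ x := by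
  show t2c_act ((g : SL(2, ℤ))⁻¹ * γ * g) x = t2c_act (γ : SL(2, ℤ)) x
  rw [t2c_act_mul, t2c_act_mul, twe_hc_nice_act (twe_hc_nice_inv hg), twe_hc_nice_act hg]

/-- `A (g • z) = g • A z`. -/
theorem m59epo_A_conj (z : Additive ↥(twe_GamH M H) →+ A) :
    m59epo_A hlM H s hs hnice (twe_conj H g z) =
      twe_conj (m59epo_Hl M l H) (m59epo_up hlM g hg) (m59epo_A hlM H s hs hnice z) := by
  refine AddMonoidHom.ext fun γ => ?_
  obtain ⟨γ, rfl⟩ := Additive.ofMul.surjective γ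
  rw [m59epo_A_eq, m59epo_A_eq, twe_conj_apply, lrpd_pull_apply, lrpd_pull_apply, twe_conj_apply]
  congr 2

include hnice hg in
/-- the element `h = g⁻¹ c'_0(g)` of `Γ_H` fixes `∞`. -/
theorem m59epo_hh_fix :
    (twe_hk_data hlM H s hs).act (twe_hk_hh hlM s hs g ((0 : ZMod l) : OnePoint (ZMod l)))
      (∞ : OnePoint (ZMod l)) = ∞ := by
  show t2c_act ((g⁻¹ * twe_hk_coc hlM s ((0 : ZMod l) : OnePoint (ZMod l)) g : Gamma0 M) :
    SL(2, ℤ)) (∞ : OnePoint (ZMod l)) = ∞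
  rw [Subgroup.coe_mul, Subgroup.coe_inv, t2c_act_mul, twe_hc_nice_act (twe_hc_nice_inv hg),
    m59epo_act_coc hlM s hnice]
  exact m59epo_coc_zero_fix hlM g (twe_hc_nice_act hg _)

/-- `toStab` intertwines the two conjugations. -/
theorem m59epo_toStab_conj (γ : ↥(twe_GamH (M * l) (m59epo_Hl M l H))) :
    ((m59epo_toStab hlM H s hs (twe_conjHom (m59epo_Hl M l H) (m59epo_up hlM g hg) γ) :
      lrt_stab (twe_hk_data hlM H s hs) _) : ↥(twe_GamH M H)) =
      twe_conjHom H g ((m59epo_toStab hlM H s hs γ : lrt_stab (twe_hk_data hlM H s hs) _) :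
        ↥(twe_GamH M H)) :=
  Subtype.ext rfl

/-- `B (g • z) = g • B z`. -/
theorem m59epo_B_conj (z : Additive ↥(twe_GamH M H) →+ A) :
    m59epo_B hlM H s hs hnice (twe_conj H g z) =
      twe_conj (m59epo_Hl M l H) (m59epo_up hlM g hg) (m59epo_B hlM H s hs hnice z) := by
  refine AddMonoidHom.ext fun γ => ?_
  obtain ⟨γ, rfl⟩ := Additive.ofMul.surjective γ
  rw [twe_conj_apply]
  show lrt_ev (twe_conj H g z) ((twe_hk_data hlM H s hs).coc (∞ : OnePoint (ZMod l))
      ((m59epo_toStab hlM H s hs γ : lrt_stab (twe_hk_data hlM H s hs) _) : ↥(twe_GamH M H))) =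
    lrt_ev z ((twe_hk_data hlM H s hs).coc (∞ : OnePoint (ZMod l))
      ((m59epo_toStab hlM H s hs (twe_conjHom (m59epo_Hl M l H) (m59epo_up hlM g hg) γ) :
        lrt_stab (twe_hk_data hlM H s hs) _) : ↥(twe_GamH M H)))
  rw [m59epo_toStab_conj]
  have h := twe_hk_data_coc_conj hlM H s hs g
    ((m59epo_toStab hlM H s hs γ : lrt_stab (twe_hk_data hlM H s hs) _) : ↥(twe_GamH M H))
    (∞ : OnePoint (ZMod l))
  have hfix : t2c_act ((((m59epo_toStab hlM H s hs γ : lrt_stab (twe_hk_data hlM H s hs) _) :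
      ↥(twe_GamH M H)) : SL(2, ℤ))) (∞ : OnePoint (ZMod l)) = ∞ :=
    (m59epo_toStab hlM H s hs γ).2
  rw [twe_hc_nice_act hg, hfix] at h
  rw [h, lrt_ev_mul, lrt_ev_mul, lrt_ev_inv]
  show _ = -_ + lrt_ev (twe_conj H g z) _ + _
  abel

/-- `ofStab` intertwines the two conjugations. -/
theorem m59epo_ofStab_conj (γ : lrt_stab (twe_hk_data hlM H s hs) (∞ : OnePoint (ZMod l))) :
    m59epo_ofStab hlM H s hs (m59epo_stabMap (twe_hk_data hlM H s hs) (∞ : OnePoint (ZMod l))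
        (twe_conjHom H g) (m59epo_conj_act hlM H s hs g hg) γ) =
      twe_conjHom (m59epo_Hl M l H) (m59epo_up hlM g hg) (m59epo_ofStab hlM H s hs γ) :=
  Subtype.ext rfl

theorem m59epo_pull_ofStab_conj (w : Additive ↥(twe_GamH (M * l) (m59epo_Hl M l H)) →+ A) :
    lrm_pull (m59epo_stabMap (twe_hk_data hlM H s hs) (∞ : OnePoint (ZMod l))
        (twe_conjHom H g) (m59epo_conj_act hlM H s hs g hg))
      (lrm_pull (m59epo_ofStab hlM H s hs) w) =
    lrm_pull (m59epo_ofStab hlM H s hs)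
      (twe_conj (m59epo_Hl M l H) (m59epo_up hlM g hg) w) := by
  refine lrt_ext fun γ => ?_
  show lrt_ev w (m59epo_ofStab hlM H s hs (m59epo_stabMap (twe_hk_data hlM H s hs) _
      (twe_conjHom H g) (m59epo_conj_act hlM H s hs g hg) γ)) =
    lrt_ev w (twe_conjHom (m59epo_Hl M l H) (m59epo_up hlM g hg) (m59epo_ofStab hlM H s hs γ))
  rw [m59epo_ofStab_conj]

/-- `At (g • w) = g • At w`. -/
theorem m59epo_At_conj (w : Additive ↥(twe_GamH (M * l) (m59epo_Hl M l H)) →+ A) :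
    m59epo_At hlM H s hs hnice (twe_conj (m59epo_Hl M l H) (m59epo_up hlM g hg) w) =
      twe_conj H g (m59epo_At hlM H s hs hnice w) := by
  have h := m59epo_cor_aut (twe_hk_data hlM H s hs) (∞ : OnePoint (ZMod l)) (m59epo_r0 hlM H)
    (m59epo_r0_spec hlM H s hs) (twe_conjHom H g) (m59epo_conj_act hlM H s hs g hg)
    (lrm_pull (m59epo_ofStab hlM H s hs) w)
  rw [m59epo_pull_ofStab_conj] at h
  exact h.symm

/-- `hh` at `0` as an element of `Stab(∞)`. -/
def m59epo_hhS : lrt_stab (twe_hk_data hlM H s hs) (∞ : OnePoint (ZMod l)) :=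
  ⟨twe_hk_hh hlM s hs g ((0 : ZMod l) : OnePoint (ZMod l)), m59epo_hh_fix hlM H s hs hnice g hg⟩

/-- `ω (g⁻¹ γ g) = h⁻¹ (g⁻¹ ω(γ) g) h` in `Stab(∞)`. -/
theorem m59epo_om_conj
    (γ : lrt_stab (twe_hk_data hlM H s hs) ((0 : ZMod l) : OnePoint (ZMod l))) :
    m59epo_om hlM H s hs hnice (m59epo_stabMap (twe_hk_data hlM H s hs) _
        (twe_conjHom H g) (m59epo_conj_act hlM H s hs g hg) γ) =
      (m59epo_hhS hlM H s hs hnice g hg)⁻¹ *
        m59epo_stabMap (twe_hk_data hlM H s hs) _ (twe_conjHom H g)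
          (m59epo_conj_act hlM H s hs g hg) (m59epo_om hlM H s hs hnice γ) *
        m59epo_hhS hlM H s hs hnice g hg := by
  apply Subtype.ext
  have h := twe_hk_data_coc_conj hlM H s hs g (γ : ↥(twe_GamH M H))
    ((0 : ZMod l) : OnePoint (ZMod l))
  have hfix : t2c_act (((γ : ↥(twe_GamH M H)) : SL(2, ℤ))) ((0 : ZMod l) : OnePoint (ZMod l)) =
      ((0 : ZMod l) : OnePoint (ZMod l)) := γ.2
  rw [twe_hc_nice_act hg, hfix] at h
  exact h

/-- `Bt (g • w) = g • Bt w`. -/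
theorem m59epo_Bt_conj (w : Additive ↥(twe_GamH (M * l) (m59epo_Hl M l H)) →+ A) :
    m59epo_Bt hlM H s hs hnice (twe_conj (m59epo_Hl M l H) (m59epo_up hlM g hg) w) =
      twe_conj H g (m59epo_Bt hlM H s hs hnice w) := by
  have h := m59epo_cor_aut (twe_hk_data hlM H s hs) ((0 : ZMod l) : OnePoint (ZMod l))
    (m59epo_r1 hlM H) (m59epo_r1_spec hlM H s hs) (twe_conjHom H g)
    (m59epo_conj_act hlM H s hs g hg)
    (lrm_pull (m59epo_om hlM H s hs hnice) (lrm_pull (m59epo_ofStab hlM H s hs) w))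
  have h2 : lrm_pull (m59epo_stabMap (twe_hk_data hlM H s hs)
        ((0 : ZMod l) : OnePoint (ZMod l)) (twe_conjHom H g) (m59epo_conj_act hlM H s hs g hg))
      (lrm_pull (m59epo_om hlM H s hs hnice) (lrm_pull (m59epo_ofStab hlM H s hs) w)) =
    lrm_pull (m59epo_om hlM H s hs hnice) (lrm_pull (m59epo_ofStab hlM H s hs)
      (twe_conj (m59epo_Hl M l H) (m59epo_up hlM g hg) w)) := by
    refine lrt_ext fun γ => ?_
    show lrt_ev (lrm_pull (m59epo_ofStab hlM H s hs) w) (m59epo_om hlM H s hs hnice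
        (m59epo_stabMap (twe_hk_data hlM H s hs) _ (twe_conjHom H g)
          (m59epo_conj_act hlM H s hs g hg) γ)) =
      lrt_ev (lrm_pull (m59epo_ofStab hlM H s hs)
        (twe_conj (m59epo_Hl M l H) (m59epo_up hlM g hg) w)) (m59epo_om hlM H s hs hnice γ)
    rw [m59epo_om_conj hlM H s hs hnice g hg, lrt_ev_mul, lrt_ev_mul, lrt_ev_inv,
      ← m59epo_pull_ofStab_conj hlM H s hs g hg]
    show _ = lrt_ev (lrm_pull (m59epo_ofStab hlM H s hs) w)
      (m59epo_stabMap (twe_hk_data hlM H s hs) _ (twe_conjHom H g)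
        (m59epo_conj_act hlM H s hs g hg) (m59epo_om hlM H s hs hnice γ))
    abel
  rw [h2] at h
  exact h.symm

end dia

/-! ### The linear versions -/

section lin

variable {R : Type*} [CommRing R] {A : Type*} [AddCommGroup A] [Module R A]
variable {M l : ℕ} [Fact l.Prime] (hlM : ¬ l ∣ M) (H : Subgroup (ZMod M)ˣ) (s : Gamma0 M)
  (hs : twe_dUnit M s * twe_dUnit M s * (twe_hk_lU hlM)⁻¹ ∈ H)
  (hnice : twe_hc_Nice l (s : SL(2, ℤ)))
  (g : Gamma0 M) (hg : twe_hc_Nice l (g : SL(2, ℤ)))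

theorem m59epo_lA_conj (z : ↥(twe_wl_V R A (twe_GamH M H))) :
    m59epo_lA (R := R) hlM H s hs hnice (twe_wl_conj H g z) =
      twe_wl_conj (m59epo_Hl M l H) (m59epo_up hlM g hg) (m59epo_lA hlM H s hs hnice z) :=
  Subtype.ext (m59epo_A_conj hlM H s hs hnice g hg z.1)

theorem m59epo_lB_conj (z : ↥(twe_wl_V R A (twe_GamH M H))) :
    m59epo_lB (R := R) hlM H s hs hnice (twe_wl_conj H g z) =
      twe_wl_conj (m59epo_Hl M l H) (m59epo_up hlM g hg) (m59epo_lB hlM H s hs hnice z) :=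
  Subtype.ext (m59epo_B_conj hlM H s hs hnice g hg z.1)

theorem m59epo_lAt_conj (w : ↥(twe_wl_V R A (twe_GamH (M * l) (m59epo_Hl M l H)))) :
    m59epo_lAt (R := R) hlM H s hs hnice
        (twe_wl_conj (m59epo_Hl M l H) (m59epo_up hlM g hg) w) =
      twe_wl_conj H g (m59epo_lAt hlM H s hs hnice w) :=
  Subtype.ext (m59epo_At_conj hlM H s hs hnice g hg w.1)

theorem m59epo_lBt_conj (w : ↥(twe_wl_V R A (twe_GamH (M * l) (m59epo_Hl M l H)))) :
    m59epo_lBt (R := R) hlM H s hs hnice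
        (twe_wl_conj (m59epo_Hl M l H) (m59epo_up hlM g hg) w) =
      twe_wl_conj H g (m59epo_lBt hlM H s hs hnice w) :=
  Subtype.ext (m59epo_Bt_conj hlM H s hs hnice g hg w.1)

end lin

end Fermat.Agent.M59
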