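import Mathlib
import Fermat.Agent.M59.EP.OpsLin
import Fermat.Agent.M59.EP.OpsAbsT
import Fermat.Agent.LR.MTX.EquivCor

/-!
# M59 / block [E'] / cell [EP-OPS](c) HECKE, part 1 (helper8): `A` and `At` commute with `T'_q`
(prefix `m59epoh_`)

`l ∤ M` prime, `q ∤ M l` a second prime, `H ≤ (ℤ/M)ˣ`, `H' = m59epo_Hl M l H`.  The frame element
at `q` is taken at the level `M l`: `t₁ ∈ Γ₀(M l)`, nice at `l` (`≡ 1` modulo `l`), and
`t = lrm_incl M l t₁ ∈ Γ₀(M)` is the SAME matrix at the level `M`.  (`T'_q` does not depend on the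
frame element: `TW/Aut/HeckeIndep`.)

* `m59epoh_ht1` : the frame condition at the level `M l` follows from the one at the level `M`;
* `m59epoh_coc_incl` : the corrected cocycles at the two levels agree;
* `m59epoh_A_T` : `A ∘ T'_q = T'_q ∘ A`;
* `m59epoh_K_infty` : (K) `l ∣ c(c'_y(g)) → l ∣ c(g)`;
* `m59epoh_At_T` : `T'_q ∘ At = At ∘ T'_q`;
* `m59epoh_lA_T`, `m59epoh_lAt_T` : the same for the linear maps of `OpsLin.lean` and `twe_wl_T`.
-/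

set_option autoImplicit false
set_option linter.unusedSectionVars false

noncomputable section

open CongruenceSubgroup Matrix.SpecialLinearGroup
open P2MW.S_ModularForm_heckeT_slash_eq_self_of_mem_Gamma0.ModularForm.HeckeSlashInvariance
open scoped MatrixGroups OnePoint

namespace Fermat.Agent.M59

open Fermat.Agent.JT3 Fermat.Agent.LR Fermat.Agent.TW

section setup

variable {M l q : ℕ} [Fact l.Prime] [Fact q.Prime]

/-- `ℓ` as a unit: compatibility with the reduction `(ℤ/Ml)ˣ → (ℤ/M)ˣ`. -/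
theorem m59epoh_unitsMap_lU (hqM : ¬ q ∣ M) (hqMl : ¬ q ∣ M * l) :
    ZMod.unitsMap (dvd_mul_right M l) (twe_hk_lU hqMl) = twe_hk_lU hqM := by
  apply Units.ext
  rw [ZMod.unitsMap_def, Units.coe_map]
  simp [twe_hk_lU]

/-- the frame condition at the level `M l` from the one at the level `M`. -/
theorem m59epoh_ht1 (hqM : ¬ q ∣ M) (hqMl : ¬ q ∣ M * l) (H : Subgroup (ZMod M)ˣ)
    (t₁ : Gamma0 (M * l))
    (ht : twe_dUnit M (lrm_incl M l t₁) * twe_dUnit M (lrm_incl M l t₁) * (twe_hk_lU hqM)⁻¹ ∈ H) :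
    twe_dUnit (M * l) t₁ * twe_dUnit (M * l) t₁ * (twe_hk_lU hqMl)⁻¹ ∈ m59epo_Hl M l H := by
  show ZMod.unitsMap (dvd_mul_right M l)
    (twe_dUnit (M * l) t₁ * twe_dUnit (M * l) t₁ * (twe_hk_lU hqMl)⁻¹) ∈ H
  have h1 : ZMod.unitsMap (dvd_mul_right M l) (twe_dUnit (M * l) t₁) =
      twe_dUnit M (lrm_incl M l t₁) :=
    m59epo_unitsMap_dUnit (t₁ : SL(2, ℤ)) t₁.2 (lrm_incl M l t₁).2
  rw [map_mul, map_mul, map_inv, h1, m59epoh_unitsMap_lU hqM hqMl]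
  exact ht

theorem m59epoh_sx_incl (t₁ : Gamma0 (M * l)) (x : OnePoint (ZMod q)) :
    lrm_incl M l (twe_hk_sx t₁ x) = twe_hk_sx (lrm_incl M l t₁) x := by
  induction x using OnePoint.rec with
  | infty =>
    simp only [twe_hk_sx, OnePoint.elim_infty]
    rw [map_inv]
  | coe j => rfl

/-- the corrected cocycles at the levels `M l` and `M` agree. -/
theorem m59epoh_coc_incl (hqM : ¬ q ∣ M) (hqMl : ¬ q ∣ M * l) (t₁ : Gamma0 (M * l))
    (x : OnePoint (ZMod q)) (γ : Gamma0 (M * l)) :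
    lrm_incl M l (twe_hk_coc hqMl t₁ x γ) =
      twe_hk_coc hqM (lrm_incl M l t₁) x (lrm_incl M l γ) := by
  unfold twe_hk_coc
  rw [map_mul, map_mul, map_inv, m59epoh_sx_incl, m59epoh_sx_incl, ← lre_coc_incl hqM hqMl]
  rfl

end setup

section main

variable {M l q : ℕ} [Fact l.Prime] [Fact q.Prime] (hlM : ¬ l ∣ M) (hqM : ¬ q ∣ M)
  (hqMl : ¬ q ∣ M * l) (H : Subgroup (ZMod M)ˣ) (s : Gamma0 M)
  (hs : twe_dUnit M s * twe_dUnit M s * (twe_hk_lU hlM)⁻¹ ∈ H)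
  (hnice : twe_hc_Nice l (s : SL(2, ℤ)))
  (t₁ : Gamma0 (M * l))
  (ht : twe_dUnit M (lrm_incl M l t₁) * twe_dUnit M (lrm_incl M l t₁) * (twe_hk_lU hqM)⁻¹ ∈ H)
  (ht₁ : twe_dUnit (M * l) t₁ * twe_dUnit (M * l) t₁ * (twe_hk_lU hqMl)⁻¹ ∈ m59epo_Hl M l H)
  (tnice : twe_hc_Nice l (t₁ : SL(2, ℤ)))
  {A : Type*} [AddCommGroup A]

/-- the cocycles of the two Hecke data at `q` agree (in `SL(2, ℤ)`). -/
theorem m59epoh_data_coc (y : OnePoint (ZMod q)) (γ : ↥(twe_GamH (M * l) (m59epo_Hl M l H))) :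
    (((twe_hk_data hqMl (m59epo_Hl M l H) t₁ ht₁).coc y γ :
      ↥(twe_GamH (M * l) (m59epo_Hl M l H))) : SL(2, ℤ)) =
    (((twe_hk_data hqM H (lrm_incl M l t₁) ht).coc y
      (Subgroup.inclusion (m59epo_GamHl_le hlM H) γ) : ↥(twe_GamH M H)) : SL(2, ℤ)) := by
  have h := m59epoh_coc_incl hqM hqMl t₁ y (twe_hk_up (m59epo_Hl M l H) γ)
  have h2 : lrm_incl M l (twe_hk_up (m59epo_Hl M l H) γ) =
      twe_hk_up H (Subgroup.inclusion (m59epo_GamHl_le hlM H) γ) := Subtype.ext rfl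
  rw [h2] at h
  show ((twe_hk_coc hqMl t₁ y (twe_hk_up (m59epo_Hl M l H) γ) : Gamma0 (M * l)) : SL(2, ℤ)) =
    ((twe_hk_coc hqM (lrm_incl M l t₁) y
      (twe_hk_up H (Subgroup.inclusion (m59epo_GamHl_le hlM H) γ)) : Gamma0 M) : SL(2, ℤ))
  rw [← h]
  rfl

/-- **`A ∘ T'_q = T'_q ∘ A`**. -/
theorem m59epoh_A_T (χ : Additive ↥(twe_GamH M H) →+ A) :
    m59epo_A hlM H s hs hnice (twe_hk_T hqM H (lrm_incl M l t₁) ht χ) =
      twe_hk_T hqMl (m59epo_Hl M l H) t₁ ht₁ (m59epo_A hlM H s hs hnice χ) := by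
  rw [m59epo_A_eq, m59epo_A_eq]
  refine AddMonoidHom.ext fun γ => ?_
  obtain ⟨γ, rfl⟩ := Additive.ofMul.surjective γ
  rw [lrpd_pull_apply, twe_hk_T_apply, twe_hk_T_apply]
  refine Finset.sum_congr rfl fun y _ => ?_
  rw [lrpd_pull_apply]
  have e : (twe_hk_data hqM H (lrm_incl M l t₁) ht).coc y
      (Subgroup.inclusion (m59epo_GamHl_le hlM H) γ) =
      Subgroup.inclusion (m59epo_GamHl_le hlM H)
        ((twe_hk_data hqMl (m59epo_Hl M l H) t₁ ht₁).coc y γ) :=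
    Subtype.ext (m59epoh_data_coc hlM hqM hqMl H t₁ ht ht₁ y γ).symm
  rw [e]

/-- the plain cocycle at `q`: the lower left entries. -/
theorem m59epoh_int_coc10 (y : OnePoint (ZMod q)) (γ : Gamma0 M) :
    (t2k_d q y : ℤ) * (γ : SL(2, ℤ)) 1 0 =
      ((t2c_coc hqM y γ : Gamma0 M) : SL(2, ℤ)) 1 0 *
        (t2k_a q (t2c_act (γ : SL(2, ℤ)) y) : ℤ) := by
  have hq0 : q ≠ 0 := (Fact.out : q.Prime).ne_zero
  have h := t2c_coc_spec hqM y γ
  have h2 := congrArg (fun g : GL (Fin 2) ℝ => (g : Matrix (Fin 2) (Fin 2) ℝ) 1 0) h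
  simp only [Matrix.GeneralLinearGroup.coe_mul, t2k_val_heckeRep hq0, Matrix.mul_apply,
    Fin.sum_univ_two, mapGL_apply] at h2
  simp at h2
  exact_mod_cast h2

include hqMl tnice in
/-- **(K)**: if the corrected cocycle at `q` of `g ∈ Γ₀(M)` fixes `∞ ∈ ℙ¹(𝔽_l)`, so does `g`. -/
theorem m59epoh_K_infty (y : OnePoint (ZMod q)) (g : Gamma0 M)
    (h : t2c_act ((twe_hk_coc hqM (lrm_incl M l t₁) y g : Gamma0 M) : SL(2, ℤ))
      (∞ : OnePoint (ZMod l)) = ∞) :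
    t2c_act ((g : Gamma0 M) : SL(2, ℤ)) (∞ : OnePoint (ZMod l)) = ∞ := by
  have tnice' : twe_hc_Nice l ((lrm_incl M l t₁ : Gamma0 M) : SL(2, ℤ)) := tnice
  unfold twe_hk_coc at h
  rw [Subgroup.coe_mul, Subgroup.coe_mul, Subgroup.coe_inv, t2c_act_mul, t2c_act_mul,
    twe_hc_nice_act (twe_hc_nice_inv (twe_hc_nice_sx tnice' y)),
    twe_hc_nice_act (twe_hc_nice_sx tnice' _)] at h
  rw [lrm_act_infty] at h ⊢
  have e := m59epoh_int_coc10 hqM y g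
  have h1 : (l : ℤ) ∣ (t2k_d q y : ℤ) * (g : SL(2, ℤ)) 1 0 := by
    rw [e]
    exact Dvd.dvd.mul_right h _
  exact lre_dvd_of_dvd_mul (N := M) (l := q) (q := l) hqMl (lre_ad_cases y).2 h1

/-- the Hecke datum at `q` of the level `M l`, transported to `Stab(∞)`. -/
def m59epoh_E1 :
    lrt_Data (lrt_stab (twe_hk_data hlM H s hs) (∞ : OnePoint (ZMod l))) (OnePoint (ZMod q)) where
  act g y := t2c_act (((g : ↥(twe_GamH M H)) : SL(2, ℤ))) y
  act_one y := by rw [Subgroup.coe_one, Subgroup.coe_one, t2c_act_one]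
  act_mul g h y := by rw [Subgroup.coe_mul, Subgroup.coe_mul, t2c_act_mul]
  coc y g := m59epo_toStab hlM H s hs
    ((twe_hk_data hqMl (m59epo_Hl M l H) t₁ ht₁).coc y (m59epo_ofStab hlM H s hs g))
  coc_one y := by
    rw [map_one, (twe_hk_data hqMl (m59epo_Hl M l H) t₁ ht₁).coc_one, map_one]
  coc_mul y g h := by
    rw [map_mul, (twe_hk_data hqMl (m59epo_Hl M l H) t₁ ht₁).coc_mul, map_mul]
    rfl

theorem m59epoh_E1_coc (y : OnePoint (ZMod q))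
    (g : lrt_stab (twe_hk_data hlM H s hs) (∞ : OnePoint (ZMod l))) :
    (((m59epoh_E1 hlM hqMl H s hs t₁ ht₁).coc y g :
      lrt_stab (twe_hk_data hlM H s hs) (∞ : OnePoint (ZMod l))) : ↥(twe_GamH M H)) =
      (twe_hk_data hqM H (lrm_incl M l t₁) ht).coc y (g : ↥(twe_GamH M H)) := by
  apply Subtype.ext
  exact m59epoh_data_coc hlM hqM hqMl H t₁ ht ht₁ y (m59epo_ofStab hlM H s hs g)

include tnice in
/-- **`T'_q ∘ At = At ∘ T'_q`**. -/
theorem m59epoh_At_T (φ : Additive ↥(twe_GamH (M * l) (m59epo_Hl M l H)) →+ A) :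
    twe_hk_T hqM H (lrm_incl M l t₁) ht (m59epo_At hlM H s hs hnice φ) =
      m59epo_At hlM H s hs hnice (twe_hk_T hqMl (m59epo_Hl M l H) t₁ ht₁ φ) := by
  have key := m59epo_abs_cor_T (twe_hk_data hlM H s hs) (∞ : OnePoint (ZMod l))
    (m59epo_r0 hlM H) (m59epo_r0_spec hlM H s hs)
    (twe_hk_data hqM H (lrm_incl M l t₁) ht) (m59epoh_E1 hlM hqMl H s hs t₁ ht₁)
    (fun y g => m59epoh_E1_coc hlM hqM hqMl H s hs t₁ ht ht₁ y g)
    (fun y g hg => m59epoh_K_infty hqM hqMl t₁ tnice y (twe_hk_up H g) hg)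
    (lrm_pull (m59epo_ofStab hlM H s hs) φ)
  show lrt_T (twe_hk_data hqM H (lrm_incl M l t₁) ht)
      (lrt_cor (twe_hk_data hlM H s hs) (∞ : OnePoint (ZMod l)) (m59epo_r0 hlM H)
        (m59epo_r0_spec hlM H s hs) (lrm_pull (m59epo_ofStab hlM H s hs) φ)) =
    lrt_cor (twe_hk_data hlM H s hs) (∞ : OnePoint (ZMod l)) (m59epo_r0 hlM H)
      (m59epo_r0_spec hlM H s hs) (lrm_pull (m59epo_ofStab hlM H s hs)
        (twe_hk_T hqMl (m59epo_Hl M l H) t₁ ht₁ φ))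
  rw [key]
  rfl

end main

/-! ### The linear forms -/

section lin

variable {R : Type*} [CommRing R] {A : Type*} [AddCommGroup A] [Module R A]
variable {M l q : ℕ} [Fact l.Prime] [Fact q.Prime] (hlM : ¬ l ∣ M) (hqM : ¬ q ∣ M)
  (hqMl : ¬ q ∣ M * l) (H : Subgroup (ZMod M)ˣ) (s : Gamma0 M)
  (hs : twe_dUnit M s * twe_dUnit M s * (twe_hk_lU hlM)⁻¹ ∈ H)
  (hnice : twe_hc_Nice l (s : SL(2, ℤ)))
  (t₁ : Gamma0 (M * l))
  (ht : twe_dUnit M (lrm_incl M l t₁) * twe_dUnit M (lrm_incl M l t₁) * (twe_hk_lU hqM)⁻¹ ∈ H)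
  (ht₁ : twe_dUnit (M * l) t₁ * twe_dUnit (M * l) t₁ * (twe_hk_lU hqMl)⁻¹ ∈ m59epo_Hl M l H)
  (tnice : twe_hc_Nice l (t₁ : SL(2, ℤ)))

/-- **`A ∘ T'_q = T'_q ∘ A`** on `W(Γ_H(M), A)`. -/
theorem m59epoh_lA_T (z : ↥(twe_wl_V R A (twe_GamH M H))) :
    m59epo_lA (R := R) hlM H s hs hnice (twe_wl_T hqM H (lrm_incl M l t₁) ht z) =
      twe_wl_T hqMl (m59epo_Hl M l H) t₁ ht₁ (m59epo_lA hlM H s hs hnice z) := by
  apply Subtype.ext
  rw [m59epo_lA_coe, twe_wl_T_coe, twe_wl_T_coe, m59epo_lA_coe]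
  exact m59epoh_A_T hlM hqM hqMl H s hs hnice t₁ ht ht₁ z.1

include tnice in
/-- **`T'_q ∘ At = At ∘ T'_q`** on `W(Γ_{H'}(Ml), A)`. -/
theorem m59epoh_lAt_T (z : ↥(twe_wl_V R A (twe_GamH (M * l) (m59epo_Hl M l H)))) :
    twe_wl_T hqM H (lrm_incl M l t₁) ht (m59epo_lAt (R := R) hlM H s hs hnice z) =
      m59epo_lAt hlM H s hs hnice (twe_wl_T hqMl (m59epo_Hl M l H) t₁ ht₁ z) := by
  apply Subtype.ext
  rw [twe_wl_T_coe, m59epo_lAt_coe, m59epo_lAt_coe, twe_wl_T_coe]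
  exact m59epoh_At_T hlM hqM hqMl H s hs hnice t₁ ht ht₁ tnice z.1

end lin

end Fermat.Agent.M59
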