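import Mathlib
import Fermat.Agent.M59.EP.OpsHkA
import Fermat.Agent.TW.Aut.NewHecke

/-!
# M59 / block [E'] / cell [EP-OPS](c) HECKE, part 2 (helper8): `B` commutes with `T'_q`
(prefix `m59epoh_`)

Setting of `OpsHkA.lean`.  `B = β'^*`, `β' = Ad(ρ)`, `ρ = twe_hc_rep s ∞ = s · diag(l, 1)`.
The twisted representatives `u(y) = t_y⁻¹ α_y` of `T'_q` satisfy

  `ρ u(y) ρ⁻¹ = τ(y) · u(σ y)`,  `τ(y) = s · cj(t_y)⁻¹ · [1 m; 0 1] · c_{l·y}(s⁻¹) · t_{σ y} ∈ Γ_H(M)`,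
  `σ y = (l · y) ⋆ s⁻¹`

(`m59epoh_B_match`; `cj = twe_bl_cj l`, `δ α_y δ⁻¹ = [1 m; 0 1] α_{l·y}` is `twe_nh_conj_rep`), and
`lre_sum_eq` turns this into `B ∘ T'_q = T'_q ∘ B` (`m59epoh_B_T`, linear form `m59epoh_lB_T`).
-/

set_option autoImplicit false
set_option linter.unusedSectionVars false

noncomputable section

open CongruenceSubgroup Matrix.SpecialLinearGroup
open P2MW.S_ModularForm_heckeT_slash_eq_self_of_mem_Gamma0.ModularForm.HeckeSlashInvariance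
open scoped MatrixGroups OnePoint

namespace Fermat.Agent.M59

open Fermat.Agent.JT3 Fermat.Agent.LR Fermat.Agent.TW

section gen

variable {M l q : ℕ} [Fact l.Prime] [Fact q.Prime]

theorem m59epoh_l_ne_zero : l ≠ 0 := (Fact.out : l.Prime).ne_zero

/-- `heckeRep l ∞ = diag(l, 1)`. -/
theorem m59epoh_rep_infty : heckeRep l (∞ : OnePoint (ZMod l)) = twe_bl_delta l m59epoh_l_ne_zero := by
  apply Matrix.GeneralLinearGroup.ext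
  intro i j
  rw [heckeRep_infty, ModularForm.val_heckeDiagMatrix m59epoh_l_ne_zero, twe_bl_delta_val]

/-- the translation `[1 m; 0 1]` in `Γ₀(M)`. -/
def m59epoh_tr (M : ℕ) (m : ℤ) : Gamma0 M := ⟨t2k_trans m, t2k_trans_mem M m⟩

theorem m59epoh_dUnit_tr (m : ℤ) : twe_dUnit M (m59epoh_tr M m) = 1 := by
  apply Units.ext
  rw [twe_dUnit_coe]
  show (((t2k_trans m) 1 1 : ℤ) : ZMod M) = _
  rw [t2k_trans_11]
  simp

theorem m59epoh_div : l * M ∣ M * l := by rw [mul_comm]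

/-- the balancing conjugation `cj = Ad diag(l, 1) : Γ₀(M l) → Γ₀(M)` keeps the class of `d`. -/
theorem m59epoh_dUnit_cj (g : Gamma0 (M * l)) :
    twe_dUnit M (twe_bl_cj l (M * l) M m59epoh_l_ne_zero m59epoh_div g) =
      twe_dUnit M (lrm_incl M l g) := by
  apply Units.ext
  rw [twe_dUnit_coe, twe_dUnit_coe, twe_bl_cj_11]
  rfl

theorem m59epoh_eU_sig (hqM : ¬ q ∣ M) (L : ℕ) (y : OnePoint (ZMod q)) :
    twe_hk_eU hqM (twe_nh_sig q L y) = twe_hk_eU hqM y := by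
  induction y using OnePoint.rec with
  | infty => rfl
  | coe j => rfl

theorem m59epoh_comm5 {G : Type*} [CommGroup G] (a b c d e : G) :
    a * b⁻¹ * 1 * (c * a⁻¹ * e⁻¹) * d = b⁻¹ * c * (d⁻¹ * e)⁻¹ := by
  rw [mul_inv_rev, inv_inv, mul_one]
  have : a * b⁻¹ * (c * a⁻¹ * e⁻¹) * d = (a * a⁻¹) * (b⁻¹ * c * (e⁻¹ * d)) := by ac_rfl
  rw [this, mul_inv_cancel, one_mul]

/-- the group-theoretic skeleton of the `B`-matching. -/
theorem m59epoh_B_skel {G : Type*} [Group G] (S δ T C a Tr a₁ Co a₂ T₂ : G)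
    (e1 : δ * T = C * δ) (e2 : δ * a = Tr * a₁ * δ) (e3 : a₁ * S⁻¹ = Co * a₂) :
    (S⁻¹)⁻¹ * δ * (T⁻¹ * a) * ((S⁻¹)⁻¹ * δ)⁻¹ = S * C⁻¹ * Tr * Co * T₂ * (T₂⁻¹ * a₂) := by
  have h1 : δ * T⁻¹ = C⁻¹ * δ := by
    have : T = δ⁻¹ * C * δ := by rw [mul_assoc, ← e1, inv_mul_cancel_left]
    rw [this]
    group
  calc (S⁻¹)⁻¹ * δ * (T⁻¹ * a) * ((S⁻¹)⁻¹ * δ)⁻¹ = S * (δ * T⁻¹) * a * δ⁻¹ * S⁻¹ := by group
    _ = S * (C⁻¹ * δ) * a * δ⁻¹ * S⁻¹ := by rw [h1]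
    _ = S * C⁻¹ * (δ * a) * δ⁻¹ * S⁻¹ := by group
    _ = S * C⁻¹ * (Tr * a₁ * δ) * δ⁻¹ * S⁻¹ := by rw [e2]
    _ = S * C⁻¹ * Tr * (a₁ * S⁻¹) := by group
    _ = S * C⁻¹ * Tr * (Co * a₂) := by rw [e3]
    _ = S * C⁻¹ * Tr * Co * T₂ * (T₂⁻¹ * a₂) := by group

end gen

section main

variable {M l q : ℕ} [Fact l.Prime] [Fact q.Prime] (hlM : ¬ l ∣ M) (hqM : ¬ q ∣ M)
  (hqMl : ¬ q ∣ M * l) (H : Subgroup (ZMod M)ˣ) (s : Gamma0 M)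
  (hs : twe_dUnit M s * twe_dUnit M s * (twe_hk_lU hlM)⁻¹ ∈ H)
  (hnice : twe_hc_Nice l (s : SL(2, ℤ)))
  (t₁ : Gamma0 (M * l))
  (ht : twe_dUnit M (lrm_incl M l t₁) * twe_dUnit M (lrm_incl M l t₁) * (twe_hk_lU hqM)⁻¹ ∈ H)
  (ht₁ : twe_dUnit (M * l) t₁ * twe_dUnit (M * l) t₁ * (twe_hk_lU hqMl)⁻¹ ∈ m59epo_Hl M l H)
  {A : Type*} [AddCommGroup A]

/-- the matching of the points: `σ y = (l · y) ⋆ s⁻¹`. -/
def m59epoh_Bsig (y : OnePoint (ZMod q)) : OnePoint (ZMod q) :=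
  t2c_act (((s⁻¹ : Gamma0 M) : Gamma0 M) : SL(2, ℤ)) (twe_nh_sig q l y)

include hqMl in
theorem m59epoh_q_not_dvd_l : ¬ q ∣ l := fun h => hqMl (h.trans (dvd_mul_left l M))

include hqMl in
theorem m59epoh_Bsig_bijective : Function.Bijective (m59epoh_Bsig (l := l) (q := q) s) := by
  have h1 := twe_nh_sig_bijective (ℓ := q) l (m59epoh_q_not_dvd_l hqMl)
  exact (t2c_perm (((s⁻¹ : Gamma0 M) : Gamma0 M) : SL(2, ℤ))).bijective.comp h1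

/-- the connecting elements in `Γ₀(M)`. -/
def m59epoh_Btau0 (y : OnePoint (ZMod q)) : Gamma0 M :=
  s * (twe_bl_cj l (M * l) M m59epoh_l_ne_zero m59epoh_div (twe_hk_sx t₁ y))⁻¹ *
    m59epoh_tr M (twe_nh_m q l y) * t2c_coc hqM (twe_nh_sig q l y) s⁻¹ *
    twe_hk_sx (lrm_incl M l t₁) (m59epoh_Bsig (l := l) s y)

/-- the class of `τ(y)`. -/
theorem m59epoh_Btau0_dUnit (y : OnePoint (ZMod q)) :
    twe_dUnit M (m59epoh_Btau0 hqM s t₁ y) =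
      twe_hk_f hqM (lrm_incl M l t₁) y *
        (twe_hk_f hqM (lrm_incl M l t₁) (m59epoh_Bsig (l := l) s y))⁻¹ := by
  unfold m59epoh_Btau0 twe_hk_f
  rw [map_mul, map_mul, map_mul, map_mul, map_inv, m59epoh_dUnit_cj, m59epoh_dUnit_tr,
    twe_hk_dUnit_coc, m59epoh_eU_sig, map_inv, m59epoh_sx_incl]
  have : t2c_act (((s⁻¹ : Gamma0 M) : Gamma0 M) : SL(2, ℤ)) (twe_nh_sig q l y) =
      m59epoh_Bsig (l := l) s y := rfl
  rw [this]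
  exact m59epoh_comm5 _ _ _ _ _

include ht in
/-- `τ(y) ∈ Γ_H(M)`. -/
theorem m59epoh_Btau0_mem (y : OnePoint (ZMod q)) :
    ((m59epoh_Btau0 hqM s t₁ y : Gamma0 M) : SL(2, ℤ)) ∈ twe_GamH M H := by
  refine twe_mem_GamH.mpr ⟨(m59epoh_Btau0 hqM s t₁ y).2, ?_⟩
  have h1 : (⟨((m59epoh_Btau0 hqM s t₁ y : Gamma0 M) : SL(2, ℤ)),
      (m59epoh_Btau0 hqM s t₁ y).2⟩ : Gamma0 M) = m59epoh_Btau0 hqM s t₁ y := rfl
  rw [h1, m59epoh_Btau0_dUnit]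
  exact twe_hk_f_div_mem hqM (lrm_incl M l t₁) ht _ _

/-- the connecting elements in `Γ_H(M)`. -/
def m59epoh_Btau (y : OnePoint (ZMod q)) : ↥(twe_GamH M H) :=
  ⟨((m59epoh_Btau0 hqM s t₁ y : Gamma0 M) : SL(2, ℤ)), m59epoh_Btau0_mem hqM H s t₁ ht y⟩

/-- **the `B`-matching**: `ρ u(y) ρ⁻¹ = τ(y) u(σ y)`, `ρ = twe_hc_rep s ∞`. -/
theorem m59epoh_B_match (y : OnePoint (ZMod q)) :
    twe_hc_rep s (∞ : OnePoint (ZMod l)) * twe_hc_rep (lrm_incl M l t₁) y *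
        (twe_hc_rep s (∞ : OnePoint (ZMod l)))⁻¹ =
      mapGL ℝ ((m59epoh_Btau0 hqM s t₁ y : Gamma0 M) : SL(2, ℤ)) *
        twe_hc_rep (lrm_incl M l t₁) (m59epoh_Bsig (l := l) s y) := by
  have e1 := twe_bl_cj_GL (m := l) (A := M * l) (B := M) m59epoh_l_ne_zero m59epoh_div
    (twe_hk_sx t₁ y)
  have e2 := twe_nh_conj_rep (ℓ := q) l m59epoh_l_ne_zero y
  have e3 := t2c_coc_spec hqM (twe_nh_sig q l y) (s⁻¹ : Gamma0 M)
  rw [Subgroup.coe_inv, map_inv] at e3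
  have hsx : ((twe_hk_sx (lrm_incl M l t₁) y : Gamma0 M) : SL(2, ℤ)) =
      ((twe_hk_sx t₁ y : Gamma0 (M * l)) : SL(2, ℤ)) := by
    rw [← m59epoh_sx_incl]
    rfl
  have hsinf : ((twe_hk_sx s (∞ : OnePoint (ZMod l)) : Gamma0 M) : SL(2, ℤ)) =
      ((s : Gamma0 M) : SL(2, ℤ))⁻¹ := by
    show (((s⁻¹ : Gamma0 M) : Gamma0 M) : SL(2, ℤ)) = _
    rw [Subgroup.coe_inv]
  unfold twe_hc_rep m59epoh_Btau0
  rw [hsx, hsinf, m59epoh_rep_infty, map_inv]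
  simp only [Subgroup.coe_mul, Subgroup.coe_inv, map_mul, map_inv]
  exact m59epoh_B_skel _ _ _ _ _ _ _ _ _ _ e1 e2 e3

/-- `β' = coc ∞ ∘ toStab : Γ_{H'}(M l) → Γ_H(M)`. -/
def m59epoh_beta : ↥(twe_GamH (M * l) (m59epo_Hl M l H)) →* ↥(twe_GamH M H) :=
  (lrt_beta (twe_hk_data hlM H s hs) (∞ : OnePoint (ZMod l))).comp (m59epo_toStab hlM H s hs)

/-- `β'` is conjugation by `ρ = twe_hc_rep s ∞` in `GL₂(ℝ)`. -/
theorem m59epoh_beta_real (γ : ↥(twe_GamH (M * l) (m59epo_Hl M l H))) :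
    twe_hc_iota H (m59epoh_beta hlM H s hs γ) =
      twe_hc_rep s (∞ : OnePoint (ZMod l)) * mapGL ℝ (γ : SL(2, ℤ)) *
        (twe_hc_rep s (∞ : OnePoint (ZMod l)))⁻¹ := by
  have h := twe_hc_rep_spec hlM s (∞ : OnePoint (ZMod l))
    (twe_hk_up H ((m59epo_toStab hlM H s hs γ : lrt_stab (twe_hk_data hlM H s hs) _) :
      ↥(twe_GamH M H)))
  have hfix : t2c_act ((twe_hk_up H ((m59epo_toStab hlM H s hs γ :
      lrt_stab (twe_hk_data hlM H s hs) _) : ↥(twe_GamH M H)) : Gamma0 M) : SL(2, ℤ))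
      (∞ : OnePoint (ZMod l)) = ∞ := (m59epo_toStab hlM H s hs γ).2
  rw [hfix] at h
  rw [eq_mul_inv_iff_mul_eq]
  exact h.symm

theorem m59epoh_B_apply (χ : Additive ↥(twe_GamH M H) →+ A)
    (γ : ↥(twe_GamH (M * l) (m59epo_Hl M l H))) :
    m59epo_B hlM H s hs hnice χ (Additive.ofMul γ) =
      χ (Additive.ofMul (m59epoh_beta hlM H s hs γ)) := rfl

/-- separation of the twisted representatives. -/
theorem m59epoh_rep_sep (t : Gamma0 M) (y y' : OnePoint (ZMod q)) (d : SL(2, ℤ))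
    (h : twe_hc_rep t y = mapGL ℝ d * twe_hc_rep t y') : y = y' := by
  unfold twe_hc_rep at h
  refine lre_alpha_sep y y'
    (((twe_hk_sx t y : Gamma0 M) : SL(2, ℤ)) * d * ((twe_hk_sx t y' : Gamma0 M) : SL(2, ℤ))⁻¹) ?_
  rw [map_mul, map_mul, map_inv]
  have h2 : heckeRep q y = mapGL ℝ ((twe_hk_sx t y : Gamma0 M) : SL(2, ℤ)) *
      (mapGL ℝ d * ((mapGL ℝ ((twe_hk_sx t y' : Gamma0 M) : SL(2, ℤ)))⁻¹ * heckeRep q y')) := by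
    rw [← h, mul_inv_cancel_left]
  rw [h2]
  group

/-- **`B ∘ T'_q = T'_q ∘ B`**. -/
theorem m59epoh_B_T (χ : Additive ↥(twe_GamH M H) →+ A) :
    m59epo_B hlM H s hs hnice (twe_hk_T hqM H (lrm_incl M l t₁) ht χ) =
      twe_hk_T hqMl (m59epo_Hl M l H) t₁ ht₁ (m59epo_B hlM H s hs hnice χ) := by
  refine AddMonoidHom.ext fun γ' => ?_
  obtain ⟨γ, rfl⟩ := Additive.ofMul.surjective γ'
  rw [m59epoh_B_apply, twe_hk_T_apply, twe_hk_T_apply]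
  simp only [m59epoh_B_apply]
  set t := lrm_incl M l t₁ with ht_def
  set ρ := twe_hc_rep s (∞ : OnePoint (ZMod l)) with hρ
  set E := twe_hk_data hqM H t ht with hE
  set E' := twe_hk_data hqMl (m59epo_Hl M l H) t₁ ht₁ with hE'
  set βh := m59epoh_beta hlM H s hs with hβ
  symm
  refine lre_sum_eq ((twe_hc_iota H).comp βh) (twe_hc_iota H)
    (fun y => ρ * twe_hc_rep t y * ρ⁻¹) (fun y => twe_hc_rep t y)
    (fun γ => t2c_perm ((γ : ↥(twe_GamH (M * l) (m59epo_Hl M l H))) : SL(2, ℤ)))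
    (fun γ y => t2c_act ((βh γ : ↥(twe_GamH M H)) : SL(2, ℤ)) y)
    (fun y γ => βh (E'.coc y γ)) (fun y γ => E.coc y (βh γ)) ?_ ?_
    (twe_hc_iota_injective H) ?_ (m59epoh_Bsig (l := l) s) (m59epoh_Bsig_bijective hqMl s)
    (m59epoh_Btau hqM H s t₁ ht) ?_ χ γ
  · -- hX
    intro y γ
    have h1 := twe_hc_rep_spec hqM t y
      (twe_hk_up H (Subgroup.inclusion (m59epo_GamHl_le hlM H) γ))
    have h2 : ((twe_hk_coc hqM t y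
        (twe_hk_up H (Subgroup.inclusion (m59epo_GamHl_le hlM H) γ)) : Gamma0 M) : SL(2, ℤ)) =
        ((E'.coc y γ : ↥(twe_GamH (M * l) (m59epo_Hl M l H))) : SL(2, ℤ)) :=
      (m59epoh_data_coc hlM hqM hqMl H t₁ ht ht₁ y γ).symm
    rw [h2] at h1
    show ρ * twe_hc_rep t y * ρ⁻¹ * twe_hc_iota H (βh γ) =
      twe_hc_iota H (βh (E'.coc y γ)) * (ρ * twe_hc_rep t (t2c_act (γ : SL(2, ℤ)) y) * ρ⁻¹)
    rw [m59epoh_beta_real, m59epoh_beta_real, ← hρ]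
    have h3 : twe_hc_rep t y * mapGL ℝ ((γ : ↥(twe_GamH (M * l) (m59epo_Hl M l H))) : SL(2, ℤ)) =
        mapGL ℝ ((E'.coc y γ : ↥(twe_GamH (M * l) (m59epo_Hl M l H))) : SL(2, ℤ)) *
          twe_hc_rep t (t2c_act (γ : SL(2, ℤ)) y) := h1
    calc ρ * twe_hc_rep t y * ρ⁻¹ * (ρ * mapGL ℝ (γ : SL(2, ℤ)) * ρ⁻¹)
        = ρ * (twe_hc_rep t y * mapGL ℝ (γ : SL(2, ℤ))) * ρ⁻¹ := by group
      _ = ρ * (mapGL ℝ ((E'.coc y γ : ↥(twe_GamH (M * l) (m59epo_Hl M l H))) : SL(2, ℤ)) *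
            twe_hc_rep t (t2c_act (γ : SL(2, ℤ)) y)) * ρ⁻¹ := by rw [h3]
      _ = _ := by group
  · -- hY
    intro y γ
    exact twe_hc_rep_spec hqM t y (twe_hk_up H (βh γ))
  · -- hsep
    intro y y' d h
    exact m59epoh_rep_sep t y y' (d : SL(2, ℤ)) h
  · -- hτ
    intro y
    exact m59epoh_B_match hqM s t₁ y

end main

/-! ### The linear form -/

section lin

variable {R : Type*} [CommRing R] {A : Type*} [AddCommGroup A] [Module R A]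
variable {M l q : ℕ} [Fact l.Prime] [Fact q.Prime] (hlM : ¬ l ∣ M) (hqM : ¬ q ∣ M)
  (hqMl : ¬ q ∣ M * l) (H : Subgroup (ZMod M)ˣ) (s : Gamma0 M)
  (hs : twe_dUnit M s * twe_dUnit M s * (twe_hk_lU hlM)⁻¹ ∈ H)
  (hnice : twe_hc_Nice l (s : SL(2, ℤ)))
  (t₁ : Gamma0 (M * l))
  (ht : twe_dUnit M (lrm_incl M l t₁) * twe_dUnit M (lrm_incl M l t₁) * (twe_hk_lU hqM)⁻¹ ∈ H)
  (ht₁ : twe_dUnit (M * l) t₁ * twe_dUnit (M * l) t₁ * (twe_hk_lU hqMl)⁻¹ ∈ m59epo_Hl M l H)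

/-- **`B ∘ T'_q = T'_q ∘ B`** on `W(Γ_H(M), A)`. -/
theorem m59epoh_lB_T (z : ↥(twe_wl_V R A (twe_GamH M H))) :
    m59epo_lB (R := R) hlM H s hs hnice (twe_wl_T hqM H (lrm_incl M l t₁) ht z) =
      twe_wl_T hqMl (m59epo_Hl M l H) t₁ ht₁ (m59epo_lB hlM H s hs hnice z) := by
  apply Subtype.ext
  rw [m59epo_lB_coe, twe_wl_T_coe, twe_wl_T_coe, m59epo_lB_coe]
  exact m59epoh_B_T hlM hqM hqMl H s hs hnice t₁ ht ht₁ z.1

end lin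

end Fermat.Agent.M59
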