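import Mathlib
import Fermat.Agent.M59.EP.OpsAbsT

/-!
# M59 / block [E'] / cell [EP-OPS](c) HECKE, part 0' (helper8): the TWISTED abstract commutation
(prefix `m59epoh_abs_`)

* `m59epoh_abs_match_key` : the termwise content of `lre_sum_eq` (two realised coset systems, a
  matching `r x = ι₂ (τ x) · s (σ x)`, separation of the second system): `σ` intertwines the actions
  and `cX x γ · τ (x ⋆ γ) = τ x · cY (σ x) γ`;
* `m59epoh_abs_cor_T_tw` : `D : lrt_Data G X`, `x₀`, `r`; `E` a second datum on `G` (set `Y`), `E₀` a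
  datum on `Stab(x₀)` which is `E` TWISTED by `(σ, τ)`, `σ : Y → Y` bijective, `τ : Y → G`:
    (hσ) `σ (y ⋆₀ s) = (σ y) ⋆ s`,   (hT) `E₀.coc y s · τ (y ⋆₀ s) = τ y · E.coc (σ y) s`,
    (hK) `(σ y₂) ⋆ t = σ y → τ y₂ · E.coc (σ y₂) t · (τ y)⁻¹ ∈ Stab(x₀) → t ∈ Stab(x₀)`;
  then `T_E ∘ cor = cor ∘ T_{E₀}`.  (`σ = id`, `τ = 1` is `m59epo_abs_cor_T`.)
-/

set_option autoImplicit false

noncomputable section

namespace Fermat.Agent.M59

open Fermat.Agent.LR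

/-- the termwise content of `lre_sum_eq`. -/
theorem m59epoh_abs_match_key {G Γ₁ Γ₂ : Type*} [Group G] [Group Γ₁] [Group Γ₂]
    (ι₁ : Γ₁ →* G) (ι₂ : Γ₂ →* G) {X Y : Type*}
    (r : X → G) (s : Y → G) (actX : Γ₁ → X → X) (actY : Γ₁ → Y → Y)
    (cX : X → Γ₁ → Γ₂) (cY : Y → Γ₁ → Γ₂)
    (hX : ∀ x γ, r x * ι₁ γ = ι₂ (cX x γ) * r (actX γ x))
    (hY : ∀ y γ, s y * ι₁ γ = ι₂ (cY y γ) * s (actY γ y))
    (hι : Function.Injective ι₂)
    (hsep : ∀ y y' (δ : Γ₂), s y = ι₂ δ * s y' → y = y')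
    (σ : X → Y) (τ : X → Γ₂) (hτ : ∀ x, r x = ι₂ (τ x) * s (σ x)) (x : X) (γ : Γ₁) :
    σ (actX γ x) = actY γ (σ x) ∧ cX x γ * τ (actX γ x) = τ x * cY (σ x) γ := by
  have h1 : ι₂ (cX x γ * τ (actX γ x)) * s (σ (actX γ x)) =
      ι₂ (τ x * cY (σ x) γ) * s (actY γ (σ x)) := by
    rw [map_mul, map_mul, mul_assoc, ← hτ, ← hX, hτ x, mul_assoc, hY, ← mul_assoc]
  have h2 : s (σ (actX γ x)) =
      ι₂ ((cX x γ * τ (actX γ x))⁻¹ * (τ x * cY (σ x) γ)) * s (actY γ (σ x)) := by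
    rw [map_mul, map_inv, mul_assoc, ← h1, inv_mul_cancel_left]
  have h3 := hsep _ _ _ h2
  refine ⟨h3, ?_⟩
  rw [h3] at h1
  exact hι (mul_right_cancel h1)

section corT

variable {G : Type*} {X Y : Type*} {A : Type*} [Group G] [AddCommGroup A]
variable (D : lrt_Data G X) (x₀ : X) (r : X → G) (hr : ∀ x, D.act (r x) x₀ = x)
variable (E : lrt_Data G Y) (E₀ : lrt_Data (lrt_stab D x₀) Y) (σ : Y → Y) (τ : Y → G)
  (hσ : ∀ (s : lrt_stab D x₀) (y : Y), σ (E₀.act s y) = E.act (s : G) (σ y))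
  (hT : ∀ (y : Y) (s : lrt_stab D x₀),
    ((E₀.coc y s : lrt_stab D x₀) : G) * τ (E₀.act s y) = τ y * E.coc (σ y) (s : G))
  (hK : ∀ (y₂ y : Y) (t : G), E.act t (σ y₂) = σ y →
    τ y₂ * E.coc (σ y₂) t * (τ y)⁻¹ ∈ lrt_stab D x₀ → t ∈ lrt_stab D x₀)

/-- `k(x, y) = τ_y · c_{σ y}(r_x)`. -/
def m59epoh_abs_k (z : X × Y) : G := τ z.2 * E.coc (σ z.2) (r z.1)

/-- `ω(x, y) = x₀ ⋆ k(x, y)`. -/
def m59epoh_abs_om (z : X × Y) : X := D.act (m59epoh_abs_k r E σ τ z) x₀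

include hr in
theorem m59epoh_abs_h_mem (z : X × Y) :
    m59epoh_abs_k r E σ τ z * (r (m59epoh_abs_om D x₀ r E σ τ z))⁻¹ ∈ lrt_stab D x₀ := by
  show D.act (m59epoh_abs_k r E σ τ z * (r (m59epoh_abs_om D x₀ r E σ τ z))⁻¹) x₀ = x₀
  rw [D.act_mul]
  have h := lrt_act_inv D (r (m59epoh_abs_om D x₀ r E σ τ z)) x₀
  rw [hr] at h
  exact h

/-- `h(x, y) = k(x, y) · r_{ω(x,y)}⁻¹ ∈ Stab(x₀)`. -/
def m59epoh_abs_h (z : X × Y) : lrt_stab D x₀ :=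
  ⟨m59epoh_abs_k r E σ τ z * (r (m59epoh_abs_om D x₀ r E σ τ z))⁻¹,
    m59epoh_abs_h_mem D x₀ r hr E σ τ z⟩

/-- the matching `Ω(x, y) = (ω(x, y), (σ y) ⋆ r_x)`. -/
def m59epoh_abs_Om (z : X × Y) : X × Y :=
  (m59epoh_abs_om D x₀ r E σ τ z, E.act (r z.1) (σ z.2))

include hr hK in
theorem m59epoh_abs_Om_injective (hσi : Function.Injective σ) :
    Function.Injective (m59epoh_abs_Om D x₀ r E σ τ) := by
  rintro ⟨x, y⟩ ⟨x₂, y₂⟩ h
  have h1 : D.act (τ y * E.coc (σ y) (r x)) x₀ = D.act (τ y₂ * E.coc (σ y₂) (r x₂)) x₀ :=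
    congrArg Prod.fst h
  have h2 : E.act (r x) (σ y) = E.act (r x₂) (σ y₂) := congrArg Prod.snd h
  set t : G := r x₂ * (r x)⁻¹ with ht
  have hty : E.act t (σ y₂) = σ y := by
    rw [ht, E.act_mul, ← h2]
    exact lrt_act_inv E (r x) (σ y)
  have hc : τ y₂ * E.coc (σ y₂) (r x₂) =
      (τ y₂ * E.coc (σ y₂) t * (τ y)⁻¹) * (τ y * E.coc (σ y) (r x)) := by
    have : r x₂ = t * r x := by rw [ht, inv_mul_cancel_right]
    rw [this, E.coc_mul, hty]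
    group
  have h1' : (lrt_perm D (τ y * E.coc (σ y) (r x))) x₀ =
      (lrt_perm D (τ y * E.coc (σ y) (r x))) (D.act (τ y₂ * E.coc (σ y₂) t * (τ y)⁻¹) x₀) := by
    rw [lrt_perm_apply, lrt_perm_apply, ← D.act_mul, ← hc]
    exact h1
  have h3 : D.act (τ y₂ * E.coc (σ y₂) t * (τ y)⁻¹) x₀ = x₀ :=
    ((lrt_perm D (τ y * E.coc (σ y) (r x))).injective h1').symm
  have h4 : t ∈ lrt_stab D x₀ := hK y₂ y t hty h3
  have h5 : D.act (r x)⁻¹ x₂ = x₀ := by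
    have : D.act t x₀ = x₀ := h4
    rwa [ht, D.act_mul, hr] at this
  have hx : x₂ = x := by
    have := congrArg (D.act (r x)) h5
    rwa [lrt_act_inv' D (r x) x₂, hr] at this
  subst hx
  have hy : σ y = σ y₂ := (lrt_perm E (r x₂)).injective h2
  rw [hσi hy]

include hσ hT in
/-- the cocycle identity behind the commutation. -/
theorem m59epoh_abs_key (x : X) (y : Y) (g : G) :
    m59epoh_abs_om D x₀ r E σ τ (D.act g x, E₀.act (lrt_a D x₀ r hr x g) y) =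
        D.act (E.coc (E.act (r x) (σ y)) g) (m59epoh_abs_om D x₀ r E σ τ (x, y)) ∧
    E₀.coc y (lrt_a D x₀ r hr x g) *
        m59epoh_abs_h D x₀ r hr E σ τ (D.act g x, E₀.act (lrt_a D x₀ r hr x g) y) =
      m59epoh_abs_h D x₀ r hr E σ τ (x, y) *
        lrt_a D x₀ r hr (m59epoh_abs_om D x₀ r E σ τ (x, y)) (E.coc (E.act (r x) (σ y)) g) := by
  set a := lrt_a D x₀ r hr x g with ha
  have hmul : (a : G) * r (D.act g x) = r x * g := by
    rw [ha, lrt_a_coe, inv_mul_cancel_right]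
  have hsplit : ((E₀.coc y a : lrt_stab D x₀) : G) *
      m59epoh_abs_k r E σ τ (D.act g x, E₀.act a y) =
      m59epoh_abs_k r E σ τ (x, y) * E.coc (E.act (r x) (σ y)) g := by
    show ((E₀.coc y a : lrt_stab D x₀) : G) *
      (τ (E₀.act a y) * E.coc (σ (E₀.act a y)) (r (D.act g x))) =
      τ y * E.coc (σ y) (r x) * E.coc (E.act (r x) (σ y)) g
    rw [← mul_assoc, hT, hσ, mul_assoc, ← E.coc_mul, hmul, E.coc_mul, mul_assoc]
  have hstab : D.act ((E₀.coc y a : lrt_stab D x₀) : G) x₀ = x₀ := (E₀.coc y a).2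
  have hom : m59epoh_abs_om D x₀ r E σ τ (D.act g x, E₀.act a y) =
      D.act (E.coc (E.act (r x) (σ y)) g) (m59epoh_abs_om D x₀ r E σ τ (x, y)) := by
    show D.act (m59epoh_abs_k r E σ τ (D.act g x, E₀.act a y)) x₀ =
      D.act (E.coc (E.act (r x) (σ y)) g) (D.act (m59epoh_abs_k r E σ τ (x, y)) x₀)
    rw [← D.act_mul, ← hsplit, D.act_mul, hstab]
  refine ⟨hom, ?_⟩
  apply Subtype.ext
  rw [Subgroup.coe_mul, Subgroup.coe_mul, lrt_a_coe]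
  show ((E₀.coc y a : lrt_stab D x₀) : G) *
      (m59epoh_abs_k r E σ τ (D.act g x, E₀.act a y) *
        (r (m59epoh_abs_om D x₀ r E σ τ (D.act g x, E₀.act a y)))⁻¹) =
    m59epoh_abs_k r E σ τ (x, y) * (r (m59epoh_abs_om D x₀ r E σ τ (x, y)))⁻¹ *
      (r (m59epoh_abs_om D x₀ r E σ τ (x, y)) * E.coc (E.act (r x) (σ y)) g *
        (r (D.act (E.coc (E.act (r x) (σ y)) g) (m59epoh_abs_om D x₀ r E σ τ (x, y))))⁻¹)
  rw [hom, ← mul_assoc, hsplit]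
  group

variable [Fintype X] [Fintype Y]

include hσ hT hK in
/-- **the transfer commutes with the cocycle operator of a second datum, twisted form.** -/
theorem m59epoh_abs_cor_T_tw (hσb : Function.Bijective σ)
    (φ : Additive (lrt_stab D x₀) →+ A) :
    lrt_T E (lrt_cor D x₀ r hr φ) = lrt_cor D x₀ r hr (lrt_T E₀ φ) := by
  classical
  refine lrt_ext fun g => ?_
  have hL : lrt_ev (lrt_T E (lrt_cor D x₀ r hr φ)) g =
      ∑ z : X × Y, lrt_ev φ (lrt_a D x₀ r hr z.1 (E.coc z.2 g)) := by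
    rw [lrt_T_ev, Fintype.sum_prod_type, Finset.sum_comm]
    refine Finset.sum_congr rfl fun y _ => ?_
    rw [lrt_cor_ev]
  have hR : lrt_ev (lrt_cor D x₀ r hr (lrt_T E₀ φ)) g =
      ∑ z : X × Y, lrt_ev φ (E₀.coc z.2 (lrt_a D x₀ r hr z.1 g)) := by
    rw [lrt_cor_ev, Fintype.sum_prod_type]
    refine Finset.sum_congr rfl fun x _ => ?_
    rw [lrt_T_ev]
  rw [hL, hR]
  set S : X × Y ≃ X × Y := Equiv.prodShear (lrt_perm D g)
    (fun x => lrt_perm E₀ (lrt_a D x₀ r hr x g)) with hS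
  have hSz : ∀ z : X × Y, S z = (D.act g z.1, E₀.act (lrt_a D x₀ r hr z.1 g) z.2) :=
    fun z => rfl
  have hΩ : Function.Bijective (m59epoh_abs_Om D x₀ r E σ τ) := by
    rw [Fintype.bijective_iff_injective_and_card]
    exact ⟨m59epoh_abs_Om_injective D x₀ r hr E σ τ hK hσb.injective, rfl⟩
  have hterm : ∀ z : X × Y, lrt_ev φ (E₀.coc z.2 (lrt_a D x₀ r hr z.1 g)) =
      lrt_ev φ (m59epoh_abs_h D x₀ r hr E σ τ z) +
        lrt_ev φ (lrt_a D x₀ r hr (m59epoh_abs_Om D x₀ r E σ τ z).1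
          (E.coc (m59epoh_abs_Om D x₀ r E σ τ z).2 g)) -
        lrt_ev φ (m59epoh_abs_h D x₀ r hr E σ τ (S z)) := by
    rintro ⟨x, y⟩
    have h := congrArg (lrt_ev φ) (m59epoh_abs_key D x₀ r hr E E₀ σ τ hσ hT x y g).2
    rw [lrt_ev_mul, lrt_ev_mul] at h
    rw [hSz]
    show _ = lrt_ev φ (m59epoh_abs_h D x₀ r hr E σ τ (x, y)) +
      lrt_ev φ (lrt_a D x₀ r hr (m59epoh_abs_om D x₀ r E σ τ (x, y))
        (E.coc (E.act (r x) (σ y)) g)) -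
      lrt_ev φ (m59epoh_abs_h D x₀ r hr E σ τ
        (D.act g x, E₀.act (lrt_a D x₀ r hr x g) y))
    rw [← h]
    abel
  rw [Finset.sum_congr rfl fun z _ => hterm z, Finset.sum_sub_distrib, Finset.sum_add_distrib,
    Equiv.sum_comp S fun z => lrt_ev φ (m59epoh_abs_h D x₀ r hr E σ τ z)]
  have h4 : ∑ z : X × Y, lrt_ev φ (lrt_a D x₀ r hr (m59epoh_abs_Om D x₀ r E σ τ z).1
      (E.coc (m59epoh_abs_Om D x₀ r E σ τ z).2 g)) =
      ∑ z : X × Y, lrt_ev φ (lrt_a D x₀ r hr z.1 (E.coc z.2 g)) :=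
    (Equiv.ofBijective _ hΩ).sum_comp fun z => lrt_ev φ (lrt_a D x₀ r hr z.1 (E.coc z.2 g))
  rw [h4]
  abel

end corT

end Fermat.Agent.M59
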