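import Mathlib
import Fermat.Agent.M59.EP.OpsHkB
import Fermat.Agent.M59.EP.OpsAbsT2
import Fermat.Agent.M59.EP.OpsDia
import Fermat.Agent.TW.Aut.NewVB

/-!
# M59 / block [E'] / cell [EP-OPS](c) HECKE, part 3 (helper8): `Bt` commutes with `T'_q`
(prefix `m59epoh_`)

Setting of `OpsHkA.lean`/`OpsHkB.lean`.  `Bt = cor_0 ∘ ψ^*`, `ψ = m59epo_om : Stab(0) → Stab(∞)` the
corrected cocycle at `0`; in `GL₂(ℝ)`, `ψ = Ad(ρ₁⁻¹)`, `ρ₁ = diag(l, 1) · s` (`m59epoh_om_real`).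
`ζ = Ad(ρ₁) : Stab(∞) → Stab(0)` is a right inverse of `ψ` (`m59epoh_zeta`, `m59epoh_om_zeta`), and the
Hecke datum `E₀` at `q` on `Stab(0)` is the transport of the one on `Stab(∞)` along `ψ`.  `E₀` is the
Hecke datum `E` of `Γ_H(M)` twisted by the matching `ρ₁ u(y) ρ₁⁻¹ = τ'(y) u(σ' y)`
(`m59epoh_Bt_match`), condition (K') is an integrality statement (`m59epoh_Kp`), and the twisted
abstract theorem `m59epoh_abs_cor_T_tw` gives `m59epoh_Bt_T`, `m59epoh_lBt_T`.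
-/

set_option autoImplicit false
set_option linter.unusedSectionVars false

noncomputable section

open CongruenceSubgroup Matrix.SpecialLinearGroup
open P2MW.S_ModularForm_heckeT_slash_eq_self_of_mem_Gamma0.ModularForm.HeckeSlashInvariance
open scoped MatrixGroups OnePoint

namespace Fermat.Agent.M59

open Fermat.Agent.JT3 Fermat.Agent.LR Fermat.Agent.TW

section gen

variable {l : ℕ} [Fact l.Prime]

/-- `heckeRep l 0 = (l · 1) · diag(l, 1)⁻¹`. -/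
theorem m59epoh_rep_zero :
    heckeRep l ((0 : ZMod l) : OnePoint (ZMod l)) =
      twe_nvb_scal l m59epoh_l_ne_zero * (twe_bl_delta l m59epoh_l_ne_zero)⁻¹ := by
  rw [eq_mul_inv_iff_mul_eq]
  apply Matrix.GeneralLinearGroup.ext
  intro i j
  rw [lrm_heckeRep_zero]
  simp only [Matrix.GeneralLinearGroup.coe_mul, ModularForm.val_heckeMatrix m59epoh_l_ne_zero,
    twe_bl_delta_val, twe_nvb_scal_val, Matrix.mul_apply, Fin.sum_univ_two]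
  fin_cases i <;> fin_cases j <;> simp

/-- skeleton: conjugation by `S⁻¹ (Z δ⁻¹)` with `Z` central is conjugation by `(δ S)⁻¹`. -/
theorem m59epoh_conj_skel {G : Type*} [Group G] (S Z δ c : G) (hZ : ∀ A : G, Z * A = A * Z) :
    S⁻¹ * (Z * δ⁻¹) * c * (S⁻¹ * (Z * δ⁻¹))⁻¹ = (δ * S)⁻¹ * c * (δ * S) := by
  have h1 : S⁻¹ * (Z * δ⁻¹) = Z * (δ * S)⁻¹ := by
    rw [← mul_assoc, ← hZ, mul_assoc, mul_inv_rev]
  rw [h1]
  generalize (δ * S) = W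
  calc Z * W⁻¹ * c * (Z * W⁻¹)⁻¹ = Z * (W⁻¹ * c * W) * Z⁻¹ := by group
    _ = W⁻¹ * c * W * Z * Z⁻¹ := by rw [hZ]
    _ = _ := by group

/-- the group-theoretic skeleton of the `Bt`-matching. -/
theorem m59epoh_Bt_skel {G : Type*} [Group G] (S δ T C₁ C₂ a Tr a₁ Co a₂ T₂ : G)
    (e1 : δ * (S * T⁻¹) = C₁ * δ) (e2 : δ * a = Tr * a₁ * δ) (e1' : δ * S = C₂ * δ)
    (e3 : a₁ * C₂⁻¹ = Co * a₂) :
    δ * S * (T⁻¹ * a) * (δ * S)⁻¹ = C₁ * Tr * Co * T₂ * (T₂⁻¹ * a₂) := by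
  have h2 : δ * S⁻¹ * δ⁻¹ = C₂⁻¹ := by
    have : C₂ = δ * S * δ⁻¹ := by rw [e1', mul_inv_cancel_right]
    rw [this]
    group
  calc δ * S * (T⁻¹ * a) * (δ * S)⁻¹ = δ * (S * T⁻¹) * a * S⁻¹ * δ⁻¹ := by group
    _ = C₁ * δ * a * S⁻¹ * δ⁻¹ := by rw [e1]
    _ = C₁ * (δ * a) * S⁻¹ * δ⁻¹ := by group
    _ = C₁ * (Tr * a₁ * δ) * S⁻¹ * δ⁻¹ := by rw [e2]
    _ = C₁ * Tr * a₁ * (δ * S⁻¹ * δ⁻¹) := by group
    _ = C₁ * Tr * (a₁ * C₂⁻¹) := by rw [h2]; group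
    _ = C₁ * Tr * (Co * a₂) := by rw [e3]
    _ = C₁ * Tr * Co * T₂ * (T₂⁻¹ * a₂) := by group

/-- the skeleton of (K'). -/
theorem m59epoh_Kp_skel {G : Type*} [Group G] (δ S T₂ T α₂ α adj Z g c ψc : G)
    (hZ : ∀ A : G, Z * A = A * Z) (hadj : adj * α₂ = Z)
    (h1 : δ * S * (T₂⁻¹ * α₂) * (δ * S)⁻¹ * g = c * (δ * S * (T⁻¹ * α) * (δ * S)⁻¹))
    (h2 : ψc = (δ * S)⁻¹ * c * (δ * S)) :
    Z * g * δ = δ * (S * adj * (T₂ * ψc * T⁻¹) * α * S⁻¹) := by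
  have hc : c = δ * S * ψc * (δ * S)⁻¹ := by rw [h2]; group
  have hα : α₂⁻¹ = Z⁻¹ * adj := by rw [← hadj]; group
  have hg : g = δ * S * (α₂⁻¹ * T₂ * ψc * T⁻¹ * α) * (δ * S)⁻¹ := by
    have : g = (δ * S * (T₂⁻¹ * α₂) * (δ * S)⁻¹)⁻¹ * (c * (δ * S * (T⁻¹ * α) * (δ * S)⁻¹)) := by
      rw [← h1, inv_mul_cancel_left]
    rw [this, hc]
    group
  rw [hg, hα]
  calc Z * (δ * S * (Z⁻¹ * adj * T₂ * ψc * T⁻¹ * α) * (δ * S)⁻¹) * δ
      = Z * (δ * S) * Z⁻¹ * (adj * T₂ * ψc * T⁻¹ * α * S⁻¹) := by group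
    _ = δ * S * Z * Z⁻¹ * (adj * T₂ * ψc * T⁻¹ * α * S⁻¹) := by rw [hZ (δ * S)]
    _ = _ := by group

/-- the `(0,1)` entry of `(q·1) · G · diag(l,1) = diag(l,1) · W`. -/
theorem m59epoh_entry01 {q l : ℕ} (hq : q ≠ 0) (hl : l ≠ 0) (G W : GL (Fin 2) ℝ)
    (h : twe_nvb_scal q hq * G * twe_bl_delta l hl = twe_bl_delta l hl * W) :
    (q : ℝ) * (G : Matrix (Fin 2) (Fin 2) ℝ) 0 1 = (l : ℝ) * (W : Matrix (Fin 2) (Fin 2) ℝ) 0 1 := by
  have e := congrArg (fun X : GL (Fin 2) ℝ => (X : Matrix (Fin 2) (Fin 2) ℝ) 0 1) h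
  simp only [Matrix.GeneralLinearGroup.coe_mul, Matrix.mul_apply, Fin.sum_univ_two,
    twe_nvb_scal_val, twe_bl_delta_val] at e
  simp at e
  linarith

/-- integrality of a real `2 × 2` matrix. -/
def m59epoh_IsInt (X : Matrix (Fin 2) (Fin 2) ℝ) : Prop := ∀ i j, ∃ z : ℤ, X i j = (z : ℝ)

theorem m59epoh_isInt_mul {X Y : Matrix (Fin 2) (Fin 2) ℝ} (hX : m59epoh_IsInt X)
    (hY : m59epoh_IsInt Y) : m59epoh_IsInt (X * Y) := by
  intro i j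
  obtain ⟨a, ha⟩ := hX i 0
  obtain ⟨b, hb⟩ := hX i 1
  obtain ⟨c, hc⟩ := hY 0 j
  obtain ⟨d, hd⟩ := hY 1 j
  refine ⟨a * c + b * d, ?_⟩
  rw [Matrix.mul_apply, Fin.sum_univ_two, ha, hb, hc, hd]
  push_cast
  ring

theorem m59epoh_isInt_mapGL (g : SL(2, ℤ)) :
    m59epoh_IsInt ((mapGL ℝ g : GL (Fin 2) ℝ) : Matrix (Fin 2) (Fin 2) ℝ) := by
  intro i j
  exact ⟨g i j, by simp [mapGL_apply]⟩

theorem m59epoh_isInt_rep {q : ℕ} [Fact q.Prime] (y : OnePoint (ZMod q)) :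
    m59epoh_IsInt ((heckeRep q y : GL (Fin 2) ℝ) : Matrix (Fin 2) (Fin 2) ℝ) := by
  have hq0 : q ≠ 0 := (Fact.out : q.Prime).ne_zero
  rw [t2k_val_heckeRep hq0]
  intro i j
  fin_cases i <;> fin_cases j
  · exact ⟨(t2k_a q y : ℤ), by simp⟩
  · exact ⟨(t2k_b q y : ℤ), by simp⟩
  · exact ⟨0, by simp⟩
  · exact ⟨(t2k_d q y : ℤ), by simp⟩

theorem m59epoh_ad {q : ℕ} (y : OnePoint (ZMod q)) : t2k_a q y * t2k_d q y = q := by
  induction y using OnePoint.rec with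
  | infty => simp [t2k_a, t2k_d]
  | coe j => simp [t2k_a, t2k_d]

/-- the adjugate of `heckeRep q y`. -/
def m59epoh_adj {q : ℕ} [Fact q.Prime] (y : OnePoint (ZMod q)) : GL (Fin 2) ℝ :=
  Matrix.GeneralLinearGroup.mkOfDetNeZero
    !![(t2k_d q y : ℝ), -(t2k_b q y : ℝ); 0, (t2k_a q y : ℝ)] (by
      rw [Matrix.det_fin_two_of]
      have h : ((t2k_a q y * t2k_d q y : ℕ) : ℝ) = (q : ℝ) := by rw [m59epoh_ad]
      have hq0 : (q : ℝ) ≠ 0 := by exact_mod_cast (Fact.out : q.Prime).ne_zero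
      push_cast at h
      intro h0
      apply hq0
      rw [← h]
      linear_combination h0)

theorem m59epoh_adj_val {q : ℕ} [Fact q.Prime] (y : OnePoint (ZMod q)) :
    ((m59epoh_adj y : GL (Fin 2) ℝ) : Matrix (Fin 2) (Fin 2) ℝ) =
      !![(t2k_d q y : ℝ), -(t2k_b q y : ℝ); 0, (t2k_a q y : ℝ)] := rfl

theorem m59epoh_isInt_adj {q : ℕ} [Fact q.Prime] (y : OnePoint (ZMod q)) :
    m59epoh_IsInt ((m59epoh_adj y : GL (Fin 2) ℝ) : Matrix (Fin 2) (Fin 2) ℝ) := by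
  rw [m59epoh_adj_val]
  intro i j
  fin_cases i <;> fin_cases j
  · exact ⟨(t2k_d q y : ℤ), by simp⟩
  · exact ⟨-(t2k_b q y : ℤ), by simp⟩
  · exact ⟨0, by simp⟩
  · exact ⟨(t2k_a q y : ℤ), by simp⟩

theorem m59epoh_adj_mul {q : ℕ} [Fact q.Prime] (y : OnePoint (ZMod q)) :
    m59epoh_adj y * heckeRep q y = twe_nvb_scal q (Fact.out : q.Prime).ne_zero := by
  have hq0 : q ≠ 0 := (Fact.out : q.Prime).ne_zero
  have h : ((t2k_a q y : ℕ) : ℝ) * ((t2k_d q y : ℕ) : ℝ) = (q : ℝ) := by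
    rw [← Nat.cast_mul, m59epoh_ad]
  apply Matrix.GeneralLinearGroup.ext
  intro i j
  simp only [Matrix.GeneralLinearGroup.coe_mul, m59epoh_adj_val, t2k_val_heckeRep hq0,
    twe_nvb_scal_val, Matrix.mul_apply, Fin.sum_univ_two]
  fin_cases i <;> fin_cases j <;> simp
  · linarith
  · ring
  · linarith

end gen

section main

variable {M l q : ℕ} [Fact l.Prime] [Fact q.Prime] (hlM : ¬ l ∣ M) (hqM : ¬ q ∣ M)
  (hqMl : ¬ q ∣ M * l) (H : Subgroup (ZMod M)ˣ) (s : Gamma0 M)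
  (hs : twe_dUnit M s * twe_dUnit M s * (twe_hk_lU hlM)⁻¹ ∈ H)
  (hnice : twe_hc_Nice l (s : SL(2, ℤ)))
  (t₁ : Gamma0 (M * l))
  (ht : twe_dUnit M (lrm_incl M l t₁) * twe_dUnit M (lrm_incl M l t₁) * (twe_hk_lU hqM)⁻¹ ∈ H)
  (ht₁ : twe_dUnit (M * l) t₁ * twe_dUnit (M * l) t₁ * (twe_hk_lU hqMl)⁻¹ ∈ m59epo_Hl M l H)
  (tnice : twe_hc_Nice l (t₁ : SL(2, ℤ)))
  {A : Type*} [AddCommGroup A]

/-- `ρ₁ = diag(l, 1) · s`. -/
def m59epoh_rho1 : GL (Fin 2) ℝ :=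
  twe_bl_delta l m59epoh_l_ne_zero * mapGL ℝ ((s : Gamma0 M) : SL(2, ℤ))

/-- **`ψ = Ad(ρ₁⁻¹)`** on `Stab(0)`. -/
theorem m59epoh_om_real
    (c : lrt_stab (twe_hk_data hlM H s hs) ((0 : ZMod l) : OnePoint (ZMod l))) :
    twe_hc_iota H ((m59epo_om hlM H s hs hnice c :
        lrt_stab (twe_hk_data hlM H s hs) (∞ : OnePoint (ZMod l))) : ↥(twe_GamH M H)) =
      (m59epoh_rho1 (l := l) s)⁻¹ * twe_hc_iota H (c : ↥(twe_GamH M H)) *
        m59epoh_rho1 (l := l) s := by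
  have h := twe_hc_rep_spec hlM s ((0 : ZMod l) : OnePoint (ZMod l))
    (twe_hk_up H (c : ↥(twe_GamH M H)))
  have hfix : t2c_act ((twe_hk_up H (c : ↥(twe_GamH M H)) : Gamma0 M) : SL(2, ℤ))
      ((0 : ZMod l) : OnePoint (ZMod l)) = ((0 : ZMod l) : OnePoint (ZMod l)) := c.2
  rw [hfix] at h
  have h2 : twe_hc_iota H ((m59epo_om hlM H s hs hnice c :
        lrt_stab (twe_hk_data hlM H s hs) (∞ : OnePoint (ZMod l))) : ↥(twe_GamH M H)) =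
      twe_hc_rep s ((0 : ZMod l) : OnePoint (ZMod l)) *
        twe_hc_iota H (c : ↥(twe_GamH M H)) *
        (twe_hc_rep s ((0 : ZMod l) : OnePoint (ZMod l)))⁻¹ := by
    rw [eq_mul_inv_iff_mul_eq]
    exact h.symm
  rw [h2]
  unfold twe_hc_rep m59epoh_rho1
  rw [m59epoh_rep_zero]
  have hsx : ((twe_hk_sx s (((0 : ZMod l) : OnePoint (ZMod l))) : Gamma0 M) : SL(2, ℤ)) =
      ((s : Gamma0 M) : SL(2, ℤ)) := rfl
  rw [hsx]
  exact m59epoh_conj_skel _ _ _ _ (twe_nvb_scal_comm l m59epoh_l_ne_zero)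

/-- `ζ₀ = cj ∘ Ad(s) : Stab(∞) → Γ₀(M)`. -/
def m59epoh_zeta0 :
    lrt_stab (twe_hk_data hlM H s hs) (∞ : OnePoint (ZMod l)) →* Gamma0 M :=
  (twe_bl_cj l (M * l) M m59epoh_l_ne_zero m59epoh_div).comp
    ((MulAut.conj (m59epo_up hlM s hnice)).toMonoidHom.comp
      ((twe_hk_up (m59epo_Hl M l H)).comp (m59epo_ofStab hlM H s hs)))

theorem m59epoh_zeta0_apply (γ : lrt_stab (twe_hk_data hlM H s hs) (∞ : OnePoint (ZMod l))) :
    m59epoh_zeta0 hlM H s hs hnice γ =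
      twe_bl_cj l (M * l) M m59epoh_l_ne_zero m59epoh_div
        (m59epo_up hlM s hnice * twe_hk_up (m59epo_Hl M l H) (m59epo_ofStab hlM H s hs γ) *
          (m59epo_up hlM s hnice)⁻¹) := rfl

theorem m59epoh_zeta0_dUnit (γ : lrt_stab (twe_hk_data hlM H s hs) (∞ : OnePoint (ZMod l))) :
    twe_dUnit M (m59epoh_zeta0 hlM H s hs hnice γ) =
      twe_dUnit M (twe_hk_up H (γ : ↥(twe_GamH M H))) := by
  rw [m59epoh_zeta0_apply, m59epoh_dUnit_cj, map_mul, map_mul, map_inv, map_mul, map_mul, map_inv,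
    mul_comm, ← mul_assoc, inv_mul_cancel, one_mul]
  rfl

theorem m59epoh_zeta0_mem (γ : lrt_stab (twe_hk_data hlM H s hs) (∞ : OnePoint (ZMod l))) :
    ((m59epoh_zeta0 hlM H s hs hnice γ : Gamma0 M) : SL(2, ℤ)) ∈ twe_GamH M H := by
  refine twe_mem_GamH.mpr ⟨(m59epoh_zeta0 hlM H s hs hnice γ).2, ?_⟩
  have h1 : (⟨((m59epoh_zeta0 hlM H s hs hnice γ : Gamma0 M) : SL(2, ℤ)),
      (m59epoh_zeta0 hlM H s hs hnice γ).2⟩ : Gamma0 M) = m59epoh_zeta0 hlM H s hs hnice γ := rfl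
  rw [h1, m59epoh_zeta0_dUnit]
  exact (twe_mem_GamH.mp (γ : ↥(twe_GamH M H)).2).2

/-- `ζ₁ : Stab(∞) → Γ_H(M)`. -/
def m59epoh_zeta1 :
    lrt_stab (twe_hk_data hlM H s hs) (∞ : OnePoint (ZMod l)) →* ↥(twe_GamH M H) :=
  ((Gamma0 M).subtype.comp (m59epoh_zeta0 hlM H s hs hnice)).codRestrict _
    (m59epoh_zeta0_mem hlM H s hs hnice)

theorem m59epoh_zeta1_coe (γ : lrt_stab (twe_hk_data hlM H s hs) (∞ : OnePoint (ZMod l))) :
    ((m59epoh_zeta1 hlM H s hs hnice γ : ↥(twe_GamH M H)) : SL(2, ℤ)) =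
      ((m59epoh_zeta0 hlM H s hs hnice γ : Gamma0 M) : SL(2, ℤ)) := rfl

theorem m59epoh_zeta1_fix (γ : lrt_stab (twe_hk_data hlM H s hs) (∞ : OnePoint (ZMod l))) :
    m59epoh_zeta1 hlM H s hs hnice γ ∈
      lrt_stab (twe_hk_data hlM H s hs) ((0 : ZMod l) : OnePoint (ZMod l)) := by
  show t2c_act ((m59epoh_zeta1 hlM H s hs hnice γ : ↥(twe_GamH M H)) : SL(2, ℤ))
    ((0 : ZMod l) : OnePoint (ZMod l)) = ((0 : ZMod l) : OnePoint (ZMod l))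
  rw [lrm_act_zero, m59epoh_zeta1_coe, m59epoh_zeta0_apply, twe_bl_cj_01]
  exact dvd_mul_right _ _

/-- **`ζ = Ad(ρ₁) : Stab(∞) → Stab(0)`**. -/
def m59epoh_zeta :
    lrt_stab (twe_hk_data hlM H s hs) (∞ : OnePoint (ZMod l)) →*
      lrt_stab (twe_hk_data hlM H s hs) ((0 : ZMod l) : OnePoint (ZMod l)) :=
  (m59epoh_zeta1 hlM H s hs hnice).codRestrict _ (m59epoh_zeta1_fix hlM H s hs hnice)

theorem m59epoh_zeta_real (γ : lrt_stab (twe_hk_data hlM H s hs) (∞ : OnePoint (ZMod l))) :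
    twe_hc_iota H ((m59epoh_zeta hlM H s hs hnice γ :
        lrt_stab (twe_hk_data hlM H s hs) ((0 : ZMod l) : OnePoint (ZMod l))) : ↥(twe_GamH M H)) =
      m59epoh_rho1 (l := l) s * twe_hc_iota H (γ : ↥(twe_GamH M H)) *
        (m59epoh_rho1 (l := l) s)⁻¹ := by
  have e := twe_bl_cj_GL (m := l) (A := M * l) (B := M) m59epoh_l_ne_zero m59epoh_div
    (m59epo_up hlM s hnice * twe_hk_up (m59epo_Hl M l H) (m59epo_ofStab hlM H s hs γ) *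
      (m59epo_up hlM s hnice)⁻¹)
  rw [eq_mul_inv_iff_mul_eq]
  show mapGL ℝ ((m59epoh_zeta0 hlM H s hs hnice γ : Gamma0 M) : SL(2, ℤ)) *
    m59epoh_rho1 (l := l) s = m59epoh_rho1 (l := l) s * mapGL ℝ ((γ : ↥(twe_GamH M H)) : SL(2, ℤ))
  unfold m59epoh_rho1
  rw [m59epoh_zeta0_apply, ← mul_assoc, ← e]
  simp only [Subgroup.coe_mul, Subgroup.coe_inv, map_mul, map_inv, m59epo_up_coe]
  have h1 : ((twe_hk_up (m59epo_Hl M l H) (m59epo_ofStab hlM H s hs γ) : Gamma0 (M * l)) :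
      SL(2, ℤ)) = ((γ : ↥(twe_GamH M H)) : SL(2, ℤ)) := rfl
  rw [h1]
  group

/-- **`ψ ∘ ζ = id`**. -/
theorem m59epoh_om_zeta (γ : lrt_stab (twe_hk_data hlM H s hs) (∞ : OnePoint (ZMod l))) :
    m59epo_om hlM H s hs hnice (m59epoh_zeta hlM H s hs hnice γ) = γ := by
  apply Subtype.ext
  apply twe_hc_iota_injective H
  rw [m59epoh_om_real, m59epoh_zeta_real]
  group

/-! ### The Hecke datum at `q` on `Stab(0)` -/

/-- the Hecke datum at `q` on `Stab(0)`: the transport of `m59epoh_E1` along `ψ`. -/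
def m59epoh_E0 :
    lrt_Data (lrt_stab (twe_hk_data hlM H s hs) ((0 : ZMod l) : OnePoint (ZMod l)))
      (OnePoint (ZMod q)) where
  act γ y := (m59epoh_E1 hlM hqMl H s hs t₁ ht₁).act (m59epo_om hlM H s hs hnice γ) y
  act_one y := by
    rw [map_one]
    exact (m59epoh_E1 hlM hqMl H s hs t₁ ht₁).act_one y
  act_mul g h y := by
    rw [map_mul]
    exact (m59epoh_E1 hlM hqMl H s hs t₁ ht₁).act_mul _ _ y
  coc y γ := m59epoh_zeta hlM H s hs hnice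
    ((m59epoh_E1 hlM hqMl H s hs t₁ ht₁).coc y (m59epo_om hlM H s hs hnice γ))
  coc_one y := by
    rw [map_one, (m59epoh_E1 hlM hqMl H s hs t₁ ht₁).coc_one, map_one]
  coc_mul y g h := by
    rw [map_mul, (m59epoh_E1 hlM hqMl H s hs t₁ ht₁).coc_mul, map_mul]

/-! ### The matching -/

/-- `cj(s) ∈ Γ₀(M)`, `cj = Ad diag(l, 1)`. -/
def m59epoh_cjs : Gamma0 M :=
  twe_bl_cj l (M * l) M m59epoh_l_ne_zero m59epoh_div (m59epo_up hlM s hnice)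

theorem m59epoh_dUnit_cjs : twe_dUnit M (m59epoh_cjs hlM s hnice) = twe_dUnit M s := by
  unfold m59epoh_cjs
  rw [m59epoh_dUnit_cj]
  rfl

/-- the matching of the points: `σ' y = (l · y) ⋆ cj(s)⁻¹`. -/
def m59epoh_Btsig (y : OnePoint (ZMod q)) : OnePoint (ZMod q) :=
  t2c_act ((((m59epoh_cjs hlM s hnice)⁻¹ : Gamma0 M) : Gamma0 M) : SL(2, ℤ)) (twe_nh_sig q l y)

include hqMl in
theorem m59epoh_Btsig_bijective :
    Function.Bijective (m59epoh_Btsig (q := q) hlM s hnice) := by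
  have h1 := twe_nh_sig_bijective (ℓ := q) l (m59epoh_q_not_dvd_l hqMl)
  exact (t2c_perm ((((m59epoh_cjs hlM s hnice)⁻¹ : Gamma0 M) : Gamma0 M) :
    SL(2, ℤ))).bijective.comp h1

/-- the connecting elements in `Γ₀(M)`. -/
def m59epoh_Bttau0 (y : OnePoint (ZMod q)) : Gamma0 M :=
  twe_bl_cj l (M * l) M m59epoh_l_ne_zero m59epoh_div
      (m59epo_up hlM s hnice * (twe_hk_sx t₁ y)⁻¹) *
    m59epoh_tr M (twe_nh_m q l y) * t2c_coc hqM (twe_nh_sig q l y) (m59epoh_cjs hlM s hnice)⁻¹ *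
    twe_hk_sx (lrm_incl M l t₁) (m59epoh_Btsig hlM s hnice y)

theorem m59epoh_Bttau0_dUnit (y : OnePoint (ZMod q)) :
    twe_dUnit M (m59epoh_Bttau0 hlM hqM s hnice t₁ y) =
      twe_hk_f hqM (lrm_incl M l t₁) y *
        (twe_hk_f hqM (lrm_incl M l t₁) (m59epoh_Btsig hlM s hnice y))⁻¹ := by
  unfold m59epoh_Bttau0 twe_hk_f
  rw [map_mul, map_mul, map_mul, m59epoh_dUnit_cj, map_mul, map_inv, m59epoh_dUnit_tr,
    twe_hk_dUnit_coc, m59epoh_eU_sig, map_inv, m59epoh_dUnit_cjs, m59epoh_sx_incl]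
  have h1 : t2c_act ((((m59epoh_cjs hlM s hnice)⁻¹ : Gamma0 M) : Gamma0 M) : SL(2, ℤ))
      (twe_nh_sig q l y) = m59epoh_Btsig hlM s hnice y := rfl
  have h2 : lrm_incl M l (m59epo_up hlM s hnice) = s := Subtype.ext rfl
  rw [h1, h2, map_mul, map_inv]
  exact m59epoh_comm5 _ _ _ _ _

include ht in
theorem m59epoh_Bttau0_mem (y : OnePoint (ZMod q)) :
    ((m59epoh_Bttau0 hlM hqM s hnice t₁ y : Gamma0 M) : SL(2, ℤ)) ∈ twe_GamH M H := by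
  refine twe_mem_GamH.mpr ⟨(m59epoh_Bttau0 hlM hqM s hnice t₁ y).2, ?_⟩
  have h1 : (⟨((m59epoh_Bttau0 hlM hqM s hnice t₁ y : Gamma0 M) : SL(2, ℤ)),
      (m59epoh_Bttau0 hlM hqM s hnice t₁ y).2⟩ : Gamma0 M) =
      m59epoh_Bttau0 hlM hqM s hnice t₁ y := rfl
  rw [h1, m59epoh_Bttau0_dUnit]
  exact twe_hk_f_div_mem hqM (lrm_incl M l t₁) ht _ _

/-- the connecting elements in `Γ_H(M)`. -/
def m59epoh_Bttau (y : OnePoint (ZMod q)) : ↥(twe_GamH M H) :=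
  ⟨((m59epoh_Bttau0 hlM hqM s hnice t₁ y : Gamma0 M) : SL(2, ℤ)),
    m59epoh_Bttau0_mem hlM hqM H s hnice t₁ ht y⟩

/-- **the `Bt`-matching**: `ρ₁ u(y) ρ₁⁻¹ = τ'(y) u(σ' y)`. -/
theorem m59epoh_Bt_match (y : OnePoint (ZMod q)) :
    m59epoh_rho1 (l := l) s * twe_hc_rep (lrm_incl M l t₁) y * (m59epoh_rho1 (l := l) s)⁻¹ =
      mapGL ℝ ((m59epoh_Bttau0 hlM hqM s hnice t₁ y : Gamma0 M) : SL(2, ℤ)) *
        twe_hc_rep (lrm_incl M l t₁) (m59epoh_Btsig hlM s hnice y) := by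
  have e1 := twe_bl_cj_GL (m := l) (A := M * l) (B := M) m59epoh_l_ne_zero m59epoh_div
    (m59epo_up hlM s hnice * (twe_hk_sx t₁ y)⁻¹)
  have e1' := twe_bl_cj_GL (m := l) (A := M * l) (B := M) m59epoh_l_ne_zero m59epoh_div
    (m59epo_up hlM s hnice)
  have e2 := twe_nh_conj_rep (ℓ := q) l m59epoh_l_ne_zero y
  have e3 := t2c_coc_spec hqM (twe_nh_sig q l y) ((m59epoh_cjs hlM s hnice)⁻¹ : Gamma0 M)
  rw [Subgroup.coe_inv, map_inv] at e3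
  rw [Subgroup.coe_mul, Subgroup.coe_inv, map_mul, map_inv, m59epo_up_coe] at e1
  rw [m59epo_up_coe] at e1'
  have hsx : ((twe_hk_sx (lrm_incl M l t₁) y : Gamma0 M) : SL(2, ℤ)) =
      ((twe_hk_sx t₁ y : Gamma0 (M * l)) : SL(2, ℤ)) := by
    rw [← m59epoh_sx_incl]
    rfl
  unfold twe_hc_rep m59epoh_Bttau0 m59epoh_rho1
  rw [hsx]
  generalize twe_bl_cj l (M * l) M m59epoh_l_ne_zero m59epoh_div
    (m59epo_up hlM s hnice * (twe_hk_sx t₁ y)⁻¹) = C₁ at e1 ⊢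
  simp only [Subgroup.coe_mul, map_mul]
  exact m59epoh_Bt_skel _ _ _ _ _ _ _ _ _ _ _ e1 e2 e1' e3

/-! ### `E₀` is `E` twisted by the matching -/

include hqM ht in
/-- the twisted representatives realise `E₀`. -/
theorem m59epoh_E0_spec (y : OnePoint (ZMod q))
    (γ : lrt_stab (twe_hk_data hlM H s hs) ((0 : ZMod l) : OnePoint (ZMod l))) :
    m59epoh_rho1 (l := l) s * twe_hc_rep (lrm_incl M l t₁) y * (m59epoh_rho1 (l := l) s)⁻¹ *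
        twe_hc_iota H (γ : ↥(twe_GamH M H)) =
      twe_hc_iota H (((m59epoh_E0 hlM hqMl H s hs hnice t₁ ht₁).coc y γ :
        lrt_stab (twe_hk_data hlM H s hs) ((0 : ZMod l) : OnePoint (ZMod l))) : ↥(twe_GamH M H)) *
      (m59epoh_rho1 (l := l) s *
        twe_hc_rep (lrm_incl M l t₁) ((m59epoh_E0 hlM hqMl H s hs hnice t₁ ht₁).act γ y) *
        (m59epoh_rho1 (l := l) s)⁻¹) := by
  set ρ := m59epoh_rho1 (l := l) s with hρ
  set ψγ := m59epo_om hlM H s hs hnice γ with hψγ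
  have h1 := m59epoh_om_real hlM H s hs hnice γ
  rw [← hρ, ← hψγ] at h1
  have h2 : twe_hc_iota H (γ : ↥(twe_GamH M H)) =
      ρ * twe_hc_iota H (ψγ : ↥(twe_GamH M H)) * ρ⁻¹ := by
    rw [h1]
    group
  have h3 := twe_hc_rep_spec hqM (lrm_incl M l t₁) y (twe_hk_up H (ψγ : ↥(twe_GamH M H)))
  have h4 : ((twe_hk_coc hqM (lrm_incl M l t₁) y (twe_hk_up H (ψγ : ↥(twe_GamH M H))) :
      Gamma0 M) : SL(2, ℤ)) =
      ((((m59epoh_E1 hlM hqMl H s hs t₁ ht₁).coc y ψγ :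
        lrt_stab (twe_hk_data hlM H s hs) (∞ : OnePoint (ZMod l))) : ↥(twe_GamH M H)) :
        SL(2, ℤ)) := by
    rw [m59epoh_E1_coc hlM hqM hqMl H s hs t₁ ht ht₁ y ψγ]
    rfl
  rw [h4] at h3
  have h5 := m59epoh_zeta_real hlM H s hs hnice ((m59epoh_E1 hlM hqMl H s hs t₁ ht₁).coc y ψγ)
  rw [← hρ] at h5
  show ρ * twe_hc_rep (lrm_incl M l t₁) y * ρ⁻¹ * twe_hc_iota H (γ : ↥(twe_GamH M H)) =
    twe_hc_iota H ((m59epoh_zeta hlM H s hs hnice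
      ((m59epoh_E1 hlM hqMl H s hs t₁ ht₁).coc y ψγ) :
        lrt_stab (twe_hk_data hlM H s hs) ((0 : ZMod l) : OnePoint (ZMod l))) :
        ↥(twe_GamH M H)) *
    (ρ * twe_hc_rep (lrm_incl M l t₁)
      (t2c_act (((ψγ : lrt_stab (twe_hk_data hlM H s hs) (∞ : OnePoint (ZMod l))) :
        ↥(twe_GamH M H)) : SL(2, ℤ)) y) * ρ⁻¹)
  rw [h5, h2]
  have h3' : twe_hc_rep (lrm_incl M l t₁) y * twe_hc_iota H (ψγ : ↥(twe_GamH M H)) =
      twe_hc_iota H (((m59epoh_E1 hlM hqMl H s hs t₁ ht₁).coc y ψγ :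
        lrt_stab (twe_hk_data hlM H s hs) (∞ : OnePoint (ZMod l))) : ↥(twe_GamH M H)) *
      twe_hc_rep (lrm_incl M l t₁)
        (t2c_act (((ψγ : lrt_stab (twe_hk_data hlM H s hs) (∞ : OnePoint (ZMod l))) :
          ↥(twe_GamH M H)) : SL(2, ℤ)) y) := h3
  calc ρ * twe_hc_rep (lrm_incl M l t₁) y * ρ⁻¹ *
        (ρ * twe_hc_iota H (ψγ : ↥(twe_GamH M H)) * ρ⁻¹)
      = ρ * (twe_hc_rep (lrm_incl M l t₁) y * twe_hc_iota H (ψγ : ↥(twe_GamH M H))) * ρ⁻¹ := by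
        group
    _ = _ := by rw [h3']; group

/-- **`E₀` is `E` twisted by `(σ', τ')`** (the hypotheses (hσ), (hT) of the abstract theorem). -/
theorem m59epoh_E0_twist (y : OnePoint (ZMod q))
    (γ : lrt_stab (twe_hk_data hlM H s hs) ((0 : ZMod l) : OnePoint (ZMod l))) :
    m59epoh_Btsig hlM s hnice ((m59epoh_E0 hlM hqMl H s hs hnice t₁ ht₁).act γ y) =
        (twe_hk_data hqM H (lrm_incl M l t₁) ht).act (γ : ↥(twe_GamH M H))
          (m59epoh_Btsig hlM s hnice y) ∧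
    (((m59epoh_E0 hlM hqMl H s hs hnice t₁ ht₁).coc y γ :
        lrt_stab (twe_hk_data hlM H s hs) ((0 : ZMod l) : OnePoint (ZMod l))) : ↥(twe_GamH M H)) *
        m59epoh_Bttau hlM hqM H s hnice t₁ ht
          ((m59epoh_E0 hlM hqMl H s hs hnice t₁ ht₁).act γ y) =
      m59epoh_Bttau hlM hqM H s hnice t₁ ht y *
        (twe_hk_data hqM H (lrm_incl M l t₁) ht).coc (m59epoh_Btsig hlM s hnice y)
          (γ : ↥(twe_GamH M H)) := by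
  exact m59epoh_abs_match_key
    ((twe_hc_iota H).comp
      (lrt_stab (twe_hk_data hlM H s hs) ((0 : ZMod l) : OnePoint (ZMod l))).subtype)
    (twe_hc_iota H)
    (fun y => m59epoh_rho1 (l := l) s * twe_hc_rep (lrm_incl M l t₁) y *
      (m59epoh_rho1 (l := l) s)⁻¹)
    (fun y => twe_hc_rep (lrm_incl M l t₁) y)
    (fun γ y => (m59epoh_E0 hlM hqMl H s hs hnice t₁ ht₁).act γ y)
    (fun γ y => (twe_hk_data hqM H (lrm_incl M l t₁) ht).act (γ : ↥(twe_GamH M H)) y)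
    (fun y γ => (((m59epoh_E0 hlM hqMl H s hs hnice t₁ ht₁).coc y γ :
      lrt_stab (twe_hk_data hlM H s hs) ((0 : ZMod l) : OnePoint (ZMod l))) : ↥(twe_GamH M H)))
    (fun y γ => (twe_hk_data hqM H (lrm_incl M l t₁) ht).coc y (γ : ↥(twe_GamH M H)))
    (fun y γ => m59epoh_E0_spec hlM hqM hqMl H s hs hnice t₁ ht ht₁ y γ)
    (fun y γ => twe_hc_rep_spec hqM (lrm_incl M l t₁) y (twe_hk_up H (γ : ↥(twe_GamH M H))))
    (twe_hc_iota_injective H)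
    (fun y y' d h => m59epoh_rep_sep (lrm_incl M l t₁) y y' (d : SL(2, ℤ)) h)
    (m59epoh_Btsig hlM s hnice) (m59epoh_Bttau hlM hqM H s hnice t₁ ht)
    (fun y => m59epoh_Bt_match hlM hqM s hnice t₁ y) y γ

/-! ### (K') -/

include hqMl in
theorem m59epoh_l_not_dvd_q : ¬ (l : ℤ) ∣ (q : ℤ) := by
  intro h
  have h1 : l ∣ q := Int.natCast_dvd_natCast.mp h
  have h2 : l = q := (Nat.prime_dvd_prime_iff_eq Fact.out Fact.out).mp h1
  exact hqMl (h2 ▸ dvd_mul_left l M)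

include hqMl in
/-- **(K')**: the integrality statement behind the injectivity of the matching. -/
theorem m59epoh_Kp (y₂ y : OnePoint (ZMod q)) (g : ↥(twe_GamH M H))
    (hact : (twe_hk_data hqM H (lrm_incl M l t₁) ht).act g (m59epoh_Btsig hlM s hnice y₂) =
      m59epoh_Btsig hlM s hnice y)
    (hc : m59epoh_Bttau hlM hqM H s hnice t₁ ht y₂ *
        (twe_hk_data hqM H (lrm_incl M l t₁) ht).coc (m59epoh_Btsig hlM s hnice y₂) g *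
        (m59epoh_Bttau hlM hqM H s hnice t₁ ht y)⁻¹ ∈
      lrt_stab (twe_hk_data hlM H s hs) ((0 : ZMod l) : OnePoint (ZMod l))) :
    g ∈ lrt_stab (twe_hk_data hlM H s hs) ((0 : ZMod l) : OnePoint (ZMod l)) := by
  have hq0 : q ≠ 0 := (Fact.out : q.Prime).ne_zero
  set t := lrm_incl M l t₁ with ht_def
  set E := twe_hk_data hqM H t ht with hE
  set c : lrt_stab (twe_hk_data hlM H s hs) ((0 : ZMod l) : OnePoint (ZMod l)) := ⟨_, hc⟩ with hcdef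
  set ψc := m59epo_om hlM H s hs hnice c with hψc
  set ρ := m59epoh_rho1 (l := l) s with hρ
  -- (i) in `GL₂(ℝ)`
  have hi : ρ * twe_hc_rep t y₂ * ρ⁻¹ * twe_hc_iota H g =
      twe_hc_iota H (c : ↥(twe_GamH M H)) * (ρ * twe_hc_rep t y * ρ⁻¹) := by
    have m2 := m59epoh_Bt_match hlM hqM s hnice t₁ y₂
    have m1 := m59epoh_Bt_match hlM hqM s hnice t₁ y
    have sp := twe_hc_rep_spec hqM t (m59epoh_Btsig hlM s hnice y₂) (twe_hk_up H g)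
    have hact' : t2c_act ((twe_hk_up H g : Gamma0 M) : SL(2, ℤ))
        (m59epoh_Btsig hlM s hnice y₂) = m59epoh_Btsig hlM s hnice y := hact
    rw [hact'] at sp
    rw [← hρ, ← ht_def] at m2 m1
    rw [m2, m1]
    have hcc : twe_hc_iota H (c : ↥(twe_GamH M H)) =
        mapGL ℝ ((m59epoh_Bttau0 hlM hqM s hnice t₁ y₂ : Gamma0 M) : SL(2, ℤ)) *
          mapGL ℝ ((twe_hk_coc hqM t (m59epoh_Btsig hlM s hnice y₂) (twe_hk_up H g) : Gamma0 M) :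
            SL(2, ℤ)) *
          (mapGL ℝ ((m59epoh_Bttau0 hlM hqM s hnice t₁ y : Gamma0 M) : SL(2, ℤ)))⁻¹ := by
      rw [twe_hc_iota_apply, ← map_mul, ← map_inv, ← map_mul]
      rfl
    rw [hcc, twe_hc_iota_apply]
    have sp' : twe_hc_rep t (m59epoh_Btsig hlM s hnice y₂) *
        mapGL ℝ ((g : ↥(twe_GamH M H)) : SL(2, ℤ)) =
        mapGL ℝ ((twe_hk_coc hqM t (m59epoh_Btsig hlM s hnice y₂) (twe_hk_up H g) : Gamma0 M) :
          SL(2, ℤ)) * twe_hc_rep t (m59epoh_Btsig hlM s hnice y) := sp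
    calc mapGL ℝ ((m59epoh_Bttau0 hlM hqM s hnice t₁ y₂ : Gamma0 M) : SL(2, ℤ)) *
          twe_hc_rep t (m59epoh_Btsig hlM s hnice y₂) *
          mapGL ℝ ((g : ↥(twe_GamH M H)) : SL(2, ℤ))
        = mapGL ℝ ((m59epoh_Bttau0 hlM hqM s hnice t₁ y₂ : Gamma0 M) : SL(2, ℤ)) *
          (twe_hc_rep t (m59epoh_Btsig hlM s hnice y₂) *
            mapGL ℝ ((g : ↥(twe_GamH M H)) : SL(2, ℤ))) := by group
      _ = _ := by rw [sp']; group
  -- (ii)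
  have hii : twe_hc_iota H (ψc : ↥(twe_GamH M H)) =
      ρ⁻¹ * twe_hc_iota H (c : ↥(twe_GamH M H)) * ρ := m59epoh_om_real hlM H s hs hnice c
  -- the skeleton
  have key := m59epoh_Kp_skel (twe_bl_delta l m59epoh_l_ne_zero)
    (mapGL ℝ ((s : Gamma0 M) : SL(2, ℤ)))
    (mapGL ℝ ((twe_hk_sx t y₂ : Gamma0 M) : SL(2, ℤ)))
    (mapGL ℝ ((twe_hk_sx t y : Gamma0 M) : SL(2, ℤ)))
    (heckeRep q y₂) (heckeRep q y) (m59epoh_adj y₂) (twe_nvb_scal q hq0)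
    (twe_hc_iota H g) (twe_hc_iota H (c : ↥(twe_GamH M H)))
    (twe_hc_iota H (ψc : ↥(twe_GamH M H)))
    (twe_nvb_scal_comm q hq0) (m59epoh_adj_mul y₂) hi hii
  -- entries
  have hW : m59epoh_IsInt ((mapGL ℝ ((s : Gamma0 M) : SL(2, ℤ)) * m59epoh_adj y₂ *
      (mapGL ℝ ((twe_hk_sx t y₂ : Gamma0 M) : SL(2, ℤ)) * twe_hc_iota H (ψc : ↥(twe_GamH M H)) *
        (mapGL ℝ ((twe_hk_sx t y : Gamma0 M) : SL(2, ℤ)))⁻¹) * heckeRep q y *
      (mapGL ℝ ((s : Gamma0 M) : SL(2, ℤ)))⁻¹ : GL (Fin 2) ℝ) : Matrix (Fin 2) (Fin 2) ℝ) := by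
    rw [← map_inv, ← map_inv, twe_hc_iota_apply]
    simp only [Matrix.GeneralLinearGroup.coe_mul]
    exact m59epoh_isInt_mul (m59epoh_isInt_mul (m59epoh_isInt_mul (m59epoh_isInt_mul
      (m59epoh_isInt_mapGL _) (m59epoh_isInt_adj _))
      (m59epoh_isInt_mul (m59epoh_isInt_mul (m59epoh_isInt_mapGL _) (m59epoh_isInt_mapGL _))
        (m59epoh_isInt_mapGL _))) (m59epoh_isInt_rep _)) (m59epoh_isInt_mapGL _)
  obtain ⟨z, hz⟩ := hW 0 1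
  have e01 := m59epoh_entry01 hq0 m59epoh_l_ne_zero _ _ key
  rw [hz, twe_hc_iota_apply] at e01
  have e01' : (q : ℤ) * ((g : ↥(twe_GamH M H)) : SL(2, ℤ)) 0 1 = (l : ℤ) * z := by
    have : ((mapGL ℝ ((g : ↥(twe_GamH M H)) : SL(2, ℤ)) : GL (Fin 2) ℝ) :
        Matrix (Fin 2) (Fin 2) ℝ) 0 1 = ((((g : ↥(twe_GamH M H)) : SL(2, ℤ)) 0 1 : ℤ) : ℝ) := by
      simp [mapGL_apply]
    rw [this] at e01
    exact_mod_cast e01
  have hdvd : (l : ℤ) ∣ (q : ℤ) * ((g : ↥(twe_GamH M H)) : SL(2, ℤ)) 0 1 := ⟨z, e01'⟩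
  have hlp : Prime (l : ℤ) := Nat.prime_iff_prime_int.mp Fact.out
  rcases hlp.dvd_or_dvd hdvd with h | h
  · exact absurd h (m59epoh_l_not_dvd_q hqMl)
  · show t2c_act ((g : ↥(twe_GamH M H)) : SL(2, ℤ)) ((0 : ZMod l) : OnePoint (ZMod l)) =
      ((0 : ZMod l) : OnePoint (ZMod l))
    rw [lrm_act_zero]
    exact h

/-! ### The commutation -/

/-- `T(E₀) ∘ ψ^* ∘ ofStab^* = ψ^* ∘ ofStab^* ∘ T'_q`. -/
theorem m59epoh_E0_T (φ : Additive ↥(twe_GamH (M * l) (m59epo_Hl M l H)) →+ A) :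
    lrt_T (m59epoh_E0 hlM hqMl H s hs hnice t₁ ht₁)
        (lrm_pull (m59epo_om hlM H s hs hnice) (lrm_pull (m59epo_ofStab hlM H s hs) φ)) =
      lrm_pull (m59epo_om hlM H s hs hnice) (lrm_pull (m59epo_ofStab hlM H s hs)
        (twe_hk_T hqMl (m59epo_Hl M l H) t₁ ht₁ φ)) := by
  refine lrt_ext fun γ => ?_
  rw [lrt_T_ev]
  show _ = lrt_ev (lrt_T (twe_hk_data hqMl (m59epo_Hl M l H) t₁ ht₁) φ)
    (m59epo_ofStab hlM H s hs (m59epo_om hlM H s hs hnice γ))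
  rw [lrt_T_ev]
  refine Finset.sum_congr rfl fun y _ => ?_
  show lrt_ev φ (m59epo_ofStab hlM H s hs (m59epo_om hlM H s hs hnice
    (m59epoh_zeta hlM H s hs hnice
      ((m59epoh_E1 hlM hqMl H s hs t₁ ht₁).coc y (m59epo_om hlM H s hs hnice γ))))) = _
  rw [m59epoh_om_zeta]
  show lrt_ev φ (m59epo_ofStab hlM H s hs (m59epo_toStab hlM H s hs
    ((twe_hk_data hqMl (m59epo_Hl M l H) t₁ ht₁).coc y
      (m59epo_ofStab hlM H s hs (m59epo_om hlM H s hs hnice γ))))) = _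
  rw [m59epo_ofStab_toStab]

/-- **`T'_q ∘ Bt = Bt ∘ T'_q`**. -/
theorem m59epoh_Bt_T (φ : Additive ↥(twe_GamH (M * l) (m59epo_Hl M l H)) →+ A) :
    twe_hk_T hqM H (lrm_incl M l t₁) ht (m59epo_Bt hlM H s hs hnice φ) =
      m59epo_Bt hlM H s hs hnice (twe_hk_T hqMl (m59epo_Hl M l H) t₁ ht₁ φ) := by
  have key := m59epoh_abs_cor_T_tw (twe_hk_data hlM H s hs)
    ((0 : ZMod l) : OnePoint (ZMod l))
    (m59epo_r1 hlM H) (m59epo_r1_spec hlM H s hs)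
    (twe_hk_data hqM H (lrm_incl M l t₁) ht) (m59epoh_E0 hlM hqMl H s hs hnice t₁ ht₁)
    (m59epoh_Btsig hlM s hnice) (m59epoh_Bttau hlM hqM H s hnice t₁ ht)
    (fun γ y => (m59epoh_E0_twist hlM hqM hqMl H s hs hnice t₁ ht ht₁ y γ).1)
    (fun y γ => (m59epoh_E0_twist hlM hqM hqMl H s hs hnice t₁ ht ht₁ y γ).2)
    (fun y₂ y g hact hc => m59epoh_Kp hlM hqM hqMl H s hs hnice t₁ ht y₂ y g hact hc)
    (m59epoh_Btsig_bijective hlM hqMl s hnice)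
    (lrm_pull (m59epo_om hlM H s hs hnice) (lrm_pull (m59epo_ofStab hlM H s hs) φ))
  show lrt_T (twe_hk_data hqM H (lrm_incl M l t₁) ht)
      (lrt_cor (twe_hk_data hlM H s hs) ((0 : ZMod l) : OnePoint (ZMod l)) (m59epo_r1 hlM H)
        (m59epo_r1_spec hlM H s hs)
        (lrm_pull (m59epo_om hlM H s hs hnice) (lrm_pull (m59epo_ofStab hlM H s hs) φ))) =
    lrt_cor (twe_hk_data hlM H s hs) ((0 : ZMod l) : OnePoint (ZMod l)) (m59epo_r1 hlM H)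
      (m59epo_r1_spec hlM H s hs)
      (lrm_pull (m59epo_om hlM H s hs hnice) (lrm_pull (m59epo_ofStab hlM H s hs)
        (twe_hk_T hqMl (m59epo_Hl M l H) t₁ ht₁ φ)))
  rw [key, m59epoh_E0_T]

end main

/-! ### The linear form -/

section lin

variable {R : Type*} [CommRing R] {A : Type*} [AddCommGroup A] [Module R A]
variable {M l q : ℕ} [Fact l.Prime] [Fact q.Prime] (hlM : ¬ l ∣ M) (hqM : ¬ q ∣ M)
  (hqMl : ¬ q ∣ M * l) (H : Subgroup (ZMod M)ˣ) (s : Gamma0 M)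
  (hs : twe_dUnit M s * twe_dUnit M s * (twe_hk_lU hlM)⁻¹ ∈ H)
  (hnice : twe_hc_Nice l (s : SL(2, ℤ)))
  (t₁ : Gamma0 (M * l))
  (ht : twe_dUnit M (lrm_incl M l t₁) * twe_dUnit M (lrm_incl M l t₁) * (twe_hk_lU hqM)⁻¹ ∈ H)
  (ht₁ : twe_dUnit (M * l) t₁ * twe_dUnit (M * l) t₁ * (twe_hk_lU hqMl)⁻¹ ∈ m59epo_Hl M l H)

/-- **`T'_q ∘ Bt = Bt ∘ T'_q`** on `W(Γ_{H'}(Ml), A)`. -/
theorem m59epoh_lBt_T (z : ↥(twe_wl_V R A (twe_GamH (M * l) (m59epo_Hl M l H)))) :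
    twe_wl_T hqM H (lrm_incl M l t₁) ht (m59epo_lBt (R := R) hlM H s hs hnice z) =
      m59epo_lBt hlM H s hs hnice (twe_wl_T hqMl (m59epo_Hl M l H) t₁ ht₁ z) := by
  apply Subtype.ext
  rw [twe_wl_T_coe, m59epo_lBt_coe, m59epo_lBt_coe, twe_wl_T_coe]
  exact m59epoh_Bt_T hlM hqM hqMl H s hs hnice t₁ ht ht₁ z.1

end lin

end Fermat.Agent.M59
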