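/-
Project M59 (S59), block [E'] (architect helper3), cell [EP-PRIM/RING] part 1, tag `m59epr_`.

The four level-raising operators of [EP-OPS] restricted to the `θ`-primary parts
`P₀ = prim (twe_sm_TY 𝒪 F₀) a₀ ⊆ W(Γ_H(M), 𝒪)`, `P₁ = prim (twe_sm_TY 𝒪 F₁) a₁ ⊆ W(Γ_{H'}(Ml), 𝒪)`:
* `m59epr_prim_congr`  : the primary part depends on the residues of the lifts only;
* `m59epr_equivariant'` : generator criterion for `ψ' x (f m) = f (ψ (π x) m)`;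
* `m59epr_pA .. m59epr_pBt` : the four maps between `P₀` and `P₁` from the Hecke commutations
  (hypotheses `hA .. hBt`, the output of [EP-OPS](c)) and the independence hypothesis `hInd`
  (output of `PrimInd.lean`), with their relations.
-/
import Mathlib
import Fermat.Agent.TW.Aut.SeamMod
import Fermat.Agent.TW.Aut.OldIterOne
import Fermat.Agent.M59.EP.OpsLin

set_option autoImplicit false
set_option linter.unusedSectionVars false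

noncomputable section

namespace Fermat.Agent.M59

open IsLocalRing Fermat.Agent.JT3 Fermat.Agent.LR Fermat.Agent.TW CongruenceSubgroup
open scoped MatrixGroups

section generic

variable {𝒪 : Type*} [CommRing 𝒪] [IsLocalRing 𝒪]
  {X : Type*} [AddCommGroup X] [Module 𝒪 X] {L : Type*}

/-- the primary part depends on the lifts modulo the maximal ideal only. -/
theorem m59epr_prim_congr (T : L → Module.End 𝒪 X) (a a' : L → 𝒪)
    (h : ∀ ℓ, a ℓ - a' ℓ ∈ maximalIdeal 𝒪) : twe_pr_prim T a ≤ twe_pr_prim T a' := by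
  intro x hx ℓ k
  obtain ⟨n₀, hn₀⟩ := hx ℓ k
  refine ⟨n₀ + k, ?_⟩
  have h1 : T ℓ - a' ℓ • (1 : Module.End 𝒪 X) =
      (T ℓ - a ℓ • (1 : Module.End 𝒪 X)) + (a ℓ - a' ℓ) • (1 : Module.End 𝒪 X) := by
    rw [sub_smul]
    abel
  rw [h1]
  exact twe_oio_shift _ _ _ (h ℓ) x k n₀ hn₀

/-- restriction of the index family. -/
theorem m59epr_prim_reindex {L' : Type*} (T : L → Module.End 𝒪 X) (a : L → 𝒪) (e : L' → L) :
    twe_pr_prim T a ≤ twe_pr_prim (fun i => T (e i)) (fun i => a (e i)) :=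
  fun _ hx i k => hx (e i) k

end generic

section equivariant

variable {𝒪 : Type*} [CommRing 𝒪] {R R' : Type*} [CommRing R] [Algebra 𝒪 R] [CommRing R']
  [Algebra 𝒪 R'] {P P' : Type*} [AddCommGroup P] [Module 𝒪 P] [AddCommGroup P'] [Module 𝒪 P']
  {I : Type*}

/-- generator criterion, contravariant form: `ψ' x (f m) = f (ψ (π x) m)`. -/
theorem m59epr_equivariant' (τ : I → R') (hgen : Algebra.adjoin 𝒪 (Set.range τ) = ⊤)
    (π : R' →ₐ[𝒪] R) (ψ : R →ₐ[𝒪] Module.End 𝒪 P) (ψ' : R' →ₐ[𝒪] Module.End 𝒪 P')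
    (f : P →ₗ[𝒪] P') (h : ∀ i m, ψ' (τ i) (f m) = f (ψ (π (τ i)) m)) (x : R') (m : P) :
    ψ' x (f m) = f (ψ (π x) m) := by
  have hx : x ∈ Algebra.adjoin 𝒪 (Set.range τ) := by rw [hgen]; exact Algebra.mem_top
  induction hx using Algebra.adjoin_induction generalizing m with
  | mem y hy =>
    obtain ⟨i, rfl⟩ := hy
    exact h i m
  | algebraMap c =>
    rw [AlgHom.commutes, AlgHom.commutes, AlgHom.commutes, Module.algebraMap_end_apply,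
      Module.algebraMap_end_apply, map_smul]
  | add y z _ _ hy hz =>
    rw [map_add, map_add, map_add, LinearMap.add_apply, LinearMap.add_apply, map_add, hy, hz]
  | mul y z _ _ hy hz =>
    rw [map_mul, map_mul, map_mul, Module.End.mul_apply, Module.End.mul_apply, hz, hy]

end equivariant

section ops

variable {𝒪 : Type*} [CommRing 𝒪] [IsLocalRing 𝒪]
  {M l : ℕ} [Fact l.Prime] (hlM : ¬ l ∣ M) (H : Subgroup (ZMod M)ˣ) (s : Gamma0 M)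
  (hs : twe_dUnit M s * twe_dUnit M s * (twe_hk_lU hlM)⁻¹ ∈ H)
  (hnice : twe_hc_Nice l (s : SL(2, ℤ)))
  {I₀ I₁ : Type*} {q₀ : I₀ → ℕ} {q₁ : I₁ → ℕ}
  (F₀ : twe_sm_Frame M H q₀) (F₁ : twe_sm_Frame (M * l) (m59epo_Hl M l H) q₁)
  (e : I₁ → I₀) (a₀ : I₀ → 𝒪) (a₁ : I₁ → 𝒪)

/-- `A` preserves the primary parts. -/
theorem m59epr_lA_mem (hres : ∀ i, a₀ (e i) - a₁ i ∈ maximalIdeal 𝒪)
    (hA : ∀ (i : I₁) (z : ↥(twe_wl_V 𝒪 𝒪 (twe_GamH M H))),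
      twe_sm_TY 𝒪 F₁ i (m59epo_lA hlM H s hs hnice z) =
        m59epo_lA hlM H s hs hnice (twe_sm_TY 𝒪 F₀ (e i) z))
    {z : ↥(twe_wl_V 𝒪 𝒪 (twe_GamH M H))} (hz : z ∈ twe_pr_prim (twe_sm_TY 𝒪 F₀) a₀) :
    m59epo_lA hlM H s hs hnice z ∈ twe_pr_prim (twe_sm_TY 𝒪 F₁) a₁ := by
  refine m59epr_prim_congr _ _ _ hres ?_
  exact twe_pr_map_prim (m59epo_lA hlM H s hs hnice) (fun i => twe_sm_TY 𝒪 F₀ (e i))
    (twe_sm_TY 𝒪 F₁) (fun i z => (hA i z).symm) (fun i => a₀ (e i))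
    (m59epr_prim_reindex _ _ e hz)

/-- `B` preserves the primary parts. -/
theorem m59epr_lB_mem (hres : ∀ i, a₀ (e i) - a₁ i ∈ maximalIdeal 𝒪)
    (hB : ∀ (i : I₁) (z : ↥(twe_wl_V 𝒪 𝒪 (twe_GamH M H))),
      twe_sm_TY 𝒪 F₁ i (m59epo_lB hlM H s hs hnice z) =
        m59epo_lB hlM H s hs hnice (twe_sm_TY 𝒪 F₀ (e i) z))
    {z : ↥(twe_wl_V 𝒪 𝒪 (twe_GamH M H))} (hz : z ∈ twe_pr_prim (twe_sm_TY 𝒪 F₀) a₀) :
    m59epo_lB hlM H s hs hnice z ∈ twe_pr_prim (twe_sm_TY 𝒪 F₁) a₁ := by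
  refine m59epr_prim_congr _ _ _ hres ?_
  exact twe_pr_map_prim (m59epo_lB hlM H s hs hnice) (fun i => twe_sm_TY 𝒪 F₀ (e i))
    (twe_sm_TY 𝒪 F₁) (fun i z => (hB i z).symm) (fun i => a₀ (e i))
    (m59epr_prim_reindex _ _ e hz)

/-- `At` preserves the primary parts (given the independence `hInd`). -/
theorem m59epr_lAt_mem (hres : ∀ i, a₀ (e i) - a₁ i ∈ maximalIdeal 𝒪)
    (hAt : ∀ (i : I₁) (z : ↥(twe_wl_V 𝒪 𝒪 (twe_GamH (M * l) (m59epo_Hl M l H)))),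
      m59epo_lAt hlM H s hs hnice (twe_sm_TY 𝒪 F₁ i z) =
        twe_sm_TY 𝒪 F₀ (e i) (m59epo_lAt hlM H s hs hnice z))
    (hInd : twe_pr_prim (fun i => twe_sm_TY 𝒪 F₀ (e i)) (fun i => a₀ (e i)) ≤
      twe_pr_prim (twe_sm_TY 𝒪 F₀) a₀)
    {z : ↥(twe_wl_V 𝒪 𝒪 (twe_GamH (M * l) (m59epo_Hl M l H)))}
    (hz : z ∈ twe_pr_prim (twe_sm_TY 𝒪 F₁) a₁) :
    m59epo_lAt hlM H s hs hnice z ∈ twe_pr_prim (twe_sm_TY 𝒪 F₀) a₀ := by
  refine hInd ?_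
  refine m59epr_prim_congr _ a₁ _ (fun i => ?_) ?_
  · rw [← neg_sub]
    exact neg_mem (hres i)
  · exact twe_pr_map_prim (m59epo_lAt hlM H s hs hnice) (twe_sm_TY 𝒪 F₁)
      (fun i => twe_sm_TY 𝒪 F₀ (e i)) hAt a₁ hz

/-- `Bt` preserves the primary parts (given the independence `hInd`). -/
theorem m59epr_lBt_mem (hres : ∀ i, a₀ (e i) - a₁ i ∈ maximalIdeal 𝒪)
    (hBt : ∀ (i : I₁) (z : ↥(twe_wl_V 𝒪 𝒪 (twe_GamH (M * l) (m59epo_Hl M l H)))),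
      m59epo_lBt hlM H s hs hnice (twe_sm_TY 𝒪 F₁ i z) =
        twe_sm_TY 𝒪 F₀ (e i) (m59epo_lBt hlM H s hs hnice z))
    (hInd : twe_pr_prim (fun i => twe_sm_TY 𝒪 F₀ (e i)) (fun i => a₀ (e i)) ≤
      twe_pr_prim (twe_sm_TY 𝒪 F₀) a₀)
    {z : ↥(twe_wl_V 𝒪 𝒪 (twe_GamH (M * l) (m59epo_Hl M l H)))}
    (hz : z ∈ twe_pr_prim (twe_sm_TY 𝒪 F₁) a₁) :
    m59epo_lBt hlM H s hs hnice z ∈ twe_pr_prim (twe_sm_TY 𝒪 F₀) a₀ := by
  refine hInd ?_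
  refine m59epr_prim_congr _ a₁ _ (fun i => ?_) ?_
  · rw [← neg_sub]
    exact neg_mem (hres i)
  · exact twe_pr_map_prim (m59epo_lBt hlM H s hs hnice) (twe_sm_TY 𝒪 F₁)
      (fun i => twe_sm_TY 𝒪 F₀ (e i)) hBt a₁ hz

end ops

end Fermat.Agent.M59
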