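/-
Project M59 (S59), block [E'] (architect helper3), cell [EP-PRIM/RING] part 3, tag `m59epr_`.

The Hecke commutations of [EP-OPS](c) (helper8: `m59epoh_lA_T`, `m59epoh_lB_T`, `m59epoh_lAt_T`,
`m59epoh_lBt_T`) in FRAME form: for ANY two Hecke frames `F₀` at `(M, H)` and `F₁` at
`(M l, H')` and indices with the same prime, the four level-raising maps intertwine
`twe_sm_TY 𝒪 F₁ i` and `twe_sm_TY 𝒪 F₀ (e i)` (frame independence: `twe_hi_TY_indep`).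
Then the four maps on the primary parts (`m59epr_pA .. m59epr_pBt`) and their relations.
-/
import Mathlib
import Fermat.Agent.TW.Aut.HeckeIndep
import Fermat.Agent.M59.EP.OpsHkA
import Fermat.Agent.M59.EP.OpsHkB
import Fermat.Agent.M59.EP.OpsHkBt
import Fermat.Agent.M59.EP.OpsDia
import Fermat.Agent.M59.EP.PrimOps

set_option autoImplicit false
set_option linter.unusedSectionVars false

noncomputable section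

namespace Fermat.Agent.M59

open IsLocalRing Fermat.Agent.JT3 Fermat.Agent.LR Fermat.Agent.TW CongruenceSubgroup
open scoped MatrixGroups

section frames

variable {𝒪 : Type*} [CommRing 𝒪]
  {M l : ℕ} [Fact l.Prime] (hlM : ¬ l ∣ M) (H : Subgroup (ZMod M)ˣ) (s : Gamma0 M)
  (hs : twe_dUnit M s * twe_dUnit M s * (twe_hk_lU hlM)⁻¹ ∈ H)
  (hnice : twe_hc_Nice l (s : SL(2, ℤ)))

/-- the odd-index hypothesis passes to `H' = m59epo_Hl M l H`. -/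
theorem m59epr_hHm_up {m : ℕ} (hHm : ∀ u : (ZMod M)ˣ, u ^ m ∈ H) (u : (ZMod (M * l))ˣ) :
    u ^ m ∈ m59epo_Hl M l H := by
  show ZMod.unitsMap (dvd_mul_right M l) (u ^ m) ∈ H
  rw [map_pow]
  exact hHm _

include hlM in
/-- a `q`-frame at the two levels adapted to `l`, from any twist at the level `M l`. -/
theorem m59epr_exists_qframe {q : ℕ} [Fact q.Prime] (hqM : ¬ q ∣ M) (hqMl : ¬ q ∣ M * l)
    (t : Gamma0 (M * l))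
    (ht : twe_dUnit (M * l) t * twe_dUnit (M * l) t * (twe_hk_lU hqMl)⁻¹ ∈ m59epo_Hl M l H) :
    ∃ t₁ : Gamma0 (M * l),
      twe_dUnit M (lrm_incl M l t₁) * twe_dUnit M (lrm_incl M l t₁) * (twe_hk_lU hqM)⁻¹ ∈ H ∧
      twe_hc_Nice l (t₁ : SL(2, ℤ)) := by
  have h0 : twe_dUnit M (lrm_incl M l t) * twe_dUnit M (lrm_incl M l t) * (twe_hk_lU hqM)⁻¹ ∈ H := by
    have h1 : ZMod.unitsMap (dvd_mul_right M l) (twe_dUnit (M * l) t) =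
        twe_dUnit M (lrm_incl M l t) :=
      m59epo_unitsMap_dUnit (t : SL(2, ℤ)) t.2 (lrm_incl M l t).2
    have h2 : ZMod.unitsMap (dvd_mul_right M l)
        (twe_dUnit (M * l) t * twe_dUnit (M * l) t * (twe_hk_lU hqMl)⁻¹) ∈ H := ht
    rw [map_mul, map_mul, map_inv, h1, m59epoh_unitsMap_lU hqM hqMl] at h2
    exact h2
  obtain ⟨t', ht'd, ht'n⟩ := twe_hc_exists_nice hlM (lrm_incl M l t)
  refine ⟨m59epo_up hlM t' ht'n, ?_, ht'n⟩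
  have h3 : lrm_incl M l (m59epo_up hlM t' ht'n) = t' := Subtype.ext rfl
  rw [h3, ht'd]
  exact h0

variable {I₀ I₁ : Type*} {q₀ : I₀ → ℕ} {q₁ : I₁ → ℕ}
  (F₀ : twe_sm_Frame M H q₀) (F₁ : twe_sm_Frame (M * l) (m59epo_Hl M l H) q₁)
  {m : ℕ} (hm : Odd m) (hHm : ∀ u : (ZMod M)ˣ, u ^ m ∈ H)

include hm hHm in
/-- **the Hecke commutations in frame form.** -/
theorem m59epr_hecke_frames (i : I₁) (j : I₀) (hq : q₀ j = q₁ i) :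
    (∀ z : ↥(twe_wl_V 𝒪 𝒪 (twe_GamH M H)),
      twe_sm_TY 𝒪 F₁ i (m59epo_lA hlM H s hs hnice z) =
        m59epo_lA hlM H s hs hnice (twe_sm_TY 𝒪 F₀ j z)) ∧
    (∀ z : ↥(twe_wl_V 𝒪 𝒪 (twe_GamH M H)),
      twe_sm_TY 𝒪 F₁ i (m59epo_lB hlM H s hs hnice z) =
        m59epo_lB hlM H s hs hnice (twe_sm_TY 𝒪 F₀ j z)) ∧
    (∀ z : ↥(twe_wl_V 𝒪 𝒪 (twe_GamH (M * l) (m59epo_Hl M l H))),
      m59epo_lAt hlM H s hs hnice (twe_sm_TY 𝒪 F₁ i z) =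
        twe_sm_TY 𝒪 F₀ j (m59epo_lAt hlM H s hs hnice z)) ∧
    (∀ z : ↥(twe_wl_V 𝒪 𝒪 (twe_GamH (M * l) (m59epo_Hl M l H))),
      m59epo_lBt hlM H s hs hnice (twe_sm_TY 𝒪 F₁ i z) =
        twe_sm_TY 𝒪 F₀ j (m59epo_lBt hlM H s hs hnice z)) := by
  have : Fact (q₁ i).Prime := F₁.hq i
  have hqMl : ¬ q₁ i ∣ M * l := F₁.hM i
  have hqM : ¬ q₁ i ∣ M := fun h => hqMl (h.trans (dvd_mul_right M l))
  obtain ⟨t₁, ht, tnice⟩ := m59epr_exists_qframe hlM H hqM hqMl (F₁.s i) (F₁.hs i)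
  have ht₁ := m59epoh_ht1 hqM hqMl H t₁ ht
  -- the two one-point frames
  let G₁ : twe_sm_Frame (M * l) (m59epo_Hl M l H) (fun _ : Unit => q₁ i) :=
    { hq := fun _ => F₁.hq i, hM := fun _ => hqMl, s := fun _ => t₁, hs := fun _ => ht₁ }
  let G₀ : twe_sm_Frame M H (fun _ : Unit => q₁ i) :=
    { hq := fun _ => F₁.hq i, hM := fun _ => hqM, s := fun _ => lrm_incl M l t₁,
      hs := fun _ => ht }
  have e₁ : twe_sm_TY 𝒪 F₁ i = twe_wl_T hqMl (m59epo_Hl M l H) t₁ ht₁ :=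
    twe_hi_TY_indep 𝒪 F₁ G₁ hm (m59epr_hHm_up H hHm) i () rfl
  have e₀ : twe_sm_TY 𝒪 F₀ j = twe_wl_T hqM H (lrm_incl M l t₁) ht :=
    twe_hi_TY_indep 𝒪 F₀ G₀ hm hHm j () hq
  rw [e₁, e₀]
  refine ⟨fun z => ?_, fun z => ?_, fun z => ?_, fun z => ?_⟩
  · exact (m59epoh_lA_T hlM hqM hqMl H s hs hnice t₁ ht ht₁ z).symm
  · exact (m59epoh_lB_T hlM hqM hqMl H s hs hnice t₁ ht ht₁ z).symm
  · exact (m59epoh_lAt_T hlM hqM hqMl H s hs hnice t₁ ht ht₁ tnice z).symm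
  · exact (m59epoh_lBt_T hlM hqM hqMl H s hs hnice t₁ ht ht₁ z).symm

end frames

section pmaps

variable {𝒪 : Type*} [CommRing 𝒪] [IsLocalRing 𝒪]
  {M l : ℕ} [Fact l.Prime] (hlM : ¬ l ∣ M) (H : Subgroup (ZMod M)ˣ) (s : Gamma0 M)
  (hs : twe_dUnit M s * twe_dUnit M s * (twe_hk_lU hlM)⁻¹ ∈ H)
  (hnice : twe_hc_Nice l (s : SL(2, ℤ)))
  {I₀ I₁ : Type*} {q₀ : I₀ → ℕ} {q₁ : I₁ → ℕ}
  (F₀ : twe_sm_Frame M H q₀) (F₁ : twe_sm_Frame (M * l) (m59epo_Hl M l H) q₁)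
  {m : ℕ} (hm : Odd m) (hHm : ∀ u : (ZMod M)ˣ, u ^ m ∈ H)
  (e : I₁ → I₀) (hq : ∀ i, q₀ (e i) = q₁ i) (a₀ : I₀ → 𝒪) (a₁ : I₁ → 𝒪)
  (hres : ∀ i, a₀ (e i) - a₁ i ∈ maximalIdeal 𝒪)
  (hInd : twe_pr_prim (fun i => twe_sm_TY 𝒪 F₀ (e i)) (fun i => a₀ (e i)) ≤
    twe_pr_prim (twe_sm_TY 𝒪 F₀) a₀)

/-- `A` on the primary parts. -/
def m59epr_pA : ↥(twe_pr_prim (twe_sm_TY 𝒪 F₀) a₀) →ₗ[𝒪] ↥(twe_pr_prim (twe_sm_TY 𝒪 F₁) a₁) :=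
  ((m59epo_lA hlM H s hs hnice).comp (twe_pr_prim (twe_sm_TY 𝒪 F₀) a₀).subtype).codRestrict _
    (fun z => m59epr_lA_mem hlM H s hs hnice F₀ F₁ e a₀ a₁ hres
      (fun i w => ((m59epr_hecke_frames hlM H s hs hnice F₀ F₁ hm hHm i (e i) (hq i)).1 w)) z.2)

/-- `B` on the primary parts. -/
def m59epr_pB : ↥(twe_pr_prim (twe_sm_TY 𝒪 F₀) a₀) →ₗ[𝒪] ↥(twe_pr_prim (twe_sm_TY 𝒪 F₁) a₁) :=
  ((m59epo_lB hlM H s hs hnice).comp (twe_pr_prim (twe_sm_TY 𝒪 F₀) a₀).subtype).codRestrict _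
    (fun z => m59epr_lB_mem hlM H s hs hnice F₀ F₁ e a₀ a₁ hres
      (fun i w => ((m59epr_hecke_frames hlM H s hs hnice F₀ F₁ hm hHm i (e i) (hq i)).2.1 w)) z.2)

/-- `At` on the primary parts. -/
def m59epr_pAt : ↥(twe_pr_prim (twe_sm_TY 𝒪 F₁) a₁) →ₗ[𝒪] ↥(twe_pr_prim (twe_sm_TY 𝒪 F₀) a₀) :=
  ((m59epo_lAt hlM H s hs hnice).comp (twe_pr_prim (twe_sm_TY 𝒪 F₁) a₁).subtype).codRestrict _
    (fun z => m59epr_lAt_mem hlM H s hs hnice F₀ F₁ e a₀ a₁ hres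
      (fun i w => ((m59epr_hecke_frames hlM H s hs hnice F₀ F₁ hm hHm i (e i) (hq i)).2.2.1 w))
      hInd z.2)

/-- `Bt` on the primary parts. -/
def m59epr_pBt : ↥(twe_pr_prim (twe_sm_TY 𝒪 F₁) a₁) →ₗ[𝒪] ↥(twe_pr_prim (twe_sm_TY 𝒪 F₀) a₀) :=
  ((m59epo_lBt hlM H s hs hnice).comp (twe_pr_prim (twe_sm_TY 𝒪 F₁) a₁).subtype).codRestrict _
    (fun z => m59epr_lBt_mem hlM H s hs hnice F₀ F₁ e a₀ a₁ hres
      (fun i w => ((m59epr_hecke_frames hlM H s hs hnice F₀ F₁ hm hHm i (e i) (hq i)).2.2.2 w))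
      hInd z.2)

theorem m59epr_pA_coe (z : ↥(twe_pr_prim (twe_sm_TY 𝒪 F₀) a₀)) :
    ((m59epr_pA hlM H s hs hnice F₀ F₁ hm hHm e hq a₀ a₁ hres z :
      ↥(twe_pr_prim (twe_sm_TY 𝒪 F₁) a₁)) :
      ↥(twe_wl_V 𝒪 𝒪 (twe_GamH (M * l) (m59epo_Hl M l H)))) =
      m59epo_lA hlM H s hs hnice (z : ↥(twe_wl_V 𝒪 𝒪 (twe_GamH M H))) := rfl

theorem m59epr_pB_coe (z : ↥(twe_pr_prim (twe_sm_TY 𝒪 F₀) a₀)) :
    ((m59epr_pB hlM H s hs hnice F₀ F₁ hm hHm e hq a₀ a₁ hres z :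
      ↥(twe_pr_prim (twe_sm_TY 𝒪 F₁) a₁)) :
      ↥(twe_wl_V 𝒪 𝒪 (twe_GamH (M * l) (m59epo_Hl M l H)))) =
      m59epo_lB hlM H s hs hnice (z : ↥(twe_wl_V 𝒪 𝒪 (twe_GamH M H))) := rfl

theorem m59epr_pAt_coe (z : ↥(twe_pr_prim (twe_sm_TY 𝒪 F₁) a₁)) :
    ((m59epr_pAt hlM H s hs hnice F₀ F₁ hm hHm e hq a₀ a₁ hres hInd z :
      ↥(twe_pr_prim (twe_sm_TY 𝒪 F₀) a₀)) : ↥(twe_wl_V 𝒪 𝒪 (twe_GamH M H))) =
      m59epo_lAt hlM H s hs hnice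
        (z : ↥(twe_wl_V 𝒪 𝒪 (twe_GamH (M * l) (m59epo_Hl M l H)))) := rfl

theorem m59epr_pBt_coe (z : ↥(twe_pr_prim (twe_sm_TY 𝒪 F₁) a₁)) :
    ((m59epr_pBt hlM H s hs hnice F₀ F₁ hm hHm e hq a₀ a₁ hres hInd z :
      ↥(twe_pr_prim (twe_sm_TY 𝒪 F₀) a₀)) : ↥(twe_wl_V 𝒪 𝒪 (twe_GamH M H))) =
      m59epo_lBt hlM H s hs hnice
        (z : ↥(twe_wl_V 𝒪 𝒪 (twe_GamH (M * l) (m59epo_Hl M l H)))) := rfl

/-- `At A = l + 1`. -/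
theorem m59epr_pAt_pA (z : ↥(twe_pr_prim (twe_sm_TY 𝒪 F₀) a₀)) :
    m59epr_pAt hlM H s hs hnice F₀ F₁ hm hHm e hq a₀ a₁ hres hInd
      (m59epr_pA hlM H s hs hnice F₀ F₁ hm hHm e hq a₀ a₁ hres z) = ((l : 𝒪) + 1) • z := by
  apply Subtype.ext
  rw [m59epr_pAt_coe, m59epr_pA_coe, m59epo_lAt_lA, Submodule.coe_smul]
  rw [← Nat.cast_succ, Nat.cast_smul_eq_nsmul]

/-- `Bt B = l + 1`. -/
theorem m59epr_pBt_pB (z : ↥(twe_pr_prim (twe_sm_TY 𝒪 F₀) a₀)) :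
    m59epr_pBt hlM H s hs hnice F₀ F₁ hm hHm e hq a₀ a₁ hres hInd
      (m59epr_pB hlM H s hs hnice F₀ F₁ hm hHm e hq a₀ a₁ hres z) = ((l : 𝒪) + 1) • z := by
  apply Subtype.ext
  rw [m59epr_pBt_coe, m59epr_pB_coe, m59epo_lBt_lB, Submodule.coe_smul]
  rw [← Nat.cast_succ, Nat.cast_smul_eq_nsmul]

/-- `At B = T'_l` (in the frame `F₀`, at any index `j` with `q₀ j = l`). -/
theorem m59epr_pAt_pB (j : I₀) (hj : q₀ j = l) (z : ↥(twe_pr_prim (twe_sm_TY 𝒪 F₀) a₀)) :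
    ((m59epr_pAt hlM H s hs hnice F₀ F₁ hm hHm e hq a₀ a₁ hres hInd
      (m59epr_pB hlM H s hs hnice F₀ F₁ hm hHm e hq a₀ a₁ hres z) :
        ↥(twe_pr_prim (twe_sm_TY 𝒪 F₀) a₀)) : ↥(twe_wl_V 𝒪 𝒪 (twe_GamH M H))) =
      twe_sm_TY 𝒪 F₀ j (z : ↥(twe_wl_V 𝒪 𝒪 (twe_GamH M H))) := by
  rw [m59epr_pAt_coe, m59epr_pB_coe, m59epo_lAt_lB]
  let G₀ : twe_sm_Frame M H (fun _ : Unit => l) :=
    { hq := fun _ => inferInstance, hM := fun _ => hlM, s := fun _ => s, hs := fun _ => hs }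
  have e₀ : twe_sm_TY 𝒪 F₀ j = twe_wl_T hlM H s hs :=
    twe_hi_TY_indep 𝒪 F₀ G₀ hm hHm j () hj
  rw [e₀]

/-- `Bt A = T'_l`. -/
theorem m59epr_pBt_pA (j : I₀) (hj : q₀ j = l) (z : ↥(twe_pr_prim (twe_sm_TY 𝒪 F₀) a₀)) :
    ((m59epr_pBt hlM H s hs hnice F₀ F₁ hm hHm e hq a₀ a₁ hres hInd
      (m59epr_pA hlM H s hs hnice F₀ F₁ hm hHm e hq a₀ a₁ hres z) :
        ↥(twe_pr_prim (twe_sm_TY 𝒪 F₀) a₀)) : ↥(twe_wl_V 𝒪 𝒪 (twe_GamH M H))) =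
      twe_sm_TY 𝒪 F₀ j (z : ↥(twe_wl_V 𝒪 𝒪 (twe_GamH M H))) := by
  rw [m59epr_pBt_coe, m59epr_pA_coe, m59epo_lBt_lA]
  let G₀ : twe_sm_Frame M H (fun _ : Unit => l) :=
    { hq := fun _ => inferInstance, hM := fun _ => hlM, s := fun _ => s, hs := fun _ => hs }
  have e₀ : twe_sm_TY 𝒪 F₀ j = twe_wl_T hlM H s hs :=
    twe_hi_TY_indep 𝒪 F₀ G₀ hm hHm j () hj
  rw [e₀]

end pmaps

end Fermat.Agent.M59
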