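/-
Project M59 (S59), block [E'] (architect helper3), cell [EP-PRIM/RING] part 4, tag `m59epr_`.

The four maps `m59epr_pA .. m59epr_pBt` on the primary parts commute with the diamond
representations `twe_smod_rho` of the two levels (presentations `d₀ : Γ₀(M) ↠ Δ`, `d₁ : Γ₀(M l) ↠ Δ`
compatible with the inclusion) and with the Hecke rings (`ψ₀`, `ψ₁` given on generators, ring map
`πT` given on generators).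
-/
import Mathlib
import Fermat.Agent.M59.EP.PrimStep

set_option autoImplicit false
set_option linter.unusedSectionVars false

noncomputable section

namespace Fermat.Agent.M59

open IsLocalRing Fermat.Agent.JT3 Fermat.Agent.LR Fermat.Agent.TW CongruenceSubgroup
open scoped MatrixGroups

section dia

variable {𝒪 : Type*} [CommRing 𝒪] [IsLocalRing 𝒪]
  {M l : ℕ} [Fact l.Prime] (hlM : ¬ l ∣ M) (H : Subgroup (ZMod M)ˣ) (s : Gamma0 M)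
  (hs : twe_dUnit M s * twe_dUnit M s * (twe_hk_lU hlM)⁻¹ ∈ H)
  (hnice : twe_hc_Nice l (s : SL(2, ℤ)))
  {I₀ I₁ : Type*} {q₀ : I₀ → ℕ} {q₁ : I₁ → ℕ}
  (F₀ : twe_sm_Frame M H q₀) (F₁ : twe_sm_Frame (M * l) (m59epo_Hl M l H) q₁)
  {m : ℕ} (hm : Odd m) (hHm : ∀ u : (ZMod M)ˣ, u ^ m ∈ H)
  (e : I₁ → I₀) (hq : ∀ i, q₀ (e i) = q₁ i) (a₀ : I₀ → 𝒪) (a₁ : I₁ → 𝒪)
  (hres : ∀ i, a₀ (e i) - a₁ i ∈ maximalIdeal 𝒪)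
  (hInd : twe_pr_prim (fun i => twe_sm_TY 𝒪 F₀ (e i)) (fun i => a₀ (e i)) ≤
    twe_pr_prim (twe_sm_TY 𝒪 F₀) a₀)
  {Δ : Type*} [Group Δ] (d₀ : Gamma0 M →* Δ) (hd₀ : Function.Surjective d₀)
  (hdk₀ : ∀ g, d₀ g = 1 ↔ (g : SL(2, ℤ)) ∈ twe_GamH M H)
  (d₁ : Gamma0 (M * l) →* Δ) (hd₁ : Function.Surjective d₁)
  (hdk₁ : ∀ g, d₁ g = 1 ↔ (g : SL(2, ℤ)) ∈ twe_GamH (M * l) (m59epo_Hl M l H))
  (hcomp : ∀ g₁ : Gamma0 (M * l), d₁ g₁ = d₀ (lrm_incl M l g₁))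

include hd₀ hdk₀ hcomp in
/-- every diamond has a representative nice at `l`, common to the two levels. -/
theorem m59epr_exists_rep (δ : Δ) :
    ∃ (g : Gamma0 M) (hg : twe_hc_Nice l (g : SL(2, ℤ))),
      d₀ g = δ ∧ d₁ (m59epo_up hlM g hg) = δ := by
  obtain ⟨g₀, rfl⟩ := hd₀ δ
  obtain ⟨g, hgd, hgn⟩ := twe_hc_exists_nice hlM g₀
  have h1 : d₀ g = d₀ g₀ := by
    have h2 : d₀ (g⁻¹ * g₀) = 1 := by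
      rw [hdk₀]
      refine twe_mem_GamH.mpr ⟨(g⁻¹ * g₀).2, ?_⟩
      have : twe_dUnit M (g⁻¹ * g₀) = 1 := by rw [map_mul, map_inv, hgd, inv_mul_cancel]
      show twe_dUnit M (g⁻¹ * g₀) ∈ H
      rw [this]
      exact one_mem H
    rw [map_mul, map_inv, inv_mul_eq_one] at h2
    exact h2
  refine ⟨g, hgn, h1, ?_⟩
  rw [hcomp]
  have : lrm_incl M l (m59epo_up hlM g hgn) = g := Subtype.ext rfl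
  rw [this, h1]

include hd₀ hdk₀ hcomp in
/-- `A` commutes with the diamonds. -/
theorem m59epr_pA_dia (δ : Δ) (z : ↥(twe_pr_prim (twe_sm_TY 𝒪 F₀) a₀)) :
    m59epr_pA hlM H s hs hnice F₀ F₁ hm hHm e hq a₀ a₁ hres (twe_smod_rho d₀ hd₀ hdk₀ F₀ a₀ δ z) =
      twe_smod_rho d₁ hd₁ hdk₁ F₁ a₁ δ (m59epr_pA hlM H s hs hnice F₀ F₁ hm hHm e hq a₀ a₁ hres z) := by
  obtain ⟨g, hg, rfl, h1⟩ := m59epr_exists_rep hlM H d₀ hd₀ hdk₀ d₁ hcomp δ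
  apply Subtype.ext
  rw [m59epr_pA_coe, twe_smod_rho_coe, m59epo_lA_conj hlM H s hs hnice g hg, ← h1,
    twe_smod_rho_coe, m59epr_pA_coe]

include hd₀ hdk₀ hcomp in
/-- `B` commutes with the diamonds. -/
theorem m59epr_pB_dia (δ : Δ) (z : ↥(twe_pr_prim (twe_sm_TY 𝒪 F₀) a₀)) :
    m59epr_pB hlM H s hs hnice F₀ F₁ hm hHm e hq a₀ a₁ hres (twe_smod_rho d₀ hd₀ hdk₀ F₀ a₀ δ z) =
      twe_smod_rho d₁ hd₁ hdk₁ F₁ a₁ δ (m59epr_pB hlM H s hs hnice F₀ F₁ hm hHm e hq a₀ a₁ hres z) := by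
  obtain ⟨g, hg, rfl, h1⟩ := m59epr_exists_rep hlM H d₀ hd₀ hdk₀ d₁ hcomp δ
  apply Subtype.ext
  rw [m59epr_pB_coe, twe_smod_rho_coe, m59epo_lB_conj hlM H s hs hnice g hg, ← h1,
    twe_smod_rho_coe, m59epr_pB_coe]

include hd₀ hdk₀ hcomp in
/-- `At` commutes with the diamonds. -/
theorem m59epr_pAt_dia (δ : Δ) (z : ↥(twe_pr_prim (twe_sm_TY 𝒪 F₁) a₁)) :
    m59epr_pAt hlM H s hs hnice F₀ F₁ hm hHm e hq a₀ a₁ hres hInd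
        (twe_smod_rho d₁ hd₁ hdk₁ F₁ a₁ δ z) =
      twe_smod_rho d₀ hd₀ hdk₀ F₀ a₀ δ
        (m59epr_pAt hlM H s hs hnice F₀ F₁ hm hHm e hq a₀ a₁ hres hInd z) := by
  obtain ⟨g, hg, rfl, h1⟩ := m59epr_exists_rep hlM H d₀ hd₀ hdk₀ d₁ hcomp δ
  apply Subtype.ext
  rw [twe_smod_rho_coe, m59epr_pAt_coe, m59epr_pAt_coe, ← m59epo_lAt_conj hlM H s hs hnice g hg]
  congr 1
  rw [← h1, twe_smod_rho_coe]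

include hd₀ hdk₀ hcomp in
/-- `Bt` commutes with the diamonds. -/
theorem m59epr_pBt_dia (δ : Δ) (z : ↥(twe_pr_prim (twe_sm_TY 𝒪 F₁) a₁)) :
    m59epr_pBt hlM H s hs hnice F₀ F₁ hm hHm e hq a₀ a₁ hres hInd
        (twe_smod_rho d₁ hd₁ hdk₁ F₁ a₁ δ z) =
      twe_smod_rho d₀ hd₀ hdk₀ F₀ a₀ δ
        (m59epr_pBt hlM H s hs hnice F₀ F₁ hm hHm e hq a₀ a₁ hres hInd z) := by
  obtain ⟨g, hg, rfl, h1⟩ := m59epr_exists_rep hlM H d₀ hd₀ hdk₀ d₁ hcomp δ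
  apply Subtype.ext
  rw [twe_smod_rho_coe, m59epr_pBt_coe, m59epr_pBt_coe, ← m59epo_lBt_conj hlM H s hs hnice g hg]
  congr 1
  rw [← h1, twe_smod_rho_coe]

end dia

section ring

variable {𝒪 : Type*} [CommRing 𝒪] [IsLocalRing 𝒪]
  {M l : ℕ} [Fact l.Prime] (hlM : ¬ l ∣ M) (H : Subgroup (ZMod M)ˣ) (s : Gamma0 M)
  (hs : twe_dUnit M s * twe_dUnit M s * (twe_hk_lU hlM)⁻¹ ∈ H)
  (hnice : twe_hc_Nice l (s : SL(2, ℤ)))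
  {I₀ I₁ : Type*} {q₀ : I₀ → ℕ} {q₁ : I₁ → ℕ}
  (F₀ : twe_sm_Frame M H q₀) (F₁ : twe_sm_Frame (M * l) (m59epo_Hl M l H) q₁)
  {m : ℕ} (hm : Odd m) (hHm : ∀ u : (ZMod M)ˣ, u ^ m ∈ H)
  (e : I₁ → I₀) (hq : ∀ i, q₀ (e i) = q₁ i) (a₀ : I₀ → 𝒪) (a₁ : I₁ → 𝒪)
  (hres : ∀ i, a₀ (e i) - a₁ i ∈ maximalIdeal 𝒪)
  (hInd : twe_pr_prim (fun i => twe_sm_TY 𝒪 F₀ (e i)) (fun i => a₀ (e i)) ≤
    twe_pr_prim (twe_sm_TY 𝒪 F₀) a₀)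
  {R₀ R₁ : Type*} [CommRing R₀] [Algebra 𝒪 R₀] [CommRing R₁] [Algebra 𝒪 R₁]
  (τ₀ : I₀ → R₀) (τ₁ : I₁ → R₁) (hgen₁ : Algebra.adjoin 𝒪 (Set.range τ₁) = ⊤)
  (πT : R₁ →ₐ[𝒪] R₀) (hπ : ∀ i, πT (τ₁ i) = τ₀ (e i))
  (ψ₀ : R₀ →ₐ[𝒪] Module.End 𝒪 ↥(twe_pr_prim (twe_sm_TY 𝒪 F₀) a₀))
  (hψ₀ : ∀ (j : I₀) (y : ↥(twe_pr_prim (twe_sm_TY 𝒪 F₀) a₀)),
    ((ψ₀ (τ₀ j) y : ↥(twe_pr_prim (twe_sm_TY 𝒪 F₀) a₀)) : ↥(twe_wl_V 𝒪 𝒪 (twe_GamH M H))) =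
      twe_sm_TY 𝒪 F₀ j (y : ↥(twe_wl_V 𝒪 𝒪 (twe_GamH M H))))
  (ψ₁ : R₁ →ₐ[𝒪] Module.End 𝒪 ↥(twe_pr_prim (twe_sm_TY 𝒪 F₁) a₁))
  (hψ₁ : ∀ (i : I₁) (y : ↥(twe_pr_prim (twe_sm_TY 𝒪 F₁) a₁)),
    ((ψ₁ (τ₁ i) y : ↥(twe_pr_prim (twe_sm_TY 𝒪 F₁) a₁)) :
      ↥(twe_wl_V 𝒪 𝒪 (twe_GamH (M * l) (m59epo_Hl M l H)))) =
      twe_sm_TY 𝒪 F₁ i (y : ↥(twe_wl_V 𝒪 𝒪 (twe_GamH (M * l) (m59epo_Hl M l H)))))

include hgen₁ hπ hψ₀ hψ₁ in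
/-- `A` is Hecke-equivariant. -/
theorem m59epr_pA_hecke (x : R₁) (z : ↥(twe_pr_prim (twe_sm_TY 𝒪 F₀) a₀)) :
    ψ₁ x (m59epr_pA hlM H s hs hnice F₀ F₁ hm hHm e hq a₀ a₁ hres z) =
      m59epr_pA hlM H s hs hnice F₀ F₁ hm hHm e hq a₀ a₁ hres (ψ₀ (πT x) z) := by
  refine m59epr_equivariant' (P := ↥(twe_pr_prim (twe_sm_TY 𝒪 F₀) a₀))
    (P' := ↥(twe_pr_prim (twe_sm_TY 𝒪 F₁) a₁)) τ₁ hgen₁ πT ψ₀ ψ₁ _ (fun i w => ?_) x z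
  apply Subtype.ext
  rw [hψ₁, m59epr_pA_coe, m59epr_pA_coe, hπ, hψ₀]
  exact (m59epr_hecke_frames hlM H s hs hnice F₀ F₁ hm hHm i (e i) (hq i)).1 _

include hgen₁ hπ hψ₀ hψ₁ in
/-- `B` is Hecke-equivariant. -/
theorem m59epr_pB_hecke (x : R₁) (z : ↥(twe_pr_prim (twe_sm_TY 𝒪 F₀) a₀)) :
    ψ₁ x (m59epr_pB hlM H s hs hnice F₀ F₁ hm hHm e hq a₀ a₁ hres z) =
      m59epr_pB hlM H s hs hnice F₀ F₁ hm hHm e hq a₀ a₁ hres (ψ₀ (πT x) z) := by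
  refine m59epr_equivariant' (P := ↥(twe_pr_prim (twe_sm_TY 𝒪 F₀) a₀))
    (P' := ↥(twe_pr_prim (twe_sm_TY 𝒪 F₁) a₁)) τ₁ hgen₁ πT ψ₀ ψ₁ _ (fun i w => ?_) x z
  apply Subtype.ext
  rw [hψ₁, m59epr_pB_coe, m59epr_pB_coe, hπ, hψ₀]
  exact (m59epr_hecke_frames hlM H s hs hnice F₀ F₁ hm hHm i (e i) (hq i)).2.1 _

include hgen₁ hπ hψ₀ hψ₁ in
/-- `At` is Hecke-equivariant. -/
theorem m59epr_pAt_hecke (x : R₁) (z : ↥(twe_pr_prim (twe_sm_TY 𝒪 F₁) a₁)) :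
    m59epr_pAt hlM H s hs hnice F₀ F₁ hm hHm e hq a₀ a₁ hres hInd (ψ₁ x z) =
      ψ₀ (πT x) (m59epr_pAt hlM H s hs hnice F₀ F₁ hm hHm e hq a₀ a₁ hres hInd z) := by
  refine twe_sa_equivariant (P := ↥(twe_pr_prim (twe_sm_TY 𝒪 F₁) a₁))
    (P' := ↥(twe_pr_prim (twe_sm_TY 𝒪 F₀) a₀)) τ₁ hgen₁ πT ψ₁ ψ₀ _ (fun i w => ?_) x z
  apply Subtype.ext
  rw [m59epr_pAt_coe, hψ₁, hπ, hψ₀, m59epr_pAt_coe]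
  exact (m59epr_hecke_frames hlM H s hs hnice F₀ F₁ hm hHm i (e i) (hq i)).2.2.1 _

include hgen₁ hπ hψ₀ hψ₁ in
/-- `Bt` is Hecke-equivariant. -/
theorem m59epr_pBt_hecke (x : R₁) (z : ↥(twe_pr_prim (twe_sm_TY 𝒪 F₁) a₁)) :
    m59epr_pBt hlM H s hs hnice F₀ F₁ hm hHm e hq a₀ a₁ hres hInd (ψ₁ x z) =
      ψ₀ (πT x) (m59epr_pBt hlM H s hs hnice F₀ F₁ hm hHm e hq a₀ a₁ hres hInd z) := by
  refine twe_sa_equivariant (P := ↥(twe_pr_prim (twe_sm_TY 𝒪 F₁) a₁))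
    (P' := ↥(twe_pr_prim (twe_sm_TY 𝒪 F₀) a₀)) τ₁ hgen₁ πT ψ₁ ψ₀ _ (fun i w => ?_) x z
  apply Subtype.ext
  rw [m59epr_pBt_coe, hψ₁, hπ, hψ₀, m59epr_pBt_coe]
  exact (m59epr_hecke_frames hlM H s hs hnice F₀ F₁ hm hHm i (e i) (hq i)).2.2.2 _

end ring

end Fermat.Agent.M59
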