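/-
Project M59 (S59), block [E'] (architect helper3), cell [EP-PRIM/RING] part 5, tag `m59epr_`.

THE CONCRETE STEP.  `m59epr_Ctx ρbar B Q M H` bundles the inputs of helper5's `m59epw_sld_data` (the
level data of the unipotent system on `Γ_H(M)`), `m59epr_Ctx.data` is that data.  For two contexts
`C₀` at `(M, H)` and `C₁` at `(M l, m59epo_Hl M l H)` and a link `Λ : m59epr_Link C₀ C₁ l` (the twist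
`s` at `l`, compatibility of the levels, bad sets, eigensystems and diamond presentations),
`m59epr_stepData` builds the P-level step `m59eps_StepData C₀.data C₁.data l` from the three
properties (I1), (I2), (I3) stated for the maps `m59epr_cA .. m59epr_cBt`.
-/
import Mathlib
import Fermat.Agent.M59.EP.Twin.SeamLevelD
import Fermat.Agent.TW.Aut.SeamLevelInst
import Fermat.Agent.M59.EP.PrimInd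
import Fermat.Agent.M59.EP.PrimDia
import Fermat.Agent.M59.EP.Asm

set_option autoImplicit false
set_option linter.unusedSectionVars false
set_option linter.unusedVariables false
set_option synthInstance.maxHeartbeats 400000
set_option maxHeartbeats 1000000

noncomputable section

namespace Fermat.Agent.M59

open IsLocalRing Polynomial CuspForm Fermat.Agent.JT3 Fermat.Agent.LR Fermat.Agent.TW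
  CongruenceSubgroup
open scoped MatrixGroups

section ctx

variable {p : ℕ} [Fact p.Prime]
  {𝒪 : Type} [CommRing 𝒪] [IsDomain 𝒪] [IsDiscreteValuationRing 𝒪]
  [IsAdicComplete (maximalIdeal 𝒪) 𝒪] [Finite (ResidueField 𝒪)] [CharZero 𝒪]
  {N : ℕ} [NeZero N] {S : Finset ℕ} {θ : heckeAlgebra N 2 (↑S : Set ℕ) →+* ResidueField 𝒪}

/-- **the context of one level**: the inputs of `m59epw_sld_data`. -/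
structure m59epr_Ctx (ρbar : ResidualGaloisRep (ResidueField 𝒪)) (B : twe_Base 𝒪 N S θ)
    (p : ℕ) [Fact p.Prime] (Q : Finset ℕ) [NeZero (twe_Nbal N Q ∅)] (M : ℕ) [NeZero M]
    (H : Subgroup (ZMod M)ˣ) : Type 1 where
  hp2 : p ≠ 2
  hp𝒪 : (p : 𝒪) ∈ maximalIdeal 𝒪
  hpS : p ∈ S
  hNS : ∀ ℓ : ℕ, ℓ.Prime → ℓ ∣ N → ℓ ∈ S
  hcompat : twt_Compat θ ρbar
  hirr : ρbar.IsAbsolutelyIrreducible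
  hfull : B.IsFull
  hQS : ∀ t ∈ Q, t ∉ S
  hTW : twe_IsTWSet θ p Q
  θ' : heckeAlgebra (twe_Nbal N Q ∅) 2 (↑(S ∪ Q) : Set ℕ) →+* ResidueField 𝒪
  θ'_eq : ∀ (ℓ : ℕ) (hℓ : ℓ.Prime) (h1 : ¬ ℓ ∣ twe_Nbal N Q ∅) (h2 : ℓ ∉ (↑(S ∪ Q) : Set ℕ))
    (h3 : ¬ ℓ ∣ N) (h4 : ℓ ∉ (↑S : Set ℕ)),
    θ' (heckeAlgebra.T hℓ h1 h2) = θ (heckeAlgebra.T hℓ h3 h4)
  B' : twe_Base 𝒪 (twe_Nbal N Q ∅) (S ∪ Q) θ'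
  hfull' : B'.IsFull
  hNS' : ∀ ℓ : ℕ, ℓ.Prime → ℓ ∣ twe_Nbal N Q ∅ → ℓ ∈ S ∪ Q
  π0 : B'.T →ₐ[𝒪] B.T
  π0_T : ∀ (ℓ : ℕ) (hℓ : ℓ.Prime) (h1 : ¬ ℓ ∣ twe_Nbal N Q ∅) (h2 : ℓ ∉ (↑(S ∪ Q) : Set ℕ))
    (h3 : ¬ ℓ ∣ N) (h4 : ℓ ∉ (↑S : Set ℕ)),
    π0 (B'.H.π (heckeAlgebra.T hℓ h1 h2)) = B.H.π (heckeAlgebra.T hℓ h3 h4)
  hM : M = N * ∏ t ∈ Q, t
  F : twe_sm_Frame M H (twe_sm_q (twe_Nbal N Q ∅) (S ∪ Q))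
  a : twe_sm_Idx (twe_Nbal N Q ∅) (S ∪ Q) → 𝒪
  ha : twe_sm_IsLift θ' a
  hrel : twe_at_Rel (twe_sm_TX 𝒪 (twe_Nbal N Q ∅) (twe_sm_q (twe_Nbal N Q ∅) (S ∪ Q)))
    (twe_sm_TY 𝒪 F)
  d : Gamma0 M →* twe_Delta p Q
  hd : Function.Surjective d
  hdk : ∀ g, d g = 1 ↔ (g : SL(2, ℤ)) ∈ twe_GamH M H
  hneg : (-1 : SL(2, ℤ)) ∈ twe_GamH M H
  hPE : ∀ γ : SL(2, ℤ), γ ∈ Gamma0 M → Fermat.Agent.LR.lrpd_tr γ ^ 2 ≤ 4 → γ ∈ twe_GamH M H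
  n : ℕ
  hΔ : ∀ δ : twe_Delta p Q, δ ^ (p ^ n) = 1
  i₀ : twe_sm_Idx (twe_Nbal N Q ∅) (S ∪ Q)
  hne : residue 𝒪 (a i₀) ≠ ((i₀.1 + 1 : ℕ) : ResidueField 𝒪)

variable {ρbar : ResidualGaloisRep (ResidueField 𝒪)} {B : twe_Base 𝒪 N S θ}
  {Q : Finset ℕ} [NeZero (twe_Nbal N Q ∅)] {M : ℕ} [NeZero M] {H : Subgroup (ZMod M)ˣ}

/-- the level data of a context (helper5's `m59epw_sld_data`). -/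
def m59epr_Ctx.data (C : m59epr_Ctx ρbar B p Q M H) : twe_mk_LevelData B p Q :=
  m59epw_sld_data C.hp2 C.hp𝒪 C.hpS C.hNS ρbar C.hcompat C.hirr B C.hfull Q C.hQS C.hTW C.θ'
    C.θ'_eq C.B' C.hfull' C.hNS' C.π0 C.π0_T C.hM C.F C.a C.ha C.hrel C.d C.hd C.hdk C.hneg C.hPE
    C.hΔ C.i₀ C.hne

theorem m59epr_Ctx.data_P (C : m59epr_Ctx ρbar B p Q M H) :
    C.data.P = ↥(twe_pr_prim (twe_sm_TY 𝒪 C.F) C.a) := rfl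

theorem m59epr_Ctx.data_B' (C : m59epr_Ctx ρbar B p Q M H) : C.data.B' = C.B' := rfl

theorem m59epr_Ctx.data_psi (C : m59epr_Ctx ρbar B p Q M H) :
    C.data.ψ = twe_smod_psi C.B' C.hfull' C.hNS' C.F C.a C.ha C.hrel := rfl

theorem m59epr_Ctx.data_rho (C : m59epr_Ctx ρbar B p Q M H) :
    C.data.ρ = twe_smod_rho C.d C.hd C.hdk C.F C.a := rfl

/-- the eigensystem of the balanced level is compatible with `ρbar`. -/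
theorem m59epr_Ctx.compat' (C : m59epr_Ctx ρbar B p Q M H) : twt_Compat C.θ' ρbar :=
  twe_sg_compat_lift (twe_sli_dvd_Nbal N Q) Finset.subset_union_left θ C.θ' C.θ'_eq ρbar C.hcompat

end ctx

section link

variable {p : ℕ} [Fact p.Prime]
  {𝒪 : Type} [CommRing 𝒪] [IsDomain 𝒪] [IsDiscreteValuationRing 𝒪]
  [IsAdicComplete (maximalIdeal 𝒪) 𝒪] [Finite (ResidueField 𝒪)] [CharZero 𝒪]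
  {N₀ N₁ : ℕ} [NeZero N₀] [NeZero N₁] {S₀ S₁ : Finset ℕ}
  {θ₀ : heckeAlgebra N₀ 2 (↑S₀ : Set ℕ) →+* ResidueField 𝒪}
  {θ₁ : heckeAlgebra N₁ 2 (↑S₁ : Set ℕ) →+* ResidueField 𝒪}
  {ρbar : ResidualGaloisRep (ResidueField 𝒪)}
  {B₀ : twe_Base 𝒪 N₀ S₀ θ₀} {B₁ : twe_Base 𝒪 N₁ S₁ θ₁}
  {Q : Finset ℕ} [NeZero (twe_Nbal N₀ Q ∅)] [NeZero (twe_Nbal N₁ Q ∅)]
  {M₀ : ℕ} [NeZero M₀] {l : ℕ} [Fact l.Prime] [NeZero (M₀ * l)] {H₀ : Subgroup (ZMod M₀)ˣ}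

/-- **the link between two consecutive levels** of the chain. -/
structure m59epr_Link (C₀ : m59epr_Ctx ρbar B₀ p Q M₀ H₀)
    (C₁ : m59epr_Ctx ρbar B₁ p Q (M₀ * l) (m59epo_Hl M₀ l H₀)) : Type where
  hlM : ¬ l ∣ M₀
  /-- the twist at `l` -/
  s : Gamma0 M₀
  hs : twe_dUnit M₀ s * twe_dUnit M₀ s * (twe_hk_lU hlM)⁻¹ ∈ H₀
  hnice : twe_hc_Nice l (s : SL(2, ℤ))
  m : ℕ
  hm : Odd m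
  hHm : ∀ u : (ZMod M₀)ˣ, u ^ m ∈ H₀
  hNbal : twe_Nbal N₀ Q ∅ ∣ twe_Nbal N₁ Q ∅
  hSS : S₀ ∪ Q ⊆ S₁ ∪ Q
  hθ : ∀ (ℓ : ℕ) (hℓ : ℓ.Prime) (h1 : ¬ ℓ ∣ twe_Nbal N₁ Q ∅) (h2 : ℓ ∉ (↑(S₁ ∪ Q) : Set ℕ))
    (h3 : ¬ ℓ ∣ twe_Nbal N₀ Q ∅) (h4 : ℓ ∉ (↑(S₀ ∪ Q) : Set ℕ)),
    C₁.θ' (heckeAlgebra.T hℓ h1 h2) = C₀.θ' (heckeAlgebra.T hℓ h3 h4)
  hcomp : ∀ g₁ : Gamma0 (M₀ * l), C₁.d g₁ = C₀.d (lrm_incl M₀ l g₁)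
  /-- the arithmetic of the step (for the consumers [EP-IH], [EP-NEW]) -/
  hN : N₁ = N₀ * l
  hS : ∀ x : ℕ, x ∈ S₁ ↔ x ∈ S₀ ∨ x = l
  /-- weakened so that the link also exists at `l = p` (where `p ∈ S₀ = S₁`): request of the
  [P-STEP] architect -/
  hlS : l ≠ p → l ∉ S₀
  hlQ : l ∉ Q

variable {C₀ : m59epr_Ctx ρbar B₀ p Q M₀ H₀}
  {C₁ : m59epr_Ctx ρbar B₁ p Q (M₀ * l) (m59epo_Hl M₀ l H₀)}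

/-- the good primes of the upper level are good for the lower level. -/
def m59epr_Link.e (Λ : m59epr_Link C₀ C₁) :
    twe_sm_Idx (twe_Nbal N₁ Q ∅) (S₁ ∪ Q) → twe_sm_Idx (twe_Nbal N₀ Q ∅) (S₀ ∪ Q) :=
  fun i => ⟨i.1, i.2.1, fun h => i.2.2.1 (h.trans Λ.hNbal),
    fun h => i.2.2.2 (Finset.coe_subset.mpr Λ.hSS h)⟩

theorem m59epr_Link.hq (Λ : m59epr_Link C₀ C₁) (i : twe_sm_Idx (twe_Nbal N₁ Q ∅) (S₁ ∪ Q)) :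
    twe_sm_q (twe_Nbal N₀ Q ∅) (S₀ ∪ Q) (Λ.e i) = twe_sm_q (twe_Nbal N₁ Q ∅) (S₁ ∪ Q) i := rfl

theorem m59epr_Link.hres (Λ : m59epr_Link C₀ C₁)
    (i : twe_sm_Idx (twe_Nbal N₁ Q ∅) (S₁ ∪ Q)) :
    C₀.a (Λ.e i) - C₁.a i ∈ maximalIdeal 𝒪 := by
  rw [← residue_eq_zero_iff, map_sub, sub_eq_zero, C₀.ha (Λ.e i), C₁.ha i]
  exact (Λ.hθ i.1 i.2.1 i.2.2.1 i.2.2.2 _ _).symm

theorem m59epr_Link.hInd (Λ : m59epr_Link C₀ C₁) :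
    twe_pr_prim (fun i => twe_sm_TY 𝒪 C₀.F (Λ.e i)) (fun i => C₀.a (Λ.e i)) ≤
      twe_pr_prim (twe_sm_TY 𝒪 C₀.F) C₀.a := by
  intro x hx
  refine m59epr_indep p C₀.hp2 C₀.hp𝒪 Λ.hSS (Finset.mem_union_left _ C₀.hpS) C₀.hNS' C₀.θ' ρbar
    C₀.compat' C₀.hirr C₀.B' C₀.F C₀.a C₀.ha C₀.hrel ?_
  intro i k
  have hi : ¬ i.1 ∣ twe_Nbal N₁ Q ∅ := fun h => i.2.2.2 (C₁.hNS' i.1 i.2.1 h)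
  exact hx ⟨i.1, i.2.1, hi, i.2.2.2⟩ k

/-- `A` of the step. -/
def m59epr_cA (Λ : m59epr_Link C₀ C₁) : C₀.data.P →ₗ[𝒪] C₁.data.P :=
  m59epr_pA Λ.hlM H₀ Λ.s Λ.hs Λ.hnice C₀.F C₁.F Λ.hm Λ.hHm Λ.e Λ.hq C₀.a C₁.a Λ.hres

/-- `B` of the step. -/
def m59epr_cB (Λ : m59epr_Link C₀ C₁) : C₀.data.P →ₗ[𝒪] C₁.data.P :=
  m59epr_pB Λ.hlM H₀ Λ.s Λ.hs Λ.hnice C₀.F C₁.F Λ.hm Λ.hHm Λ.e Λ.hq C₀.a C₁.a Λ.hres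

/-- `At` of the step. -/
def m59epr_cAt (Λ : m59epr_Link C₀ C₁) : C₁.data.P →ₗ[𝒪] C₀.data.P :=
  m59epr_pAt Λ.hlM H₀ Λ.s Λ.hs Λ.hnice C₀.F C₁.F Λ.hm Λ.hHm Λ.e Λ.hq C₀.a C₁.a Λ.hres Λ.hInd

/-- `Bt` of the step. -/
def m59epr_cBt (Λ : m59epr_Link C₀ C₁) : C₁.data.P →ₗ[𝒪] C₀.data.P :=
  m59epr_pBt Λ.hlM H₀ Λ.s Λ.hs Λ.hnice C₀.F C₁.F Λ.hm Λ.hHm Λ.e Λ.hq C₀.a C₁.a Λ.hres Λ.hInd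

theorem m59epr_exists_piT (Λ : m59epr_Link C₀ C₁) :
    ∃ πT : C₁.B'.T →ₐ[𝒪] C₀.B'.T,
      ∀ (ℓ : ℕ) (hℓ : ℓ.Prime) (h1 : ¬ ℓ ∣ twe_Nbal N₁ Q ∅) (h2 : ℓ ∉ (↑(S₁ ∪ Q) : Set ℕ))
        (h3 : ¬ ℓ ∣ twe_Nbal N₀ Q ∅) (h4 : ℓ ∉ (↑(S₀ ∪ Q) : Set ℕ)),
        πT (C₁.B'.H.π (heckeAlgebra.T hℓ h1 h2)) = C₀.B'.H.π (heckeAlgebra.T hℓ h3 h4) :=
  twe_sh_main 𝒪 (twe_Nbal N₁ Q ∅) (twe_Nbal N₀ Q ∅) (S₁ ∪ Q) (S₀ ∪ Q) C₁.θ' C₀.θ' C₁.B' C₀.B'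
    C₁.hfull' Λ.hNbal Λ.hSS C₁.hNS' Λ.hθ

/-- the ring map `T'₁ → T'₀` of the step. -/
def m59epr_piT (Λ : m59epr_Link C₀ C₁) : C₁.B'.T →ₐ[𝒪] C₀.B'.T :=
  Classical.choose (m59epr_exists_piT Λ)

theorem m59epr_piT_T (Λ : m59epr_Link C₀ C₁) (ℓ : ℕ) (hℓ : ℓ.Prime)
    (h1 : ¬ ℓ ∣ twe_Nbal N₁ Q ∅) (h2 : ℓ ∉ (↑(S₁ ∪ Q) : Set ℕ))
    (h3 : ¬ ℓ ∣ twe_Nbal N₀ Q ∅) (h4 : ℓ ∉ (↑(S₀ ∪ Q) : Set ℕ)) :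
    m59epr_piT Λ (C₁.B'.H.π (heckeAlgebra.T hℓ h1 h2)) = C₀.B'.H.π (heckeAlgebra.T hℓ h3 h4) :=
  Classical.choose_spec (m59epr_exists_piT Λ) ℓ hℓ h1 h2 h3 h4

theorem m59epr_piT_tau (Λ : m59epr_Link C₀ C₁)
    (i : twe_sm_Idx (twe_Nbal N₁ Q ∅) (S₁ ∪ Q)) :
    m59epr_piT Λ (twe_sa_tau C₁.B' i) = twe_sa_tau C₀.B' (Λ.e i) :=
  m59epr_piT_T Λ i.1 i.2.1 i.2.2.1 i.2.2.2 _ _

theorem m59epr_cA_dia (Λ : m59epr_Link C₀ C₁) (δ : twe_Delta p Q) (z : C₀.data.P) :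
    m59epr_cA Λ (C₀.data.ρ δ z) = C₁.data.ρ δ (m59epr_cA Λ z) :=
  m59epr_pA_dia Λ.hlM H₀ Λ.s Λ.hs Λ.hnice C₀.F C₁.F Λ.hm Λ.hHm Λ.e Λ.hq
    C₀.a C₁.a Λ.hres C₀.d C₀.hd C₀.hdk C₁.d C₁.hd C₁.hdk Λ.hcomp δ z

theorem m59epr_cB_dia (Λ : m59epr_Link C₀ C₁) (δ : twe_Delta p Q) (z : C₀.data.P) :
    m59epr_cB Λ (C₀.data.ρ δ z) = C₁.data.ρ δ (m59epr_cB Λ z) :=
  m59epr_pB_dia Λ.hlM H₀ Λ.s Λ.hs Λ.hnice C₀.F C₁.F Λ.hm Λ.hHm Λ.e Λ.hq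
    C₀.a C₁.a Λ.hres C₀.d C₀.hd C₀.hdk C₁.d C₁.hd C₁.hdk Λ.hcomp δ z

theorem m59epr_cAt_dia (Λ : m59epr_Link C₀ C₁) (δ : twe_Delta p Q) (z : C₁.data.P) :
    m59epr_cAt Λ (C₁.data.ρ δ z) = C₀.data.ρ δ (m59epr_cAt Λ z) :=
  m59epr_pAt_dia Λ.hlM H₀ Λ.s Λ.hs Λ.hnice C₀.F C₁.F Λ.hm Λ.hHm Λ.e Λ.hq
    C₀.a C₁.a Λ.hres Λ.hInd C₀.d C₀.hd C₀.hdk C₁.d C₁.hd C₁.hdk Λ.hcomp δ z

theorem m59epr_cBt_dia (Λ : m59epr_Link C₀ C₁) (δ : twe_Delta p Q) (z : C₁.data.P) :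
    m59epr_cBt Λ (C₁.data.ρ δ z) = C₀.data.ρ δ (m59epr_cBt Λ z) :=
  m59epr_pBt_dia Λ.hlM H₀ Λ.s Λ.hs Λ.hnice C₀.F C₁.F Λ.hm Λ.hHm Λ.e Λ.hq
    C₀.a C₁.a Λ.hres Λ.hInd C₀.d C₀.hd C₀.hdk C₁.d C₁.hd C₁.hdk Λ.hcomp δ z

theorem m59epr_cA_hecke (Λ : m59epr_Link C₀ C₁) (x : C₁.data.B'.T) (z : C₀.data.P) :
    C₁.data.ψ x (m59epr_cA Λ z) = m59epr_cA Λ (C₀.data.ψ (m59epr_piT Λ x) z) :=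
  m59epr_pA_hecke Λ.hlM H₀ Λ.s Λ.hs Λ.hnice C₀.F C₁.F Λ.hm Λ.hHm Λ.e Λ.hq
    C₀.a C₁.a Λ.hres (twe_sa_tau C₀.B') (twe_sa_tau C₁.B') (twe_sa_gen C₁.B' C₁.hNS')
    (m59epr_piT Λ) (m59epr_piT_tau Λ)
    (twe_smod_psi C₀.B' C₀.hfull' C₀.hNS' C₀.F C₀.a C₀.ha C₀.hrel)
    (twe_smod_psi_tau C₀.B' C₀.hfull' C₀.hNS' C₀.F C₀.a C₀.ha C₀.hrel)
    (twe_smod_psi C₁.B' C₁.hfull' C₁.hNS' C₁.F C₁.a C₁.ha C₁.hrel)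
    (twe_smod_psi_tau C₁.B' C₁.hfull' C₁.hNS' C₁.F C₁.a C₁.ha C₁.hrel) x z

theorem m59epr_cB_hecke (Λ : m59epr_Link C₀ C₁) (x : C₁.data.B'.T) (z : C₀.data.P) :
    C₁.data.ψ x (m59epr_cB Λ z) = m59epr_cB Λ (C₀.data.ψ (m59epr_piT Λ x) z) :=
  m59epr_pB_hecke Λ.hlM H₀ Λ.s Λ.hs Λ.hnice C₀.F C₁.F Λ.hm Λ.hHm Λ.e Λ.hq
    C₀.a C₁.a Λ.hres (twe_sa_tau C₀.B') (twe_sa_tau C₁.B') (twe_sa_gen C₁.B' C₁.hNS')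
    (m59epr_piT Λ) (m59epr_piT_tau Λ)
    (twe_smod_psi C₀.B' C₀.hfull' C₀.hNS' C₀.F C₀.a C₀.ha C₀.hrel)
    (twe_smod_psi_tau C₀.B' C₀.hfull' C₀.hNS' C₀.F C₀.a C₀.ha C₀.hrel)
    (twe_smod_psi C₁.B' C₁.hfull' C₁.hNS' C₁.F C₁.a C₁.ha C₁.hrel)
    (twe_smod_psi_tau C₁.B' C₁.hfull' C₁.hNS' C₁.F C₁.a C₁.ha C₁.hrel) x z

theorem m59epr_cAt_hecke (Λ : m59epr_Link C₀ C₁) (x : C₁.data.B'.T) (z : C₁.data.P) :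
    m59epr_cAt Λ (C₁.data.ψ x z) = C₀.data.ψ (m59epr_piT Λ x) (m59epr_cAt Λ z) :=
  m59epr_pAt_hecke Λ.hlM H₀ Λ.s Λ.hs Λ.hnice C₀.F C₁.F Λ.hm Λ.hHm Λ.e
    Λ.hq C₀.a C₁.a Λ.hres Λ.hInd (twe_sa_tau C₀.B') (twe_sa_tau C₁.B')
    (twe_sa_gen C₁.B' C₁.hNS') (m59epr_piT Λ) (m59epr_piT_tau Λ)
    (twe_smod_psi C₀.B' C₀.hfull' C₀.hNS' C₀.F C₀.a C₀.ha C₀.hrel)
    (twe_smod_psi_tau C₀.B' C₀.hfull' C₀.hNS' C₀.F C₀.a C₀.ha C₀.hrel)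
    (twe_smod_psi C₁.B' C₁.hfull' C₁.hNS' C₁.F C₁.a C₁.ha C₁.hrel)
    (twe_smod_psi_tau C₁.B' C₁.hfull' C₁.hNS' C₁.F C₁.a C₁.ha C₁.hrel) x z

theorem m59epr_cBt_hecke (Λ : m59epr_Link C₀ C₁) (x : C₁.data.B'.T) (z : C₁.data.P) :
    m59epr_cBt Λ (C₁.data.ψ x z) = C₀.data.ψ (m59epr_piT Λ x) (m59epr_cBt Λ z) :=
  m59epr_pBt_hecke Λ.hlM H₀ Λ.s Λ.hs Λ.hnice C₀.F C₁.F Λ.hm Λ.hHm Λ.e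
    Λ.hq C₀.a C₁.a Λ.hres Λ.hInd (twe_sa_tau C₀.B') (twe_sa_tau C₁.B')
    (twe_sa_gen C₁.B' C₁.hNS') (m59epr_piT Λ) (m59epr_piT_tau Λ)
    (twe_smod_psi C₀.B' C₀.hfull' C₀.hNS' C₀.F C₀.a C₀.ha C₀.hrel)
    (twe_smod_psi_tau C₀.B' C₀.hfull' C₀.hNS' C₀.F C₀.a C₀.ha C₀.hrel)
    (twe_smod_psi C₁.B' C₁.hfull' C₁.hNS' C₁.F C₁.a C₁.ha C₁.hrel)
    (twe_smod_psi_tau C₁.B' C₁.hfull' C₁.hNS' C₁.F C₁.a C₁.ha C₁.hrel) x z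

/-- **[EP-PRIM/RING]**: the P-level step between the level data of two consecutive contexts, from the
three properties (I1), (I2), (I3) of the maps `m59epr_cA .. m59epr_cBt`. -/
def m59epr_stepData (Λ : m59epr_Link C₀ C₁)
    (hsplit : ∃ r : C₁.data.P →ₗ[𝒪] C₀.data.P × C₀.data.P,
      (∀ (δ : twe_Delta p Q) (m : C₁.data.P),
        r (C₁.data.ρ δ m) = (C₀.data.ρ δ (r m).1, C₀.data.ρ δ (r m).2)) ∧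
      ∀ x y : C₀.data.P, r (m59epr_cA Λ x + m59epr_cB Λ y) = (x, y))
    (honto : ∀ x y : C₀.data.P, ∃ m : C₁.data.P, m59epr_cAt Λ m = x ∧ m59epr_cBt Λ m = y)
    (hnew : ∀ P : ValuationSubring (AlgebraicClosure ℚ), P.LiesOverPrime l →
      ∀ σ : AlgebraicClosure ℚ ≃ₐ[ℚ] AlgebraicClosure ℚ, P.IsFrobeniusAt σ l →
      ∀ m : C₁.data.P, ∃ x y : C₀.data.P,
        C₁.data.ψ (((C₁.data.B'.H.ρ.trace σ) ^ 2 - ((l : C₁.data.B'.T) + 1) ^ 2) ^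
          (B₁.d * 2 ^ Q.card)) m = m59epr_cA Λ x + m59epr_cB Λ y) :
    m59eps_StepData C₀.data C₁.data l where
  πT := m59epr_piT Λ
  πT_T := m59epr_piT_T Λ
  A := m59epr_cA Λ
  B := m59epr_cB Λ
  At := m59epr_cAt Λ
  Bt := m59epr_cBt Λ
  A_dia := m59epr_cA_dia Λ
  B_dia := m59epr_cB_dia Λ
  At_dia := m59epr_cAt_dia Λ
  Bt_dia := m59epr_cBt_dia Λ
  A_hecke := m59epr_cA_hecke Λ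
  B_hecke := m59epr_cB_hecke Λ
  At_hecke := m59epr_cAt_hecke Λ
  Bt_hecke := m59epr_cBt_hecke Λ
  At_A := fun z => m59epr_pAt_pA Λ.hlM H₀ Λ.s Λ.hs Λ.hnice C₀.F C₁.F Λ.hm Λ.hHm Λ.e Λ.hq
    C₀.a C₁.a Λ.hres Λ.hInd z
  Bt_B := fun z => m59epr_pBt_pB Λ.hlM H₀ Λ.s Λ.hs Λ.hnice C₀.F C₁.F Λ.hm Λ.hHm Λ.e Λ.hq
    C₀.a C₁.a Λ.hres Λ.hInd z
  At_B := fun hl h1 h2 z => Subtype.ext
    ((m59epr_pAt_pB Λ.hlM H₀ Λ.s Λ.hs Λ.hnice C₀.F C₁.F Λ.hm Λ.hHm Λ.e Λ.hq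
      C₀.a C₁.a Λ.hres Λ.hInd ⟨l, hl, h1, h2⟩ rfl z).trans
      (twe_smod_psi_tau C₀.B' C₀.hfull' C₀.hNS' C₀.F C₀.a C₀.ha C₀.hrel ⟨l, hl, h1, h2⟩ z).symm)
  Bt_A := fun hl h1 h2 z => Subtype.ext
    ((m59epr_pBt_pA Λ.hlM H₀ Λ.s Λ.hs Λ.hnice C₀.F C₁.F Λ.hm Λ.hHm Λ.e Λ.hq
      C₀.a C₁.a Λ.hres Λ.hInd ⟨l, hl, h1, h2⟩ rfl z).trans
      (twe_smod_psi_tau C₀.B' C₀.hfull' C₀.hNS' C₀.F C₀.a C₀.ha C₀.hrel ⟨l, hl, h1, h2⟩ z).symm)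
  split := hsplit
  onto := honto
  new := hnew

end link

end Fermat.Agent.M59
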