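/-
Project M59 (S59), block [E'] (architect helper3), cell (4)(a) [AlgNak], tag `m59epa_` (helper22).

NAKAYAMA OVER THE GROUP ALGEBRA `Λ = 𝒪[Δ]`, in the language of the fields of `twe_mk_LevelData`
(`P`, `ρ`, `v`, `b`, `hb`: an `𝒪`-basis `b (δ, i) = ρ δ (v i)`), for a local ring `𝒪` of residue
characteristic `p` and a finite commutative `p`-group `Δ`:

* `m59epa_isLocalRing` : `𝒪[Δ]` is local (maximal ideal = kernel of the augmentation to the
  residue field, `m59epa_maximalIdeal_eq`);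
* `m59epa_rad ρ = 𝔪 P + I_Δ P` is the radical `m_Λ P` (`m59epa_mem_rad_iff`);
* `m59epa_split` : `(x, y) ↦ A x + B y` injective modulo the radical ⟹ the field `split` of
  `m59eps_StepData` (an equivariant retraction); `m59epa_split_inv` : the same from injectivity on
  the `Δ`-invariants modulo `𝔪`;
* `m59epa_onto` : `m ↦ (At m, Bt m)` onto modulo the radical ⟹ the field `onto`.
-/
import Mathlib
import Fermat.Agent.TW.Aut.FreeMA

set_option autoImplicit false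
set_option linter.unusedSectionVars false
set_option linter.style.haveILetI false

namespace Fermat.Agent.M59

open IsLocalRing Fermat.Agent.TW

noncomputable section

section locality

variable {𝒪 : Type*} [CommRing 𝒪] [IsLocalRing 𝒪] {Δ : Type*} [CommGroup Δ]

/-- the augmentation of the group algebra to the residue field of the coefficients. -/
def m59epa_eps (𝒪 : Type*) [CommRing 𝒪] [IsLocalRing 𝒪] (Δ : Type*) [CommGroup Δ] :
    MonoidAlgebra 𝒪 Δ →ₐ[𝒪] ResidueField 𝒪 :=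
  MonoidAlgebra.lift 𝒪 (ResidueField 𝒪) Δ 1

theorem m59epa_eps_of (δ : Δ) : m59epa_eps 𝒪 Δ (MonoidAlgebra.of 𝒪 Δ δ) = 1 := by
  rw [m59epa_eps, MonoidAlgebra.lift_of, MonoidHom.one_apply]

theorem m59epa_eps_surjective : Function.Surjective (m59epa_eps 𝒪 Δ) := by
  intro y
  obtain ⟨a, rfl⟩ := IsLocalRing.residue_surjective y
  exact ⟨algebraMap 𝒪 _ a, by rw [AlgHom.commutes]; rfl⟩

/-- in a maximal ideal of the group algebra of a `p`-group over a local ring of residue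
characteristic `p`, every `of δ - 1` lies. -/
theorem m59epa_of_sub_one_mem [Finite Δ] {p : ℕ} [hp : Fact p.Prime]
    (hp𝒪 : (p : 𝒪) ∈ maximalIdeal 𝒪) (hΔ : IsPGroup p Δ)
    (𝔫 : Ideal (MonoidAlgebra 𝒪 Δ)) [h𝔫 : 𝔫.IsMaximal] :
    (∀ a ∈ maximalIdeal 𝒪, algebraMap 𝒪 (MonoidAlgebra 𝒪 Δ) a ∈ 𝔫) ∧
      ∀ δ : Δ, MonoidAlgebra.of 𝒪 Δ δ - 1 ∈ 𝔫 := by
  have hint : Algebra.IsIntegral 𝒪 (MonoidAlgebra 𝒪 Δ) := Algebra.IsIntegral.of_finite _ _
  have hmax : (𝔫.comap (algebraMap 𝒪 (MonoidAlgebra 𝒪 Δ))).IsMaximal :=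
    Ideal.isMaximal_comap_of_isIntegral_of_isMaximal 𝔫
  have hcomap : 𝔫.comap (algebraMap 𝒪 (MonoidAlgebra 𝒪 Δ)) = maximalIdeal 𝒪 :=
    IsLocalRing.eq_maximalIdeal hmax
  have h1 : ∀ a ∈ maximalIdeal 𝒪, algebraMap 𝒪 (MonoidAlgebra 𝒪 Δ) a ∈ 𝔫 := by
    intro a ha
    rw [← hcomap] at ha
    exact ha
  refine ⟨h1, fun δ => ?_⟩
  let _ : Field (MonoidAlgebra 𝒪 Δ ⧸ 𝔫) := Ideal.Quotient.field 𝔫
  have hp0 : ((p : ℕ) : MonoidAlgebra 𝒪 Δ ⧸ 𝔫) = 0 := by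
    have := h1 _ hp𝒪
    rw [map_natCast] at this
    rw [← map_natCast (Ideal.Quotient.mk 𝔫)]
    exact Ideal.Quotient.eq_zero_iff_mem.2 this
  have : CharP (MonoidAlgebra 𝒪 Δ ⧸ 𝔫) p := (CharP.charP_iff_prime_eq_zero hp.out).2 hp0
  obtain ⟨n, hn⟩ := hΔ δ
  have h2 : (Ideal.Quotient.mk 𝔫 (MonoidAlgebra.of 𝒪 Δ δ) - 1) ^ p ^ n = 0 := by
    rw [sub_pow_char_pow, ← map_pow, ← map_pow, hn, map_one, one_pow, map_one, sub_self]
  have h3 := pow_eq_zero_iff (pow_ne_zero n hp.out.ne_zero) |>.1 h2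
  rw [← map_one (Ideal.Quotient.mk 𝔫), ← map_sub] at h3
  exact Ideal.Quotient.eq_zero_iff_mem.1 h3

/-- the kernel of the augmentation lies in every maximal ideal. -/
theorem m59epa_ker_le [Finite Δ] {p : ℕ} [hp : Fact p.Prime]
    (hp𝒪 : (p : 𝒪) ∈ maximalIdeal 𝒪) (hΔ : IsPGroup p Δ)
    (𝔫 : Ideal (MonoidAlgebra 𝒪 Δ)) [h𝔫 : 𝔫.IsMaximal] :
    RingHom.ker (m59epa_eps 𝒪 Δ) ≤ 𝔫 := by
  classical
  cases nonempty_fintype Δ
  obtain ⟨h1, h2⟩ := m59epa_of_sub_one_mem hp𝒪 hΔ 𝔫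
  intro x hx
  rw [RingHom.mem_ker] at hx
  have hx' : x = ∑ δ : Δ, x.coeff δ • (MonoidAlgebra.of 𝒪 Δ δ - 1) +
      algebraMap 𝒪 (MonoidAlgebra 𝒪 Δ) (∑ δ : Δ, x.coeff δ) := by
    conv_lhs => rw [twe_fm_expand x]
    rw [map_sum, ← Finset.sum_add_distrib]
    refine Finset.sum_congr rfl fun δ _ => ?_
    rw [smul_sub, Algebra.algebraMap_eq_smul_one, sub_add_cancel]
  have h3 : (∑ δ : Δ, x.coeff δ) ∈ maximalIdeal 𝒪 := by
    rw [← IsLocalRing.residue_eq_zero_iff, ← hx]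
    conv_rhs => rw [twe_fm_expand x]
    rw [map_sum, map_sum]
    refine Finset.sum_congr rfl fun δ _ => ?_
    rw [map_smul, m59epa_eps_of, Algebra.smul_def, mul_one]
    rfl
  rw [hx']
  refine 𝔫.add_mem (𝔫.sum_mem fun δ _ => ?_) (h1 _ h3)
  rw [Algebra.smul_def]
  exact 𝔫.mul_mem_left _ (h2 δ)

/-- **the group algebra of a finite commutative `p`-group over a local ring of residue
characteristic `p` is local.** -/
theorem m59epa_isLocalRing [Finite Δ] {p : ℕ} [hp : Fact p.Prime]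
    (hp𝒪 : (p : 𝒪) ∈ maximalIdeal 𝒪) (hΔ : IsPGroup p Δ) :
    IsLocalRing (MonoidAlgebra 𝒪 Δ) := by
  have hmax : (RingHom.ker (m59epa_eps 𝒪 Δ)).IsMaximal :=
    RingHom.ker_isMaximal_of_surjective _ m59epa_eps_surjective
  refine IsLocalRing.of_unique_max_ideal ⟨RingHom.ker (m59epa_eps 𝒪 Δ), hmax, fun 𝔫 h𝔫 => ?_⟩
  exact (hmax.eq_of_le h𝔫.ne_top (m59epa_ker_le hp𝒪 hΔ 𝔫)).symm

/-- the maximal ideal of the group algebra is the kernel of the augmentation. -/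
theorem m59epa_maximalIdeal_eq [Finite Δ] {p : ℕ} [hp : Fact p.Prime]
    (hp𝒪 : (p : 𝒪) ∈ maximalIdeal 𝒪) (hΔ : IsPGroup p Δ) :
    letI := m59epa_isLocalRing (Δ := Δ) hp𝒪 hΔ
    maximalIdeal (MonoidAlgebra 𝒪 Δ) = RingHom.ker (m59epa_eps 𝒪 Δ) := by
  letI := m59epa_isLocalRing (Δ := Δ) hp𝒪 hΔ
  have hmax : (RingHom.ker (m59epa_eps 𝒪 Δ)).IsMaximal :=
    RingHom.ker_isMaximal_of_surjective _ m59epa_eps_surjective
  exact (IsLocalRing.eq_maximalIdeal hmax).symm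

end locality

section absnak

variable {R : Type*} [CommRing R] [IsLocalRing R] {M N : Type*} [AddCommGroup M] [Module R M]
  [AddCommGroup N] [Module R N]

/-- injectivity modulo the maximal ideal, elementwise ⟹ a left inverse. -/
theorem m59epa_abs_leftInv [Module.Finite R M] [Module.Finite R N] [Module.Free R N]
    (F : M →ₗ[R] N)
    (h : ∀ m, F m ∈ maximalIdeal R • (⊤ : Submodule R N) →
      m ∈ maximalIdeal R • (⊤ : Submodule R M)) :
    ∃ G : N →ₗ[R] M, G ∘ₗ F = LinearMap.id := by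
  rw [IsLocalRing.split_injective_iff_lTensor_residueField_injective]
  rw [injective_iff_map_eq_zero]
  intro z hz
  obtain ⟨m, rfl⟩ := TensorProduct.mk_surjective R M (ResidueField R)
    Ideal.Quotient.mk_surjective z
  have h1 : (F.lTensor (ResidueField R)) ((1 : ResidueField R) ⊗ₜ[R] m) =
      (1 : ResidueField R) ⊗ₜ[R] F m := LinearMap.lTensor_tmul _ _ _ _
  rw [TensorProduct.mk_apply] at hz ⊢
  rw [h1] at hz
  have h2 : (TensorProduct.quotTensorEquivQuotSMul N (maximalIdeal R))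
      ((1 : R ⧸ maximalIdeal R) ⊗ₜ[R] F m) = 0 := by
    have h0 : ((1 : R ⧸ maximalIdeal R) ⊗ₜ[R] F m) = 0 := hz
    rw [h0, map_zero]
  rw [TensorProduct.quotTensorEquivQuotSMul_mk_one_tmul, Submodule.Quotient.mk_eq_zero] at h2
  have h3 := h m h2
  have h4 : (TensorProduct.quotTensorEquivQuotSMul M (maximalIdeal R)).symm
      (Submodule.Quotient.mk m) = 0 := by
    rw [(Submodule.Quotient.mk_eq_zero _).2 h3, map_zero]
  exact h4

/-- surjectivity modulo the maximal ideal, elementwise ⟹ surjectivity. -/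
theorem m59epa_abs_surj [Module.Finite R N] (F : M →ₗ[R] N)
    (h : ∀ n, ∃ m, F m - n ∈ maximalIdeal R • (⊤ : Submodule R N)) :
    Function.Surjective F := by
  rw [← LinearMap.range_eq_top, eq_top_iff]
  refine Submodule.le_of_le_smul_of_le_jacobson_bot (I := maximalIdeal R) Module.Finite.fg_top
    (IsLocalRing.maximalIdeal_le_jacobson _) ?_
  intro n _
  obtain ⟨m, hm⟩ := h n
  have : n = F m - (F m - n) := by abel
  rw [this]
  exact Submodule.sub_mem _ (Submodule.mem_sup_left ⟨m, rfl⟩) (Submodule.mem_sup_right hm)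

end absnak

section grp

variable {𝒪 : Type*} [CommRing 𝒪] [IsLocalRing 𝒪] {Δ : Type*} [CommGroup Δ]
  {P P' : Type*} [AddCommGroup P] [Module 𝒪 P] [AddCommGroup P'] [Module 𝒪 P']

/-- `𝔪 P + I_Δ P`, the radical of the `𝒪[Δ]`-module `P`. -/
def m59epa_rad (ρ : Representation 𝒪 Δ P) : Submodule 𝒪 P :=
  (maximalIdeal 𝒪) • (⊤ : Submodule 𝒪 P) ⊔ ⨆ δ : Δ, LinearMap.range (ρ δ - 1)

/-- an equivariant `𝒪`-linear map as a linear map over the group algebra. -/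
def m59epa_lin (ρ : Representation 𝒪 Δ P) (ρ' : Representation 𝒪 Δ P') (f : P →ₗ[𝒪] P')
    (hf : ∀ δ m, f (ρ δ m) = ρ' δ (f m)) : ρ.asModule →ₗ[MonoidAlgebra 𝒪 Δ] ρ'.asModule where
  toFun m := ρ'.asModuleEquiv.symm (f (ρ.asModuleEquiv m))
  map_add' x y := by rw [map_add, map_add, map_add]
  map_smul' a m := by
    rw [RingHom.id_apply]
    induction a using MonoidAlgebra.induction_on with
    | of δ =>
      rw [twe_fm_of_smul, hf, Representation.asModuleEquiv_symm_map_rho]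
    | add a a' ha ha' =>
      rw [add_smul, map_add, map_add, map_add, ha, ha', add_smul]
    | smul c a ha =>
      rw [smul_assoc, map_smul, map_smul, map_smul, ha, smul_assoc]

theorem m59epa_lin_apply (ρ : Representation 𝒪 Δ P) (ρ' : Representation 𝒪 Δ P')
    (f : P →ₗ[𝒪] P') (hf : ∀ δ m, f (ρ δ m) = ρ' δ (f m)) (m : ρ.asModule) :
    m59epa_lin ρ ρ' f hf m = ρ'.asModuleEquiv.symm (f (ρ.asModuleEquiv m)) := rfl

/-- a linear map over the group algebra as an equivariant `𝒪`-linear map. -/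
def m59epa_unlin (ρ : Representation 𝒪 Δ P) (ρ' : Representation 𝒪 Δ P')
    (G : ρ.asModule →ₗ[MonoidAlgebra 𝒪 Δ] ρ'.asModule) : P →ₗ[𝒪] P' :=
  (ρ'.asModuleEquiv : ρ'.asModule →ₗ[𝒪] P').comp
    ((G.restrictScalars 𝒪).comp (ρ.asModuleEquiv.symm : P →ₗ[𝒪] ρ.asModule))

theorem m59epa_unlin_apply (ρ : Representation 𝒪 Δ P) (ρ' : Representation 𝒪 Δ P')
    (G : ρ.asModule →ₗ[MonoidAlgebra 𝒪 Δ] ρ'.asModule) (x : P) :
    m59epa_unlin ρ ρ' G x = ρ'.asModuleEquiv (G (ρ.asModuleEquiv.symm x)) := rfl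

theorem m59epa_unlin_equiv (ρ : Representation 𝒪 Δ P) (ρ' : Representation 𝒪 Δ P')
    (G : ρ.asModule →ₗ[MonoidAlgebra 𝒪 Δ] ρ'.asModule) (δ : Δ) (x : P) :
    m59epa_unlin ρ ρ' G (ρ δ x) = ρ' δ (m59epa_unlin ρ ρ' G x) := by
  rw [m59epa_unlin_apply, m59epa_unlin_apply, Representation.asModuleEquiv_symm_map_rho,
    map_smul, twe_fm_of_smul]

/-- the radical is the product with the kernel of the augmentation. -/
theorem m59epa_mem_rad_iff [Finite Δ] (ρ : Representation 𝒪 Δ P) (m : ρ.asModule) :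
    m ∈ RingHom.ker (m59epa_eps 𝒪 Δ) • (⊤ : Submodule (MonoidAlgebra 𝒪 Δ) ρ.asModule) ↔
      ρ.asModuleEquiv m ∈ m59epa_rad ρ := by
  classical
  cases nonempty_fintype Δ
  constructor
  · intro hm
    refine Submodule.smul_induction_on hm ?_ ?_
    · intro a ha n _
      rw [RingHom.mem_ker] at ha
      have h3 : (∑ δ : Δ, a.coeff δ) ∈ maximalIdeal 𝒪 := by
        rw [← IsLocalRing.residue_eq_zero_iff, ← ha]
        conv_rhs => rw [twe_fm_expand a]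
        rw [map_sum, map_sum]
        refine Finset.sum_congr rfl fun δ _ => ?_
        rw [map_smul, m59epa_eps_of, Algebra.smul_def, mul_one]
        rfl
      have h4 : ρ.asModuleEquiv (a • n) =
          ∑ δ : Δ, a.coeff δ • (ρ δ - 1) (ρ.asModuleEquiv n) +
            (∑ δ : Δ, a.coeff δ) • ρ.asModuleEquiv n := by
        conv_lhs => rw [twe_fm_expand a]
        rw [Finset.sum_smul, map_sum, Finset.sum_smul, ← Finset.sum_add_distrib]
        refine Finset.sum_congr rfl fun δ _ => ?_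
        rw [smul_assoc, map_smul, twe_fm_of_smul, LinearMap.sub_apply, Module.End.one_apply,
          smul_sub, sub_add_cancel]
      rw [h4]
      refine Submodule.add_mem _ (Submodule.sum_mem _ fun δ _ => ?_) ?_
      · exact Submodule.smul_mem _ _ (Submodule.mem_sup_right
          (Submodule.mem_iSup_of_mem δ ⟨_, rfl⟩))
      · exact Submodule.mem_sup_left (Submodule.smul_mem_smul h3 Submodule.mem_top)
    · intro x y hx hy
      rw [map_add]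
      exact Submodule.add_mem _ hx hy
  · intro hm
    have key : m59epa_rad ρ ≤ Submodule.comap (ρ.asModuleEquiv.symm : P →ₗ[𝒪] ρ.asModule)
        ((RingHom.ker (m59epa_eps 𝒪 Δ) •
          (⊤ : Submodule (MonoidAlgebra 𝒪 Δ) ρ.asModule)).restrictScalars 𝒪) := by
      refine sup_le ?_ (iSup_le fun δ => ?_)
      · refine Submodule.smul_le.2 fun c hc x _ => ?_
        rw [Submodule.mem_comap, LinearEquiv.coe_coe, map_smul, Submodule.restrictScalars_mem,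
          ← algebraMap_smul (MonoidAlgebra 𝒪 Δ) c]
        refine Submodule.smul_mem_smul ?_ Submodule.mem_top
        rw [RingHom.mem_ker, AlgHom.commutes]
        exact (IsLocalRing.residue_eq_zero_iff c).2 hc
      · rintro _ ⟨x, rfl⟩
        rw [Submodule.mem_comap, LinearEquiv.coe_coe, Submodule.restrictScalars_mem,
          LinearMap.sub_apply, Module.End.one_apply, map_sub,
          Representation.asModuleEquiv_symm_map_rho]
        have : MonoidAlgebra.of 𝒪 Δ δ • ρ.asModuleEquiv.symm x - ρ.asModuleEquiv.symm x =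
            (MonoidAlgebra.of 𝒪 Δ δ - 1) • ρ.asModuleEquiv.symm x := by
          rw [sub_smul, one_smul]
        rw [this]
        refine Submodule.smul_mem_smul ?_ Submodule.mem_top
        rw [RingHom.mem_ker, map_sub, m59epa_eps_of, map_one, sub_self]
    have := key hm
    rwa [Submodule.mem_comap, LinearEquiv.coe_coe, LinearEquiv.symm_apply_apply,
      Submodule.restrictScalars_mem] at this

end grp

section nak

variable {𝒪 : Type*} [CommRing 𝒪] [IsLocalRing 𝒪] {Δ : Type*} [CommGroup Δ] [Finite Δ]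
  {p : ℕ} [Fact p.Prime]
  {P₀ P₁ : Type*} [AddCommGroup P₀] [Module 𝒪 P₀] [AddCommGroup P₁] [Module 𝒪 P₁]
  {ι₀ ι₁ : Type*} [Finite ι₀] [Finite ι₁]

/-- the radical is functorial for equivariant maps. -/
theorem m59epa_rad_map (ρ₀ : Representation 𝒪 Δ P₀) (ρ₁ : Representation 𝒪 Δ P₁)
    (f : P₀ →ₗ[𝒪] P₁) (hf : ∀ δ m, f (ρ₀ δ m) = ρ₁ δ (f m)) {x : P₀} (hx : x ∈ m59epa_rad ρ₀) :
    f x ∈ m59epa_rad ρ₁ := by
  have key : m59epa_rad ρ₀ ≤ (m59epa_rad ρ₁).comap f := by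
    refine sup_le ?_ (iSup_le fun δ => ?_)
    · refine Submodule.smul_le.2 fun c hc x _ => ?_
      rw [Submodule.mem_comap, map_smul]
      exact Submodule.mem_sup_left (Submodule.smul_mem_smul hc Submodule.mem_top)
    · rintro _ ⟨x, rfl⟩
      rw [Submodule.mem_comap, LinearMap.sub_apply, Module.End.one_apply, map_sub, hf]
      exact Submodule.mem_sup_right (Submodule.mem_iSup_of_mem δ ⟨f x, rfl⟩)
  exact key hx

/-- **(I1) by Nakayama over `𝒪[Δ]`**: `(x, y) ↦ A x + B y` injective modulo the radical ⟹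
an equivariant retraction. -/
theorem m59epa_split (hp𝒪 : (p : 𝒪) ∈ maximalIdeal 𝒪) (hΔ : IsPGroup p Δ)
    (ρ₀ : Representation 𝒪 Δ P₀) (v₀ : ι₀ → P₀) (b₀ : Module.Basis (Δ × ι₀) 𝒪 P₀)
    (hb₀ : ∀ δ i, b₀ (δ, i) = ρ₀ δ (v₀ i))
    (ρ₁ : Representation 𝒪 Δ P₁) (v₁ : ι₁ → P₁) (b₁ : Module.Basis (Δ × ι₁) 𝒪 P₁)
    (hb₁ : ∀ δ i, b₁ (δ, i) = ρ₁ δ (v₁ i))
    (A B : P₀ →ₗ[𝒪] P₁) (hA : ∀ δ m, A (ρ₀ δ m) = ρ₁ δ (A m))
    (hB : ∀ δ m, B (ρ₀ δ m) = ρ₁ δ (B m))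
    (h : ∀ x y : P₀, A x + B y ∈ m59epa_rad ρ₁ → x ∈ m59epa_rad ρ₀ ∧ y ∈ m59epa_rad ρ₀) :
    ∃ r : P₁ →ₗ[𝒪] P₀ × P₀,
      (∀ (δ : Δ) (m : P₁), r (ρ₁ δ m) = (ρ₀ δ (r m).1, ρ₀ δ (r m).2)) ∧
      ∀ x y : P₀, r (A x + B y) = (x, y) := by
  letI := m59epa_isLocalRing (Δ := Δ) hp𝒪 hΔ
  have hmax : maximalIdeal (MonoidAlgebra 𝒪 Δ) = RingHom.ker (m59epa_eps 𝒪 Δ) :=
    m59epa_maximalIdeal_eq hp𝒪 hΔ
  haveI := twe_fm_free_rep ρ₀ v₀ b₀ hb₀
  haveI := twe_fm_finite_rep ρ₀ v₀ b₀ hb₀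
  haveI := twe_fm_free_rep ρ₁ v₁ b₁ hb₁
  haveI := twe_fm_finite_rep ρ₁ v₁ b₁ hb₁
  obtain ⟨G, hG⟩ := m59epa_abs_leftInv
    ((m59epa_lin ρ₀ ρ₁ A hA).coprod (m59epa_lin ρ₀ ρ₁ B hB)) (by
      rintro ⟨x, y⟩ hxy
      rw [hmax] at hxy ⊢
      rw [m59epa_mem_rad_iff, LinearMap.coprod_apply, map_add, m59epa_lin_apply,
        m59epa_lin_apply, LinearEquiv.apply_symm_apply, LinearEquiv.apply_symm_apply] at hxy
      obtain ⟨hx, hy⟩ := h _ _ hxy
      rw [← m59epa_mem_rad_iff] at hx hy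
      have e : ((x, y) : ρ₀.asModule × ρ₀.asModule) =
          LinearMap.inl (MonoidAlgebra 𝒪 Δ) ρ₀.asModule ρ₀.asModule x +
            LinearMap.inr (MonoidAlgebra 𝒪 Δ) ρ₀.asModule ρ₀.asModule y := by
        simp
      rw [e]
      refine Submodule.add_mem _ ?_ ?_
      · have := Submodule.mem_map_of_mem
          (f := LinearMap.inl (MonoidAlgebra 𝒪 Δ) ρ₀.asModule ρ₀.asModule) hx
        rw [Submodule.map_smul''] at this
        exact Submodule.smul_mono le_rfl le_top this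
      · have := Submodule.mem_map_of_mem
          (f := LinearMap.inr (MonoidAlgebra 𝒪 Δ) ρ₀.asModule ρ₀.asModule) hy
        rw [Submodule.map_smul''] at this
        exact Submodule.smul_mono le_rfl le_top this)
  refine ⟨(m59epa_unlin ρ₁ ρ₀ ((LinearMap.fst (MonoidAlgebra 𝒪 Δ) _ _).comp G)).prod
    (m59epa_unlin ρ₁ ρ₀ ((LinearMap.snd (MonoidAlgebra 𝒪 Δ) _ _).comp G)), ?_, ?_⟩
  · intro δ m
    show (m59epa_unlin ρ₁ ρ₀ ((LinearMap.fst (MonoidAlgebra 𝒪 Δ) _ _).comp G) (ρ₁ δ m),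
      m59epa_unlin ρ₁ ρ₀ ((LinearMap.snd (MonoidAlgebra 𝒪 Δ) _ _).comp G) (ρ₁ δ m)) = _
    rw [m59epa_unlin_equiv, m59epa_unlin_equiv]
    rfl
  · intro x y
    have h1 := LinearMap.congr_fun hG (ρ₀.asModuleEquiv.symm x, ρ₀.asModuleEquiv.symm y)
    rw [LinearMap.comp_apply, LinearMap.coprod_apply, m59epa_lin_apply, m59epa_lin_apply,
      LinearEquiv.apply_symm_apply, LinearEquiv.apply_symm_apply, ← map_add,
      LinearMap.id_apply] at h1
    show (m59epa_unlin ρ₁ ρ₀ ((LinearMap.fst (MonoidAlgebra 𝒪 Δ) _ _).comp G) (A x + B y),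
      m59epa_unlin ρ₁ ρ₀ ((LinearMap.snd (MonoidAlgebra 𝒪 Δ) _ _).comp G) (A x + B y)) = _
    rw [m59epa_unlin_apply, m59epa_unlin_apply,
      LinearMap.comp_apply, LinearMap.comp_apply, h1]
    simp

/-- **(I2) by Nakayama over `𝒪[Δ]`**: `m ↦ (At m, Bt m)` onto modulo the radical ⟹ onto. -/
theorem m59epa_onto (hp𝒪 : (p : 𝒪) ∈ maximalIdeal 𝒪) (hΔ : IsPGroup p Δ)
    (ρ₀ : Representation 𝒪 Δ P₀) (v₀ : ι₀ → P₀) (b₀ : Module.Basis (Δ × ι₀) 𝒪 P₀)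
    (hb₀ : ∀ δ i, b₀ (δ, i) = ρ₀ δ (v₀ i))
    (ρ₁ : Representation 𝒪 Δ P₁)
    (At Bt : P₁ →ₗ[𝒪] P₀) (hAt : ∀ δ m, At (ρ₁ δ m) = ρ₀ δ (At m))
    (hBt : ∀ δ m, Bt (ρ₁ δ m) = ρ₀ δ (Bt m))
    (h : ∀ x y : P₀, ∃ m : P₁, At m - x ∈ m59epa_rad ρ₀ ∧ Bt m - y ∈ m59epa_rad ρ₀) :
    ∀ x y : P₀, ∃ m : P₁, At m = x ∧ Bt m = y := by
  letI := m59epa_isLocalRing (Δ := Δ) hp𝒪 hΔ
  have hmax : maximalIdeal (MonoidAlgebra 𝒪 Δ) = RingHom.ker (m59epa_eps 𝒪 Δ) :=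
    m59epa_maximalIdeal_eq hp𝒪 hΔ
  haveI := twe_fm_free_rep ρ₀ v₀ b₀ hb₀
  haveI := twe_fm_finite_rep ρ₀ v₀ b₀ hb₀
  have hs := m59epa_abs_surj
    ((m59epa_lin ρ₁ ρ₀ At hAt).prod (m59epa_lin ρ₁ ρ₀ Bt hBt)) (by
      rintro ⟨x, y⟩
      obtain ⟨m, hm1, hm2⟩ := h (ρ₀.asModuleEquiv x) (ρ₀.asModuleEquiv y)
      refine ⟨ρ₁.asModuleEquiv.symm m, ?_⟩
      rw [hmax]
      have hx : (m59epa_lin ρ₁ ρ₀ At hAt (ρ₁.asModuleEquiv.symm m) - x) ∈
          RingHom.ker (m59epa_eps 𝒪 Δ) •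
            (⊤ : Submodule (MonoidAlgebra 𝒪 Δ) ρ₀.asModule) := by
        rw [m59epa_mem_rad_iff, map_sub, m59epa_lin_apply, LinearEquiv.apply_symm_apply,
          LinearEquiv.apply_symm_apply]
        exact hm1
      have hy : (m59epa_lin ρ₁ ρ₀ Bt hBt (ρ₁.asModuleEquiv.symm m) - y) ∈
          RingHom.ker (m59epa_eps 𝒪 Δ) •
            (⊤ : Submodule (MonoidAlgebra 𝒪 Δ) ρ₀.asModule) := by
        rw [m59epa_mem_rad_iff, map_sub, m59epa_lin_apply, LinearEquiv.apply_symm_apply,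
          LinearEquiv.apply_symm_apply]
        exact hm2
      have e : ((m59epa_lin ρ₁ ρ₀ At hAt).prod (m59epa_lin ρ₁ ρ₀ Bt hBt))
            (ρ₁.asModuleEquiv.symm m) - ((x, y) : ρ₀.asModule × ρ₀.asModule) =
          LinearMap.inl (MonoidAlgebra 𝒪 Δ) ρ₀.asModule ρ₀.asModule
              (m59epa_lin ρ₁ ρ₀ At hAt (ρ₁.asModuleEquiv.symm m) - x) +
            LinearMap.inr (MonoidAlgebra 𝒪 Δ) ρ₀.asModule ρ₀.asModule
              (m59epa_lin ρ₁ ρ₀ Bt hBt (ρ₁.asModuleEquiv.symm m) - y) := by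
        simp
      rw [e]
      refine Submodule.add_mem _ ?_ ?_
      · have := Submodule.mem_map_of_mem
          (f := LinearMap.inl (MonoidAlgebra 𝒪 Δ) ρ₀.asModule ρ₀.asModule) hx
        rw [Submodule.map_smul''] at this
        exact Submodule.smul_mono le_rfl le_top this
      · have := Submodule.mem_map_of_mem
          (f := LinearMap.inr (MonoidAlgebra 𝒪 Δ) ρ₀.asModule ρ₀.asModule) hy
        rw [Submodule.map_smul''] at this
        exact Submodule.smul_mono le_rfl le_top this)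
  intro x y
  obtain ⟨m, hm⟩ := hs (ρ₀.asModuleEquiv.symm x, ρ₀.asModuleEquiv.symm y)
  have hm' : (m59epa_lin ρ₁ ρ₀ At hAt m, m59epa_lin ρ₁ ρ₀ Bt hBt m) =
      (ρ₀.asModuleEquiv.symm x, ρ₀.asModuleEquiv.symm y) := hm
  rw [Prod.mk.injEq, m59epa_lin_apply, m59epa_lin_apply] at hm'
  refine ⟨ρ₁.asModuleEquiv m, ?_, ?_⟩
  · exact ρ₀.asModuleEquiv.symm.injective hm'.1
  · exact ρ₀.asModuleEquiv.symm.injective hm'.2

end nak

section norm

variable {𝒪 : Type*} [CommRing 𝒪] [IsLocalRing 𝒪] {Δ : Type*} [CommGroup Δ] [Fintype Δ]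
  {P : Type*} [AddCommGroup P] [Module 𝒪 P] {ι : Type*} [Finite ι]

/-- the coordinates of an element of `I P` lie in `I`. -/
theorem m59epa_repr_mem {κ : Type*} (b : Module.Basis κ 𝒪 P) (I : Ideal 𝒪) {y : P}
    (hy : y ∈ I • (⊤ : Submodule 𝒪 P)) (j : κ) : b.repr y j ∈ I := by
  refine Submodule.smul_induction_on hy ?_ ?_
  · intro c hc x _
    rw [map_smul, Finsupp.smul_apply, smul_eq_mul]
    exact I.mul_mem_right _ hc
  · intro x y hx hy
    rw [map_add, Finsupp.add_apply]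
    exact I.add_mem hx hy

/-- the norm maps the radical into `𝔪 P`. -/
theorem m59epa_norm_rad (ρ : Representation 𝒪 Δ P) {y : P} (hy : y ∈ m59epa_rad ρ) :
    (∑ δ : Δ, ρ δ) y ∈ maximalIdeal 𝒪 • (⊤ : Submodule 𝒪 P) := by
  have key : m59epa_rad ρ ≤
      (maximalIdeal 𝒪 • (⊤ : Submodule 𝒪 P)).comap (∑ δ : Δ, ρ δ : Module.End 𝒪 P) := by
    refine sup_le ?_ (iSup_le fun δ => ?_)
    · refine Submodule.smul_le.2 fun c hc x _ => ?_
      rw [Submodule.mem_comap, map_smul]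
      exact Submodule.smul_mem_smul hc Submodule.mem_top
    · rintro _ ⟨x, rfl⟩
      rw [Submodule.mem_comap, LinearMap.sub_apply, Module.End.one_apply, map_sub,
        LinearMap.sum_apply, LinearMap.sum_apply]
      have : ∑ δ' : Δ, ρ δ' (ρ δ x) = ∑ δ' : Δ, ρ δ' x := by
        rw [← Equiv.sum_comp (Equiv.mulRight δ) fun δ' => ρ δ' x]
        refine Finset.sum_congr rfl fun δ' _ => ?_
        rw [Equiv.coe_mulRight, map_mul, Module.End.mul_apply]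
      rw [this, sub_self]
      exact Submodule.zero_mem _
  exact key hy

/-- an element whose norm lies in `𝔪 P` lies in the radical (`P` free over `𝒪[Δ]`). -/
theorem m59epa_of_norm_mem (ρ : Representation 𝒪 Δ P) (v : ι → P)
    (b : Module.Basis (Δ × ι) 𝒪 P) (hb : ∀ δ i, b (δ, i) = ρ δ (v i)) {x : P}
    (hx : (∑ δ : Δ, ρ δ) x ∈ maximalIdeal 𝒪 • (⊤ : Submodule 𝒪 P)) : x ∈ m59epa_rad ρ := by
  classical
  have hb1 : ∀ i, b (1, i) = v i := fun i => by rw [hb, map_one, Module.End.one_apply]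
  have hb' : ∀ δ i, b (δ, i) = ρ δ (b (1, i)) := fun δ i => by rw [hb1, hb]
  have hcoord : ∀ i, (b.coord (1, i)) ∘ₗ (∑ δ : Δ, ρ δ : Module.End 𝒪 P) =
      (Finsupp.lapply i) ∘ₗ twe_fm_aug b := by
    intro i
    refine b.ext fun ⟨δ, j⟩ => ?_
    rw [LinearMap.comp_apply, LinearMap.comp_apply, twe_fm_aug_basis, LinearMap.sum_apply]
    have h1 : ∑ δ' : Δ, ρ δ' (b (δ, j)) = ∑ δ' : Δ, b (δ', j) := by
      rw [← Equiv.sum_comp (Equiv.mulRight δ) fun δ' => b (δ', j)]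
      refine Finset.sum_congr rfl fun δ' _ => ?_
      rw [Equiv.coe_mulRight, hb, hb, map_mul, Module.End.mul_apply]
    rw [h1, map_sum, Finsupp.lapply_apply, Finsupp.single_apply]
    rw [Finset.sum_eq_single (1 : Δ)]
    · rw [Module.Basis.coord_apply, Module.Basis.repr_self, Finsupp.single_apply]
      by_cases hji : j = i
      · rw [if_pos hji, if_pos (by rw [hji])]
      · rw [if_neg hji, if_neg (fun h => hji (Prod.mk.inj h).2)]
    · intro δ' _ hδ'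
      rw [Module.Basis.coord_apply, Module.Basis.repr_self, Finsupp.single_apply,
        if_neg (fun h => hδ' (Prod.mk.inj h).1)]
    · intro h
      exact absurd (Finset.mem_univ _) h
  have haug : ∀ i, twe_fm_aug b x i ∈ maximalIdeal 𝒪 := by
    intro i
    have h1 := LinearMap.congr_fun (hcoord i) x
    rw [LinearMap.comp_apply, LinearMap.comp_apply, Finsupp.lapply_apply] at h1
    rw [← h1, Module.Basis.coord_apply]
    exact m59epa_repr_mem b _ hx _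
  have hsec : twe_fm_sec b (twe_fm_aug b x) ∈ maximalIdeal 𝒪 • (⊤ : Submodule 𝒪 P) := by
    rw [twe_fm_sec, Finsupp.linearCombination_apply]
    refine Submodule.sum_mem _ fun i _ => ?_
    exact Submodule.smul_mem_smul (haug i) Submodule.mem_top
  have h3 := twe_fm_sub_sec_aug ρ b hb' x
  have : x = (x - twe_fm_sec b (twe_fm_aug b x)) + twe_fm_sec b (twe_fm_aug b x) := by abel
  rw [this]
  exact Submodule.add_mem _ (Submodule.mem_sup_right h3) (Submodule.mem_sup_left hsec)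

end norm

section nakinv

variable {𝒪 : Type*} [CommRing 𝒪] [IsLocalRing 𝒪] {Δ : Type*} [CommGroup Δ] [Finite Δ]
  {p : ℕ} [Fact p.Prime]
  {P₀ P₁ : Type*} [AddCommGroup P₀] [Module 𝒪 P₀] [AddCommGroup P₁] [Module 𝒪 P₁]
  {ι₀ ι₁ : Type*} [Finite ι₀] [Finite ι₁]

/-- **(I1), invariants form**: `(x, y) ↦ A x + B y` injective on the `Δ`-invariants modulo `𝔪`
⟹ an equivariant retraction. -/
theorem m59epa_split_inv (hp𝒪 : (p : 𝒪) ∈ maximalIdeal 𝒪) (hΔ : IsPGroup p Δ)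
    (ρ₀ : Representation 𝒪 Δ P₀) (v₀ : ι₀ → P₀) (b₀ : Module.Basis (Δ × ι₀) 𝒪 P₀)
    (hb₀ : ∀ δ i, b₀ (δ, i) = ρ₀ δ (v₀ i))
    (ρ₁ : Representation 𝒪 Δ P₁) (v₁ : ι₁ → P₁) (b₁ : Module.Basis (Δ × ι₁) 𝒪 P₁)
    (hb₁ : ∀ δ i, b₁ (δ, i) = ρ₁ δ (v₁ i))
    (A B : P₀ →ₗ[𝒪] P₁) (hA : ∀ δ m, A (ρ₀ δ m) = ρ₁ δ (A m))
    (hB : ∀ δ m, B (ρ₀ δ m) = ρ₁ δ (B m))
    (h : ∀ x y : P₀,
      (∀ δ, ρ₀ δ x - x ∈ maximalIdeal 𝒪 • (⊤ : Submodule 𝒪 P₀)) →
      (∀ δ, ρ₀ δ y - y ∈ maximalIdeal 𝒪 • (⊤ : Submodule 𝒪 P₀)) →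
      A x + B y ∈ maximalIdeal 𝒪 • (⊤ : Submodule 𝒪 P₁) →
      x ∈ maximalIdeal 𝒪 • (⊤ : Submodule 𝒪 P₀) ∧ y ∈ maximalIdeal 𝒪 • (⊤ : Submodule 𝒪 P₀)) :
    ∃ r : P₁ →ₗ[𝒪] P₀ × P₀,
      (∀ (δ : Δ) (m : P₁), r (ρ₁ δ m) = (ρ₀ δ (r m).1, ρ₀ δ (r m).2)) ∧
      ∀ x y : P₀, r (A x + B y) = (x, y) := by
  cases nonempty_fintype Δ
  refine m59epa_split hp𝒪 hΔ ρ₀ v₀ b₀ hb₀ ρ₁ v₁ b₁ hb₁ A B hA hB fun x y hxy => ?_
  have hinv : ∀ (z : P₀) (δ : Δ), ρ₀ δ ((∑ δ' : Δ, ρ₀ δ') z) - (∑ δ' : Δ, ρ₀ δ') z ∈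
      maximalIdeal 𝒪 • (⊤ : Submodule 𝒪 P₀) := by
    intro z δ
    have : ρ₀ δ ((∑ δ' : Δ, ρ₀ δ') z) = (∑ δ' : Δ, ρ₀ δ') z := by
      rw [LinearMap.sum_apply, map_sum,
        ← Equiv.sum_comp (Equiv.mulLeft δ) fun δ' => ρ₀ δ' z]
      refine Finset.sum_congr rfl fun δ' _ => ?_
      rw [Equiv.coe_mulLeft, map_mul, Module.End.mul_apply]
    rw [this, sub_self]
    exact Submodule.zero_mem _
  have hcomm : ∀ (f : P₀ →ₗ[𝒪] P₁), (∀ δ m, f (ρ₀ δ m) = ρ₁ δ (f m)) → ∀ z,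
      f ((∑ δ' : Δ, ρ₀ δ') z) = (∑ δ' : Δ, ρ₁ δ') (f z) := by
    intro f hf z
    rw [LinearMap.sum_apply, LinearMap.sum_apply, map_sum]
    exact Finset.sum_congr rfl fun δ' _ => hf δ' z
  have h1 := m59epa_norm_rad ρ₁ hxy
  rw [map_add, ← hcomm A hA, ← hcomm B hB] at h1
  obtain ⟨hx, hy⟩ := h _ _ (hinv x) (hinv y) h1
  exact ⟨m59epa_of_norm_mem ρ₀ v₀ b₀ hb₀ hx, m59epa_of_norm_mem ρ₀ v₀ b₀ hb₀ hy⟩

end nakinv

end

end Fermat.Agent.M59
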