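/-
Project M59 (S59), block [E'] (architect helper3), cell [AlgInst], tag `m59epa_` (helper22).

The algebra of `AlgNak` / `AlgNew` instantiated at two level data `D₀ D₁ : twe_mk_LevelData _ p Q`:
the three fields (I1) `split`, (I2) `onto`, (I3) `new` of `m59eps_StepData D₀ D₁ l` (Asm.lean), LITERALLY,
from the statements modulo the radical and over an algebraically closed field.

* `m59epa_delta_pgroup` : `twe_Delta p Q` is a `p`-group;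
* `m59epa_rank` : `D.r = B.d * 2 ^ Q.card` (coinvariants of the orbit basis against `c`);
* `m59epa_step_split`, `m59epa_step_split_inv`, `m59epa_step_onto`, `m59epa_step_new`.
-/
import Mathlib
import Fermat.Agent.TW.Aut.ChiBridge
import Fermat.Agent.TW.Aut.SeamMk
import Fermat.Agent.M59.EP.AlgNak
import Fermat.Agent.M59.EP.AlgNew

set_option autoImplicit false
set_option linter.unusedSectionVars false
set_option linter.style.haveILetI false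

namespace Fermat.Agent.M59

open Polynomial CuspForm IsLocalRing Fermat.Agent.JT3 Fermat.Agent.TW TensorProduct

noncomputable section

/-- `Δ_Q` is a `p`-group. -/
theorem m59epa_delta_pgroup (p : ℕ) [Fact p.Prime] (Q : Finset ℕ) :
    IsPGroup p (twe_Delta p Q) := by
  refine IsPGroup.of_card (n := ∑ t : ↥Q, padicValNat p ((t : ℕ) - 1)) ?_
  rw [Nat.card_congr (Multiplicative.toAdd (α := (t : ↥Q) → ZMod (twe_ord p (t : ℕ)))),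
    Nat.card_pi, ← Finset.prod_pow_eq_pow_sum]
  refine Finset.prod_congr rfl fun t _ => ?_
  rw [Nat.card_zmod, twe_ord]

variable {𝒪 : Type} [CommRing 𝒪] [IsDomain 𝒪] [IsDiscreteValuationRing 𝒪]
  [IsAdicComplete (maximalIdeal 𝒪) 𝒪]
  {N₀ N₁ : ℕ} [NeZero N₀] [NeZero N₁] {S₀ S₁ : Finset ℕ}
  {θ₀ : heckeAlgebra N₀ 2 (↑S₀ : Set ℕ) →+* ResidueField 𝒪}
  {θ₁ : heckeAlgebra N₁ 2 (↑S₁ : Set ℕ) →+* ResidueField 𝒪}
  {B₀ : twe_Base 𝒪 N₀ S₀ θ₀} {B₁ : twe_Base 𝒪 N₁ S₁ θ₁} {p : ℕ} {Q : Finset ℕ}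
  [NeZero (twe_Nbal N₀ Q ∅)] [NeZero (twe_Nbal N₁ Q ∅)]

/-- **the rank of a level**: `D.r = B.d * 2 ^ |Q|`. -/
theorem m59epa_rank (D : twe_mk_LevelData B₀ p Q) : D.r = B₀.d * 2 ^ Q.card := by
  classical
  have hb1 : ∀ i, D.b (1, i) = D.v i := fun i => by rw [D.hb, map_one, Module.End.one_apply]
  have hb' : ∀ δ i, D.b (δ, i) = D.ρ δ (D.b (1, i)) := fun δ i => by rw [hb1, D.hb]
  have hinv : ∀ δ m, twe_fm_aug D.b (D.ρ δ m) = twe_fm_aug D.b m := by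
    intro δ
    have : (twe_fm_aug D.b) ∘ₗ (D.ρ δ) = twe_fm_aug D.b := by
      refine D.b.ext fun ⟨δ', i⟩ => ?_
      have h1 : D.ρ δ (D.b (δ', i)) = D.b (δ * δ', i) := by
        rw [D.hb, D.hb, map_mul, Module.End.mul_apply]
      rw [LinearMap.comp_apply, h1, twe_fm_aug_basis, twe_fm_aug_basis]
    exact fun m => LinearMap.congr_fun this m
  have hsurj : Function.Surjective (twe_fm_aug D.b) := by
    intro x
    refine ⟨twe_fm_sec D.b x, ?_⟩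
    have : (twe_fm_aug D.b) ∘ₗ (twe_fm_sec D.b) = LinearMap.id := by
      refine Finsupp.lhom_ext' fun i => LinearMap.ext_ring ?_
      rw [LinearMap.comp_apply, LinearMap.comp_apply, Finsupp.lsingle_apply, twe_fm_sec_single,
        twe_fm_aug_basis, LinearMap.id_comp, Finsupp.lsingle_apply]
    exact LinearMap.congr_fun this x
  have hker : LinearMap.ker (twe_fm_aug D.b) = LinearMap.ker D.c := by
    rw [D.c_ker]
    exact twe_fm_ker_eq D.ρ D.b hb' (Finsupp.basisSingleOne) (twe_fm_aug D.b) hinv hsurj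
  let e₁ := (twe_fm_aug D.b).quotKerEquivOfSurjective hsurj
  let e₂ := D.c.quotKerEquivOfSurjective D.c_surjective
  let e := e₁.symm.trans ((Submodule.quotEquivOfEq _ _ hker).trans e₂)
  have h := LinearEquiv.finrank_eq e
  rw [Module.finrank_finsupp_self, Fintype.card_fin, Module.finrank_pi_fintype] at h
  simp only [Module.finrank_fin_fun, Finset.sum_const, Finset.card_univ, Fintype.card_fin,
    smul_eq_mul] at h
  rw [h, mul_comm]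

/-- **(I1)**, literally the field `split` of `m59eps_StepData`, from injectivity modulo the
radical. -/
theorem m59epa_step_split [Fact p.Prime] (hp𝒪 : (p : 𝒪) ∈ maximalIdeal 𝒪)
    (D₀ : twe_mk_LevelData B₀ p Q) (D₁ : twe_mk_LevelData B₁ p Q) (A B : D₀.P →ₗ[𝒪] D₁.P)
    (A_dia : ∀ (δ : twe_Delta p Q) (m : D₀.P), A (D₀.ρ δ m) = D₁.ρ δ (A m))
    (B_dia : ∀ (δ : twe_Delta p Q) (m : D₀.P), B (D₀.ρ δ m) = D₁.ρ δ (B m))
    (h : ∀ x y : D₀.P, A x + B y ∈ m59epa_rad D₁.ρ → x ∈ m59epa_rad D₀.ρ ∧ y ∈ m59epa_rad D₀.ρ) :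
    ∃ r : D₁.P →ₗ[𝒪] D₀.P × D₀.P,
      (∀ (δ : twe_Delta p Q) (m : D₁.P), r (D₁.ρ δ m) = (D₀.ρ δ (r m).1, D₀.ρ δ (r m).2)) ∧
      ∀ x y : D₀.P, r (A x + B y) = (x, y) :=
  m59epa_split hp𝒪 (m59epa_delta_pgroup p Q) D₀.ρ D₀.v D₀.b D₀.hb D₁.ρ D₁.v D₁.b D₁.hb A B
    A_dia B_dia h

/-- **(I1)**, literally the field `split`, from injectivity on the `Δ`-invariants modulo `𝔪`. -/
theorem m59epa_step_split_inv [Fact p.Prime] (hp𝒪 : (p : 𝒪) ∈ maximalIdeal 𝒪)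
    (D₀ : twe_mk_LevelData B₀ p Q) (D₁ : twe_mk_LevelData B₁ p Q) (A B : D₀.P →ₗ[𝒪] D₁.P)
    (A_dia : ∀ (δ : twe_Delta p Q) (m : D₀.P), A (D₀.ρ δ m) = D₁.ρ δ (A m))
    (B_dia : ∀ (δ : twe_Delta p Q) (m : D₀.P), B (D₀.ρ δ m) = D₁.ρ δ (B m))
    (h : ∀ x y : D₀.P,
      (∀ δ, D₀.ρ δ x - x ∈ maximalIdeal 𝒪 • (⊤ : Submodule 𝒪 D₀.P)) →
      (∀ δ, D₀.ρ δ y - y ∈ maximalIdeal 𝒪 • (⊤ : Submodule 𝒪 D₀.P)) →
      A x + B y ∈ maximalIdeal 𝒪 • (⊤ : Submodule 𝒪 D₁.P) →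
      x ∈ maximalIdeal 𝒪 • (⊤ : Submodule 𝒪 D₀.P) ∧
        y ∈ maximalIdeal 𝒪 • (⊤ : Submodule 𝒪 D₀.P)) :
    ∃ r : D₁.P →ₗ[𝒪] D₀.P × D₀.P,
      (∀ (δ : twe_Delta p Q) (m : D₁.P), r (D₁.ρ δ m) = (D₀.ρ δ (r m).1, D₀.ρ δ (r m).2)) ∧
      ∀ x y : D₀.P, r (A x + B y) = (x, y) :=
  m59epa_split_inv hp𝒪 (m59epa_delta_pgroup p Q) D₀.ρ D₀.v D₀.b D₀.hb D₁.ρ D₁.v D₁.b D₁.hb A B
    A_dia B_dia h

/-- **(I2)**, literally the field `onto` of `m59eps_StepData`, from surjectivity modulo the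
radical. -/
theorem m59epa_step_onto [Fact p.Prime] (hp𝒪 : (p : 𝒪) ∈ maximalIdeal 𝒪)
    (D₀ : twe_mk_LevelData B₀ p Q) (D₁ : twe_mk_LevelData B₁ p Q) (At Bt : D₁.P →ₗ[𝒪] D₀.P)
    (At_dia : ∀ (δ : twe_Delta p Q) (m : D₁.P), At (D₁.ρ δ m) = D₀.ρ δ (At m))
    (Bt_dia : ∀ (δ : twe_Delta p Q) (m : D₁.P), Bt (D₁.ρ δ m) = D₀.ρ δ (Bt m))
    (h : ∀ x y : D₀.P, ∃ m : D₁.P, At m - x ∈ m59epa_rad D₀.ρ ∧ Bt m - y ∈ m59epa_rad D₀.ρ) :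
    ∀ x y : D₀.P, ∃ m : D₁.P, At m = x ∧ Bt m = y :=
  m59epa_onto hp𝒪 (m59epa_delta_pgroup p Q) D₀.ρ D₀.v D₀.b D₀.hb D₁.ρ At Bt At_dia Bt_dia h

/-- **(I3)**, the body of the field `new` of `m59eps_StepData` for an element `X` of the Hecke
algebra of the upper level, from (I1) and the pointwise statement over an algebraically closed
field `K ⊇ 𝒪`. -/
theorem m59epa_step_new [CharZero 𝒪]
    (D₀ : twe_mk_LevelData B₀ p Q) (D₁ : twe_mk_LevelData B₁ p Q)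
    (πT : D₁.B'.T →ₐ[𝒪] D₀.B'.T) (A B : D₀.P →ₗ[𝒪] D₁.P) (At Bt : D₁.P →ₗ[𝒪] D₀.P)
    (A_dia : ∀ (δ : twe_Delta p Q) (m : D₀.P), A (D₀.ρ δ m) = D₁.ρ δ (A m))
    (B_dia : ∀ (δ : twe_Delta p Q) (m : D₀.P), B (D₀.ρ δ m) = D₁.ρ δ (B m))
    (A_hecke : ∀ (x : D₁.B'.T) (m : D₀.P), D₁.ψ x (A m) = A (D₀.ψ (πT x) m))
    (B_hecke : ∀ (x : D₁.B'.T) (m : D₀.P), D₁.ψ x (B m) = B (D₀.ψ (πT x) m))
    (At_hecke : ∀ (x : D₁.B'.T) (m : D₁.P), At (D₁.ψ x m) = D₀.ψ (πT x) (At m))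
    (Bt_hecke : ∀ (x : D₁.B'.T) (m : D₁.P), Bt (D₁.ψ x m) = D₀.ψ (πT x) (Bt m))
    (split : ∃ r : D₁.P →ₗ[𝒪] D₀.P × D₀.P,
      (∀ (δ : twe_Delta p Q) (m : D₁.P), r (D₁.ρ δ m) = (D₀.ρ δ (r m).1, D₀.ρ δ (r m).2)) ∧
      ∀ x y : D₀.P, r (A x + B y) = (x, y))
    {K : Type*} [Field K] [IsAlgClosed K] [Algebra 𝒪 K]
    (hK : Function.Injective (algebraMap 𝒪 K)) (X : D₁.B'.T)
    (hnew : ∀ (χ : D₁.B'.T →ₐ[𝒪] K) (v : K ⊗[𝒪] D₁.P), v ≠ 0 →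
      (∀ x, (D₁.ψ x).baseChange K v = χ x • v) → At.baseChange K v = 0 →
      Bt.baseChange K v = 0 → χ X = 0) :
    ∀ m : D₁.P, ∃ x y : D₀.P, D₁.ψ (X ^ (B₁.d * 2 ^ Q.card)) m = A x + B y := by
  haveI : Module.Finite 𝒪 D₀.P := Module.Finite.of_basis D₀.b
  have h := m59epa_new hK D₀.ρ D₁.ρ D₁.v D₁.b D₁.hb (D₀.ψ.comp πT) D₁.ψ D₁.comm A B At Bt
    A_dia B_dia A_hecke B_hecke At_hecke Bt_hecke split X hnew
  rwa [Fintype.card_fin, m59epa_rank D₁] at h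

end

end Fermat.Agent.M59
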