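/-
Project M59 (S59), block [E'] (architect helper3), cell [EP-ASM] part 2, tag `m59eps_`.

THE THREE LEAVES of block [E'] after [EP-TWIN], [EP-LG2], [EP-OPS], [EP-PRIM/RING] and the algebra
[Alg*] (helper22) are closed, stated for the contexts `m59epr_Ctx` and links `m59epr_Link` of
`PrimRing.lean`:

* `m59eps_IhInv_stmt`  : (I1) modulo `𝔪` on the `Δ`-invariants (mod-`λ` Ihara, W-language);
* `m59eps_IhOnto_stmt` : (I2) modulo the radical `𝔪 P₀ + I_Δ P₀` (dual Ihara);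
* `m59eps_NewPt_stmt`  : (I3) pointwise over an algebraically closed field `K ⊇ 𝒪`: an eigenvector
  of the Hecke ring in `K ⊗ P₁` killed by the two transfers has `χ (tr ρ(Frob_l))² = (l + 1)²`;

and the wiring `m59eps_stepData_of : IhInv → IhOnto → NewPt → m59eps_StepData C₀.data C₁.data l`.
-/
import Mathlib
import Fermat.Agent.M59.EP.PrimRing
import Fermat.Agent.M59.EP.AlgInst

set_option autoImplicit false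
set_option linter.unusedSectionVars false
set_option linter.unusedVariables false
set_option synthInstance.maxHeartbeats 400000
set_option maxHeartbeats 1000000

noncomputable section

namespace Fermat.Agent.M59

open IsLocalRing Polynomial CuspForm Fermat.Agent.JT3 Fermat.Agent.LR Fermat.Agent.TW
  CongruenceSubgroup TensorProduct
open scoped MatrixGroups

/-- **leaf (I1)**: mod-`λ` Ihara in the W-language: on the `Δ`-invariants modulo `𝔪`,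
`(x, y) ↦ A x + B y` is injective modulo `𝔪`. -/
def m59eps_IhInv_stmt : Prop :=
  ∀ {p : ℕ} [Fact p.Prime]
    {𝒪 : Type} [CommRing 𝒪] [IsDomain 𝒪] [IsDiscreteValuationRing 𝒪]
    [IsAdicComplete (maximalIdeal 𝒪) 𝒪] [Finite (ResidueField 𝒪)] [CharZero 𝒪]
    {N₀ N₁ : ℕ} [NeZero N₀] [NeZero N₁] {S₀ S₁ : Finset ℕ}
    {θ₀ : heckeAlgebra N₀ 2 (↑S₀ : Set ℕ) →+* ResidueField 𝒪}
    {θ₁ : heckeAlgebra N₁ 2 (↑S₁ : Set ℕ) →+* ResidueField 𝒪}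
    {ρbar : ResidualGaloisRep (ResidueField 𝒪)}
    {B₀ : twe_Base 𝒪 N₀ S₀ θ₀} {B₁ : twe_Base 𝒪 N₁ S₁ θ₁}
    {Q : Finset ℕ} [NeZero (twe_Nbal N₀ Q ∅)] [NeZero (twe_Nbal N₁ Q ∅)]
    {M₀ : ℕ} [NeZero M₀] {l : ℕ} [Fact l.Prime] [NeZero (M₀ * l)] {H₀ : Subgroup (ZMod M₀)ˣ}
    (C₀ : m59epr_Ctx ρbar B₀ p Q M₀ H₀)
    (C₁ : m59epr_Ctx ρbar B₁ p Q (M₀ * l) (m59epo_Hl M₀ l H₀)) (Λ : m59epr_Link C₀ C₁),
    ∀ x y : C₀.data.P,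
      (∀ δ, C₀.data.ρ δ x - x ∈ maximalIdeal 𝒪 • (⊤ : Submodule 𝒪 C₀.data.P)) →
      (∀ δ, C₀.data.ρ δ y - y ∈ maximalIdeal 𝒪 • (⊤ : Submodule 𝒪 C₀.data.P)) →
      m59epr_cA Λ x + m59epr_cB Λ y ∈ maximalIdeal 𝒪 • (⊤ : Submodule 𝒪 C₁.data.P) →
      x ∈ maximalIdeal 𝒪 • (⊤ : Submodule 𝒪 C₀.data.P) ∧
        y ∈ maximalIdeal 𝒪 • (⊤ : Submodule 𝒪 C₀.data.P)

/-- **leaf (I2)**: dual Ihara: `(At, Bt)` is onto modulo the radical `𝔪 P₀ + I_Δ P₀`. -/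
def m59eps_IhOnto_stmt : Prop :=
  ∀ {p : ℕ} [Fact p.Prime]
    {𝒪 : Type} [CommRing 𝒪] [IsDomain 𝒪] [IsDiscreteValuationRing 𝒪]
    [IsAdicComplete (maximalIdeal 𝒪) 𝒪] [Finite (ResidueField 𝒪)] [CharZero 𝒪]
    {N₀ N₁ : ℕ} [NeZero N₀] [NeZero N₁] {S₀ S₁ : Finset ℕ}
    {θ₀ : heckeAlgebra N₀ 2 (↑S₀ : Set ℕ) →+* ResidueField 𝒪}
    {θ₁ : heckeAlgebra N₁ 2 (↑S₁ : Set ℕ) →+* ResidueField 𝒪}
    {ρbar : ResidualGaloisRep (ResidueField 𝒪)}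
    {B₀ : twe_Base 𝒪 N₀ S₀ θ₀} {B₁ : twe_Base 𝒪 N₁ S₁ θ₁}
    {Q : Finset ℕ} [NeZero (twe_Nbal N₀ Q ∅)] [NeZero (twe_Nbal N₁ Q ∅)]
    {M₀ : ℕ} [NeZero M₀] {l : ℕ} [Fact l.Prime] [NeZero (M₀ * l)] {H₀ : Subgroup (ZMod M₀)ˣ}
    (C₀ : m59epr_Ctx ρbar B₀ p Q M₀ H₀)
    (C₁ : m59epr_Ctx ρbar B₁ p Q (M₀ * l) (m59epo_Hl M₀ l H₀)) (Λ : m59epr_Link C₀ C₁),
    ∀ x y : C₀.data.P, ∃ m : C₁.data.P,
      m59epr_cAt Λ m - x ∈ m59epa_rad C₀.data.ρ ∧ m59epr_cBt Λ m - y ∈ m59epa_rad C₀.data.ρ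

/-- **leaf (I3)**, pointwise form: over an algebraically closed field `K ⊇ 𝒪`, a common eigenvector
of the Hecke ring of the upper level in `K ⊗ P₁` which is killed by the two transfers (an `l`-new
eigenclass) has `χ (tr ρ₁(Frob_l))² = (l + 1)²`. -/
def m59eps_NewPt_stmt : Prop :=
  ∀ {p : ℕ} [Fact p.Prime]
    {𝒪 : Type} [CommRing 𝒪] [IsDomain 𝒪] [IsDiscreteValuationRing 𝒪]
    [IsAdicComplete (maximalIdeal 𝒪) 𝒪] [Finite (ResidueField 𝒪)] [CharZero 𝒪]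
    {N₀ N₁ : ℕ} [NeZero N₀] [NeZero N₁] {S₀ S₁ : Finset ℕ}
    {θ₀ : heckeAlgebra N₀ 2 (↑S₀ : Set ℕ) →+* ResidueField 𝒪}
    {θ₁ : heckeAlgebra N₁ 2 (↑S₁ : Set ℕ) →+* ResidueField 𝒪}
    {ρbar : ResidualGaloisRep (ResidueField 𝒪)}
    {B₀ : twe_Base 𝒪 N₀ S₀ θ₀} {B₁ : twe_Base 𝒪 N₁ S₁ θ₁}
    {Q : Finset ℕ} [NeZero (twe_Nbal N₀ Q ∅)] [NeZero (twe_Nbal N₁ Q ∅)]
    {M₀ : ℕ} [NeZero M₀] {l : ℕ} [Fact l.Prime] [NeZero (M₀ * l)] {H₀ : Subgroup (ZMod M₀)ˣ}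
    (C₀ : m59epr_Ctx ρbar B₀ p Q M₀ H₀)
    (C₁ : m59epr_Ctx ρbar B₁ p Q (M₀ * l) (m59epo_Hl M₀ l H₀)) (Λ : m59epr_Link C₀ C₁)
    (K : Type) [Field K] [IsAlgClosed K] [Algebra 𝒪 K],
    Function.Injective (algebraMap 𝒪 K) →
    ∀ P : ValuationSubring (AlgebraicClosure ℚ), P.LiesOverPrime l →
    ∀ σ : AlgebraicClosure ℚ ≃ₐ[ℚ] AlgebraicClosure ℚ, P.IsFrobeniusAt σ l →
    ∀ (χ : C₁.data.B'.T →ₐ[𝒪] K) (v : K ⊗[𝒪] C₁.data.P), v ≠ 0 →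
      (∀ x, (C₁.data.ψ x).baseChange K v = χ x • v) →
      (m59epr_cAt Λ).baseChange K v = 0 → (m59epr_cBt Λ).baseChange K v = 0 →
      χ ((C₁.data.B'.H.ρ.trace σ) ^ 2 - ((l : C₁.data.B'.T) + 1) ^ 2) = 0

section wiring

variable {p : ℕ} [Fact p.Prime]
  {𝒪 : Type} [CommRing 𝒪] [IsDomain 𝒪] [IsDiscreteValuationRing 𝒪]
  [IsAdicComplete (maximalIdeal 𝒪) 𝒪] [Finite (ResidueField 𝒪)] [CharZero 𝒪]
  {N₀ N₁ : ℕ} [NeZero N₀] [NeZero N₁] {S₀ S₁ : Finset ℕ}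
  {θ₀ : heckeAlgebra N₀ 2 (↑S₀ : Set ℕ) →+* ResidueField 𝒪}
  {θ₁ : heckeAlgebra N₁ 2 (↑S₁ : Set ℕ) →+* ResidueField 𝒪}
  {ρbar : ResidualGaloisRep (ResidueField 𝒪)}
  {B₀ : twe_Base 𝒪 N₀ S₀ θ₀} {B₁ : twe_Base 𝒪 N₁ S₁ θ₁}
  {Q : Finset ℕ} [NeZero (twe_Nbal N₀ Q ∅)] [NeZero (twe_Nbal N₁ Q ∅)]
  {M₀ : ℕ} [NeZero M₀] {l : ℕ} [Fact l.Prime] [NeZero (M₀ * l)] {H₀ : Subgroup (ZMod M₀)ˣ}
  {C₀ : m59epr_Ctx ρbar B₀ p Q M₀ H₀}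
  {C₁ : m59epr_Ctx ρbar B₁ p Q (M₀ * l) (m59epo_Hl M₀ l H₀)}

/-- **the step from the three leaves.** -/
def m59eps_stepData_of (h1 : m59eps_IhInv_stmt) (h2 : m59eps_IhOnto_stmt)
    (h3 : m59eps_NewPt_stmt) (Λ : m59epr_Link C₀ C₁) : m59eps_StepData C₀.data C₁.data l :=
  have hsplit : ∃ r : C₁.data.P →ₗ[𝒪] C₀.data.P × C₀.data.P,
      (∀ (δ : twe_Delta p Q) (m : C₁.data.P),
        r (C₁.data.ρ δ m) = (C₀.data.ρ δ (r m).1, C₀.data.ρ δ (r m).2)) ∧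
      ∀ x y : C₀.data.P, r (m59epr_cA Λ x + m59epr_cB Λ y) = (x, y) :=
    m59epa_step_split_inv C₀.hp𝒪 C₀.data C₁.data (m59epr_cA Λ) (m59epr_cB Λ) (m59epr_cA_dia Λ)
      (m59epr_cB_dia Λ) (h1 C₀ C₁ Λ)
  m59epr_stepData Λ hsplit
    (m59epa_step_onto C₀.hp𝒪 C₀.data C₁.data (m59epr_cAt Λ) (m59epr_cBt Λ) (m59epr_cAt_dia Λ)
      (m59epr_cBt_dia Λ) (h2 C₀ C₁ Λ))
    (fun P hP σ hσ =>
      m59epa_step_new C₀.data C₁.data (m59epr_piT Λ) (m59epr_cA Λ) (m59epr_cB Λ) (m59epr_cAt Λ)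
        (m59epr_cBt Λ) (m59epr_cA_dia Λ) (m59epr_cB_dia Λ) (m59epr_cA_hecke Λ) (m59epr_cB_hecke Λ)
        (m59epr_cAt_hecke Λ) (m59epr_cBt_hecke Λ) hsplit
        (K := AlgebraicClosure (FractionRing 𝒪))
        ((algebraMap (FractionRing 𝒪) (AlgebraicClosure (FractionRing 𝒪))).injective.comp
          (IsFractionRing.injective 𝒪 (FractionRing 𝒪)))
        ((C₁.data.B'.H.ρ.trace σ) ^ 2 - ((l : C₁.data.B'.T) + 1) ^ 2)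
        (fun χ v hv hχ hAt hBt =>
          h3 C₀ C₁ Λ (AlgebraicClosure (FractionRing 𝒪))
            ((algebraMap (FractionRing 𝒪) (AlgebraicClosure (FractionRing 𝒪))).injective.comp
              (IsFractionRing.injective 𝒪 (FractionRing 𝒪))) P hP σ hσ χ v hv hχ hAt hBt))

end wiring

end Fermat.Agent.M59
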