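/-
Project M59 (S59), block [E'] (architect helper3), cell [EP-ASM] part 3, tag `m59eps_`.

THE CHAIN ASSEMBLY: `m59eps_chain_of : m59eps_IhInv_stmt → m59eps_IhOnto_stmt → m59eps_NewPt_stmt →
m59ep_Chain_stmt`.  Contexts at all the levels of the chain (levels `M_{k+1} = M_k · l_k`,
subgroups `H_{k+1} = m59epo_Hl M_k l_k H_k`, defined by recursion so that consecutive contexts are
linked DEFINITIONALLY), the identity `H_k = ker ((ℤ/M_k)ˣ → Δ_Q)`, the links, `m59epl_isLG2`.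
-/
import Mathlib
import Fermat.Agent.M59.EP.AsmCells
import Fermat.Agent.M59.EP.LG2.Main
import Fermat.Agent.M59.EP.Twin.SeamLevelFinal
import Fermat.Agent.S35.SMO.StrongLin
import Fermat.Agent.JT3.ES.FrobExists

set_option autoImplicit false
set_option linter.unusedSectionVars false
set_option linter.unusedVariables false
set_option linter.style.haveILetI false
set_option synthInstance.maxHeartbeats 400000
set_option maxHeartbeats 1000000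

noncomputable section

namespace Fermat.Agent.M59

open IsLocalRing Polynomial CuspForm Fermat.Agent.JT3 Fermat.Agent.LR Fermat.Agent.TW
  CongruenceSubgroup
open scoped MatrixGroups

/-! ### The arithmetic of the chain -/

section arith

variable {m : ℕ} (l : Fin m → ℕ)

/-- the `k`-th prime of the chain (`1` beyond the end). -/
def m59eps_lk (k : ℕ) : ℕ := if h : k < m then l ⟨k, h⟩ else 1

theorem m59eps_lk_fin (k : Fin m) : m59eps_lk l (k : ℕ) = l k := by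
  rw [m59eps_lk, dif_pos k.2]

theorem m59eps_lvl_succ (N : ℕ) (k : ℕ) :
    m59ep_lvl N l (k + 1) = m59ep_lvl N l k * m59eps_lk l k := by
  unfold m59ep_lvl
  rw [mul_assoc]
  congr 1
  have h1 : ∀ i : Fin m, (if (i : ℕ) < k + 1 then l i else 1) =
      (if (i : ℕ) < k then l i else 1) * (if (i : ℕ) = k then l i else 1) := by
    intro i
    by_cases h : (i : ℕ) < k
    · rw [if_pos h, if_pos (Nat.lt_succ_of_lt h), if_neg (Nat.ne_of_lt h), mul_one]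
    · by_cases h' : (i : ℕ) = k
      · rw [if_neg h, if_pos h', if_pos (by omega), one_mul]
      · rw [if_neg h, if_neg h', if_neg (by omega), one_mul]
  rw [Finset.prod_congr rfl (fun i _ => h1 i), Finset.prod_mul_distrib]
  congr 1
  unfold m59eps_lk
  by_cases hk : k < m
  · rw [dif_pos hk, Finset.prod_eq_single (⟨k, hk⟩ : Fin m)]
    · rw [if_pos rfl]
    · intro i _ hi
      rw [if_neg (fun h => hi (Fin.ext h))]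
    · intro h
      exact absurd (Finset.mem_univ _) h
  · rw [dif_neg hk]
    refine Finset.prod_eq_one fun i _ => ?_
    rw [if_neg (by have := i.2; omega)]

theorem m59eps_mem_bad (S₀ : Finset ℕ) (k : ℕ) (x : ℕ) :
    x ∈ m59ep_bad S₀ l k ↔ x ∈ S₀ ∨ ∃ i : Fin m, (i : ℕ) < k ∧ l i = x := by
  unfold m59ep_bad
  rw [Finset.mem_union, Finset.mem_image]
  constructor
  · rintro (h | ⟨i, hi, rfl⟩)
    · exact Or.inl h
    · exact Or.inr ⟨i, (Finset.mem_filter.mp hi).2, rfl⟩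
  · rintro (h | ⟨i, hi, rfl⟩)
    · exact Or.inl h
    · exact Or.inr ⟨i, Finset.mem_filter.mpr ⟨Finset.mem_univ _, hi⟩, rfl⟩

theorem m59eps_mem_bad_succ (S₀ : Finset ℕ) (k : Fin m) (x : ℕ) :
    x ∈ m59ep_bad S₀ l ((k : ℕ) + 1) ↔ x ∈ m59ep_bad S₀ l (k : ℕ) ∨ x = l k := by
  rw [m59eps_mem_bad, m59eps_mem_bad]
  constructor
  · rintro (h | ⟨i, hi, rfl⟩)
    · exact Or.inl (Or.inl h)
    · by_cases h : (i : ℕ) < (k : ℕ)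
      · exact Or.inl (Or.inr ⟨i, h, rfl⟩)
      · have : i = k := Fin.ext (by omega)
        exact Or.inr (by rw [this])
  · rintro ((h | ⟨i, hi, rfl⟩) | rfl)
    · exact Or.inl h
    · exact Or.inr ⟨i, by omega, rfl⟩
    · exact Or.inr ⟨k, by omega, rfl⟩

theorem m59eps_bad_mono (S₀ : Finset ℕ) (k : ℕ) : m59ep_bad S₀ l k ⊆ m59ep_bad S₀ l (k + 1) := by
  intro x hx
  rw [m59eps_mem_bad] at hx ⊢
  rcases hx with h | ⟨i, hi, rfl⟩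
  · exact Or.inl h
  · exact Or.inr ⟨i, by omega, rfl⟩

/-- the primes of the level `N_k` lie in the bad set `S_k`. -/
theorem m59eps_hNS (N : ℕ) (S₀ : Finset ℕ) (hNS : ∀ ℓ : ℕ, ℓ.Prime → ℓ ∣ N → ℓ ∈ S₀)
    (hl : ∀ i, (l i).Prime) (k : ℕ) :
    ∀ ℓ : ℕ, ℓ.Prime → ℓ ∣ m59ep_lvl N l k → ℓ ∈ m59ep_bad S₀ l k := by
  intro ℓ hℓ hd
  rw [m59eps_mem_bad]
  unfold m59ep_lvl at hd
  rcases (Nat.Prime.dvd_mul hℓ).mp hd with h | h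
  · exact Or.inl (hNS ℓ hℓ h)
  · obtain ⟨i, -, hi⟩ := (Prime.dvd_finsetProd_iff hℓ.prime _).mp h
    by_cases hik : (i : ℕ) < k
    · rw [if_pos hik] at hi
      exact Or.inr ⟨i, hik, ((Nat.prime_dvd_prime_iff_eq hℓ (hl i)).mp hi).symm⟩
    · rw [if_neg hik] at hi
      exact absurd (Nat.dvd_one.mp hi) hℓ.ne_one

end arith

/-! ### The context of one level from the concrete Taylor–Wiles data -/

section ctxmk

variable {p : ℕ} [Fact p.Prime]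
  {𝒪 : Type} [CommRing 𝒪] [IsDomain 𝒪] [IsDiscreteValuationRing 𝒪]
  [IsAdicComplete (maximalIdeal 𝒪) 𝒪] [Finite (ResidueField 𝒪)] [CharZero 𝒪]
  {N : ℕ} [NeZero N] {S : Finset ℕ} {θ : heckeAlgebra N 2 (↑S : Set ℕ) →+* ResidueField 𝒪}

variable (hp2 : p ≠ 2) (hp𝒪 : (p : 𝒪) ∈ maximalIdeal 𝒪) (hrig : m59ep_Rigid p N)
    (hpS : p ∈ S) (hNS : ∀ ℓ : ℕ, ℓ.Prime → ℓ ∣ N → ℓ ∈ S)
    (ρbar : ResidualGaloisRep (ResidueField 𝒪)) (hcompat : twt_Compat θ ρbar)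
    (hirr : ρbar.IsAbsolutelyIrreducible)
    (B : twe_Base 𝒪 N S θ) (hfull : B.IsFull)
    (Q : Finset ℕ) [NeZero (twe_Nbal N Q ∅)] (hQS : ∀ t ∈ Q, t ∉ S) (hTW : twe_IsTWSet θ p Q)
    (θ' : heckeAlgebra (twe_Nbal N Q ∅) 2 (↑(S ∪ Q) : Set ℕ) →+* ResidueField 𝒪)
    (θ'_eq : ∀ (ℓ : ℕ) (hℓ : ℓ.Prime) (h1 : ¬ ℓ ∣ twe_Nbal N Q ∅) (h2 : ℓ ∉ (↑(S ∪ Q) : Set ℕ))
      (h3 : ¬ ℓ ∣ N) (h4 : ℓ ∉ (↑S : Set ℕ)),
      θ' (heckeAlgebra.T hℓ h1 h2) = θ (heckeAlgebra.T hℓ h3 h4))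
    (B' : twe_Base 𝒪 (twe_Nbal N Q ∅) (S ∪ Q) θ') (hfull' : B'.IsFull)
    {M : ℕ} [NeZero M] (hM : M = N * ∏ t ∈ Q, t)
    (hQp : ∀ t ∈ Q, t.Prime) (hQM : ∀ t ∈ Q, t ∣ M)
    (H : Subgroup (ZMod M)ˣ) (hH : H = (twe_di_hom p Q M hQp hQM).ker)
    (F : twe_sm_Frame M H (twe_sm_q (twe_Nbal N Q ∅) (S ∪ Q)))
    (a : twe_sm_Idx (twe_Nbal N Q ∅) (S ∪ Q) → 𝒪) (ha : twe_sm_IsLift θ' a)

/-- **the context of the level** `(M, H)`, `H = ker ((ℤ/M)ˣ → Δ_Q)` (as a propositional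
equality, so that the subgroups of the chain, defined by recursion, qualify). -/
def m59eps_ctx : m59epr_Ctx ρbar B p Q M H where
  hp2 := hp2
  hp𝒪 := hp𝒪
  hpS := hpS
  hNS := hNS
  hcompat := hcompat
  hirr := hirr
  hfull := hfull
  hQS := hQS
  hTW := hTW
  θ' := θ'
  θ'_eq := θ'_eq
  B' := B'
  hfull' := hfull'
  hNS' := twe_sli_hNS' hNS hQp
  π0 := twe_sli_pi0 hNS B Q θ' θ'_eq B' hfull' hQp
  π0_T := twe_sli_pi0_T hNS B Q θ' θ'_eq B' hfull' hQp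
  hM := hM
  F := F
  a := a
  ha := ha
  hrel := by
    subst hH
    exact twe_sri_level 𝒪 p (twe_sli_hQ hNS hQS hTW) hM
      ((Fact.out : p.Prime).odd_of_ne_two hp2) hQp hQM
      (twe_sm_q (twe_Nbal N Q ∅) (S ∪ Q)) (fun i => i.2.2.1) F
  d := twe_di_d1 p Q M hQp hQM
  hd := twe_di_d1_surjective p Q M hQp hQM
  hdk := by
    subst hH
    exact twe_di_d1_eq_one_iff p Q M hQp hQM
  hneg := by
    subst hH
    exact twe_di_neg_one_mem_GamH1 p Q M hQp hQM ((Fact.out : p.Prime).odd_of_ne_two hp2)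
  hPE := by
    subst hH
    exact m59epw_sli_hPE hp2 hrig (Dvd.intro _ hM.symm) Q hQp hQM
  n := twe_di_exp p Q
  hΔ := twe_di_delta_pow_exp p Q
  i₀ := m59epw_sli_i0 hp2 hp𝒪 ρbar hcompat hirr Q θ' θ'_eq a ha
  hne := m59epw_sli_i0_ne hp2 hp𝒪 ρbar hcompat hirr Q θ' θ'_eq a ha

theorem m59eps_ctx_d :
    (m59eps_ctx hp2 hp𝒪 hrig hpS hNS ρbar hcompat hirr B hfull Q hQS hTW θ' θ'_eq B' hfull' hM hQp
      hQM H hH F a ha).d = twe_di_d1 p Q M hQp hQM := rfl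

/-- **the [E] → [A] clauses** for the level of the context. -/
theorem m59eps_ctx_isLG2 :
    ((m59eps_ctx hp2 hp𝒪 hrig hpS hNS ρbar hcompat hirr B hfull Q hQS hTW θ' θ'_eq B' hfull' hM hQp
      hQM H hH F a ha).data.toLevel).IsLG2 := by
  subst hH
  exact m59epl_isLG2 hp2 hp𝒪 hrig hpS hNS ρbar hcompat hirr B hfull Q hQS hTW θ' θ'_eq B' hfull'
    hM hQp hQM F a ha

end ctxmk

/-! ### The subgroups along the chain -/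

section grp

variable (p : ℕ) (Q : Finset ℕ) (M l : ℕ) (hQp : ∀ t ∈ Q, t.Prime) (hQM : ∀ t ∈ Q, t ∣ M)
  (hQM' : ∀ t ∈ Q, t ∣ M * l)

theorem m59eps_di_hom_comp (u : (ZMod (M * l))ˣ) :
    twe_di_hom p Q (M * l) hQp hQM' u =
      twe_di_hom p Q M hQp hQM (ZMod.unitsMap (dvd_mul_right M l) u) := by
  rw [twe_di_hom_eq_iff]
  intro t
  have h1 : ZMod.unitsMap (hQM t.1 t.2) (ZMod.unitsMap (dvd_mul_right M l) u) =
      ZMod.unitsMap (hQM' t.1 t.2) u := by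
    rw [← MonoidHom.comp_apply, ZMod.unitsMap_comp]
  rw [← h1]
  rfl

/-- the preimage in `(ℤ/Ml)ˣ` of `ker ((ℤ/M)ˣ → Δ_Q)` is `ker ((ℤ/Ml)ˣ → Δ_Q)`. -/
theorem m59eps_Hl_ker :
    m59epo_Hl M l (twe_di_hom p Q M hQp hQM).ker = (twe_di_hom p Q (M * l) hQp hQM').ker := by
  ext u
  rw [m59epo_Hl, Subgroup.mem_comap, MonoidHom.mem_ker, MonoidHom.mem_ker,
    m59eps_di_hom_comp p Q M l hQp hQM hQM' u]

theorem m59eps_d1_comp [Fact l.Prime] (g : Gamma0 (M * l)) :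
    twe_di_d1 p Q (M * l) hQp hQM' g = twe_di_d1 p Q M hQp hQM (lrm_incl M l g) := by
  show twe_di_hom p Q (M * l) hQp hQM' (twe_dUnit (M * l) g) =
    twe_di_hom p Q M hQp hQM (twe_dUnit M (lrm_incl M l g))
  rw [m59eps_di_hom_comp p Q M l hQp hQM hQM']
  congr 1
  exact m59epo_unitsMap_dUnit (g : SL(2, ℤ)) g.2 (lrm_incl M l g).2

end grp

/-! ### Two eigensystems compatible with the same residual representation -/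

theorem m59eps_coeff_one {R : Type} [CommRing R] (a b : R) :
    (X ^ 2 - C a * X + C b : R[X]).coeff 1 = -a := by
  simp [coeff_X_pow, coeff_C]

theorem m59eps_compat_eq {k : Type} [Field k] {N₀ N₁ : ℕ} [NeZero N₀] [NeZero N₁]
    {S₀ S₁ : Finset ℕ} (θ₀ : heckeAlgebra N₀ 2 (↑S₀ : Set ℕ) →+* k)
    (θ₁ : heckeAlgebra N₁ 2 (↑S₁ : Set ℕ) →+* k) (ρbar : ResidualGaloisRep k)
    (h₀ : twt_Compat θ₀ ρbar) (h₁ : twt_Compat θ₁ ρbar)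
    (ℓ : ℕ) (hℓ : ℓ.Prime) (h1 : ¬ ℓ ∣ N₁) (h2 : ℓ ∉ (↑S₁ : Set ℕ)) (h3 : ¬ ℓ ∣ N₀)
    (h4 : ℓ ∉ (↑S₀ : Set ℕ)) :
    θ₁ (heckeAlgebra.T hℓ h1 h2) = θ₀ (heckeAlgebra.T hℓ h3 h4) := by
  obtain ⟨A, hA⟩ := Fermat.Agent.S35.smos_exists_place ℓ hℓ
  obtain ⟨σ, hσ⟩ := fex_exists_isFrobeniusAt hℓ A hA
  have e1 := h₁ ℓ hℓ h1 h2 A hA σ hσ
  have e0 := h₀ ℓ hℓ h3 h4 A hA σ hσ
  rw [e1] at e0
  have e3 := congrArg (fun f : k[X] => f.coeff 1) e0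
  simp only [m59eps_coeff_one] at e3
  exact neg_injective e3

/-! ### The link between two consecutive contexts -/

section linkmk

variable {p : ℕ} [Fact p.Prime]
  {𝒪 : Type} [CommRing 𝒪] [IsDomain 𝒪] [IsDiscreteValuationRing 𝒪]
  [IsAdicComplete (maximalIdeal 𝒪) 𝒪] [Finite (ResidueField 𝒪)] [CharZero 𝒪]
  {N₀ N₁ : ℕ} [NeZero N₀] [NeZero N₁] {S₀ S₁ : Finset ℕ}
  {θ₀ : heckeAlgebra N₀ 2 (↑S₀ : Set ℕ) →+* ResidueField 𝒪}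
  {θ₁ : heckeAlgebra N₁ 2 (↑S₁ : Set ℕ) →+* ResidueField 𝒪}
  {ρbar : ResidualGaloisRep (ResidueField 𝒪)}
  {B₀ : twe_Base 𝒪 N₀ S₀ θ₀} {B₁ : twe_Base 𝒪 N₁ S₁ θ₁}
  {Q : Finset ℕ} [NeZero (twe_Nbal N₀ Q ∅)] [NeZero (twe_Nbal N₁ Q ∅)]
  {M₀ : ℕ} [NeZero M₀] {l : ℕ} [Fact l.Prime] [NeZero (M₀ * l)] {H₀ : Subgroup (ZMod M₀)ˣ}

/-- **links exist** between two contexts of the chain whose diamond presentations are the canonical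
ones (`twe_di_d1`) and whose lower subgroup is `ker ((ℤ/M₀)ˣ → Δ_Q)`. -/
theorem m59eps_link_nonempty (C₀ : m59epr_Ctx ρbar B₀ p Q M₀ H₀)
    (C₁ : m59epr_Ctx ρbar B₁ p Q (M₀ * l) (m59epo_Hl M₀ l H₀))
    (hQp : ∀ t ∈ Q, t.Prime) (hQM₀ : ∀ t ∈ Q, t ∣ M₀) (hQM₁ : ∀ t ∈ Q, t ∣ M₀ * l)
    (hH₀ : H₀ = (twe_di_hom p Q M₀ hQp hQM₀).ker)
    (hd₀ : C₀.d = twe_di_d1 p Q M₀ hQp hQM₀) (hd₁ : C₁.d = twe_di_d1 p Q (M₀ * l) hQp hQM₁)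
    (hN : N₁ = N₀ * l) (hS : ∀ x : ℕ, x ∈ S₁ ↔ x ∈ S₀ ∨ x = l) (hlN : ¬ l ∣ N₀)
    (hlS : l ≠ p → l ∉ S₀) (hlQ : l ∉ Q) :
    Nonempty (m59epr_Link C₀ C₁) := by
  have hl : l.Prime := Fact.out
  have hlM : ¬ l ∣ M₀ := by
    rw [C₀.hM]
    intro h
    rcases (Nat.Prime.dvd_mul hl).1 h with h | h
    · exact hlN h
    · obtain ⟨t, ht, hd⟩ := (Prime.dvd_finsetProd_iff hl.prime _).1 h
      have : l = t := (Nat.prime_dvd_prime_iff_eq hl (hQp t ht)).1 hd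
      exact hlQ (this ▸ ht)
  have hodd : Odd p := (Fact.out : p.Prime).odd_of_ne_two C₀.hp2
  have hHm : ∀ u : (ZMod M₀)ˣ, u ^ (p ^ twe_di_exp p Q) ∈ H₀ := by
    intro u
    rw [hH₀]
    exact MonoidHom.mem_ker.2 (twe_di_hom_pow_exp_mem p Q M₀ hQp hQM₀ u)
  obtain ⟨s₀, hs₀⟩ := twe_fx_exists_s hlM H₀ hodd.pow hHm
  obtain ⟨s, hsd, hsn⟩ := twe_hc_exists_nice hlM s₀
  have hSS₀ : S₀ ⊆ S₁ := fun x hx => (hS x).2 (Or.inl hx)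
  refine ⟨{ hlM := hlM, s := s, hs := by rw [hsd]; exact hs₀, hnice := hsn,
            m := p ^ twe_di_exp p Q, hm := hodd.pow, hHm := hHm, hNbal := ?_, hSS := ?_,
            hθ := ?_, hcomp := ?_, hN := hN, hS := hS, hlS := hlS, hlQ := hlQ }⟩
  · unfold twe_Nbal
    rw [hN]
    exact mul_dvd_mul_right (mul_dvd_mul_right (Dvd.intro _ rfl) _) _
  · exact Finset.union_subset_union hSS₀ (le_refl Q)
  · intro ℓ hℓ h1 h2 h3 h4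
    have h3' : ¬ ℓ ∣ N₁ := fun h => h1 (h.trans (twe_sli_dvd_Nbal N₁ Q))
    have h4' : ℓ ∉ (↑S₁ : Set ℕ) := fun h =>
      h2 (Finset.coe_subset.mpr Finset.subset_union_left h)
    have h5' : ¬ ℓ ∣ N₀ := fun h => h3 (h.trans (twe_sli_dvd_Nbal N₀ Q))
    have h6' : ℓ ∉ (↑S₀ : Set ℕ) := fun h =>
      h4 (Finset.coe_subset.mpr Finset.subset_union_left h)
    rw [C₁.θ'_eq ℓ hℓ h1 h2 h3' h4', C₀.θ'_eq ℓ hℓ h3 h4 h5' h6']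
    exact m59eps_compat_eq θ₀ θ₁ ρbar C₀.hcompat C₁.hcompat ℓ hℓ h3' h4' h5' h6'
  · intro g₁
    rw [hd₀, hd₁]
    exact m59eps_d1_comp p Q M₀ l hQp hQM₀ hQM₁ g₁

end linkmk

/-! ### The third leaf with the two extra hypotheses of its producer -/

/-- **leaf (I3)**, pointwise form, WITH the hypotheses `H₀ ⊇ {u ≡ 1 mod every t ∈ Q}` and `l ≠ p`
(both hold along the chain; they are what the producer `m59epn_hnew` of helper2 consumes). -/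
def m59eps_NewPtH_stmt : Prop :=
  ∀ {p : ℕ} [Fact p.Prime]
    {𝒪 : Type} [CommRing 𝒪] [IsDomain 𝒪] [IsDiscreteValuationRing 𝒪]
    [IsAdicComplete (maximalIdeal 𝒪) 𝒪] [Finite (ResidueField 𝒪)] [CharZero 𝒪]
    {N₀ N₁ : ℕ} [NeZero N₀] [NeZero N₁] {S₀ S₁ : Finset ℕ}
    {θ₀ : heckeAlgebra N₀ 2 (↑S₀ : Set ℕ) →+* ResidueField 𝒪}
    {θ₁ : heckeAlgebra N₁ 2 (↑S₁ : Set ℕ) →+* ResidueField 𝒪}
    {ρbar : ResidualGaloisRep (ResidueField 𝒪)}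
    {B₀ : twe_Base 𝒪 N₀ S₀ θ₀} {B₁ : twe_Base 𝒪 N₁ S₁ θ₁}
    {Q : Finset ℕ} [NeZero (twe_Nbal N₀ Q ∅)] [NeZero (twe_Nbal N₁ Q ∅)]
    {M₀ : ℕ} [NeZero M₀] {l : ℕ} [Fact l.Prime] [NeZero (M₀ * l)] {H₀ : Subgroup (ZMod M₀)ˣ}
    (C₀ : m59epr_Ctx ρbar B₀ p Q M₀ H₀)
    (C₁ : m59epr_Ctx ρbar B₁ p Q (M₀ * l) (m59epo_Hl M₀ l H₀)) (Λ : m59epr_Link C₀ C₁),
    (∀ (htM : ∀ t : ↥Q, (t : ℕ) ∣ M₀) (u : (ZMod M₀)ˣ),
      (∀ t : ↥Q, ZMod.unitsMap (htM t) u = 1) → u ∈ H₀) →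
    l ≠ p →
    ∀ (K : Type) [Field K] [IsAlgClosed K] [Algebra 𝒪 K],
    Function.Injective (algebraMap 𝒪 K) →
    ∀ P : ValuationSubring (AlgebraicClosure ℚ), P.LiesOverPrime l →
    ∀ σ : AlgebraicClosure ℚ ≃ₐ[ℚ] AlgebraicClosure ℚ, P.IsFrobeniusAt σ l →
    ∀ (χ : C₁.data.B'.T →ₐ[𝒪] K) (v : TensorProduct 𝒪 K C₁.data.P), v ≠ 0 →
      (∀ x, (C₁.data.ψ x).baseChange K v = χ x • v) →
      (m59epr_cAt Λ).baseChange K v = 0 → (m59epr_cBt Λ).baseChange K v = 0 →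
      χ ((C₁.data.B'.H.ρ.trace σ) ^ 2 - ((l : C₁.data.B'.T) + 1) ^ 2) = 0

/-- the leaf of `AsmCells.lean` (without the two hypotheses) implies this one. -/
theorem m59eps_newPtH_of (h : m59eps_NewPt_stmt) : m59eps_NewPtH_stmt :=
  fun C₀ C₁ Λ _ _ K _ _ _ hK P hP σ hσ χ v hv hχ hAt hBt =>
    h C₀ C₁ Λ K hK P hP σ hσ χ v hv hχ hAt hBt

section wiringH

variable {p : ℕ} [Fact p.Prime]
  {𝒪 : Type} [CommRing 𝒪] [IsDomain 𝒪] [IsDiscreteValuationRing 𝒪]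
  [IsAdicComplete (maximalIdeal 𝒪) 𝒪] [Finite (ResidueField 𝒪)] [CharZero 𝒪]
  {N₀ N₁ : ℕ} [NeZero N₀] [NeZero N₁] {S₀ S₁ : Finset ℕ}
  {θ₀ : heckeAlgebra N₀ 2 (↑S₀ : Set ℕ) →+* ResidueField 𝒪}
  {θ₁ : heckeAlgebra N₁ 2 (↑S₁ : Set ℕ) →+* ResidueField 𝒪}
  {ρbar : ResidualGaloisRep (ResidueField 𝒪)}
  {B₀ : twe_Base 𝒪 N₀ S₀ θ₀} {B₁ : twe_Base 𝒪 N₁ S₁ θ₁}
  {Q : Finset ℕ} [NeZero (twe_Nbal N₀ Q ∅)] [NeZero (twe_Nbal N₁ Q ∅)]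
  {M₀ : ℕ} [NeZero M₀] {l : ℕ} [Fact l.Prime] [NeZero (M₀ * l)] {H₀ : Subgroup (ZMod M₀)ˣ}
  {C₀ : m59epr_Ctx ρbar B₀ p Q M₀ H₀}
  {C₁ : m59epr_Ctx ρbar B₁ p Q (M₀ * l) (m59epo_Hl M₀ l H₀)}

/-- **the step from the three leaves** (third leaf in the form `m59eps_NewPtH_stmt`). -/
def m59eps_stepData_ofH (h1 : m59eps_IhInv_stmt) (h2 : m59eps_IhOnto_stmt)
    (h3 : m59eps_NewPtH_stmt) (Λ : m59epr_Link C₀ C₁)
    (hH : ∀ (htM : ∀ t : ↥Q, (t : ℕ) ∣ M₀) (u : (ZMod M₀)ˣ),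
      (∀ t : ↥Q, ZMod.unitsMap (htM t) u = 1) → u ∈ H₀)
    (hlp : l ≠ p) : m59eps_StepData C₀.data C₁.data l :=
  have hsplit : ∃ r : C₁.data.P →ₗ[𝒪] C₀.data.P × C₀.data.P,
      (∀ (δ : twe_Delta p Q) (m : C₁.data.P),
        r (C₁.data.ρ δ m) = (C₀.data.ρ δ (r m).1, C₀.data.ρ δ (r m).2)) ∧
      ∀ x y : C₀.data.P, r (m59epr_cA Λ x + m59epr_cB Λ y) = (x, y) :=
    m59epa_step_split_inv C₀.hp𝒪 C₀.data C₁.data (m59epr_cA Λ) (m59epr_cB Λ) (m59epr_cA_dia Λ)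
      (m59epr_cB_dia Λ) (h1 C₀ C₁ Λ)
  m59epr_stepData Λ hsplit
    (m59epa_step_onto C₀.hp𝒪 C₀.data C₁.data (m59epr_cAt Λ) (m59epr_cBt Λ) (m59epr_cAt_dia Λ)
      (m59epr_cBt_dia Λ) (h2 C₀ C₁ Λ))
    (fun P hP σ hσ =>
      m59epa_step_new C₀.data C₁.data (m59epr_piT Λ) (m59epr_cA Λ) (m59epr_cB Λ) (m59epr_cAt Λ)
        (m59epr_cBt Λ) (m59epr_cA_dia Λ) (m59epr_cB_dia Λ) (m59epr_cA_hecke Λ) (m59epr_cB_hecke Λ)
        (m59epr_cAt_hecke Λ) (m59epr_cBt_hecke Λ) hsplit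
        (K := AlgebraicClosure (FractionRing 𝒪))
        ((algebraMap (FractionRing 𝒪) (AlgebraicClosure (FractionRing 𝒪))).injective.comp
          (IsFractionRing.injective 𝒪 (FractionRing 𝒪)))
        ((C₁.data.B'.H.ρ.trace σ) ^ 2 - ((l : C₁.data.B'.T) + 1) ^ 2)
        (fun χ v hv hχ hAt hBt =>
          h3 C₀ C₁ Λ hH hlp (AlgebraicClosure (FractionRing 𝒪))
            ((algebraMap (FractionRing 𝒪) (AlgebraicClosure (FractionRing 𝒪))).injective.comp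
              (IsFractionRing.injective 𝒪 (FractionRing 𝒪))) P hP σ hσ χ v hv hχ hAt hBt))

end wiringH

/-! ### The levels `M_k` and the subgroups `H_k` along the chain -/

section MH

variable (p : ℕ) (Q : Finset ℕ) (N : ℕ) {m : ℕ} (l : Fin m → ℕ) (hQp : ∀ t ∈ Q, t.Prime)

/-- `M_0 = N ∏_{t ∈ Q} t`, `H_0 = ker ((ℤ/M_0)ˣ → Δ_Q)`; `M_{k+1} = M_k l_k`, `H_{k+1}` = the preimage
of `H_k`.  Defined by recursion so that consecutive levels are linked definitionally. -/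
def m59eps_MH : ℕ → Σ M : ℕ, Subgroup (ZMod M)ˣ :=
  fun k => Nat.rec (motive := fun _ => Σ M : ℕ, Subgroup (ZMod M)ˣ)
    ⟨N * ∏ t ∈ Q, t, (twe_di_hom p Q (N * ∏ t ∈ Q, t) hQp (twe_sli_dvd_M rfl)).ker⟩
    (fun k X => ⟨X.1 * m59eps_lk l k, m59epo_Hl X.1 (m59eps_lk l k) X.2⟩) k

theorem m59eps_MH_succ (k : ℕ) :
    m59eps_MH p Q N l hQp (k + 1) =
      ⟨(m59eps_MH p Q N l hQp k).1 * m59eps_lk l k,
        m59epo_Hl (m59eps_MH p Q N l hQp k).1 (m59eps_lk l k) (m59eps_MH p Q N l hQp k).2⟩ := rfl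

theorem m59eps_lvl_zero : m59ep_lvl N l 0 = N := by
  unfold m59ep_lvl
  rw [Finset.prod_eq_one (fun i _ => by rw [if_neg (Nat.not_lt_zero _)]), mul_one]

theorem m59eps_MH_fst (k : ℕ) :
    (m59eps_MH p Q N l hQp k).1 = m59ep_lvl N l k * ∏ t ∈ Q, t := by
  induction k with
  | zero =>
    show N * ∏ t ∈ Q, t = m59ep_lvl N l 0 * ∏ t ∈ Q, t
    rw [m59eps_lvl_zero]
  | succ k ih =>
    show (m59eps_MH p Q N l hQp k).1 * m59eps_lk l k = _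
    rw [ih, m59eps_lvl_succ]
    ring

theorem m59eps_MH_snd (k : ℕ) (hQM : ∀ t ∈ Q, t ∣ (m59eps_MH p Q N l hQp k).1) :
    (m59eps_MH p Q N l hQp k).2 = (twe_di_hom p Q (m59eps_MH p Q N l hQp k).1 hQp hQM).ker := by
  induction k with
  | zero => rfl
  | succ k ih =>
    have hQM0 : ∀ t ∈ Q, t ∣ (m59eps_MH p Q N l hQp k).1 :=
      twe_sli_dvd_M (m59eps_MH_fst p Q N l hQp k)
    show m59epo_Hl (m59eps_MH p Q N l hQp k).1 (m59eps_lk l k) (m59eps_MH p Q N l hQp k).2 =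
      (twe_di_hom p Q ((m59eps_MH p Q N l hQp k).1 * m59eps_lk l k) hQp hQM).ker
    rw [ih hQM0]
    exact m59eps_Hl_ker p Q _ _ hQp hQM0 hQM

end MH

/-! ### The chain over one Taylor–Wiles set -/

section chainQ

/-- the levels `M_k` of the chain are nonzero. -/
theorem m59eps_MH_neZero (p : ℕ) (Q : Finset ℕ) (N : ℕ) {m : ℕ} (l : Fin m → ℕ)
    (hQp : ∀ t ∈ Q, t.Prime) (k : ℕ) [NeZero (m59ep_lvl N l k)] :
    NeZero (m59eps_MH p Q N l hQp k).1 :=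
  ⟨by
    rw [m59eps_MH_fst p Q N l hQp k]
    exact mul_ne_zero (NeZero.ne _) (Finset.prod_ne_zero_iff.2 fun t ht => (hQp t ht).ne_zero)⟩

/-- **the chain over one Taylor–Wiles set `Q`**, from the three leaves, EXPORTING THE CONTEXTS (for
the step at `l = p` on top of the chain, block [P-STEP]). -/
theorem m59eps_chain_ctx (h1 : m59eps_IhInv_stmt) (h2 : m59eps_IhOnto_stmt)
    (h3 : m59eps_NewPtH_stmt)
    {p : ℕ} [Fact p.Prime] (hp2 : p ≠ 2)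
    {𝒪 : Type} [CommRing 𝒪] [IsDomain 𝒪] [IsDiscreteValuationRing 𝒪]
    [IsAdicComplete (maximalIdeal 𝒪) 𝒪] [Finite (ResidueField 𝒪)] [CharZero 𝒪]
    (hp𝒪 : (p : 𝒪) ∈ maximalIdeal 𝒪)
    {N : ℕ} [NeZero N] (hrig : m59ep_Rigid p N)
    {S₀ : Finset ℕ} (hpS : p ∈ S₀) (hNS : ∀ ℓ : ℕ, ℓ.Prime → ℓ ∣ N → ℓ ∈ S₀)
    {m : ℕ} {l : Fin m → ℕ} (hinj : Function.Injective l)
    (hl : ∀ i, (l i).Prime ∧ l i ∉ S₀ ∧ l i ≠ p)
    [∀ k : ℕ, NeZero (m59ep_lvl N l k)]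
    {θ : ∀ k : ℕ, heckeAlgebra (m59ep_lvl N l k) 2 (↑(m59ep_bad S₀ l k) : Set ℕ) →+*
      ResidueField 𝒪}
    {ρbar : ResidualGaloisRep (ResidueField 𝒪)}
    (hcompat : ∀ k, twt_Compat (θ k) ρbar) (hirr : ρbar.IsAbsolutelyIrreducible)
    (B : ∀ k : ℕ, twe_Base 𝒪 (m59ep_lvl N l k) (m59ep_bad S₀ l k) (θ k))
    (hfull : ∀ k, (B k).IsFull)
    (Q : Finset ℕ) [∀ k : ℕ, NeZero (twe_Nbal (m59ep_lvl N l k) Q ∅)]
    (hQ : ∀ t ∈ Q, t ∉ S₀ ∧ ∀ i, t ≠ l i) (hTW : ∀ k, twe_IsTWSet (θ k) p Q)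
    (hQp : ∀ t ∈ Q, t.Prime) [∀ k : ℕ, NeZero (m59eps_MH p Q N l hQp k).1] :
    ∃ C : ∀ k : ℕ, m59epr_Ctx ρbar (B k) p Q (m59eps_MH p Q N l hQp k).1
        (m59eps_MH p Q N l hQp k).2,
      (∀ (k : ℕ) (hQM : ∀ t ∈ Q, t ∣ (m59eps_MH p Q N l hQp k).1),
        (C k).d = twe_di_d1 p Q (m59eps_MH p Q N l hQp k).1 hQp hQM) ∧
      (∀ k, ((C k).data.toLevel).IsLG2) ∧
      ∀ k : Fin m, Nonempty (m59ep_Step ((C (k : ℕ)).data.toLevel)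
        ((C ((k : ℕ) + 1)).data.toLevel) (l k)) := by
  have hNk : ∀ k, N ∣ m59ep_lvl N l k := fun k => Dvd.intro _ rfl
  have hrigk : ∀ k, m59ep_Rigid p (m59ep_lvl N l k) := by
    intro k h3
    obtain ⟨r, hr, hrN, hr3⟩ := hrig h3
    exact ⟨r, hr, hrN.trans (hNk k), hr3⟩
  have hpSk : ∀ k, p ∈ m59ep_bad S₀ l k := fun k => (m59eps_mem_bad l S₀ k p).2 (Or.inl hpS)
  have hNSk : ∀ k, ∀ ℓ : ℕ, ℓ.Prime → ℓ ∣ m59ep_lvl N l k → ℓ ∈ m59ep_bad S₀ l k :=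
    fun k => m59eps_hNS l N S₀ hNS (fun i => (hl i).1) k
  have hQSk : ∀ k, ∀ t ∈ Q, t ∉ m59ep_bad S₀ l k := by
    intro k t ht h
    rcases (m59eps_mem_bad l S₀ k t).1 h with h | ⟨i, -, hi⟩
    · exact (hQ t ht).1 h
    · exact (hQ t ht).2 i hi.symm
  -- the balanced levels
  have hbase : ∀ k, ∃ (θ' : heckeAlgebra (twe_Nbal (m59ep_lvl N l k) Q ∅) 2
      (↑(m59ep_bad S₀ l k ∪ Q) : Set ℕ) →+* ResidueField 𝒪)
      (B' : twe_Base 𝒪 (twe_Nbal (m59ep_lvl N l k) Q ∅) (m59ep_bad S₀ l k ∪ Q) θ'),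
      (∀ (ℓ : ℕ) (hℓ : ℓ.Prime) (h1 : ¬ ℓ ∣ twe_Nbal (m59ep_lvl N l k) Q ∅)
        (h2 : ℓ ∉ (↑(m59ep_bad S₀ l k ∪ Q) : Set ℕ)) (h3 : ¬ ℓ ∣ m59ep_lvl N l k)
        (h4 : ℓ ∉ (↑(m59ep_bad S₀ l k) : Set ℕ)),
        θ' (heckeAlgebra.T hℓ h1 h2) = θ k (heckeAlgebra.T hℓ h3 h4)) ∧ B'.IsFull := by
    intro k
    obtain ⟨θ', h, -, B', hB'⟩ := m59epw_slf_base hp2 hp𝒪 (hpSk k) (hNSk k) ρbar (hcompat k) hirr
      Q (hQSk k) (hTW k)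
    exact ⟨θ', B', h, hB'⟩
  choose θ' B' θ'_eq hfull' using hbase
  -- the levels and the subgroups
  have hMk : ∀ k, (m59eps_MH p Q N l hQp k).1 = m59ep_lvl N l k * ∏ t ∈ Q, t :=
    m59eps_MH_fst p Q N l hQp
  have hQMk : ∀ k, ∀ t ∈ Q, t ∣ (m59eps_MH p Q N l hQp k).1 := fun k => twe_sli_dvd_M (hMk k)
  have hHk : ∀ k, (m59eps_MH p Q N l hQp k).2 =
      (twe_di_hom p Q (m59eps_MH p Q N l hQp k).1 hQp (hQMk k)).ker :=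
    fun k => m59eps_MH_snd p Q N l hQp k (hQMk k)
  -- frames and lifts
  have hF : ∀ k, Nonempty (twe_sm_Frame (m59eps_MH p Q N l hQp k).1 (m59eps_MH p Q N l hQp k).2
      (twe_sm_q (twe_Nbal (m59ep_lvl N l k) Q ∅) (m59ep_bad S₀ l k ∪ Q))) := by
    intro k
    refine twe_fx_frame_pow (m59eps_MH p Q N l hQp k).1 (m59eps_MH p Q N l hQp k).2 _
      (fun i => i.2.1) (fun i => twe_slc_not_dvd i.2 (hMk k)) (p := p) (n := twe_di_exp p Q)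
      ((Fact.out : p.Prime).odd_of_ne_two hp2) (fun u => ?_)
    rw [hHk k]
    exact MonoidHom.mem_ker.2
      (twe_di_hom_pow_exp_mem p Q (m59eps_MH p Q N l hQp k).1 hQp (hQMk k) u)
  have F := fun k => (hF k).some
  choose a ha using fun k => twe_slf_exists_lift (θ' k)
  -- the contexts
  let C : ∀ k, m59epr_Ctx ρbar (B k) p Q (m59eps_MH p Q N l hQp k).1
      (m59eps_MH p Q N l hQp k).2 := fun k =>
    m59eps_ctx hp2 hp𝒪 (hrigk k) (hpSk k) (hNSk k) ρbar (hcompat k) hirr (B k) (hfull k) Q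
      (hQSk k) (hTW k) (θ' k) (θ'_eq k) (B' k) (hfull' k) (hMk k) hQp (hQMk k)
      (m59eps_MH p Q N l hQp k).2 (hHk k) (F k) (a k) (ha k)
  refine ⟨C, fun k hQM => rfl, fun k =>
    m59eps_ctx_isLG2 hp2 hp𝒪 (hrigk k) (hpSk k) (hNSk k) ρbar (hcompat k) hirr (B k) (hfull k) Q
      (hQSk k) (hTW k) (θ' k) (θ'_eq k) (B' k) (hfull' k) (hMk k) hQp (hQMk k)
      (m59eps_MH p Q N l hQp k).2 (hHk k) (F k) (a k) (ha k), fun k => ?_⟩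
  -- the step at `k`
  have hlk : m59eps_lk l (k : ℕ) = l k := m59eps_lk_fin l k
  haveI : Fact (m59eps_lk l (k : ℕ)).Prime := ⟨by rw [hlk]; exact (hl k).1⟩
  haveI : NeZero ((m59eps_MH p Q N l hQp (k : ℕ)).1 * m59eps_lk l (k : ℕ)) :=
    (inferInstance : NeZero (m59eps_MH p Q N l hQp ((k : ℕ) + 1)).1)
  have hS : ∀ x : ℕ, x ∈ m59ep_bad S₀ l ((k : ℕ) + 1) ↔
      x ∈ m59ep_bad S₀ l (k : ℕ) ∨ x = m59eps_lk l (k : ℕ) := by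
    intro x
    rw [hlk]
    exact m59eps_mem_bad_succ l S₀ k x
  have hlS : m59eps_lk l (k : ℕ) ∉ m59ep_bad S₀ l (k : ℕ) := by
    rw [hlk]
    intro h
    rcases (m59eps_mem_bad l S₀ (k : ℕ) (l k)).1 h with h | ⟨i, hi, hli⟩
    · exact (hl k).2.1 h
    · have : i = k := hinj hli
      rw [this] at hi
      exact lt_irrefl _ hi
  have hlQ : m59eps_lk l (k : ℕ) ∉ Q := by
    rw [hlk]
    intro h
    exact (hQ _ h).2 k rfl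
  obtain ⟨Λ⟩ := m59eps_link_nonempty (l := m59eps_lk l (k : ℕ)) (C (k : ℕ))
    (C₁ := (C ((k : ℕ) + 1) : m59epr_Ctx ρbar (B ((k : ℕ) + 1)) p Q
      ((m59eps_MH p Q N l hQp (k : ℕ)).1 * m59eps_lk l (k : ℕ))
      (m59epo_Hl (m59eps_MH p Q N l hQp (k : ℕ)).1 (m59eps_lk l (k : ℕ))
        (m59eps_MH p Q N l hQp (k : ℕ)).2)))
    hQp (hQMk (k : ℕ)) (hQMk ((k : ℕ) + 1)) (hHk (k : ℕ)) rfl rfl (m59eps_lvl_succ l N (k : ℕ))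
    hS (fun h => hlS (hNSk (k : ℕ) _ (Fact.out : (m59eps_lk l (k : ℕ)).Prime) h)) (fun _ => hlS) hlQ
  have hH : ∀ (htM : ∀ t : ↥Q, (t : ℕ) ∣ (m59eps_MH p Q N l hQp (k : ℕ)).1)
      (u : (ZMod (m59eps_MH p Q N l hQp (k : ℕ)).1)ˣ),
      (∀ t : ↥Q, ZMod.unitsMap (htM t) u = 1) → u ∈ (m59eps_MH p Q N l hQp (k : ℕ)).2 := by
    intro htM u hu
    rw [hHk (k : ℕ)]
    exact MonoidHom.mem_ker.2
      (twe_di_hom_eq_one_of_unitsMap p Q _ hQp (hQMk (k : ℕ)) u hu)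
  have hlp : m59eps_lk l (k : ℕ) ≠ p := by
    rw [hlk]
    exact (hl k).2.2
  have step := (m59eps_stepData_ofH h1 h2 h3 Λ hH hlp).toStep
  exact ⟨hlk ▸ step⟩

/-- **the chain over one Taylor–Wiles set `Q`**, from the three leaves. -/
theorem m59eps_chain_Q (h1 : m59eps_IhInv_stmt) (h2 : m59eps_IhOnto_stmt)
    (h3 : m59eps_NewPtH_stmt)
    {p : ℕ} [Fact p.Prime] (hp2 : p ≠ 2)
    {𝒪 : Type} [CommRing 𝒪] [IsDomain 𝒪] [IsDiscreteValuationRing 𝒪]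
    [IsAdicComplete (maximalIdeal 𝒪) 𝒪] [Finite (ResidueField 𝒪)] [CharZero 𝒪]
    (hp𝒪 : (p : 𝒪) ∈ maximalIdeal 𝒪)
    {N : ℕ} [NeZero N] (hrig : m59ep_Rigid p N)
    {S₀ : Finset ℕ} (hpS : p ∈ S₀) (hNS : ∀ ℓ : ℕ, ℓ.Prime → ℓ ∣ N → ℓ ∈ S₀)
    {m : ℕ} {l : Fin m → ℕ} (hinj : Function.Injective l)
    (hl : ∀ i, (l i).Prime ∧ l i ∉ S₀ ∧ l i ≠ p)
    [∀ k : ℕ, NeZero (m59ep_lvl N l k)]
    {θ : ∀ k : ℕ, heckeAlgebra (m59ep_lvl N l k) 2 (↑(m59ep_bad S₀ l k) : Set ℕ) →+*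
      ResidueField 𝒪}
    {ρbar : ResidualGaloisRep (ResidueField 𝒪)}
    (hcompat : ∀ k, twt_Compat (θ k) ρbar) (hirr : ρbar.IsAbsolutelyIrreducible)
    (B : ∀ k : ℕ, twe_Base 𝒪 (m59ep_lvl N l k) (m59ep_bad S₀ l k) (θ k))
    (hfull : ∀ k, (B k).IsFull)
    (Q : Finset ℕ) [∀ k : ℕ, NeZero (twe_Nbal (m59ep_lvl N l k) Q ∅)]
    (hQ : ∀ t ∈ Q, t ∉ S₀ ∧ ∀ i, t ≠ l i) (hTW : ∀ k, twe_IsTWSet (θ k) p Q) :
    ∃ L : ∀ k : ℕ, twe_Level (B k) p Q,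
      (∀ k, (L k).IsLG2) ∧
      ∀ k : Fin m, Nonempty (m59ep_Step (L (k : ℕ)) (L ((k : ℕ) + 1)) (l k)) := by
  have hQp : ∀ t ∈ Q, t.Prime := fun t ht => (hTW 0 t ht).1
  haveI : ∀ k : ℕ, NeZero (m59eps_MH p Q N l hQp k).1 := fun k =>
    m59eps_MH_neZero p Q N l hQp k
  obtain ⟨C, -, hLG, hstep⟩ := m59eps_chain_ctx h1 h2 h3 hp2 hp𝒪 hrig hpS hNS hinj hl hcompat hirr B
    hfull Q hQ hTW hQp
  exact ⟨fun k => (C k).data.toLevel, hLG, hstep⟩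

end chainQ

/-- **block [E'] from its three leaves.** -/
theorem m59eps_chain_of (h1 : m59eps_IhInv_stmt) (h2 : m59eps_IhOnto_stmt)
    (h3 : m59eps_NewPtH_stmt) : m59ep_Chain_stmt := by
  intro p _ hp2 𝒪 _ _ _ _ _ _ hp𝒪 N _ hrig S₀ hpS hNS m l hinj hl _ θ ρbar hcompat hirr
  have hpSk : ∀ k, p ∈ m59ep_bad S₀ l k := fun k => (m59eps_mem_bad l S₀ k p).2 (Or.inl hpS)
  have hNSk : ∀ k, ∀ ℓ : ℕ, ℓ.Prime → ℓ ∣ m59ep_lvl N l k → ℓ ∈ m59ep_bad S₀ l k :=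
    fun k => m59eps_hNS l N S₀ hNS (fun i => (hl i).1) k
  choose B hfull using fun k => m59epw_dt_M1F p hp2 𝒪 hp𝒪 (m59ep_lvl N l k) (m59ep_bad S₀ l k)
    (hpSk k) (hNSk k) (θ k) ρbar (hcompat k) hirr
  refine ⟨B, fun Q _ hQ hTW _ => ?_⟩
  exact m59eps_chain_Q h1 h2 h3 hp2 hp𝒪 hrig hpS hNS hinj hl hcompat hirr B hfull Q hQ hTW

/-- block [E'] from the three leaves of `AsmCells.lean`. -/
theorem m59eps_chain_of' (h1 : m59eps_IhInv_stmt) (h2 : m59eps_IhOnto_stmt)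
    (h3 : m59eps_NewPt_stmt) : m59ep_Chain_stmt :=
  m59eps_chain_of h1 h2 (m59eps_newPtH_of h3)

end Fermat.Agent.M59
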