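import Mathlib
import Fermat.Agent.LR.MTX.Level
import Fermat.Agent.LR.MTX.EquivAbs

/-!
# M59 / block [E'] / cell [EP-NEW] (helper2), part 1: the abstract calculus  (prefix `m59epn_`)

* `m59epn_rc D x₀ r hr ι γ₀` : the cocycle datum on `Γ₁` of the operator
  `ι^* ∘ cor_{x₀} ∘ γ₀^*` (`ι : Γ₁ → G̃` a homomorphism, `γ₀ : Stab(x₀) → Γ₁`); `m59epn_rc_T`;
* `m59epn_rc_spec` : the cocycle inside an ambient group;
* `m59epn_sum_eq` : comparison of two coset systems (variant of `lre_sum_eq` with the compatibility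
  of the actions as a hypothesis);
* `m59epn_sig` : the matching of the index sets induced by a homomorphism, `m59epn_sig_act`,
  `m59epn_sig_injective`.
-/

set_option autoImplicit false

noncomputable section

namespace Fermat.Agent.M59

open Fermat.Agent.LR

section rc

variable {Gt Γ₁ X : Type*} [Group Gt] [Group Γ₁] (D : lrt_Data Gt X) (x₀ : X) (r : X → Gt)
  (hr : ∀ x, D.act (r x) x₀ = x) (ι : Γ₁ →* Gt) (γ₀ : lrt_stab D x₀ →* Γ₁)

/-- the datum of `ι^* ∘ cor_{x₀} ∘ γ₀^*` on `Γ₁`. -/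
def m59epn_rc : lrt_Data Γ₁ X where
  act g x := D.act (ι g) x
  act_one x := by rw [map_one, D.act_one]
  act_mul g h x := by rw [map_mul, D.act_mul]
  coc x g := γ₀ (lrt_a D x₀ r hr x (ι g))
  coc_one x := by rw [map_one, lrt_a_one, map_one]
  coc_mul x g h := by rw [map_mul, lrt_a_mul, map_mul]

theorem m59epn_rc_act (g : Γ₁) (x : X) : (m59epn_rc D x₀ r hr ι γ₀).act g x = D.act (ι g) x := rfl

theorem m59epn_rc_coc (g : Γ₁) (x : X) :
    (m59epn_rc D x₀ r hr ι γ₀).coc x g = γ₀ (lrt_a D x₀ r hr x (ι g)) := rfl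

variable {A : Type*} [AddCommGroup A] [Fintype X]

/-- the operator of the datum. -/
theorem m59epn_rc_T (φ : Additive Γ₁ →+ A) :
    lrt_T (m59epn_rc D x₀ r hr ι γ₀) φ = lrm_pull ι (lrt_cor D x₀ r hr (lrm_pull γ₀ φ)) := by
  refine lrt_ext fun g => ?_
  rfl

omit [Fintype X] in
/-- the cocycle inside an ambient group `𝔾`: `e ∘ γ₀ = Ad(a') ∘ et` on the stabiliser and
`et ∘ ι = e`. -/
theorem m59epn_rc_spec {𝔾 : Type*} [Group 𝔾] (et : Gt →* 𝔾) (e : Γ₁ →* 𝔾) (a' : 𝔾)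
    (h1 : ∀ g : Γ₁, et (ι g) = e g)
    (h2 : ∀ k : lrt_stab D x₀, e (γ₀ k) = a' * et (k : Gt) * a'⁻¹) (x : X) (g : Γ₁) :
    a' * et (r x) * e g =
      e ((m59epn_rc D x₀ r hr ι γ₀).coc x g) *
        (a' * et (r ((m59epn_rc D x₀ r hr ι γ₀).act g x))) := by
  rw [m59epn_rc_coc, h2, lrt_a_coe, map_mul, map_mul, map_inv, h1, m59epn_rc_act]
  group

end rc

/-- **comparison of two coset systems** (the compatibility of the actions is a hypothesis). -/
theorem m59epn_sum_eq {G Γ₁ Γ₂ : Type*} [Group G] [Group Γ₁] [Group Γ₂] (ι₁ : Γ₁ →* G)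
    (ι₂ : Γ₂ →* G) {X Y A : Type*} [Fintype X] [Fintype Y] [AddCommGroup A]
    (r : X → G) (s : Y → G) (actX : Γ₁ → Equiv.Perm X) (actY : Γ₁ → Y → Y)
    (cX : X → Γ₁ → Γ₂) (cY : Y → Γ₁ → Γ₂)
    (hX : ∀ x γ, r x * ι₁ γ = ι₂ (cX x γ) * r (actX γ x))
    (hY : ∀ y γ, s y * ι₁ γ = ι₂ (cY y γ) * s (actY γ y))
    (hι : Function.Injective ι₂)
    (σ : X → Y) (hσ : Function.Bijective σ) (hact : ∀ γ x, σ (actX γ x) = actY γ (σ x))
    (τ : X → Γ₂) (hτ : ∀ x, r x = ι₂ (τ x) * s (σ x))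
    (χ : Additive Γ₂ →+ A) (γ : Γ₁) :
    ∑ x, lrt_ev χ (cX x γ) = ∑ y, lrt_ev χ (cY y γ) := by
  have key : ∀ x, cX x γ * τ (actX γ x) = τ x * cY (σ x) γ := by
    intro x
    have h1 : ι₂ (cX x γ * τ (actX γ x)) * s (σ (actX γ x)) =
        ι₂ (τ x * cY (σ x) γ) * s (actY γ (σ x)) := by
      rw [map_mul, map_mul, mul_assoc, ← hτ, ← hX, hτ x, mul_assoc, hY, ← mul_assoc]
    rw [hact] at h1
    exact hι (mul_right_cancel h1)
  have hc : ∀ x, lrt_ev χ (cX x γ) =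
      lrt_ev χ (τ x) + lrt_ev χ (cY (σ x) γ) - lrt_ev χ (τ (actX γ x)) := by
    intro x
    have h := congrArg (lrt_ev χ) (key x)
    rw [lrt_ev_mul, lrt_ev_mul] at h
    rw [← h]
    abel
  rw [Finset.sum_congr rfl fun x _ => hc x, Finset.sum_sub_distrib, Finset.sum_add_distrib,
    Equiv.sum_comp (actX γ) fun x => lrt_ev χ (τ x)]
  have h4 : ∑ x, lrt_ev χ (cY (σ x) γ) = ∑ y, lrt_ev χ (cY y γ) :=
    (Equiv.ofBijective σ hσ).sum_comp fun y => lrt_ev χ (cY y γ)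
  rw [h4]
  abel

section sig

variable {G G' X : Type*} [Group G] [Group G'] (D : lrt_Data G X) (D' : lrt_Data G' X)
  (F : G →* G') (x₀ : X) (r : X → G)

/-- the matching of the index sets induced by `F`. -/
def m59epn_sig (x : X) : X := D'.act (F (r x)) x₀

variable (hr : ∀ x, D.act (r x) x₀ = x)
  (hF : ∀ k : G, D.act k x₀ = x₀ ↔ D'.act (F k) x₀ = x₀)

include hr hF in
theorem m59epn_sig_act (g : G) (x : X) :
    m59epn_sig D' F x₀ r (D.act g x) = D'.act (F g) (m59epn_sig D' F x₀ r x) := by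
  unfold m59epn_sig
  -- `k = r x * g * (r (x ⋆ g))⁻¹` fixes `x₀`
  have hk : D.act (r x * g * (r (D.act g x))⁻¹) x₀ = x₀ := (lrt_a D x₀ r hr x g).2
  have hk' := (hF _).mp hk
  have h1 : F (r (D.act g x)) = (F (r x * g * (r (D.act g x))⁻¹))⁻¹ * (F (r x) * F g) := by
    rw [← map_mul, ← map_inv, ← map_mul]
    congr 1
    group
  rw [h1, D'.act_mul, D'.act_mul]
  congr 2
  have h2 := lrt_act_inv D' (F (r x * g * (r (D.act g x))⁻¹)) x₀
  rwa [hk'] at h2

include hr hF in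
theorem m59epn_sig_injective : Function.Injective (m59epn_sig D' F x₀ r) := by
  intro x x' h
  unfold m59epn_sig at h
  -- `F (r x * (r x')⁻¹)` fixes `x₀`
  have h1 : D'.act (F (r x * (r x')⁻¹)) x₀ = x₀ := by
    rw [map_mul, map_inv, D'.act_mul, h]
    exact lrt_act_inv D' (F (r x')) x₀
  have h2 := (hF _).mpr h1
  have h3 : r x = r x * (r x')⁻¹ * r x' := by group
  rw [← hr x, h3, D.act_mul, h2, hr]

end sig

end Fermat.Agent.M59
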