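import Mathlib
import Fermat.Agent.M59.EP.NewAbs
import Fermat.Agent.TW.Aut.FullHecke
import Fermat.Agent.TW.Aut.FullLevels

/-!
# M59 / block [E'] / cell [EP-NEW] (helper2), part 2: the two level-raising data at full level
(prefix `m59epn_`)

`l ∤ Nk` prime, `P` a finite set of primes `≠ l`, `π_k : Γ₀(Nk) → ∏_{t ∈ P} SL(2, 𝔽_t)`.

* `m59epn_exists_rep_infty`, `m59epn_exists_rep_zero` : `ker π_k` is transitive on `ℙ¹(𝔽_l)`;
  `m59epn_Rinf`, `m59epn_Rzero` the chosen representatives;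
* `m59epn_DA`, `m59epn_DB` : the data on `Γ₀(Nk l)` of `res ∘ cor_∞` and of `res ∘ cor_0 ∘ γ₀^*`;
* `m59epn_compatA` (`τ = id`), `m59epn_compatB` (`τ = twe_fh_tau`).
-/

set_option autoImplicit false
set_option linter.unusedSectionVars false

noncomputable section

open CongruenceSubgroup Matrix.SpecialLinearGroup
open P2MW.S_ModularForm_heckeT_slash_eq_self_of_mem_Gamma0.ModularForm.HeckeSlashInvariance
open scoped MatrixGroups OnePoint

namespace Fermat.Agent.M59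

open Fermat.Agent.JT3 Fermat.Agent.LR Fermat.Agent.TW

section reps

variable {Nk l : ℕ} [Fact l.Prime] (hlNk : ¬ l ∣ Nk) (P : Finset ℕ)
  [hP : ∀ t : ↥P, Fact (Nat.Prime (t : ℕ))] (hlP : ∀ t : ↥P, (t : ℕ) ≠ l)

include hlP in
theorem m59epn_not_dvd_prod : ¬ l ∣ ∏ t ∈ P, t := by
  intro h
  obtain ⟨t, ht, hdvd⟩ := (Prime.dvd_finsetProd_iff (Nat.Prime.prime Fact.out) _).mp h
  have := (Nat.prime_dvd_prime_iff_eq Fact.out (hP ⟨t, ht⟩).out).mp hdvd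
  exact hlP ⟨t, ht⟩ this.symm

/-- an element of `SL(2, ℤ)` which is `≡ 1` modulo `L = ∏ P` with `Nk ∣ c`, in `ker π_k`. -/
theorem m59epn_pi_eq_one (g : Gamma0 Nk)
    (h00 : ((∏ t ∈ P, t : ℕ) : ℤ) ∣ (g : SL(2, ℤ)) 0 0 - 1)
    (h01 : ((∏ t ∈ P, t : ℕ) : ℤ) ∣ (g : SL(2, ℤ)) 0 1)
    (h10 : ((∏ t ∈ P, t : ℕ) : ℤ) ∣ (g : SL(2, ℤ)) 1 0)
    (h11 : ((∏ t ∈ P, t : ℕ) : ℤ) ∣ (g : SL(2, ℤ)) 1 1 - 1) : twe_sj_pi Nk P g = 1 := by
  rw [← MonoidHom.mem_ker, twe_sj_mem_ker]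
  intro t i j
  have htL : (((t : ℕ) : ℕ) : ℤ) ∣ ((∏ t ∈ P, t : ℕ) : ℤ) :=
    Int.natCast_dvd_natCast.mpr (twe_lv_dvd_prod t)
  fin_cases i <;> fin_cases j
  · have := (ZMod.intCast_zmod_eq_zero_iff_dvd _ _).mpr (htL.trans h00)
    push_cast at this
    simpa [sub_eq_zero] using this
  · have := (ZMod.intCast_zmod_eq_zero_iff_dvd _ _).mpr (htL.trans h01)
    simpa using this
  · have := (ZMod.intCast_zmod_eq_zero_iff_dvd _ _).mpr (htL.trans h10)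
    simpa using this
  · have := (ZMod.intCast_zmod_eq_zero_iff_dvd _ _).mpr (htL.trans h11)
    push_cast at this
    simpa [sub_eq_zero] using this

include hlNk hlP in
/-- representatives for the base point `∞` in `ker π_k`. -/
theorem m59epn_exists_rep_infty (x : OnePoint (ZMod l)) :
    ∃ g : Gamma0 Nk, t2c_act (g : SL(2, ℤ)) (∞ : OnePoint (ZMod l)) = x ∧
      twe_sj_pi Nk P g = 1 := by
  set L : ℕ := ∏ t ∈ P, t with hL
  have hlL : ¬ l ∣ L := m59epn_not_dvd_prod P hlP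
  induction x using OnePoint.rec with
  | infty => exact ⟨1, by rw [Subgroup.coe_one, t2c_act_one], map_one _⟩
  | coe j =>
    have hlM : ¬ l ∣ Nk * L := fun h =>
      ((Nat.Prime.dvd_mul Fact.out).mp h).elim hlNk hlL
    have hN : (((Nk * L : ℕ)) : ZMod l) ≠ 0 := by
      rw [Ne, ZMod.natCast_eq_zero_iff]
      exact hlM
    have hL0 : ((L : ℕ) : ZMod l) ≠ 0 := by
      rw [Ne, ZMod.natCast_eq_zero_iff]
      exact hlL
    set c' : ℤ := (((((Nk * L : ℕ)) : ZMod l)⁻¹).val : ℤ) with hc'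
    have hc1 : (((((Nk * L : ℕ)) : ℤ) * c' : ℤ) : ZMod l) = 1 := by
      rw [hc']
      push_cast
      rw [ZMod.natCast_zmod_val]
      have := mul_inv_cancel₀ hN
      push_cast at this
      exact this
    set t' : ℤ := ((((j - 1) * ((L : ℕ) : ZMod l)⁻¹).val : ℕ) : ℤ) with ht'
    have htj : ((((L : ℕ) : ℤ) * t' : ℤ) : ZMod l) = j - 1 := by
      rw [ht']
      push_cast
      rw [ZMod.natCast_zmod_val]
      field_simp
    let g : SL(2, ℤ) := ⟨!![1, (L : ℤ) * t'; ((Nk * L : ℕ) : ℤ) * c',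
        1 + ((Nk * L : ℕ) : ℤ) * c' * ((L : ℤ) * t')], by
      rw [Matrix.det_fin_two_of]; ring⟩
    have hg : g ∈ Gamma0 Nk := by
      refine t2c_mem_of_dvd ?_
      show (Nk : ℤ) ∣ ((Nk * L : ℕ) : ℤ) * c'
      push_cast
      exact Dvd.dvd.mul_right (dvd_mul_right _ _) _
    refine ⟨⟨g, hg⟩, ?_, ?_⟩
    · show t2c_act g (∞ : OnePoint (ZMod l)) = (j : OnePoint (ZMod l))
      rw [t2c_act, OnePoint.smul_infty_eq_ite, redMatrix_apply_one_zero, redMatrix_apply_zero_zero]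
      have h10 : ((g 1 0 : ℤ) : ZMod l) = 1 := hc1
      have h11 : ((g 1 1 : ℤ) : ZMod l) = j := by
        show (((1 + ((Nk * L : ℕ) : ℤ) * c' * ((L : ℤ) * t') : ℤ)) : ZMod l) = j
        have : ((1 + ((Nk * L : ℕ) : ℤ) * c' * ((L : ℤ) * t') : ℤ) : ZMod l) =
            1 + ((((Nk * L : ℕ) : ℤ) * c' : ℤ) : ZMod l) * ((((L : ℕ) : ℤ) * t' : ℤ) : ZMod l) := by
          push_cast; ring
        rw [this, hc1, htj]
        ring
      rw [h10, h11, if_neg one_ne_zero, div_one]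
    · refine m59epn_pi_eq_one P ⟨g, hg⟩ ?_ ?_ ?_ ?_
      · show ((L : ℕ) : ℤ) ∣ (1 : ℤ) - 1
        simp
      · show ((L : ℕ) : ℤ) ∣ (L : ℤ) * t'
        exact dvd_mul_right _ _
      · show ((L : ℕ) : ℤ) ∣ ((Nk * L : ℕ) : ℤ) * c'
        push_cast
        exact Dvd.dvd.mul_right (dvd_mul_left _ _) _
      · show ((L : ℕ) : ℤ) ∣ (1 + ((Nk * L : ℕ) : ℤ) * c' * ((L : ℤ) * t')) - 1
        refine ⟨((Nk * L : ℕ) : ℤ) * c' * t', by ring⟩

include hlNk hlP in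
/-- representatives for the base point `0` in `ker π_k`. -/
theorem m59epn_exists_rep_zero (x : OnePoint (ZMod l)) :
    ∃ g : Gamma0 Nk,
      t2c_act (g : SL(2, ℤ)) ((0 : ZMod l) : OnePoint (ZMod l)) = x ∧ twe_sj_pi Nk P g = 1 := by
  set L : ℕ := ∏ t ∈ P, t with hL
  have hlL : ¬ l ∣ L := m59epn_not_dvd_prod P hlP
  have hL0 : ((L : ℕ) : ZMod l) ≠ 0 := by
    rw [Ne, ZMod.natCast_eq_zero_iff]
    exact hlL
  induction x using OnePoint.rec with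
  | infty =>
    have hlM : ¬ l ∣ Nk * L * L := fun h =>
      ((Nat.Prime.dvd_mul Fact.out).mp h).elim
        (fun h' => ((Nat.Prime.dvd_mul Fact.out).mp h').elim hlNk hlL) hlL
    have hN : (((Nk * L * L : ℕ)) : ZMod l) ≠ 0 := by
      rw [Ne, ZMod.natCast_eq_zero_iff]
      exact hlM
    set e' : ℤ := -(((((Nk * L * L : ℕ)) : ZMod l)⁻¹).val : ℤ) with he'
    have he1 : (((1 + ((Nk * L : ℕ) : ℤ) * ((L : ℤ) * e') : ℤ)) : ZMod l) = 0 := by
      rw [he']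
      push_cast
      rw [ZMod.natCast_zmod_val]
      have := mul_inv_cancel₀ hN
      push_cast at this
      linear_combination (-1 : ZMod l) * this
    let g : SL(2, ℤ) := ⟨!![1 + ((Nk * L : ℕ) : ℤ) * ((L : ℤ) * e'), (L : ℤ) * e';
        ((Nk * L : ℕ) : ℤ), 1], by
      rw [Matrix.det_fin_two_of]; ring⟩
    have hg : g ∈ Gamma0 Nk := by
      refine t2c_mem_of_dvd ?_
      show (Nk : ℤ) ∣ ((Nk * L : ℕ) : ℤ)
      push_cast
      exact dvd_mul_right _ _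
    refine ⟨⟨g, hg⟩, ?_, ?_⟩
    · show t2c_act g ((0 : ZMod l) : OnePoint (ZMod l)) = ∞
      rw [t2c_act, OnePoint.smul_some_eq_ite, redMatrix_apply_one_zero, redMatrix_apply_one_one,
        mul_zero, zero_add]
      have h00 : ((g 0 0 : ℤ) : ZMod l) = 0 := he1
      rw [if_pos h00]
    · refine m59epn_pi_eq_one P ⟨g, hg⟩ ?_ ?_ ?_ ?_
      · show ((L : ℕ) : ℤ) ∣ (1 + ((Nk * L : ℕ) : ℤ) * ((L : ℤ) * e')) - 1
        refine ⟨((Nk * L : ℕ) : ℤ) * e', by ring⟩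
      · show ((L : ℕ) : ℤ) ∣ (L : ℤ) * e'
        exact dvd_mul_right _ _
      · show ((L : ℕ) : ℤ) ∣ ((Nk * L : ℕ) : ℤ)
        push_cast
        exact dvd_mul_left _ _
      · show ((L : ℕ) : ℤ) ∣ (1 : ℤ) - 1
        simp
  | coe j =>
    set t' : ℤ := (((j * ((L : ℕ) : ZMod l)⁻¹).val : ℕ) : ℤ) with ht'
    have htj : ((((L : ℕ) : ℤ) * t' : ℤ) : ZMod l) = j := by
      rw [ht']
      push_cast
      rw [ZMod.natCast_zmod_val]
      field_simp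
    let g : SL(2, ℤ) := ⟨!![1, (L : ℤ) * t'; 0, 1], by
      rw [Matrix.det_fin_two_of]; ring⟩
    have hg : g ∈ Gamma0 Nk := by
      refine t2c_mem_of_dvd ?_
      show (Nk : ℤ) ∣ (0 : ℤ)
      exact dvd_zero _
    refine ⟨⟨g, hg⟩, ?_, ?_⟩
    · show t2c_act g ((0 : ZMod l) : OnePoint (ZMod l)) = (j : OnePoint (ZMod l))
      rw [t2c_act, OnePoint.smul_some_eq_ite, redMatrix_apply_one_zero, redMatrix_apply_one_one,
        redMatrix_apply_zero_zero, redMatrix_apply_zero_one, mul_zero, zero_add, mul_zero,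
        zero_add]
      have h00 : ((g 0 0 : ℤ) : ZMod l) = 1 := by
        show (((1 : ℤ)) : ZMod l) = 1
        simp
      have h01 : ((g 0 1 : ℤ) : ZMod l) = j := htj
      rw [h00, h01, if_neg one_ne_zero, div_one]
    · refine m59epn_pi_eq_one P ⟨g, hg⟩ ?_ ?_ ?_ ?_
      · show ((L : ℕ) : ℤ) ∣ (1 : ℤ) - 1
        simp
      · show ((L : ℕ) : ℤ) ∣ (L : ℤ) * t'
        exact dvd_mul_right _ _
      · show ((L : ℕ) : ℤ) ∣ (0 : ℤ)
        exact dvd_zero _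
      · show ((L : ℕ) : ℤ) ∣ (1 : ℤ) - 1
        simp

/-- chosen representatives for the base point `∞`, in `ker π_k`. -/
def m59epn_Rinf (x : OnePoint (ZMod l)) : Gamma0 Nk :=
  (m59epn_exists_rep_infty hlNk P hlP x).choose

theorem m59epn_Rinf_spec (x : OnePoint (ZMod l)) :
    (lrm_data hlNk).act (m59epn_Rinf hlNk P hlP x) ∞ = x :=
  (m59epn_exists_rep_infty hlNk P hlP x).choose_spec.1

theorem m59epn_Rinf_pi (x : OnePoint (ZMod l)) :
    twe_sj_pi Nk P (m59epn_Rinf hlNk P hlP x) = 1 :=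
  (m59epn_exists_rep_infty hlNk P hlP x).choose_spec.2

/-- chosen representatives for the base point `0`, in `ker π_k`. -/
def m59epn_Rzero (x : OnePoint (ZMod l)) : Gamma0 Nk :=
  (m59epn_exists_rep_zero hlNk P hlP x).choose

theorem m59epn_Rzero_spec (x : OnePoint (ZMod l)) :
    (lrm_data hlNk).act (m59epn_Rzero hlNk P hlP x) ((0 : ZMod l) : OnePoint (ZMod l)) = x :=
  (m59epn_exists_rep_zero hlNk P hlP x).choose_spec.1

theorem m59epn_Rzero_pi (x : OnePoint (ZMod l)) :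
    twe_sj_pi Nk P (m59epn_Rzero hlNk P hlP x) = 1 :=
  (m59epn_exists_rep_zero hlNk P hlP x).choose_spec.2

end reps

/-! ### The classical data `res ∘ cor_∞`, `res ∘ cor_0 ∘ γ₀^*` for arbitrary representatives -/

section classical

variable {N l : ℕ} [Fact l.Prime] (hlN : ¬ l ∣ N)

/-- `Γ₀(N) → GL(2, ℝ)`. -/
def m59epn_e (N : ℕ) : Gamma0 N →* GL (Fin 2) ℝ := (mapGL ℝ).comp (Gamma0 N).subtype

theorem m59epn_e_apply (g : Gamma0 N) : m59epn_e N g = mapGL ℝ (g : SL(2, ℤ)) := rfl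

theorem m59epn_e_injective : Function.Injective (m59epn_e N) := by
  intro g h hgh
  exact Subtype.ext (mapGL_injective hgh)

variable (r : OnePoint (ZMod l) → Gamma0 N)

/-- the datum of `res ∘ cor_∞` with representatives `r`. -/
def m59epn_rcA (hr : ∀ x, (lrm_data hlN).act (r x) ∞ = x) :
    lrt_Data (Gamma0 (N * l)) (OnePoint (ZMod l)) :=
  m59epn_rc (lrm_data hlN) ∞ r hr (lrm_incl N l) (lrm_gamInf hlN)

/-- the datum of `res ∘ cor_0 ∘ γ₀^*` with representatives `r`. -/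
def m59epn_rcB (hr : ∀ x, (lrm_data hlN).act (r x) ((0 : ZMod l) : OnePoint (ZMod l)) = x) :
    lrt_Data (Gamma0 (N * l)) (OnePoint (ZMod l)) :=
  m59epn_rc (lrm_data hlN) ((0 : ZMod l) : OnePoint (ZMod l)) r hr (lrm_incl N l)
    (lrm_gamZero hlN)

theorem m59epn_rcA_act (hr : ∀ x, (lrm_data hlN).act (r x) ∞ = x) (g : Gamma0 (N * l))
    (x : OnePoint (ZMod l)) : (m59epn_rcA hlN r hr).act g x = t2c_act (g : SL(2, ℤ)) x := rfl

theorem m59epn_rcB_act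
    (hr : ∀ x, (lrm_data hlN).act (r x) ((0 : ZMod l) : OnePoint (ZMod l)) = x)
    (g : Gamma0 (N * l)) (x : OnePoint (ZMod l)) :
    (m59epn_rcB hlN r hr).act g x = t2c_act (g : SL(2, ℤ)) x := rfl

/-- `γ₀ k = Ad(heckeRep l 0) k` inside `GL(2, ℝ)`. -/
theorem m59epn_e_gamZero (k : lrt_stab (lrm_data hlN) ((0 : ZMod l) : OnePoint (ZMod l))) :
    m59epn_e (N * l) (lrm_gamZero hlN k) =
      heckeRep l ((0 : ZMod l) : OnePoint (ZMod l)) * m59epn_e N (k : Gamma0 N) *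
        (heckeRep l ((0 : ZMod l) : OnePoint (ZMod l)))⁻¹ := by
  have h := t2c_coc_spec hlN ((0 : ZMod l) : OnePoint (ZMod l)) (k : Gamma0 N)
  rw [(show t2c_act ((k : Gamma0 N) : SL(2, ℤ)) ((0 : ZMod l) : OnePoint (ZMod l)) = _ from k.2)]
    at h
  rw [m59epn_e_apply, m59epn_e_apply, lrm_gamZero_coe, h, mul_inv_cancel_right]

/-- the cocycle of `rcA` inside `GL(2, ℝ)`. -/
theorem m59epn_rcA_spec (hr : ∀ x, (lrm_data hlN).act (r x) ∞ = x) (x : OnePoint (ZMod l))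
    (g : Gamma0 (N * l)) :
    m59epn_e N (r x) * m59epn_e (N * l) g =
      m59epn_e (N * l) ((m59epn_rcA hlN r hr).coc x g) *
        m59epn_e N (r (t2c_act (g : SL(2, ℤ)) x)) := by
  have h := m59epn_rc_spec (lrm_data hlN) ∞ r hr (lrm_incl N l) (lrm_gamInf hlN)
    (m59epn_e N) (m59epn_e (N * l)) 1 (fun _ => rfl)
    (fun k => by rw [one_mul, inv_one, mul_one]; rfl) x g
  rw [one_mul, one_mul] at h
  exact h

/-- the cocycle of `rcB` inside `GL(2, ℝ)`. -/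
theorem m59epn_rcB_spec
    (hr : ∀ x, (lrm_data hlN).act (r x) ((0 : ZMod l) : OnePoint (ZMod l)) = x)
    (x : OnePoint (ZMod l)) (g : Gamma0 (N * l)) :
    heckeRep l ((0 : ZMod l) : OnePoint (ZMod l)) * m59epn_e N (r x) * m59epn_e (N * l) g =
      m59epn_e (N * l) ((m59epn_rcB hlN r hr).coc x g) *
        (heckeRep l ((0 : ZMod l) : OnePoint (ZMod l)) *
          m59epn_e N (r (t2c_act (g : SL(2, ℤ)) x))) :=
  m59epn_rc_spec (lrm_data hlN) ((0 : ZMod l) : OnePoint (ZMod l)) r hr (lrm_incl N l)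
    (lrm_gamZero hlN) (m59epn_e N) (m59epn_e (N * l))
    (heckeRep l ((0 : ZMod l) : OnePoint (ZMod l))) (fun _ => rfl)
    (fun k => m59epn_e_gamZero hlN k) x g

variable {A : Type*} [AddCommGroup A]

/-- `A^* A_*` is the operator of `rcA` with the representatives of `LR/MTX/Level.lean`. -/
theorem m59epn_resA_corA (φ : Additive (Gamma0 (N * l)) →+ A) :
    lrm_resA N l (lrm_corA hlN φ) =
      lrt_T (m59epn_rcA hlN (lrm_rInf hlN) (lrm_rInf_spec hlN)) φ := by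
  refine lrt_ext fun g => ?_
  rfl

/-- `A^* B_*` is the operator of `rcB` with the representatives of `LR/MTX/Level.lean`. -/
theorem m59epn_resA_corB (φ : Additive (Gamma0 (N * l)) →+ A) :
    lrm_resA N l (lrm_corB hlN φ) =
      lrt_T (m59epn_rcB hlN (lrm_rZero hlN) (lrm_rZero_spec hlN)) φ := by
  refine lrt_ext fun g => ?_
  rfl

end classical

/-! ### The two data at full level -/

section data

variable {Nk l : ℕ} [Fact l.Prime] (hlNk : ¬ l ∣ Nk) (P : Finset ℕ)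
  [hP : ∀ t : ↥P, Fact (Nat.Prime (t : ℕ))] (hlP : ∀ t : ↥P, (t : ℕ) ≠ l)

/-- the datum of `res ∘ cor_∞` on `Γ₀(Nk l)`. -/
def m59epn_DA : lrt_Data (Gamma0 (Nk * l)) (OnePoint (ZMod l)) :=
  m59epn_rcA hlNk (m59epn_Rinf hlNk P hlP) (m59epn_Rinf_spec hlNk P hlP)

/-- the datum of `res ∘ cor_0 ∘ γ₀^*` on `Γ₀(Nk l)`. -/
def m59epn_DB : lrt_Data (Gamma0 (Nk * l)) (OnePoint (ZMod l)) :=
  m59epn_rcB hlNk (m59epn_Rzero hlNk P hlP) (m59epn_Rzero_spec hlNk P hlP)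

theorem m59epn_DA_act (g : Gamma0 (Nk * l)) (x : OnePoint (ZMod l)) :
    (m59epn_DA hlNk P hlP).act g x = t2c_act (g : SL(2, ℤ)) x := rfl

theorem m59epn_DB_act (g : Gamma0 (Nk * l)) (x : OnePoint (ZMod l)) :
    (m59epn_DB hlNk P hlP).act g x = t2c_act (g : SL(2, ℤ)) x := rfl

theorem m59epn_DA_coc_coe (g : Gamma0 (Nk * l)) (x : OnePoint (ZMod l)) :
    (((m59epn_DA hlNk P hlP).coc x g : Gamma0 (Nk * l)) : SL(2, ℤ)) =
      (m59epn_Rinf hlNk P hlP x : SL(2, ℤ)) * (g : SL(2, ℤ)) *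
        (m59epn_Rinf hlNk P hlP (t2c_act (g : SL(2, ℤ)) x) : SL(2, ℤ))⁻¹ := rfl

/-- the reduction of an element of the small group, seen in the big group. -/
theorem m59epn_pi_incl (g : Gamma0 (Nk * l)) :
    twe_sj_pi Nk P (lrm_incl Nk l g) = twe_sj_pi (Nk * l) P g := rfl

/-- `τ = id` : the cocycle of `DA` reduces to the identity automorphism. -/
theorem m59epn_compatA :
    twe_fl_Compat (twe_sj_pi (Nk * l) P) (m59epn_DA hlNk P hlP) (MonoidHom.id _) := by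
  intro x g
  have h : twe_sj_pi (Nk * l) P ((m59epn_DA hlNk P hlP).coc x g) =
      twe_sj_pi Nk P (m59epn_Rinf hlNk P hlP x * lrm_incl Nk l g *
        (m59epn_Rinf hlNk P hlP (t2c_act (g : SL(2, ℤ)) x))⁻¹) := rfl
  rw [h, map_mul, map_mul, map_inv, m59epn_Rinf_pi, m59epn_Rinf_pi, m59epn_pi_incl]
  simp

/-- the reduction of `γ₀ k = Ad(diag(1, l)) k` is `τ` of the reduction of `k`. -/
theorem m59epn_pi_gamZero
    (k : lrt_stab (lrm_data hlNk) ((0 : ZMod l) : OnePoint (ZMod l))) (g : Gamma0 (Nk * l))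
    (h : twe_sj_pi Nk P (k : Gamma0 Nk) = twe_sj_pi (Nk * l) P g) :
    twe_sj_pi (Nk * l) P (lrm_gamZero hlNk k) = twe_fh_tau P hlP (twe_sj_pi (Nk * l) P g) := by
  obtain ⟨e00, e01, e10, e11⟩ := lrm_gamZero_entries hlNk k
  funext t
  rw [twe_fh_tau_apply]
  apply Subtype.ext
  have hk : ∀ i j : Fin 2, ((((k : Gamma0 Nk) : SL(2, ℤ)) i j : ℤ) : ZMod (t : ℕ)) =
      ((((g : Gamma0 (Nk * l)) : SL(2, ℤ)) i j : ℤ) : ZMod (t : ℕ)) := by
    intro i j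
    rw [← twe_sj_pi_apply Nk P (k : Gamma0 Nk) t i j, h]
    rfl
  have hu : ((twe_fh_lU P hlP t : (ZMod (t : ℕ))ˣ) : ZMod (t : ℕ)) = ((l : ℕ) : ZMod (t : ℕ)) := rfl
  have hu1 : (((twe_fh_lU P hlP t)⁻¹ : (ZMod (t : ℕ))ˣ) : ZMod (t : ℕ)) *
      ((l : ℕ) : ZMod (t : ℕ)) = 1 := by
    rw [← hu, ← Units.val_mul, inv_mul_cancel, Units.val_one]
  rw [twe_fh_tau1_coe]
  ext i j
  rw [twe_sj_pi_apply]
  fin_cases i <;> fin_cases j
  · show ((((lrm_gamZero hlNk k : Gamma0 (Nk * l)) : SL(2, ℤ)) 0 0 : ℤ) : ZMod (t : ℕ)) =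
      ((twe_sj_pi (Nk * l) P g t : SL(2, ZMod (t : ℕ))) : Matrix (Fin 2) (Fin 2) (ZMod (t : ℕ))) 0 0
    rw [e00, hk, twe_sj_pi_apply]
  · show ((((lrm_gamZero hlNk k : Gamma0 (Nk * l)) : SL(2, ℤ)) 0 1 : ℤ) : ZMod (t : ℕ)) =
      (((twe_fh_lU P hlP t)⁻¹ : (ZMod (t : ℕ))ˣ) : ZMod (t : ℕ)) *
        ((twe_sj_pi (Nk * l) P g t : SL(2, ZMod (t : ℕ))) :
          Matrix (Fin 2) (Fin 2) (ZMod (t : ℕ))) 0 1
    rw [twe_sj_pi_apply, ← hk, ← e01, Int.cast_mul, Int.cast_natCast, ← mul_assoc, hu1, one_mul]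
  · show ((((lrm_gamZero hlNk k : Gamma0 (Nk * l)) : SL(2, ℤ)) 1 0 : ℤ) : ZMod (t : ℕ)) =
      ((twe_fh_lU P hlP t : (ZMod (t : ℕ))ˣ) : ZMod (t : ℕ)) *
        ((twe_sj_pi (Nk * l) P g t : SL(2, ZMod (t : ℕ))) :
          Matrix (Fin 2) (Fin 2) (ZMod (t : ℕ))) 1 0
    rw [twe_sj_pi_apply, ← hk, e10, hu, Int.cast_mul, Int.cast_natCast]
  · show ((((lrm_gamZero hlNk k : Gamma0 (Nk * l)) : SL(2, ℤ)) 1 1 : ℤ) : ZMod (t : ℕ)) =
      ((twe_sj_pi (Nk * l) P g t : SL(2, ZMod (t : ℕ))) : Matrix (Fin 2) (Fin 2) (ZMod (t : ℕ))) 1 1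
    rw [e11, hk, twe_sj_pi_apply]

/-- `τ = Ad(diag(1, l))` : the cocycle of `DB`. -/
theorem m59epn_compatB :
    twe_fl_Compat (twe_sj_pi (Nk * l) P) (m59epn_DB hlNk P hlP) (twe_fh_tau P hlP) := by
  intro x g
  refine m59epn_pi_gamZero hlNk P hlP _ g ?_
  have h : twe_sj_pi Nk P ((lrt_a (lrm_data hlNk) ((0 : ZMod l) : OnePoint (ZMod l))
      (m59epn_Rzero hlNk P hlP) (m59epn_Rzero_spec hlNk P hlP) x (lrm_incl Nk l g) :
        lrt_stab (lrm_data hlNk) ((0 : ZMod l) : OnePoint (ZMod l))) : Gamma0 Nk) =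
      twe_sj_pi Nk P (m59epn_Rzero hlNk P hlP x * lrm_incl Nk l g *
        (m59epn_Rzero hlNk P hlP ((lrm_data hlNk).act (lrm_incl Nk l g) x))⁻¹) := rfl
  rw [h, map_mul, map_mul, map_inv, m59epn_Rzero_pi, m59epn_Rzero_pi, m59epn_pi_incl]
  simp

end data

end Fermat.Agent.M59
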