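import Mathlib
import Fermat.Agent.M59.EP.NewData
import Fermat.Agent.M59.EP.OpsDef
import Fermat.Agent.TW.Aut.NewInputOp

/-!
# M59 / block [E'] / cell [EP-NEW] (helper2), part 4: the restriction end  (prefix `m59epn_`)

`j : ker π → Γ_{H'}(M l)` the inclusion of the full level.  The operators `A ∘ At`, `A ∘ Bt` of
`M59/EP/OpsDef.lean` on `Hom(Γ_{H'}(M l), K)` restrict to the full-level operators of the data
`m59epn_DA`, `m59epn_DB` (`m59epn_resA`, `m59epn_resB`; the second up to the conjugation by `s`).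
-/

set_option autoImplicit false
set_option linter.unusedSectionVars false

noncomputable section

open CongruenceSubgroup Matrix.SpecialLinearGroup
open P2MW.S_ModularForm_heckeT_slash_eq_self_of_mem_Gamma0.ModularForm.HeckeSlashInvariance
open scoped MatrixGroups OnePoint

namespace Fermat.Agent.M59

open Fermat.Agent.JT3 Fermat.Agent.LR Fermat.Agent.TW

section hlevel

variable {M l : ℕ} [Fact l.Prime] (hlM : ¬ l ∣ M) (H : Subgroup (ZMod M)ˣ) (s : Gamma0 M)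
  (hs : twe_dUnit M s * twe_dUnit M s * (twe_hk_lU hlM)⁻¹ ∈ H)
  (hnice : twe_hc_Nice l (s : SL(2, ℤ)))

/-- the inclusion `Γ_{H'}(Ml) → Γ_H(M)`. -/
def m59epn_inclH : ↥(twe_GamH (M * l) (m59epo_Hl M l H)) →* ↥(twe_GamH M H) :=
  Subgroup.inclusion (m59epo_GamHl_le hlM H)

/-- the datum of `A ∘ At` on `Γ_{H'}(Ml)`. -/
def m59epn_rcHA : lrt_Data ↥(twe_GamH (M * l) (m59epo_Hl M l H)) (OnePoint (ZMod l)) :=
  m59epn_rc (twe_hk_data hlM H s hs) ∞ (m59epo_r0 hlM H) (m59epo_r0_spec hlM H s hs)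
    (m59epn_inclH hlM H) (m59epo_ofStab hlM H s hs)

/-- the datum of `A ∘ Bt` on `Γ_{H'}(Ml)`. -/
def m59epn_rcHB : lrt_Data ↥(twe_GamH (M * l) (m59epo_Hl M l H)) (OnePoint (ZMod l)) :=
  m59epn_rc (twe_hk_data hlM H s hs) ((0 : ZMod l) : OnePoint (ZMod l)) (m59epo_r1 hlM H)
    (m59epo_r1_spec hlM H s hs) (m59epn_inclH hlM H)
    ((m59epo_ofStab hlM H s hs).comp (m59epo_om hlM H s hs hnice))

variable {A : Type*} [AddCommGroup A]

theorem m59epn_A_At (h : Additive ↥(twe_GamH (M * l) (m59epo_Hl M l H)) →+ A) :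
    m59epo_A hlM H s hs hnice (m59epo_At hlM H s hs hnice h) =
      lrt_T (m59epn_rcHA hlM H s hs) h := by
  refine lrt_ext fun g => ?_
  rfl

theorem m59epn_A_Bt (h : Additive ↥(twe_GamH (M * l) (m59epo_Hl M l H)) →+ A) :
    m59epo_A hlM H s hs hnice (m59epo_Bt hlM H s hs hnice h) =
      lrt_T (m59epn_rcHB hlM H s hs hnice) h := by
  refine lrt_ext fun g => ?_
  rfl

/-- the cocycle of `rcHA` inside `GL(2, ℝ)`. -/
theorem m59epn_rcHA_spec (x : OnePoint (ZMod l))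
    (g : ↥(twe_GamH (M * l) (m59epo_Hl M l H))) :
    twe_hc_iota H (m59epo_r0 hlM H x) * twe_hc_iota (m59epo_Hl M l H) g =
      twe_hc_iota (m59epo_Hl M l H) ((m59epn_rcHA hlM H s hs).coc x g) *
        twe_hc_iota H (m59epo_r0 hlM H (t2c_act (g : SL(2, ℤ)) x)) := by
  have h := m59epn_rc_spec (twe_hk_data hlM H s hs) ∞ (m59epo_r0 hlM H)
    (m59epo_r0_spec hlM H s hs) (m59epn_inclH hlM H) (m59epo_ofStab hlM H s hs)
    (twe_hc_iota H) (twe_hc_iota (m59epo_Hl M l H)) 1 (fun _ => rfl)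
    (fun k => by rw [one_mul, inv_one, mul_one]; rfl) x g
  rw [one_mul, one_mul] at h
  exact h

/-- `ofStab ∘ ω = Ad(α'_0)` inside `GL(2, ℝ)`. -/
theorem m59epn_iota_om
    (k : lrt_stab (twe_hk_data hlM H s hs) ((0 : ZMod l) : OnePoint (ZMod l))) :
    twe_hc_iota (m59epo_Hl M l H)
        (((m59epo_ofStab hlM H s hs).comp (m59epo_om hlM H s hs hnice)) k) =
      twe_hc_rep s ((0 : ZMod l) : OnePoint (ZMod l)) * twe_hc_iota H (k : ↥(twe_GamH M H)) *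
        (twe_hc_rep s ((0 : ZMod l) : OnePoint (ZMod l)))⁻¹ := by
  have h := twe_hc_rep_spec hlM s ((0 : ZMod l) : OnePoint (ZMod l))
    (twe_hk_up H (k : ↥(twe_GamH M H)))
  rw [(show t2c_act ((twe_hk_up H (k : ↥(twe_GamH M H)) : Gamma0 M) : SL(2, ℤ))
    ((0 : ZMod l) : OnePoint (ZMod l)) = _ from k.2)] at h
  have h1 : twe_hc_iota H (k : ↥(twe_GamH M H)) =
      mapGL ℝ ((twe_hk_up H (k : ↥(twe_GamH M H)) : Gamma0 M) : SL(2, ℤ)) := rfl
  rw [h1, h, mul_inv_cancel_right]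
  rfl

/-- the cocycle of `rcHB` inside `GL(2, ℝ)`. -/
theorem m59epn_rcHB_spec (x : OnePoint (ZMod l))
    (g : ↥(twe_GamH (M * l) (m59epo_Hl M l H))) :
    twe_hc_rep s ((0 : ZMod l) : OnePoint (ZMod l)) * twe_hc_iota H (m59epo_r1 hlM H x) *
        twe_hc_iota (m59epo_Hl M l H) g =
      twe_hc_iota (m59epo_Hl M l H) ((m59epn_rcHB hlM H s hs hnice).coc x g) *
        (twe_hc_rep s ((0 : ZMod l) : OnePoint (ZMod l)) *
          twe_hc_iota H (m59epo_r1 hlM H (t2c_act (g : SL(2, ℤ)) x))) :=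
  m59epn_rc_spec (twe_hk_data hlM H s hs) ((0 : ZMod l) : OnePoint (ZMod l)) (m59epo_r1 hlM H)
    (m59epo_r1_spec hlM H s hs) (m59epn_inclH hlM H)
    ((m59epo_ofStab hlM H s hs).comp (m59epo_om hlM H s hs hnice))
    (twe_hc_iota H) (twe_hc_iota (m59epo_Hl M l H))
    (twe_hc_rep s ((0 : ZMod l) : OnePoint (ZMod l))) (fun _ => rfl)
    (fun k => m59epn_iota_om hlM H s hs hnice k) x g

end hlevel

/-! ### The main statements -/

section main

variable {M l : ℕ} [Fact l.Prime] (hlM : ¬ l ∣ M) (H : Subgroup (ZMod M)ˣ) (s : Gamma0 M)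
  (hs : twe_dUnit M s * twe_dUnit M s * (twe_hk_lU hlM)⁻¹ ∈ H)
  (hnice : twe_hc_Nice l (s : SL(2, ℤ)))
  (Nk : ℕ) (hlNk : ¬ l ∣ Nk) [NeZero Nk] [NeZero (Nk * l)] (P : Finset ℕ)
  [hP : ∀ t : ↥P, Fact (Nat.Prime (t : ℕ))] (hNk : ∀ t : ↥P, ¬ (t : ℕ) ∣ Nk)
  (hN : ∀ t : ↥P, ¬ (t : ℕ) ∣ Nk * l) (hlP : ∀ t : ↥P, (t : ℕ) ≠ l)
  (hM : M = Nk * ∏ t ∈ P, t) (hMl : M * l = Nk * l * ∏ t ∈ P, t)
  (htM : ∀ t : ↥P, (t : ℕ) ∣ M) (htMl : ∀ t : ↥P, (t : ℕ) ∣ M * l)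
  (hH : ∀ u : (ZMod M)ˣ, (∀ t : ↥P, ZMod.unitsMap (htM t) u = 1) → u ∈ H)
  (hH' : ∀ u : (ZMod (M * l))ˣ, (∀ t : ↥P, ZMod.unitsMap (htMl t) u = 1) → u ∈ m59epo_Hl M l H)

/-- the representatives for `∞`, inside `Γ_H(M)`. -/
def m59epn_RHinf (x : OnePoint (ZMod l)) : ↥(twe_GamH M H) :=
  twe_ni_j Nk P hNk hM htM H hH
    ⟨m59epn_Rinf hlNk P hlP x, MonoidHom.mem_ker.mpr (m59epn_Rinf_pi hlNk P hlP x)⟩

/-- the representatives for `0`, inside `Γ_H(M)`. -/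
def m59epn_RHzero (x : OnePoint (ZMod l)) : ↥(twe_GamH M H) :=
  twe_ni_j Nk P hNk hM htM H hH
    ⟨m59epn_Rzero hlNk P hlP x, MonoidHom.mem_ker.mpr (m59epn_Rzero_pi hlNk P hlP x)⟩

theorem m59epn_RHinf_coe (x : OnePoint (ZMod l)) :
    ((m59epn_RHinf H Nk hlNk P hNk hlP hM htM hH x : ↥(twe_GamH M H)) : SL(2, ℤ)) =
      ((m59epn_Rinf hlNk P hlP x : Gamma0 Nk) : SL(2, ℤ)) := rfl

theorem m59epn_RHzero_coe (x : OnePoint (ZMod l)) :
    ((m59epn_RHzero H Nk hlNk P hNk hlP hM htM hH x : ↥(twe_GamH M H)) : SL(2, ℤ)) =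
      ((m59epn_Rzero hlNk P hlP x : Gamma0 Nk) : SL(2, ℤ)) := rfl

include hNk hM htM hH in
/-- **the restriction end, `A`**. -/
theorem m59epn_resA {K : Type*} [Field K]
    (h : Additive ↥(twe_GamH (M * l) (m59epo_Hl M l H)) →+ K) :
    lrpd_pull (twe_ni_j (Nk * l) P hN hMl htMl (m59epo_Hl M l H) hH')
        (m59epo_A hlM H s hs hnice (m59epo_At hlM H s hs hnice h)) =
      twe_fl_TK K (m59epn_compatA hlNk P hlP)
        (lrpd_pull (twe_ni_j (Nk * l) P hN hMl htMl (m59epo_Hl M l H) hH') h) := by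
  rw [m59epn_A_At]
  refine lrt_ext fun n => ?_
  set j := twe_ni_j (Nk * l) P hN hMl htMl (m59epo_Hl M l H) hH' with hj
  set hc := m59epn_compatA hlNk P hlP with hhc
  set R := m59epn_Rinf hlNk P hlP with hR
  set RH := m59epn_RHinf H Nk hlNk P hNk hlP hM htM hH with hRH
  set D := twe_hk_data hlM H s hs with hD
  show lrt_ev (lrt_T (m59epn_rcHA hlM H s hs) h) (j n) =
    lrt_ev (lrt_T (twe_fl_dataK hc) (lrpd_pull j h)) n
  rw [lrt_T_ev, lrt_T_ev]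
  show ∑ x : OnePoint (ZMod l), lrt_ev h ((m59epn_rcHA hlM H s hs).coc x (j n)) =
    ∑ y : OnePoint (ZMod l), lrt_ev h (j ((twe_fl_dataK hc).coc y n))
  have hfix : ∀ x, D.act (m59epo_r0 hlM H x * (RH x)⁻¹) ∞ = ∞ := by
    intro x
    rw [D.act_mul, m59epo_r0_spec hlM H s hs x]
    have h2 := lrt_act_inv D (RH x) ∞
    have h3 : D.act (RH x) ∞ = x := m59epn_Rinf_spec hlNk P hlP x
    rwa [h3] at h2
  refine m59epn_sum_eq ((twe_hc_iota (m59epo_Hl M l H)).comp j) (twe_hc_iota (m59epo_Hl M l H))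
    (fun x => twe_hc_iota H (m59epo_r0 hlM H x)) (fun y => m59epn_e Nk (R y))
    (fun n => t2c_perm (((n : (twe_sj_pi (Nk * l) P).ker) : Gamma0 (Nk * l)) : SL(2, ℤ)))
    (fun n y => t2c_act (((n : (twe_sj_pi (Nk * l) P).ker) : Gamma0 (Nk * l)) : SL(2, ℤ)) y)
    (fun x n => (m59epn_rcHA hlM H s hs).coc x (j n))
    (fun y n => j ((twe_fl_dataK hc).coc y n)) ?_ ?_
    (twe_hc_iota_injective (m59epo_Hl M l H)) id Function.bijective_id (fun _ _ => rfl)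
    (fun x => m59epo_ofStab hlM H s hs ⟨m59epo_r0 hlM H x * (RH x)⁻¹, hfix x⟩) ?_ h n
  · intro x n
    exact m59epn_rcHA_spec hlM H s hs x (j n)
  · intro y n
    exact m59epn_rcA_spec hlNk R (m59epn_Rinf_spec hlNk P hlP) y (n : Gamma0 (Nk * l))
  · intro x
    show mapGL ℝ ((m59epo_r0 hlM H x : ↥(twe_GamH M H)) : SL(2, ℤ)) =
      mapGL ℝ (((m59epo_r0 hlM H x * (RH x)⁻¹ : ↥(twe_GamH M H))) : SL(2, ℤ)) *
        mapGL ℝ ((R x : Gamma0 Nk) : SL(2, ℤ))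
    rw [← map_mul]
    congr 1
    rw [Subgroup.coe_mul, Subgroup.coe_inv, m59epn_RHinf_coe, inv_mul_cancel_right]

/-- `s` as an element of `Γ₀(M l)` (`s ≡ 1` modulo `l`). -/
def m59epn_sl : Gamma0 (M * l) :=
  ⟨(s : SL(2, ℤ)), lrm_mem_of_dvd_dvd hlM (t2c_dvd_of_mem s.2)
    ((lrm_act_infty _).mp (twe_hc_nice_act hnice ∞))⟩

theorem m59epn_sl_coe : ((m59epn_sl hlM s hnice : Gamma0 (M * l)) : SL(2, ℤ)) = (s : SL(2, ℤ)) :=
  rfl

include hNk hM htM hH in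
/-- **the restriction end, `B`** (up to the conjugation by `s`). -/
theorem m59epn_resB {K : Type*} [Field K]
    (h : Additive ↥(twe_GamH (M * l) (m59epo_Hl M l H)) →+ K) :
    lrpd_pull (twe_ni_j (Nk * l) P hN hMl htMl (m59epo_Hl M l H) hH')
        (m59epo_A hlM H s hs hnice (m59epo_Bt hlM H s hs hnice h)) =
      twe_fl_TK K (m59epn_compatB hlNk P hlP)
        (lrpd_pull (twe_ni_j (Nk * l) P hN hMl htMl (m59epo_Hl M l H) hH')
          (twe_conj (m59epo_Hl M l H) (m59epn_sl hlM s hnice) h)) := by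
  rw [m59epn_A_Bt]
  refine lrt_ext fun n => ?_
  set j := twe_ni_j (Nk * l) P hN hMl htMl (m59epo_Hl M l H) hH' with hj
  set hc := m59epn_compatB hlNk P hlP with hhc
  set R := m59epn_Rzero hlNk P hlP with hR
  set RH := m59epn_RHzero H Nk hlNk P hNk hlP hM htM hH with hRH
  set D := twe_hk_data hlM H s hs with hD
  set x₀ : OnePoint (ZMod l) := ((0 : ZMod l) : OnePoint (ZMod l)) with hx₀
  set a' : GL (Fin 2) ℝ := twe_hc_rep s x₀ with ha'
  set s' := m59epn_sl hlM s hnice with hs'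
  show lrt_ev (lrt_T (m59epn_rcHB hlM H s hs hnice) h) (j n) =
    lrt_ev (lrt_T (twe_fl_dataK hc) (lrpd_pull j (twe_conj (m59epo_Hl M l H) s' h))) n
  rw [lrt_T_ev, lrt_T_ev]
  show ∑ x : OnePoint (ZMod l), lrt_ev h ((m59epn_rcHB hlM H s hs hnice).coc x (j n)) =
    ∑ y : OnePoint (ZMod l),
      lrt_ev h (twe_conjHom (m59epo_Hl M l H) s' (j ((twe_fl_dataK hc).coc y n)))
  have hfix : ∀ x, D.act (m59epo_r1 hlM H x * (RH x)⁻¹) x₀ = x₀ := by
    intro x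
    rw [D.act_mul, m59epo_r1_spec hlM H s hs x]
    have h2 := lrt_act_inv D (RH x) x₀
    have h3 : D.act (RH x) x₀ = x := m59epn_Rzero_spec hlNk P hlP x
    rwa [h3] at h2
  have ha'eq : a' = (mapGL ℝ (s : SL(2, ℤ)))⁻¹ * heckeRep l x₀ := rfl
  refine m59epn_sum_eq ((twe_hc_iota (m59epo_Hl M l H)).comp j) (twe_hc_iota (m59epo_Hl M l H))
    (fun x => a' * twe_hc_iota H (m59epo_r1 hlM H x)) (fun y => a' * m59epn_e Nk (R y))
    (fun n => t2c_perm (((n : (twe_sj_pi (Nk * l) P).ker) : Gamma0 (Nk * l)) : SL(2, ℤ)))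
    (fun n y => t2c_act (((n : (twe_sj_pi (Nk * l) P).ker) : Gamma0 (Nk * l)) : SL(2, ℤ)) y)
    (fun x n => (m59epn_rcHB hlM H s hs hnice).coc x (j n))
    (fun y n => twe_conjHom (m59epo_Hl M l H) s' (j ((twe_fl_dataK hc).coc y n))) ?_ ?_
    (twe_hc_iota_injective (m59epo_Hl M l H)) id Function.bijective_id (fun _ _ => rfl)
    (fun x => ((m59epo_ofStab hlM H s hs).comp (m59epo_om hlM H s hs hnice))
      ⟨m59epo_r1 hlM H x * (RH x)⁻¹, hfix x⟩) ?_ h n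
  · intro x n
    exact m59epn_rcHB_spec hlM H s hs hnice x (j n)
  · intro y n
    have h1 := m59epn_rcB_spec hlNk R (m59epn_Rzero_spec hlNk P hlP) y (n : Gamma0 (Nk * l))
    have h2 : twe_hc_iota (m59epo_Hl M l H)
        (twe_conjHom (m59epo_Hl M l H) s' (j ((twe_fl_dataK hc).coc y n))) =
        (mapGL ℝ (s : SL(2, ℤ)))⁻¹ *
          m59epn_e (Nk * l) ((m59epn_rcB hlNk R (m59epn_Rzero_spec hlNk P hlP)).coc y
            (n : Gamma0 (Nk * l))) * mapGL ℝ (s : SL(2, ℤ)) := by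
      rw [twe_hc_iota_apply, twe_conjHom_coe, map_mul, map_mul, map_inv]
      rfl
    show a' * m59epn_e Nk (R y) * m59epn_e (Nk * l) (n : Gamma0 (Nk * l)) = _
    have hx : heckeRep l x₀ = heckeRep l ((0 : ZMod l) : OnePoint (ZMod l)) := rfl
    rw [h2, ha'eq, hx, mul_assoc ((mapGL ℝ (s : SL(2, ℤ)))⁻¹),
      mul_assoc ((mapGL ℝ (s : SL(2, ℤ)))⁻¹), h1]
    group
  · intro x
    show a' * twe_hc_iota H (m59epo_r1 hlM H x) =
      twe_hc_iota (m59epo_Hl M l H)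
        (((m59epo_ofStab hlM H s hs).comp (m59epo_om hlM H s hs hnice))
          ⟨m59epo_r1 hlM H x * (RH x)⁻¹, hfix x⟩) * (a' * m59epn_e Nk (R x))
    rw [m59epn_iota_om]
    show a' * twe_hc_iota H (m59epo_r1 hlM H x) =
      a' * twe_hc_iota H (m59epo_r1 hlM H x * (RH x)⁻¹) * a'⁻¹ * (a' * m59epn_e Nk (R x))
    rw [map_mul, map_inv]
    have h3 : twe_hc_iota H (RH x) = m59epn_e Nk (R x) := rfl
    rw [h3]
    group

end main

end Fermat.Agent.M59
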