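import Mathlib
import Fermat.Agent.M59.EP.NewData
import Fermat.Agent.TW.Aut.NewHecke

/-!
# M59 / block [E'] / cell [EP-NEW] (helper2), part 3: the balanced end  (prefix `m59epn_`)

`θ = twe_nh_theta : Γ₀(N' l) → (torus level of Γ₀(Nk l))`, `N' = Nk L²`.  The operators of the
restricted data `m59epn_DA`, `m59epn_DB` at the torus level are carried by `θ^*` to `A^* A_*`,
`A^* B_*` at the level `N' l` (`m59epn_thetaA`, `m59epn_thetaB`).
-/

set_option autoImplicit false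
set_option linter.unusedSectionVars false

noncomputable section

open CongruenceSubgroup Matrix.SpecialLinearGroup
open P2MW.S_ModularForm_heckeT_slash_eq_self_of_mem_Gamma0.ModularForm.HeckeSlashInvariance
open scoped MatrixGroups OnePoint

namespace Fermat.Agent.M59

open Fermat.Agent.JT3 Fermat.Agent.LR Fermat.Agent.TW

/-- conjugating a relation `a b = c d` by `D`. -/
theorem m59epn_conj4 {G : Type*} [Group G] (D a b c d a' b' c' d' : G) (ha : D * a = a' * D)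
    (hb : D * b = b' * D) (hc : D * c = c' * D) (hd : D * d = d' * D) (h : a * b = c * d) :
    a' * b' = c' * d' := by
  have ea : a' = D * a * D⁻¹ := by rw [ha, mul_inv_cancel_right]
  have eb : b' = D * b * D⁻¹ := by rw [hb, mul_inv_cancel_right]
  have ec : c' = D * c * D⁻¹ := by rw [hc, mul_inv_cancel_right]
  have ed : d' = D * d * D⁻¹ := by rw [hd, mul_inv_cancel_right]
  rw [ea, eb, ec, ed]
  calc D * a * D⁻¹ * (D * b * D⁻¹) = D * (a * b) * D⁻¹ := by group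
    _ = D * (c * d) * D⁻¹ := by rw [h]
    _ = D * c * D⁻¹ * (D * d * D⁻¹) := by group

section delta

variable {l : ℕ} [Fact l.Prime]

/-- `diag(L, 1)` commutes with `heckeRep l 0 = diag(1, l)`. -/
theorem m59epn_delta_comm (L : ℕ) (hL0 : L ≠ 0) :
    twe_bl_delta L hL0 * heckeRep l ((0 : ZMod l) : OnePoint (ZMod l)) =
      heckeRep l ((0 : ZMod l) : OnePoint (ZMod l)) * twe_bl_delta L hL0 := by
  have hl0 : l ≠ 0 := (Fact.out : l.Prime).ne_zero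
  apply Matrix.GeneralLinearGroup.ext
  intro i k
  simp only [Matrix.GeneralLinearGroup.coe_mul, twe_bl_delta_val, t2k_val_heckeRep hl0,
    Matrix.mul_apply, Fin.sum_univ_two]
  fin_cases i <;> fin_cases k <;> simp [t2k_a, t2k_b, t2k_d, mul_comm]

end delta

section fix

variable {Nk l : ℕ} [Fact l.Prime] {L N' : ℕ} (hL0 : L ≠ 0) (hdiv' : L * Nk ∣ N') (hlL : ¬ l ∣ L)

include hlL in
/-- the balancing conjugation preserves "fixes `∞`". -/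
theorem m59epn_cj_fix_infty (k : Gamma0 N') :
    t2c_act (k : SL(2, ℤ)) (∞ : OnePoint (ZMod l)) = ∞ ↔
      t2c_act ((twe_bl_cj L N' Nk hL0 hdiv' k : Gamma0 Nk) : SL(2, ℤ)) (∞ : OnePoint (ZMod l)) =
        ∞ := by
  rw [lrm_act_infty, lrm_act_infty, ← twe_bl_cj_10 hL0 hdiv' k]
  have hcop : IsCoprime (l : ℤ) (L : ℤ) :=
    Nat.isCoprime_iff_coprime.mpr ((Nat.Prime.coprime_iff_not_dvd Fact.out).mpr hlL)
  exact ⟨fun h => hcop.dvd_of_dvd_mul_left h, fun h => Dvd.dvd.mul_left h _⟩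

include hlL in
/-- the balancing conjugation preserves "fixes `0`". -/
theorem m59epn_cj_fix_zero (k : Gamma0 N') :
    t2c_act (k : SL(2, ℤ)) ((0 : ZMod l) : OnePoint (ZMod l)) =
        ((0 : ZMod l) : OnePoint (ZMod l)) ↔
      t2c_act ((twe_bl_cj L N' Nk hL0 hdiv' k : Gamma0 Nk) : SL(2, ℤ))
        ((0 : ZMod l) : OnePoint (ZMod l)) = ((0 : ZMod l) : OnePoint (ZMod l)) := by
  rw [lrm_act_zero, lrm_act_zero, twe_bl_cj_01 hL0 hdiv' k]
  have hcop : IsCoprime (l : ℤ) (L : ℤ) :=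
    Nat.isCoprime_iff_coprime.mpr ((Nat.Prime.coprime_iff_not_dvd Fact.out).mpr hlL)
  exact ⟨fun h => Dvd.dvd.mul_left h _, fun h => hcop.dvd_of_dvd_mul_left h⟩

end fix

/-! ### The main statements -/

section main

variable (Nk : ℕ) {l : ℕ} [Fact l.Prime] (hlNk : ¬ l ∣ Nk) [NeZero Nk] [NeZero (Nk * l)]
  (P : Finset ℕ)
  [hP : ∀ t : ↥P, Fact (Nat.Prime (t : ℕ))] (hN : ∀ t : ↥P, ¬ (t : ℕ) ∣ Nk * l)
  (hlP : ∀ t : ↥P, (t : ℕ) ≠ l) (L N' : ℕ) (hL : L = ∏ t ∈ P, t) (hN' : N' = Nk * L * L)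
  (hA : N' * l = Nk * l * L * L) (hL0 : L ≠ 0) (hdiv : L * (Nk * l) ∣ N' * l)
  (hdiv' : L * Nk ∣ N') (hlN' : ¬ l ∣ N')

include hlP hL in
theorem m59epn_not_dvd_L : ¬ l ∣ L := by
  rw [hL]
  exact m59epn_not_dvd_prod P hlP

/-- the two balancing conjugations agree on `Γ₀(N' l)`. -/
theorem m59epn_cj_incl (γ : Gamma0 (N' * l)) :
    ((twe_bl_cj L N' Nk hL0 hdiv' (lrm_incl N' l γ) : Gamma0 Nk) : SL(2, ℤ)) =
      ((twe_bl_cj L (N' * l) (Nk * l) hL0 hdiv γ : Gamma0 (Nk * l)) : SL(2, ℤ)) := rfl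

include hL hN' in
/-- the reduction of a balanced element lies in the torus. -/
theorem m59epn_cj_mem_ST (g : Gamma0 N') :
    twe_sj_pi Nk P (twe_bl_cj L N' Nk hL0 hdiv' g) ∈ twe_lv_ST P :=
  twe_nh_mem Nk P L N' hL hN' hL0 hdiv' g

include hN' hdiv' in
/-- **the balanced end, `A`**. -/
theorem m59epn_thetaA {A : Type*} [AddCommGroup A]
    (φ : Additive ↥((twe_lv_ST P).comap (twe_sj_pi (Nk * l) P)) →+ A) :
    lrm_resA N' l (lrm_corA hlN' (lrpd_pull (twe_nh_theta (Nk * l) P L (N' * l) hL hA hL0 hdiv) φ)) =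
      lrpd_pull (twe_nh_theta (Nk * l) P L (N' * l) hL hA hL0 hdiv)
        (lrt_T (twe_fl_dataS (m59epn_compatA hlNk P hlP) (twe_lv_ST P) (fun _ hs => hs)) φ) := by
  have hlL : ¬ l ∣ L := m59epn_not_dvd_L P hlP L hL
  rw [m59epn_resA_corA]
  refine lrt_ext fun γ => ?_
  rw [lrt_T_ev]
  set θ := twe_nh_theta (Nk * l) P L (N' * l) hL hA hL0 hdiv with hθ
  set DS := twe_fl_dataS (m59epn_compatA hlNk P hlP) (twe_lv_ST P) (fun _ hs => hs) with hDS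
  set ρ := lrm_rInf (N := N') hlN' with hρ
  set R := m59epn_Rinf hlNk P hlP with hR
  set cj' := twe_bl_cj L N' Nk hL0 hdiv' with hcj'
  show ∑ x : OnePoint (ZMod l), lrt_ev φ (θ ((m59epn_rcA hlN' ρ (lrm_rInf_spec hlN')).coc x γ)) =
    lrt_ev (lrt_T DS φ) (θ γ)
  rw [lrt_T_ev]
  have hF : ∀ k : Gamma0 N', (lrm_data hlN').act k ∞ = ∞ ↔ (lrm_data hlNk).act (cj' k) ∞ = ∞ :=
    fun k => m59epn_cj_fix_infty hL0 hdiv' hlL k
  set σ := m59epn_sig (lrm_data hlNk) cj' ∞ ρ with hσ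
  have hσinj : Function.Injective σ :=
    m59epn_sig_injective (lrm_data hlN') (lrm_data hlNk) cj' ∞ ρ (lrm_rInf_spec hlN') hF
  have hσact : ∀ (g : Gamma0 N') (x : OnePoint (ZMod l)),
      σ ((lrm_data hlN').act g x) = (lrm_data hlNk).act (cj' g) (σ x) :=
    m59epn_sig_act (lrm_data hlN') (lrm_data hlNk) cj' ∞ ρ (lrm_rInf_spec hlN') hF
  -- the correction terms
  have hfix : ∀ x, (lrm_data hlNk).act (cj' (ρ x) * (R (σ x))⁻¹) ∞ = ∞ := by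
    intro x
    rw [(lrm_data hlNk).act_mul]
    have h1 : (lrm_data hlNk).act (cj' (ρ x)) ∞ = σ x := rfl
    rw [h1]
    have h2 := lrt_act_inv (lrm_data hlNk) (R (σ x)) ∞
    rwa [m59epn_Rinf_spec hlNk P hlP (σ x)] at h2
  have hmem : ∀ x, lrm_gamInf hlNk ⟨cj' (ρ x) * (R (σ x))⁻¹, hfix x⟩ ∈
      (twe_lv_ST P).comap (twe_sj_pi (Nk * l) P) := by
    intro x
    rw [Subgroup.mem_comap]
    have h1 : twe_sj_pi (Nk * l) P (lrm_gamInf hlNk ⟨cj' (ρ x) * (R (σ x))⁻¹, hfix x⟩) =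
        twe_sj_pi Nk P (cj' (ρ x) * (R (σ x))⁻¹) := rfl
    rw [h1, map_mul, map_inv, m59epn_Rinf_pi, inv_one, mul_one]
    exact m59epn_cj_mem_ST Nk P L N' hL hN' hL0 hdiv' (ρ x)
  refine m59epn_sum_eq ((twe_nh_iota (Nk * l) P).comp θ) (twe_nh_iota (Nk * l) P)
    (fun x => m59epn_e Nk (cj' (ρ x))) (fun y => m59epn_e Nk (R y))
    (fun γ => t2c_perm ((γ : Gamma0 (N' * l)) : SL(2, ℤ)))
    (fun γ y => t2c_act (((θ γ : ↥((twe_lv_ST P).comap (twe_sj_pi (Nk * l) P))) :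
      Gamma0 (Nk * l)) : SL(2, ℤ)) y)
    (fun x γ => θ ((m59epn_rcA hlN' ρ (lrm_rInf_spec hlN')).coc x γ))
    (fun y γ => DS.coc y (θ γ)) ?_ ?_ (twe_nh_iota_injective (Nk * l) P) σ
    ((Finite.injective_iff_bijective).mp hσinj) ?_
    (fun x => ⟨lrm_gamInf hlNk ⟨cj' (ρ x) * (R (σ x))⁻¹, hfix x⟩, hmem x⟩) ?_ φ γ
  · -- hX
    intro x γ
    have h := m59epn_rcA_spec hlN' ρ (lrm_rInf_spec hlN') x γ
    refine m59epn_conj4 (twe_bl_delta L hL0) _ _ _ _ _ _ _ _ ?_ ?_ ?_ ?_ h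
    · exact twe_bl_cj_GL hL0 hdiv' (ρ x)
    · exact twe_bl_cj_GL hL0 hdiv γ
    · exact twe_bl_cj_GL hL0 hdiv _
    · exact twe_bl_cj_GL hL0 hdiv' (ρ (t2c_act ((γ : Gamma0 (N' * l)) : SL(2, ℤ)) x))
  · -- hY
    intro y γ
    exact m59epn_rcA_spec hlNk R (m59epn_Rinf_spec hlNk P hlP) y
      ((θ γ : ↥((twe_lv_ST P).comap (twe_sj_pi (Nk * l) P))) : Gamma0 (Nk * l))
  · -- hact
    intro γ x
    exact hσact (lrm_incl N' l γ) x
  · -- hτ
    intro x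
    show m59epn_e Nk (cj' (ρ x)) =
      mapGL ℝ (((cj' (ρ x) * (R (σ x))⁻¹ : Gamma0 Nk)) : SL(2, ℤ)) * m59epn_e Nk (R (σ x))
    rw [m59epn_e_apply, m59epn_e_apply, ← map_mul]
    congr 1
    rw [Subgroup.coe_mul, Subgroup.coe_inv, inv_mul_cancel_right]

include hN hN' hdiv' in
/-- **the balanced end, `B`**. -/
theorem m59epn_thetaB {A : Type*} [AddCommGroup A]
    (φ : Additive ↥((twe_lv_ST P).comap (twe_sj_pi (Nk * l) P)) →+ A) :
    lrm_resA N' l (lrm_corB hlN' (lrpd_pull (twe_nh_theta (Nk * l) P L (N' * l) hL hA hL0 hdiv) φ)) =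
      lrpd_pull (twe_nh_theta (Nk * l) P L (N' * l) hL hA hL0 hdiv)
        (lrt_T (twe_fl_dataS (m59epn_compatB hlNk P hlP) (twe_lv_ST P) (twe_lv_tau_ST hlP)) φ) := by
  have hlL : ¬ l ∣ L := m59epn_not_dvd_L P hlP L hL
  rw [m59epn_resA_corB]
  refine lrt_ext fun γ => ?_
  rw [lrt_T_ev]
  set θ := twe_nh_theta (Nk * l) P L (N' * l) hL hA hL0 hdiv with hθ
  set DS := twe_fl_dataS (m59epn_compatB hlNk P hlP) (twe_lv_ST P) (twe_lv_tau_ST hlP) with hDS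
  set ρ := lrm_rZero (N := N') hlN' with hρ
  set R := m59epn_Rzero hlNk P hlP with hR
  set cj' := twe_bl_cj L N' Nk hL0 hdiv' with hcj'
  set x₀ : OnePoint (ZMod l) := ((0 : ZMod l) : OnePoint (ZMod l)) with hx₀
  set α₀ : GL (Fin 2) ℝ := heckeRep l x₀ with hα₀
  show ∑ x : OnePoint (ZMod l), lrt_ev φ (θ ((m59epn_rcB hlN' ρ (lrm_rZero_spec hlN')).coc x γ)) =
    lrt_ev (lrt_T DS φ) (θ γ)
  rw [lrt_T_ev]
  have hF : ∀ k : Gamma0 N', (lrm_data hlN').act k x₀ = x₀ ↔ (lrm_data hlNk).act (cj' k) x₀ = x₀ :=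
    fun k => m59epn_cj_fix_zero hL0 hdiv' hlL k
  set σ := m59epn_sig (lrm_data hlNk) cj' x₀ ρ with hσ
  have hσinj : Function.Injective σ :=
    m59epn_sig_injective (lrm_data hlN') (lrm_data hlNk) cj' x₀ ρ (lrm_rZero_spec hlN') hF
  have hσact : ∀ (g : Gamma0 N') (x : OnePoint (ZMod l)),
      σ ((lrm_data hlN').act g x) = (lrm_data hlNk).act (cj' g) (σ x) :=
    m59epn_sig_act (lrm_data hlN') (lrm_data hlNk) cj' x₀ ρ (lrm_rZero_spec hlN') hF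
  -- the correction terms
  have hfix : ∀ x, (lrm_data hlNk).act (cj' (ρ x) * (R (σ x))⁻¹) x₀ = x₀ := by
    intro x
    rw [(lrm_data hlNk).act_mul]
    have h1 : (lrm_data hlNk).act (cj' (ρ x)) x₀ = σ x := rfl
    rw [h1]
    have h2 := lrt_act_inv (lrm_data hlNk) (R (σ x)) x₀
    rwa [m59epn_Rzero_spec hlNk P hlP (σ x)] at h2
  have hmem : ∀ x, lrm_gamZero hlNk ⟨cj' (ρ x) * (R (σ x))⁻¹, hfix x⟩ ∈
      (twe_lv_ST P).comap (twe_sj_pi (Nk * l) P) := by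
    intro x
    rw [Subgroup.mem_comap]
    obtain ⟨g, hg⟩ := twe_sj_surj (Nk * l) hN (twe_sj_pi Nk P (cj' (ρ x) * (R (σ x))⁻¹))
    rw [m59epn_pi_gamZero hlNk P hlP ⟨cj' (ρ x) * (R (σ x))⁻¹, hfix x⟩ g hg.symm]
    refine twe_lv_tau_ST hlP _ ?_
    rw [hg, map_mul, map_inv, m59epn_Rzero_pi, inv_one, mul_one]
    exact m59epn_cj_mem_ST Nk P L N' hL hN' hL0 hdiv' (ρ x)
  have hΔ : ∀ g : Gamma0 N', twe_bl_delta L hL0 * (α₀ * m59epn_e N' g) =
      α₀ * m59epn_e Nk (cj' g) * twe_bl_delta L hL0 := by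
    intro g
    rw [← mul_assoc, m59epn_delta_comm L hL0, mul_assoc, m59epn_e_apply, m59epn_e_apply,
      twe_bl_cj_GL hL0 hdiv' g, mul_assoc]
  refine m59epn_sum_eq ((twe_nh_iota (Nk * l) P).comp θ) (twe_nh_iota (Nk * l) P)
    (fun x => α₀ * m59epn_e Nk (cj' (ρ x))) (fun y => α₀ * m59epn_e Nk (R y))
    (fun γ => t2c_perm ((γ : Gamma0 (N' * l)) : SL(2, ℤ)))
    (fun γ y => t2c_act (((θ γ : ↥((twe_lv_ST P).comap (twe_sj_pi (Nk * l) P))) :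
      Gamma0 (Nk * l)) : SL(2, ℤ)) y)
    (fun x γ => θ ((m59epn_rcB hlN' ρ (lrm_rZero_spec hlN')).coc x γ))
    (fun y γ => DS.coc y (θ γ)) ?_ ?_ (twe_nh_iota_injective (Nk * l) P) σ
    ((Finite.injective_iff_bijective).mp hσinj) ?_
    (fun x => ⟨lrm_gamZero hlNk ⟨cj' (ρ x) * (R (σ x))⁻¹, hfix x⟩, hmem x⟩) ?_ φ γ
  · -- hX
    intro x γ
    have h := m59epn_rcB_spec hlN' ρ (lrm_rZero_spec hlN') x γ
    refine m59epn_conj4 (twe_bl_delta L hL0) _ _ _ _ _ _ _ _ ?_ ?_ ?_ ?_ h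
    · exact hΔ (ρ x)
    · exact twe_bl_cj_GL hL0 hdiv γ
    · exact twe_bl_cj_GL hL0 hdiv _
    · exact hΔ (ρ (t2c_act ((γ : Gamma0 (N' * l)) : SL(2, ℤ)) x))
  · -- hY
    intro y γ
    exact m59epn_rcB_spec hlNk R (m59epn_Rzero_spec hlNk P hlP) y
      ((θ γ : ↥((twe_lv_ST P).comap (twe_sj_pi (Nk * l) P))) : Gamma0 (Nk * l))
  · -- hact
    intro γ x
    exact hσact (lrm_incl N' l γ) x
  · -- hτ
    intro x
    show α₀ * m59epn_e Nk (cj' (ρ x)) =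
      m59epn_e (Nk * l) (lrm_gamZero hlNk ⟨cj' (ρ x) * (R (σ x))⁻¹, hfix x⟩) *
        (α₀ * m59epn_e Nk (R (σ x)))
    rw [m59epn_e_gamZero]
    show α₀ * m59epn_e Nk (cj' (ρ x)) =
      α₀ * m59epn_e Nk (cj' (ρ x) * (R (σ x))⁻¹) * α₀⁻¹ * (α₀ * m59epn_e Nk (R (σ x)))
    rw [map_mul, map_inv]
    group

end main

end Fermat.Agent.M59
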