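import Mathlib
import Fermat.Agent.M59.EP.NewRes
import Fermat.Agent.M59.EP.NewTheta
import Fermat.Agent.TW.Aut.NewPack

/-!
# M59 / block [E'] / cell [EP-NEW] (helper2), part 5: the automorphic half  (prefix `m59epn_`)

`h` in the `ψ`-part of `Hom(Γ_{H'}(M l), K)` killed by the two transfers `At`, `Bt` of
`M59/EP/OpsDef.lean` ⟹ the class `Φ h` on `H₁(X₀(N' l))` (`N' = Nk L²`, main's twist
`twe_np_Phi` at the level `M l`) is killed by `lrh_At`, `lrh_Bt`: it is `l`-new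
(`m59epn_new_corA`, `m59epn_new_corB`, `m59epn_new`).
-/

set_option autoImplicit false
set_option linter.unusedSectionVars false

noncomputable section

open CongruenceSubgroup Matrix.SpecialLinearGroup
open scoped MatrixGroups OnePoint

namespace Fermat.Agent.M59

open Fermat.Agent.JT3 Fermat.Agent.LR Fermat.Agent.TW

/-- `(n + 1) • χ = 0 ⟹ χ = 0` for characters with values in a field of characteristic zero. -/
theorem m59epn_nsmul_cancel {G K : Type*} [AddZeroClass G] [Field K] [CharZero K] (n : ℕ)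
    (χ : G →+ K) (h : (n + 1) • χ = 0) : χ = 0 := by
  refine AddMonoidHom.ext fun g => ?_
  have h1 := DFunLike.congr_fun h g
  rw [AddMonoidHom.smul_apply, AddMonoidHom.zero_apply, nsmul_eq_mul] at h1
  rcases mul_eq_zero.mp h1 with h2 | h2
  · exact absurd h2 (by exact_mod_cast Nat.succ_ne_zero n)
  · exact h2

section main

variable (Nk : ℕ) {l : ℕ} [Fact l.Prime] (hlNk : ¬ l ∣ Nk) [NeZero Nk] [NeZero (Nk * l)]
  (P : Finset ℕ) [hP : ∀ t : ↥P, Fact (Nat.Prime (t : ℕ))] (hNk : ∀ t : ↥P, ¬ (t : ℕ) ∣ Nk)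
  (hN : ∀ t : ↥P, ¬ (t : ℕ) ∣ Nk * l) (hlP : ∀ t : ↥P, (t : ℕ) ≠ l)
  {M : ℕ} (hlM : ¬ l ∣ M) (hM : M = Nk * ∏ t ∈ P, t) (hMl : M * l = Nk * l * ∏ t ∈ P, t)
  (htM : ∀ t : ↥P, (t : ℕ) ∣ M) (htMl : ∀ t : ↥P, (t : ℕ) ∣ M * l)
  (H : Subgroup (ZMod M)ˣ)
  (hH : ∀ u : (ZMod M)ˣ, (∀ t : ↥P, ZMod.unitsMap (htM t) u = 1) → u ∈ H)
  (hH' : ∀ u : (ZMod (M * l))ˣ, (∀ t : ↥P, ZMod.unitsMap (htMl t) u = 1) → u ∈ m59epo_Hl M l H)
  (s : Gamma0 M) (hs : twe_dUnit M s * twe_dUnit M s * (twe_hk_lU hlM)⁻¹ ∈ H)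
  (hnice : twe_hc_Nice l (s : SL(2, ℤ)))
  {K : Type*} [Field K] [CharZero K] (ψ : ∀ t : ↥P, (ZMod (t : ℕ))ˣ →* K)
  {m : ℕ} (hm : Odd m) (hψm : ∀ (t : ↥P) (a : (ZMod (t : ℕ))ˣ), ψ t a ^ m = 1)
  (L N' : ℕ) (hL : L = ∏ t ∈ P, t) (hN' : N' = Nk * L * L)
  (hA : N' * l = Nk * l * L * L) (hL0 : L ≠ 0) (hdiv : L * (Nk * l) ∣ N' * l)
  (hdiv' : L * Nk ∣ N') (hlN' : ¬ l ∣ N')

attribute [local instance] twe_nw_fintypeSub

include hNk hM htM hH hN' hdiv' hlNk hlP in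
/-- **the class `Φ h` is killed by `A_*`**. -/
theorem m59epn_new_corA {h : Additive ↥(twe_GamH (M * l) (m59epo_Hl M l H)) →+ K}
    (hh : h ∈ twe_nio_U htMl ψ (m59epo_Hl M l H))
    (hAt : m59epo_At hlM H s hs hnice h = 0) :
    lrm_corA hlN' (twe_nw_Phi (Nk * l) P hN hMl htMl (m59epo_Hl M l H) hH' ψ hm hψm L (N' * l)
      hL hA hL0 hdiv h) = 0 := by
  set j := twe_ni_j (Nk * l) P hN hMl htMl (m59epo_Hl M l H) hH' with hj
  set hc := m59epn_compatA hlNk P hlP with hhc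
  set v := lrpd_pull j h with hv
  set w := twe_nw_W (Nk * l) P hN ψ hm hψm v with hw
  obtain ⟨-, hST, -, -⟩ := twe_nw_W_facts (Nk * l) P hN hMl htMl (m59epo_Hl M l H) hH' ψ hm hψm hh
  -- step 1
  have h1 : twe_fl_TK K hc v = 0 := by
    rw [hv, ← m59epn_resA hlM H s hs hnice Nk hlNk P hNk hN hlP hM hMl htM htMl hH hH' h, hAt,
      map_zero]
    rfl
  -- step 2
  have h2 : twe_fl_TK K hc w = 0 := by
    rw [hw, twe_nw_W_T (Nk * l) P hN ψ hm hψm (twe_fl_TK K hc) (MonoidHom.id _) (fun _ => 1)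
      (fun γ v => twe_fl_rho_comm hc (twe_sj_surj (Nk * l) hN) γ v)
      (fun t c => by rw [MonoidHom.id_apply, Units.val_one, one_mul]) v, h1, map_zero, smul_zero]
  -- step 3
  have h3 : lrt_T (twe_fl_dataS hc (twe_lv_ST P) (fun _ hs => hs))
      (twe_fl_corK (twe_sj_surj (Nk * l) hN) (twe_lv_ST P) w) = 0 := by
    rw [twe_fo_corK_T (k := K) hc (twe_sj_surj (Nk * l) hN) (twe_lv_ST P) (fun _ hs => hs) w hST,
      h2, map_zero]
  -- step 4
  have h4 : lrm_resA N' l (lrm_corA hlN'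
      (twe_nw_Phi (Nk * l) P hN hMl htMl (m59epo_Hl M l H) hH' ψ hm hψm L (N' * l) hL hA hL0
        hdiv h)) = 0 := by
    rw [twe_nw_Phi_apply,
      m59epn_thetaA Nk hlNk P hlP L N' hL hN' hA hL0 hdiv hdiv' hlN', h3]
    rfl
  -- step 5
  have h5 := congrArg (lrm_corA hlN') h4
  rw [lrm_corA_resA, map_zero] at h5
  exact m59epn_nsmul_cancel l _ h5

include hNk hM htM hH hN' hdiv' hlNk hlP in
/-- **the class `Φ h` is killed by `B_*`**. -/
theorem m59epn_new_corB {h : Additive ↥(twe_GamH (M * l) (m59epo_Hl M l H)) →+ K}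
    (hh : h ∈ twe_nio_U htMl ψ (m59epo_Hl M l H))
    (hBt : m59epo_Bt hlM H s hs hnice h = 0) :
    lrm_corB hlN' (twe_nw_Phi (Nk * l) P hN hMl htMl (m59epo_Hl M l H) hH' ψ hm hψm L (N' * l)
      hL hA hL0 hdiv h) = 0 := by
  set j := twe_ni_j (Nk * l) P hN hMl htMl (m59epo_Hl M l H) hH' with hj
  set hc := m59epn_compatB hlNk P hlP with hhc
  set v := lrpd_pull j h with hv
  set w := twe_nw_W (Nk * l) P hN ψ hm hψm v with hw
  obtain ⟨-, hST, -, -⟩ := twe_nw_W_facts (Nk * l) P hN hMl htMl (m59epo_Hl M l H) hH' ψ hm hψm hh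
  -- the eigenvalue of the conjugation by `s`
  set z : K := twe_nio_Psiu htMl ψ (twe_dUnit (M * l) (m59epn_sl hlM s hnice)) with hz
  have hz0 : z ≠ 0 := by
    intro h0
    have h1 := twe_nio_Psiu_pow htMl ψ m hψm (twe_dUnit (M * l) (m59epn_sl hlM s hnice))
    rw [← hz, h0, zero_pow hm.pos.ne'] at h1
    exact zero_ne_one h1
  -- step 1
  have h1 : twe_fl_TK K hc v = 0 := by
    have e := m59epn_resB hlM H s hs hnice Nk hlNk P hNk hN hlP hM hMl htM htMl hH hH' h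
    rw [hBt, map_zero, hh.2 (m59epn_sl hlM s hnice)] at e
    have e2 : lrpd_pull j (z • h) = z • v := rfl
    rw [e2, map_smul] at e
    have e3 : z • twe_fl_TK K hc v = 0 := by
      rw [← e]
      rfl
    rcases smul_eq_zero.mp e3 with h' | h'
    · exact absurd h' hz0
    · exact h'
  -- step 2
  have h2 : twe_fl_TK K hc w = 0 := by
    rw [hw, twe_nw_W_T (Nk * l) P hN ψ hm hψm (twe_fl_TK K hc) (twe_fh_tau P hlP)
      (twe_fh_lU P hlP)
      (fun γ v => twe_fl_rho_comm hc (twe_sj_surj (Nk * l) hN) γ v)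
      (fun t c => by rw [twe_fh_tau_iota, twe_fh_tau1_L]) v, h1, map_zero, smul_zero]
  -- step 3
  have h3 : lrt_T (twe_fl_dataS hc (twe_lv_ST P) (twe_lv_tau_ST hlP))
      (twe_fl_corK (twe_sj_surj (Nk * l) hN) (twe_lv_ST P) w) = 0 := by
    rw [twe_fo_corK_T (k := K) hc (twe_sj_surj (Nk * l) hN) (twe_lv_ST P) (twe_lv_tau_ST hlP) w
      hST, h2, map_zero]
  -- step 4
  have h4 : lrm_resA N' l (lrm_corB hlN'
      (twe_nw_Phi (Nk * l) P hN hMl htMl (m59epo_Hl M l H) hH' ψ hm hψm L (N' * l) hL hA hL0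
        hdiv h)) = 0 := by
    rw [twe_nw_Phi_apply,
      m59epn_thetaB Nk hlNk P hN hlP L N' hL hN' hA hL0 hdiv hdiv' hlN', h3]
    rfl
  -- step 5
  have h5 := congrArg (lrm_corA hlN') h4
  rw [lrm_corA_resA, map_zero] at h5
  exact m59epn_nsmul_cancel l _ h5

include hNk hM htM hH hN' hdiv' hlNk hlP in
/-- **[EP-NEW], the automorphic half on `H₁`**: for `h` in the `ψ`-part of `Hom(Γ_{H'}(M l), K)`
killed by the two transfers, the class `Φ h : H₁(X₀(N' l)) → K` is killed by `lrh_At`, `lrh_Bt`. -/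
theorem m59epn_new [NeZero (N' * l)] (h : ↥(twe_nio_U htMl ψ (m59epo_Hl M l H)))
    (hAt : m59epo_At hlM H s hs hnice h.1 = 0) (hBt : m59epo_Bt hlM H s hs hnice h.1 = 0) :
    (twe_np_Phi (Nk * l) P hN hMl htMl (m59epo_Hl M l H) hH' ψ hm hψm L (N' * l) hL hA hL0
        hdiv h).comp (lrh_At hlN') = 0 ∧
    (twe_np_Phi (Nk * l) P hN hMl htMl (m59epo_Hl M l H) hH' ψ hm hψm L (N' * l) hL hA hL0
        hdiv h).comp (lrh_Bt hlN') = 0 := by
  constructor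
  · apply lrh_comp_mk_injective
    rw [lrh_pull_At, twe_np_Phi_comp_mk,
      m59epn_new_corA Nk hlNk P hNk hN hlP hlM hM hMl htM htMl H hH hH' s hs hnice ψ hm hψm L N'
        hL hN' hA hL0 hdiv hdiv' hlN' h.2 hAt]
    rfl
  · apply lrh_comp_mk_injective
    rw [lrh_pull_Bt, twe_np_Phi_comp_mk,
      m59epn_new_corB Nk hlNk P hNk hN hlP hlM hM hMl htM htMl H hH hH' s hs hnice ψ hm hψm L N'
        hL hN' hA hL0 hdiv hdiv' hlN' h.2 hBt]
    rfl

end main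

end Fermat.Agent.M59
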