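/-
Project M59 (S59), block [E'], cell (5)(c) [EP-NEW], THE GALOIS HALF (helper2).  Prefix `m59epn_`,
namespace `Fermat.Agent.M59`.

Level `N' l`, `l ∤ N'` prime, `l ≠ p`.  A NONZERO class `c : gh_H (N' * l) →+ K` which is an
eigenvector of the good Hecke operators and is killed by the transposes of the two transfers
`lrh_At`, `lrh_Bt : gh_H N' →+ gh_H (N' * l)` (i.e. `c` is `l`-NEW) forces the Frobenius elements
at `l` to have the characteristic polynomial `X² ∓ (l + 1) X + l` in every Galois representation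
with the Frobenius polynomials of `c` at the good primes:

* `m59epn_torT'`  : the closed form of S35's primed toric seam `s35v_TorT'` (as in `Agent/S35.lean`);
* `m59epn_cut`    : twin of `twlg_if_main` (A3-CUT) at a prime `l ‖ N`: the representation cut out of
                    `eigenspace ⊓ ker P1 ⊓ ker P2 ⊆ K ⊗ T_p J₀(N' l)` by `pkq1_core_abs`;
* `m59epn_charpoly` : for `c` as above and ANY `ρ : GaloisRepAdic O` with the good polynomials;
* `m59epn_gal_dvr`, `m59epn_gal` : the descent to a complete DVR point of a Hecke–Galois datum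
  (twin of `twlg_nd_not_unip`, `twlg_nd_main`):  `χ (tr ρ_X (Frob_l))² = (l + 1)²`.
-/
import Mathlib
import Fermat.Agent.TW.LG.AsNewDesc
import Fermat.Agent.TW.LG.NewMain
import Fermat.Agent.TW.LG.GatewayDegCoprimeMain
import Fermat.Agent.S35.Final
import Fermat.Agent.S35.ToricInst.LegNF1
import Fermat.Agent.S35.FinalHes.ToricNF1
import Fermat.Agent.SS2.DescPhi.KeyBar1Leg
import Fermat.Agent.SS2.DescPhi.KeyBar1Hes
import Fermat.Agent.S35.AbelGlue

set_option autoImplicit false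
set_option linter.unusedSectionVars false
set_option linter.unusedVariables false
set_option linter.style.haveILetI false
set_option synthInstance.maxHeartbeats 400000
set_option maxHeartbeats 1000000

noncomputable section

namespace Fermat.Agent.M59

open IsLocalRing TensorProduct Polynomial ModularCurve CuspForm Fermat.Agent.JT3 Fermat.Agent.S35
  Fermat.Agent.S36 Fermat.Agent.TW Fermat.Agent.LR Fermat.Agent.SS

local notation "GQ" => (AlgebraicClosure ℚ ≃ₐ[ℚ] AlgebraicClosure ℚ)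
local notation "Qbar" => AlgebraicClosure ℚ

/-- **the primed toric seam of S35, closed** (the proof term of `Fermat/Agent/S35.lean`). -/
theorem m59epn_torT' : s35v_TorT' :=
  s35sk1_torT' fun N q _ _ hq hqN =>
    s35_keyBar1_of_cores
      (fun N q _ _ _ hq2 hqN h => Fermat.Agent.SS2.ss2_dp_keyBar1 N q hq2 hqN h)
      (fun N q _ _ _ hq3 hqN h => Fermat.Agent.SS2.ss2_dp_keyBar1_hes N q hq3 hqN h)
      (fun N q _ _ _ hq2 hqN =>
        s35_coreNF1_of N q hq2 hqN (s35as_abelNF1_leg N q hq2 hqN (s35ag_famLeg N q hq2))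
          (s35ti_leg_toricNF1 N q hq2 hqN))
      (fun N q _ _ _ hq3 hqN =>
        s35h_coreNF1_of N q hq3 hqN (s35as_abelNF1_hes N q hq3 hqN (s35ag_famHes N q hq3))
          (s35fh_toricNF1 N q hq3 hqN))
      N q hq hqN

section cut

variable (N' l p : ℕ) [NeZero N'] [NeZero l] [Fact p.Prime] (S : Finset ℕ)
  (O : Type) [CommRing O] [IsDomain O] [IsDiscreteValuationRing O]
  [IsAdicComplete (maximalIdeal O) O] [CharZero O] [Algebra ℤ_[p] O]
  (K : Type) [Field K] [Algebra O K] [IsFractionRing O K] [Algebra ℤ_[p] K]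
  [IsScalarTower ℤ_[p] O K]

/-- **A3-CUT at a prime `l ‖ N`.** If `K ⊗ T_p J₀(N' l)` contains a nonzero simultaneous
eigenvector of the good Hecke operators (eigenvalues `a ℓ`) which is killed by the two
push-forwards to level `N'`, then there is a `p`-adic Galois representation `ρ'` over `O` with
`charpoly ρ'(Frob_ℓ) = X² - a_ℓ X + ℓ` at the good primes, unramified outside `N' l p`, with
`charpoly ρ'(Frob_l) = X² ∓ (l + 1) X + l`. -/
theorem m59epn_cut (hpS : p ∈ S) (hNS : ∀ r : ℕ, r.Prime → r ∣ N' * l → r ∈ S)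
    (hl : l.Prime) (hlp : l ≠ p) (hlN' : ¬ l ∣ N')
    (hp : (p : O) ∈ maximalIdeal O) (a : ℕ → O)
    (hev : ∃ v : K ⊗[ℤ_[p]] tj_T (N' * l) p, v ≠ 0 ∧
      (∀ ℓ, pk_Good (N' * l) S ℓ →
        (tjp_Tl (N' * l) p S ℓ).baseChange K v = algebraMap O K (a ℓ) • v) ∧
      (s35p_P1 N' l p).baseChange K v = 0 ∧ (s35p_P2 N' l p).baseChange K v = 0) :
    ∃ ρ' : GaloisRepAdic O,
      (∀ ℓ : ℕ, pk_Good (N' * l) S ℓ → ∀ A : ValuationSubring Qbar, A.LiesOverPrime ℓ →
        ∀ φ : GQ, A.IsFrobeniusAt φ ℓ →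
          LinearMap.charpoly (ρ'.ρ φ) = X ^ 2 - C (a ℓ) * X + C ((ℓ : O))) ∧
      (∀ r : ℕ, r.Prime → ¬ r ∣ N' * l → r ≠ p → ρ'.IsUnramifiedAt r) ∧
      (∀ A : ValuationSubring Qbar, A.LiesOverPrime l → ∀ φ : GQ, A.IsFrobeniusAt φ l →
        LinearMap.charpoly (ρ'.ρ φ) = X ^ 2 - C ((l : O) + 1) * X + C ((l : O)) ∨
        LinearMap.charpoly (ρ'.ρ φ) = X ^ 2 + C ((l : O) + 1) * X + C ((l : O))) := by
  have hinjO : Function.Injective (algebraMap ℤ_[p] O) := pk_padic_injective p (algebraMap ℤ_[p] O)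
  have hinjK : Function.Injective (algebraMap O K) := IsFractionRing.injective O K
  have hinj : Function.Injective (algebraMap ℤ_[p] K) := by
    rw [IsScalarTower.algebraMap_eq ℤ_[p] O K]
    exact hinjK.comp hinjO
  have htf : Module.IsTorsionFree ℤ_[p] K := by
    rw [Module.isTorsionFree_iff_smul_eq_zero]
    intro r m hrm
    rw [Algebra.smul_def, mul_eq_zero] at hrm
    rcases hrm with h0 | h0
    · exact Or.inl (hinj (h0.trans (map_zero _).symm))
    · exact Or.inr h0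
  have : IsLocalHom (algebraMap ℤ_[p] O) := pk_isLocalHom_padic p hp _
  set D : pk_Tate p (N' * l) S :=
    tjp_tate (N' * l) p S hpS (tji_nodeE (N' * l)) (tji_S18 (N' * l)) with hD
  set Z : Submodule K (K ⊗[ℤ_[p]] tj_T (N' * l) p) :=
    LinearMap.ker ((s35p_P1 N' l p).baseChange K) ⊓
      LinearMap.ker ((s35p_P2 N' l p).baseChange K) with hZ
  have hZst : ∀ σ, Z ≤ Z.comap (pk_bc K (tj_rho (N' * l) p) σ) := by
    intro σ u hu
    rw [Submodule.mem_comap, pk_bc_apply]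
    refine ⟨LinearMap.mem_ker.2 ?_, LinearMap.mem_ker.2 ?_⟩
    · rw [← LinearMap.comp_apply, ← LinearMap.baseChange_comp,
        s35p_P1_rho_comp, LinearMap.baseChange_comp, LinearMap.comp_apply,
        LinearMap.mem_ker.1 hu.1, map_zero]
    · rw [← LinearMap.comp_apply, ← LinearMap.baseChange_comp,
        s35p_P2_rho_comp, LinearMap.baseChange_comp, LinearMap.comp_apply,
        LinearMap.mem_ker.1 hu.2, map_zero]
  obtain ⟨v, hv0, hv, hv1, hv2⟩ := hev
  have hW0 : pk_eigenspace p (N' * l) S (tjp_Tl (N' * l) p S) O K a ⊓ Z ≠ ⊥ := by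
    intro h
    apply hv0
    have : v ∈ pk_eigenspace p (N' * l) S (tjp_Tl (N' * l) p S) O K a ⊓ Z :=
      ⟨hv, ⟨LinearMap.mem_ker.2 hv1, LinearMap.mem_ker.2 hv2⟩⟩
    rw [h, Submodule.mem_bot] at this
    exact this
  have hgeom : ss_Geom (N' * l) l := by
    refine s35_geom_all (N' * l) l hl (dvd_mul_left l N') ?_
    rintro ⟨c, hc⟩
    apply hlN'
    have h1 : l * N' = l * (l * c) := by
      rw [mul_comm l N', hc]; ring
    exact ⟨c, Nat.eq_of_mul_eq_mul_left hl.pos h1⟩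
  obtain ⟨ρ', h1, h2, h3⟩ := pkq1_core_abs p (N' * l) S hpS hNS hp
    (pkb_iota ℤ_[p] O K (tj_T (N' * l) p))
    (pkb_iota_isBaseChange ℤ_[p] O K (tj_T (N' * l) p))
    (pk_iota_injective ℤ_[p] O K (tj_T (N' * l) p) hinjK)
    (pk_le_span_lat ℤ_[p] O K (tj_T (N' * l) p)) (pk_bc O (tj_rho (N' * l) p))
    (pk_bc K (tj_rho (N' * l) p))
    (fun σ m => pkb_iota_baseChange ℤ_[p] O K (tj_T (N' * l) p) (tj_rho (N' * l) p σ) m)
    (pk_adicContinuous_bc (tj_rho (N' * l) p) D.cont)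
    (fun q hq hqN hqp P hP σ hσ => by
      have hu : tj_rho (N' * l) p σ = 1 := D.unram q hq hqN hqp P hP σ hσ
      rw [pk_bc_apply, hu, LinearMap.baseChange_one])
    a (pk_eigenspace p (N' * l) S (tjp_Tl (N' * l) p S) O K a ⊓ Z) hW0
    (fun σ u hu => ⟨pk_eigenspace_stable p (N' * l) S (tj_rho (N' * l) p) (tjp_Tl (N' * l) p S) O K
      D.Tl_ρ a σ hu.1, hZst σ hu.2⟩)
    (fun ℓ hℓ A hA φ hφ u hu =>
      pk_frob_eigenspace p (N' * l) S (tj_rho (N' * l) p) (tjp_Tl (N' * l) p S) O K a hℓ φ D.Tl_ρ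
        (D.frob ℓ hℓ A hA φ hφ) u hu.1)
    {l} (fun q hq => by rw [Set.mem_singleton_iff] at hq; subst hq; exact ⟨hl, hlp⟩)
    (fun q hq A hA s hs => by
      rw [Set.mem_singleton_iff] at hq
      subst hq
      have h1 := congrArg (LinearMap.baseChange K)
        (sst_tate_unip (N' * q) p q hl hlp hgeom A hA s hs)
      rw [LinearMap.baseChange_mul, LinearMap.baseChange_sub, LinearMap.baseChange_one,
        LinearMap.baseChange_zero] at h1
      exact h1)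
    (fun q hq A hA φ hφ u hu hfix => by
      rw [Set.mem_singleton_iff] at hq
      subst hq
      have key := s35v_plumb (R := ℤ_[p]) (K := K) (s35p_P1 N' q p) (s35p_P2 N' q p)
        {f | ∃ s ∈ A.inertiaSubgroupIn ℚ, f = tj_rho (N' * q) p s} (tj_rho (N' * q) p φ)
        ((q : ℤ_[p]) ^ 2)
        (fun x hx hx1 hx2 => m59epn_torT' N' q p hl hlp hlN' A hA φ hφ x
          (fun s hs => hx _ ⟨s, hs, rfl⟩) hx1 hx2)
        u (fun f hf => by
          obtain ⟨s, hs, rfl⟩ := hf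
          exact hfix s hs) (LinearMap.mem_ker.1 hu.2.1) (LinearMap.mem_ker.1 hu.2.2)
      rw [pk_bc_apply, key, map_pow, map_natCast])
  exact ⟨ρ', h1, h2, fun A hA φ hφ => h3 l rfl A hA φ hφ⟩

/-- **the Frobenius polynomial at `l`** of ANY representation with the good Frobenius polynomials of
an `l`-new eigenclass `c` of level `N' l`. -/
theorem m59epn_charpoly [Fact l.Prime] (hpS : p ∈ S)
    (hNS : ∀ r : ℕ, r.Prime → r ∣ N' * l → r ∈ S)
    (hlp : l ≠ p) (hlN' : ¬ l ∣ N') (hp : (p : O) ∈ maximalIdeal O)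
    (a : ℕ → O) (c : gh_H (N' * l) →+ K) (hc0 : c ≠ 0)
    (hce : ∀ ℓ, pk_Good (N' * l) S ℓ → ∀ h,
      c (t2f_TH (N' * l) ℓ h) = algebraMap O K (a ℓ) * c h)
    (hcA : ∀ h, c (lrh_At hlN' h) = 0) (hcB : ∀ h, c (lrh_Bt hlN' h) = 0)
    (ρ : GaloisRepAdic O)
    (hρ : ∀ ℓ : ℕ, pk_Good (N' * l) S ℓ → ∀ A : ValuationSubring Qbar, A.LiesOverPrime ℓ →
      ∀ φ : GQ, A.IsFrobeniusAt φ ℓ →
        LinearMap.charpoly (ρ.ρ φ) = X ^ 2 - C (a ℓ) * X + C ((ℓ : O)))
    (A : ValuationSubring Qbar) (hA : A.LiesOverPrime l) (φ : GQ) (hφ : A.IsFrobeniusAt φ l) :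
    LinearMap.charpoly (ρ.ρ φ) = X ^ 2 - C ((l : O) + 1) * X + C ((l : O)) ∨
      LinearMap.charpoly (ρ.ρ φ) = X ^ 2 + C ((l : O) + 1) * X + C ((l : O)) := by
  have hl : l.Prime := Fact.out
  have hinjO : Function.Injective (algebraMap ℤ_[p] O) := pk_padic_injective p (algebraMap ℤ_[p] O)
  have hinj : Function.Injective (algebraMap ℤ_[p] K) := by
    rw [IsScalarTower.algebraMap_eq ℤ_[p] O K]
    exact (IsFractionRing.injective O K).comp hinjO
  obtain ⟨ρ', h1, -, h3⟩ := m59epn_cut N' l p S O K hpS hNS hl hlp hlN' hp a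
    (twlg_tn_exists N' l p S K hinj (lrh_At hlN') (lrh_Bt hlN')
      (twlg_gq_lattice_alpha N' l p hlN') (twlg_gq_lattice_beta N' l p hlN')
      (fun ℓ => algebraMap O K (a ℓ)) c hc0 hce hcA hcB)
  have heq : LinearMap.charpoly (ρ'.ρ φ) = LinearMap.charpoly (ρ.ρ φ) :=
    twlg_tr_charpoly_eq ρ' ρ S (fun ℓ hℓ hℓS B hB σ hσ => by
      have hgood : pk_Good (N' * l) S ℓ :=
        ⟨hℓ, fun hdvd => hℓS (hNS ℓ hℓ hdvd), fun h => hℓS (Finset.mem_coe.1 h)⟩
      rw [h1 ℓ hgood B hB σ hσ, hρ ℓ hgood B hB σ hσ]) φ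
  rw [← heq]
  exact h3 A hA φ hφ

end cut

/-- the linear coefficient of the characteristic polynomial in rank two. -/
theorem m59epn_charpoly_coeff_one {R V : Type*} [CommRing R] [Nontrivial R] [AddCommGroup V]
    [Module R V] [Module.Free R V] [Module.Finite R V] (hd : Module.finrank R V = 2)
    (f : Module.End R V) : (LinearMap.charpoly f).coeff 1 = - LinearMap.trace R V f := by
  let b := Module.finBasisOfFinrankEq R V hd
  have h1 := Matrix.charpoly_fin_two (LinearMap.toMatrix b b f)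
  rw [LinearMap.charpoly_toMatrix f b, ← LinearMap.trace_eq_matrix_trace R b f] at h1
  rw [h1]
  simp only [coeff_add, coeff_sub, coeff_X_pow, coeff_C_mul, coeff_X_one, coeff_C]
  norm_num

section desc

attribute [local instance] FractionRing.liftAlgebra FractionRing.isScalarTower_liftAlgebra

/-- the descent of the class to a complete DVR point `(O', E, ψ, ι_E)` of `T_X` and the call of
`m59epn_charpoly` (twin of `twlg_nd_not_unip`). -/
theorem m59epn_gal_dvr {𝒪 : Type} [CommRing 𝒪] [IsDomain 𝒪] [IsDiscreteValuationRing 𝒪]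
    [IsAdicComplete (maximalIdeal 𝒪) 𝒪]
    {p : ℕ} [Fact p.Prime]
    {Nb : ℕ} [NeZero Nb] {S' : Finset ℕ}
    {θX : heckeAlgebra Nb 2 (↑S' : Set ℕ) →+* ResidueField 𝒪}
    {TX : Type} [CommRing TX] [IsLocalRing TX] [IsNoetherianRing TX]
    [IsAdicComplete (maximalIdeal TX) TX] [Algebra 𝒪 TX] [IsLocalHom (algebraMap 𝒪 TX)]
    [Module.Finite 𝒪 TX] [Module.Free 𝒪 TX]
    (HX : HeckeGaloisRepDatum Nb (↑S' : Set ℕ) 𝒪 θX TX)
    (hpS : p ∈ S') (hNS : ∀ r : ℕ, r.Prime → r ∣ Nb → r ∈ S')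
    (K : Type) [Field K] [Algebra 𝒪 K]
    (χ : TX →ₐ[𝒪] K) (N' l : ℕ) [NeZero N'] [Fact l.Prime] (hNb : Nb = N' * l)
    (hlp : l ≠ p) (hlN' : ¬ l ∣ N')
    (c : gh_H (N' * l) →+ K) (hc0 : c ≠ 0)
    (hce : ∀ (ℓ : ℕ) (hℓ : ℓ.Prime) (h1 : ¬ ℓ ∣ Nb) (h2 : ℓ ∉ (↑S' : Set ℕ))
      (h : gh_H (N' * l)),
      c (t2f_TH (N' * l) ℓ h) = χ (HX.π (heckeAlgebra.T hℓ h1 h2)) * c h)
    (hcA : ∀ h : gh_H N', c (lrh_At hlN' h) = 0)
    (hcB : ∀ h : gh_H N', c (lrh_Bt hlN' h) = 0)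
    (O' : Type) [CommRing O'] [IsDomain O'] [IsDiscreteValuationRing O']
    [IsAdicComplete (maximalIdeal O') O'] [CharZero O']
    (E : Type) [Field E] [Algebra O' E] [IsFractionRing O' E]
    (ψ : TX →+* O') (hψ : IsLocalHom ψ) (ιE : E →+* K)
    (hιψ : ∀ x, ιE (algebraMap O' E (ψ x)) = χ x) (hp' : (p : O') ∈ maximalIdeal O')
    (A : ValuationSubring Qbar) (hA : A.LiesOverPrime l) (σ : GQ) (hσ : A.IsFrobeniusAt σ l) :
    χ (HX.ρ.trace σ) ^ 2 = ((l : K) + 1) ^ 2 := by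
  classical
  subst hNb
  have hl : l.Prime := Fact.out
  haveI : NeZero l := ⟨hl.ne_zero⟩
  letI : Algebra E K := ιE.toAlgebra
  obtain ⟨h₀, hh₀⟩ : ∃ h₀, c h₀ ≠ 0 := by
    by_contra hcon
    push Not at hcon
    exact hc0 (AddMonoidHom.ext fun h => by rw [hcon h]; rfl)
  obtain ⟨r, hr⟩ := twlg_nd_exists_dual (E := E) hh₀
  let c' : gh_H (N' * l) →+ E := (r : K →+ E).comp c
  have hc'0 : c' ≠ 0 := by
    intro h0
    apply hr
    have := DFunLike.congr_fun h0 h₀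
    exact this
  letI : Algebra ℤ_[p] O' := (cya_padicHom p O' hp').toAlgebra
  letI : Algebra ℤ_[p] E := ((algebraMap O' E).comp (algebraMap ℤ_[p] O')).toAlgebra
  haveI : IsScalarTower ℤ_[p] O' E := IsScalarTower.of_algebraMap_eq fun _ => rfl
  let a : ℕ → O' := fun ℓ =>
    if h : pk_Good (N' * l) S' ℓ then ψ (HX.π (heckeAlgebra.T h.1 h.2.1 h.2.2)) else 0
  have hcp := m59epn_charpoly N' l p S' O' E hpS hNS hlp hlN' hp' a c' hc'0
    (fun ℓ hℓ h => by
      show r (c (t2f_TH (N' * l) ℓ h)) = algebraMap O' E (a ℓ) * r (c h)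
      rw [hce ℓ hℓ.1 hℓ.2.1 hℓ.2.2 h]
      have ha : a ℓ = ψ (HX.π (heckeAlgebra.T hℓ.1 hℓ.2.1 hℓ.2.2)) := dif_pos hℓ
      have h3 : χ (HX.π (heckeAlgebra.T hℓ.1 hℓ.2.1 hℓ.2.2)) =
          algebraMap E K (algebraMap O' E (a ℓ)) := by
        rw [ha]
        exact (hιψ _).symm
      rw [h3, ← Algebra.smul_def, map_smul, smul_eq_mul])
    (fun h => by
      show r (c _) = 0
      rw [hcA h, map_zero])
    (fun h => by
      show r (c _) = 0
      rw [hcB h, map_zero])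
    (HX.ρ.baseChangeAlong ψ hψ)
    (fun ℓ hℓ B hB τ hτ => by
      have h6 := HX.charpoly_frob ℓ hℓ.1 hℓ.2.1 hℓ.2.2 B hB τ hτ
      have ha : a ℓ = ψ (HX.π (heckeAlgebra.T hℓ.1 hℓ.2.1 hℓ.2.2)) := dif_pos hℓ
      letI : Algebra TX O' := ψ.toAlgebra
      change LinearMap.charpoly ((HX.ρ.ρ τ).baseChange O') = _
      rw [LinearMap.charpoly_baseChange, h6, ha]
      simp only [Polynomial.map_add, Polynomial.map_sub, Polynomial.map_mul, Polynomial.map_pow,
        Polynomial.map_X, Polynomial.map_C, Polynomial.map_natCast, map_natCast]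
      rfl)
    A hA σ hσ
  -- the trace
  have htr : ψ (HX.ρ.trace σ) = (l : O') + 1 ∨ ψ (HX.ρ.trace σ) = -((l : O') + 1) := by
    letI : Algebra TX O' := ψ.toAlgebra
    have hbc : LinearMap.charpoly ((HX.ρ.baseChangeAlong ψ hψ).ρ σ) =
        (LinearMap.charpoly (HX.ρ.ρ σ)).map ψ := by
      change LinearMap.charpoly ((HX.ρ.ρ σ).baseChange O') = _
      rw [LinearMap.charpoly_baseChange]
      rfl
    have hc1 : (LinearMap.charpoly ((HX.ρ.baseChangeAlong ψ hψ).ρ σ)).coeff 1 =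
        - ψ (HX.ρ.trace σ) := by
      rw [hbc, coeff_map, m59epn_charpoly_coeff_one HX.ρ.finrank_eq, map_neg]
      rfl
    have e1 : (X ^ 2 - C ((l : O') + 1) * X + C ((l : O')) : O'[X]).coeff 1 = -((l : O') + 1) := by
      simp only [coeff_add, coeff_sub, coeff_X_pow, coeff_C_mul, coeff_X_one, coeff_C]
      norm_num
    have e2 : (X ^ 2 + C ((l : O') + 1) * X + C ((l : O')) : O'[X]).coeff 1 = (l : O') + 1 := by
      simp only [coeff_add, coeff_X_pow, coeff_C_mul, coeff_X_one, coeff_C]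
      norm_num
    rcases hcp with h | h
    · left
      rw [h, e1] at hc1
      exact (neg_injective hc1).symm
    · right
      rw [h, e2] at hc1
      rw [hc1, neg_neg]
  have hχ : χ (HX.ρ.trace σ) = ιE (algebraMap O' E (ψ (HX.ρ.trace σ))) := (hιψ _).symm
  rcases htr with h | h
  · rw [hχ, h, map_add, map_add, map_natCast, map_natCast, map_one, map_one]
  · rw [hχ, h, map_neg, map_neg, map_add, map_add, map_natCast, map_natCast, map_one, map_one,
      neg_sq]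

/-- **[EP-NEW], the Galois half**: an `l`-new eigenclass `c` of level `Nb = N' l` with the
eigenvalues of a point `χ : T_X → K` of a Hecke–Galois datum of level `Nb` forces
`χ (tr ρ_X (Frob_l))² = (l + 1)²`. -/
theorem m59epn_gal {𝒪 : Type} [CommRing 𝒪] [IsDomain 𝒪] [IsDiscreteValuationRing 𝒪]
    [IsAdicComplete (maximalIdeal 𝒪) 𝒪] [Finite (ResidueField 𝒪)] [CharZero 𝒪]
    {p : ℕ} [Fact p.Prime] (hp𝒪 : (p : 𝒪) ∈ maximalIdeal 𝒪)
    {Nb : ℕ} [NeZero Nb] {S' : Finset ℕ}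
    {θX : heckeAlgebra Nb 2 (↑S' : Set ℕ) →+* ResidueField 𝒪}
    {TX : Type} [CommRing TX] [IsLocalRing TX] [IsNoetherianRing TX]
    [IsAdicComplete (maximalIdeal TX) TX] [Algebra 𝒪 TX] [IsLocalHom (algebraMap 𝒪 TX)]
    [Module.Finite 𝒪 TX] [Module.Free 𝒪 TX]
    (HX : HeckeGaloisRepDatum Nb (↑S' : Set ℕ) 𝒪 θX TX)
    (hpS : p ∈ S') (hNS : ∀ r : ℕ, r.Prime → r ∣ Nb → r ∈ S')
    (K : Type) [Field K] [Algebra 𝒪 K] (hK : Function.Injective (algebraMap 𝒪 K))
    (χ : TX →ₐ[𝒪] K) (N' l : ℕ) [NeZero N'] [Fact l.Prime] (hNb : Nb = N' * l)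
    (hlp : l ≠ p) (hlN' : ¬ l ∣ N')
    (c : gh_H (N' * l) →+ K) (hc0 : c ≠ 0)
    (hce : ∀ (ℓ : ℕ) (hℓ : ℓ.Prime) (h1 : ¬ ℓ ∣ Nb) (h2 : ℓ ∉ (↑S' : Set ℕ))
      (h : gh_H (N' * l)),
      c (t2f_TH (N' * l) ℓ h) = χ (HX.π (heckeAlgebra.T hℓ h1 h2)) * c h)
    (hcA : c.comp (lrh_At hlN') = 0) (hcB : c.comp (lrh_Bt hlN') = 0)
    (A : ValuationSubring Qbar) (hA : A.LiesOverPrime l) (σ : GQ) (hσ : A.IsFrobeniusAt σ l) :
    χ (HX.ρ.trace σ) ^ 2 = ((l : K) + 1) ^ 2 := by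
  obtain ⟨O', _, _, _, _, _, E, _, _, _, ψ, hψ, ιE, hιψ, hp'⟩ :=
    twlg_nd_exists_dvr hp𝒪 K hK χ
  exact m59epn_gal_dvr HX hpS hNS K χ N' l hNb hlp hlN' c hc0 hce
    (fun h => DFunLike.congr_fun hcA h) (fun h => DFunLike.congr_fun hcB h)
    O' E ψ hψ ιE hιψ hp' A hA σ hσ

end desc

end Fermat.Agent.M59
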