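import Mathlib
import Fermat.Agent.TW.Aut.NewAtBC
import Fermat.Agent.M59.EP.NewAut
import Fermat.Agent.M59.EP.NewGal
import Fermat.Agent.M59.EP.OpsDia

/-!
# M59 / block [E'] / cell [EP-NEW] (helper2), part 6: the wrapper, core and base change
(prefix `m59epn_`)

* `m59epn_conj_rep`  : every diamond of the level `M l` is the diamond of `m59epo_up g`, `g` nice
  at `l`;
* `m59epn_core`      : `K` algebraically closed of characteristic zero.  A nonzero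
  `w ∈ W(Γ_{H'}(M l), K)` which is an eigenvector of the fixed-determinant Hecke operators of a
  frame and is killed by the two transfers `m59epo_lAt`, `m59epo_lBt` produces a NONZERO class
  `c : H₁(X₀(N' l)) → K`, `N' = Nk L²`, with the same Hecke eigenvalues and `c ∘ lrh_At = 0`,
  `c ∘ lrh_Bt = 0` (twin of main's `twe_nac_core`, with `m59epn_new` for `twe_np_VA/VB`);
* `m59epn_bc`        : the same from an eigenvector `v ≠ 0` of `K ⊗[𝒪] MX`, `MX ↪ W(Γ_{H'}(M l), 𝒪)`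
  (twin of main's `twe_nab_newAt`).
-/

set_option autoImplicit false
set_option linter.unusedSectionVars false

noncomputable section

open CongruenceSubgroup Matrix.SpecialLinearGroup
open scoped MatrixGroups OnePoint TensorProduct

namespace Fermat.Agent.M59

open Fermat.Agent.JT3 Fermat.Agent.LR Fermat.Agent.TW

section conj

variable {M l : ℕ} [Fact l.Prime] (hlM : ¬ l ∣ M) (H : Subgroup (ZMod M)ˣ)

/-- every diamond of the level `M l` is the diamond of `m59epo_up g` for some `g` nice at `l`. -/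
theorem m59epn_conj_rep {R : Type*} [CommRing R] {A : Type*} [AddCommGroup A] [Module R A]
    (γ : Gamma0 (M * l)) :
    ∃ (g : Gamma0 M) (hg : twe_hc_Nice l (g : SL(2, ℤ))),
      twe_wl_conj (R := R) (A := A) (m59epo_Hl M l H) γ =
        twe_wl_conj (R := R) (A := A) (m59epo_Hl M l H) (m59epo_up hlM g hg) := by
  obtain ⟨g, hgd, hgn⟩ := twe_hc_exists_nice hlM (lrm_incl M l γ)
  refine ⟨g, hgn, ?_⟩
  have h1 : γ = m59epo_up hlM g hgn * ((m59epo_up hlM g hgn)⁻¹ * γ) := by group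
  have h2 : twe_wl_conj (R := R) (A := A) (m59epo_Hl M l H)
      ((m59epo_up hlM g hgn)⁻¹ * γ) = 1 := by
    refine twe_wl_conj_of_mem (m59epo_Hl M l H) _
      (twe_mem_GamH.mpr ⟨((m59epo_up hlM g hgn)⁻¹ * γ).2, ?_⟩)
    show ZMod.unitsMap (dvd_mul_right M l)
      (twe_dUnit (M * l) ((m59epo_up hlM g hgn)⁻¹ * γ)) ∈ H
    have h3 : ZMod.unitsMap (dvd_mul_right M l)
        (twe_dUnit (M * l) ((m59epo_up hlM g hgn)⁻¹ * γ)) =
        twe_dUnit M (lrm_incl M l ((m59epo_up hlM g hgn)⁻¹ * γ)) :=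
      m59epo_unitsMap_dUnit (((m59epo_up hlM g hgn)⁻¹ * γ : Gamma0 (M * l)) : SL(2, ℤ))
        ((m59epo_up hlM g hgn)⁻¹ * γ).2 (lrm_incl M l ((m59epo_up hlM g hgn)⁻¹ * γ)).2
    have h4 : lrm_incl M l ((m59epo_up hlM g hgn)⁻¹ * γ) = g⁻¹ * lrm_incl M l γ := by
      rw [map_mul, map_inv]
      congr 2
    rw [h3, h4, map_mul, map_inv, hgd, inv_mul_cancel]
    exact one_mem H
  conv_lhs => rw [h1]
  rw [twe_wl_conj_mul, h2, mul_one]

end conj

section core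

variable (Nk : ℕ) {l : ℕ} [Fact l.Prime] (hlNk : ¬ l ∣ Nk) [NeZero Nk] [NeZero (Nk * l)]
  (P : Finset ℕ) [hP : ∀ t : ↥P, Fact (Nat.Prime (t : ℕ))] (hNk : ∀ t : ↥P, ¬ (t : ℕ) ∣ Nk)
  (hN : ∀ t : ↥P, ¬ (t : ℕ) ∣ Nk * l) (hlP : ∀ t : ↥P, (t : ℕ) ≠ l)
  {M : ℕ} [NeZero (M * l)] (hlM : ¬ l ∣ M) (hM : M = Nk * ∏ t ∈ P, t)
  (hMl : M * l = Nk * l * ∏ t ∈ P, t)
  (htM : ∀ t : ↥P, (t : ℕ) ∣ M) (htMl : ∀ t : ↥P, (t : ℕ) ∣ M * l)
  (H : Subgroup (ZMod M)ˣ)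
  (hH : ∀ u : (ZMod M)ˣ, (∀ t : ↥P, ZMod.unitsMap (htM t) u = 1) → u ∈ H)
  (hH' : ∀ u : (ZMod (M * l))ˣ, (∀ t : ↥P, ZMod.unitsMap (htMl t) u = 1) → u ∈ m59epo_Hl M l H)
  (s : Gamma0 M) (hs : twe_dUnit M s * twe_dUnit M s * (twe_hk_lU hlM)⁻¹ ∈ H)
  (hnice : twe_hc_Nice l (s : SL(2, ℤ)))
  {K : Type} [Field K] [IsAlgClosed K] [CharZero K]
  {m : ℕ} (hm : Odd m) (hHm : ∀ u : (ZMod M)ˣ, u ^ m ∈ H)
  {I : Type} (q : I → ℕ) (F : twe_sm_Frame (M * l) (m59epo_Hl M l H) q)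
  (L N' : ℕ) (hL : L = ∏ t ∈ P, t) (hN' : N' = Nk * L * L)
  (hA : N' * l = Nk * l * L * L) (hL0 : L ≠ 0) (hdiv : L * (Nk * l) ∣ N' * l)
  (hdiv' : L * Nk ∣ N') (hlN' : ¬ l ∣ N')

attribute [local instance] twe_nw_fintypeSub

include hlNk hNk hN hlP hM hMl htM htMl hH hH' hm hHm hL hN' hA hL0 hdiv hdiv' in
/-- **the core of the wrapper of [EP-NEW]** (twin of main's `twe_nac_core`). -/
theorem m59epn_core [NeZero (N' * l)] (hqA : ∀ i, ¬ q i ∣ N' * l)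
    (w : ↥(twe_wl_V K K (twe_GamH (M * l) (m59epo_Hl M l H)))) (hw : w ≠ 0) (a : I → K)
    (hwT : ∀ i, @twe_wl_T K _ K _ _ (M * l) (q i) (F.hq i) (F.hM i) (m59epo_Hl M l H) (F.s i)
      (F.hs i) w = a i • w)
    (hwA : m59epo_lAt (R := K) hlM H s hs hnice w = 0)
    (hwB : m59epo_lBt (R := K) hlM H s hs hnice w = 0) :
    ∃ c : gh_H (N' * l) →+ K, c ≠ 0 ∧
      (∀ (i : I) (x : gh_H (N' * l)), c (t2f_TH (N' * l) (q i) x) = a i * c x) ∧
      c.comp (lrh_At hlN') = 0 ∧ c.comp (lrh_Bt hlN') = 0 := by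
  classical
  have hHm' : ∀ u : (ZMod (M * l))ˣ, u ^ m ∈ m59epo_Hl M l H := by
    intro u
    show ZMod.unitsMap (dvd_mul_right M l) (u ^ m) ∈ H
    rw [map_pow]
    exact hHm _
  obtain ⟨J, _, π, ψ, hsum, hψm, hmem, hcomm⟩ :=
    twe_nac_decomp (K := K) htMl (m59epo_Hl M l H) hH' hHm'
  -- a nonzero isotypic component
  obtain ⟨j, hj⟩ : ∃ j, π j w ≠ 0 := by
    by_contra hne
    rw [not_exists] at hne
    apply hw
    rw [← hsum w]
    exact Finset.sum_eq_zero fun j _ => not_not.mp (hne j)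
  -- `π j w` is a `T'`-eigenvector
  have hhT : ∀ i, @twe_wl_T K _ K _ _ (M * l) (q i) (F.hq i) (F.hM i) (m59epo_Hl M l H) (F.s i)
      (F.hs i) (π j w) = a i • π j w := by
    intro i
    have h2 := hcomm j (@twe_wl_T K _ K _ _ (M * l) (q i) (F.hq i) (F.hM i) (m59epo_Hl M l H)
        (F.s i) (F.hs i)).toAddMonoidHom
      (fun c v => map_smul (@twe_wl_T K _ K _ _ (M * l) (q i) (F.hq i) (F.hM i)
        (m59epo_Hl M l H) (F.s i) (F.hs i)) c v)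
      (fun γ v => (@twe_wl_T_conj K _ K _ _ (M * l) (q i) (F.hq i) (F.hM i) (m59epo_Hl M l H)
        (F.s i) (F.hs i) γ v).symm) w
    have h3 : @twe_wl_T K _ K _ _ (M * l) (q i) (F.hq i) (F.hM i) (m59epo_Hl M l H) (F.s i)
        (F.hs i) (π j w) =
        π j (@twe_wl_T K _ K _ _ (M * l) (q i) (F.hq i) (F.hM i) (m59epo_Hl M l H) (F.s i)
          (F.hs i) w) := h2
    rw [h3, hwT i, map_smul]
  have hl1 : ((l + 1 : ℕ) : K) ≠ 0 := by exact_mod_cast Nat.succ_ne_zero l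
  -- `π j w` is killed by `At`
  have hhA : m59epo_lAt (R := K) hlM H s hs hnice (π j w) = 0 := by
    have h2 := hcomm j ((m59epo_lA (R := K) (A := K) hlM H s hs hnice).comp
        (m59epo_lAt (R := K) (A := K) hlM H s hs hnice)).toAddMonoidHom
      (fun c v => map_smul ((m59epo_lA (R := K) (A := K) hlM H s hs hnice).comp
        (m59epo_lAt (R := K) (A := K) hlM H s hs hnice)) c v)
      (fun γ v => by
        obtain ⟨g, hg, hγ⟩ := m59epn_conj_rep (R := K) (A := K) hlM H γ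
        rw [hγ]
        show m59epo_lA (R := K) hlM H s hs hnice (m59epo_lAt (R := K) hlM H s hs hnice
            (twe_wl_conj (m59epo_Hl M l H) (m59epo_up hlM g hg) v)) =
          twe_wl_conj (m59epo_Hl M l H) (m59epo_up hlM g hg)
            (m59epo_lA (R := K) hlM H s hs hnice (m59epo_lAt (R := K) hlM H s hs hnice v))
        rw [m59epo_lAt_conj hlM H s hs hnice g hg, m59epo_lA_conj hlM H s hs hnice g hg]) w
    have h3 : m59epo_lA (R := K) hlM H s hs hnice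
        (m59epo_lAt (R := K) hlM H s hs hnice (π j w)) =
        π j (m59epo_lA (R := K) hlM H s hs hnice (m59epo_lAt (R := K) hlM H s hs hnice w)) := h2
    rw [hwA, map_zero, map_zero] at h3
    have h4 := congrArg (m59epo_lAt (R := K) hlM H s hs hnice) h3
    rw [m59epo_lAt_lA, map_zero, ← Nat.cast_smul_eq_nsmul K] at h4
    exact (smul_eq_zero.mp h4).resolve_left hl1
  -- `π j w` is killed by `Bt`
  have hhB : m59epo_lBt (R := K) hlM H s hs hnice (π j w) = 0 := by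
    have h2 := hcomm j ((m59epo_lB (R := K) (A := K) hlM H s hs hnice).comp
        (m59epo_lBt (R := K) (A := K) hlM H s hs hnice)).toAddMonoidHom
      (fun c v => map_smul ((m59epo_lB (R := K) (A := K) hlM H s hs hnice).comp
        (m59epo_lBt (R := K) (A := K) hlM H s hs hnice)) c v)
      (fun γ v => by
        obtain ⟨g, hg, hγ⟩ := m59epn_conj_rep (R := K) (A := K) hlM H γ
        rw [hγ]
        show m59epo_lB (R := K) hlM H s hs hnice (m59epo_lBt (R := K) hlM H s hs hnice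
            (twe_wl_conj (m59epo_Hl M l H) (m59epo_up hlM g hg) v)) =
          twe_wl_conj (m59epo_Hl M l H) (m59epo_up hlM g hg)
            (m59epo_lB (R := K) hlM H s hs hnice (m59epo_lBt (R := K) hlM H s hs hnice v))
        rw [m59epo_lBt_conj hlM H s hs hnice g hg, m59epo_lB_conj hlM H s hs hnice g hg]) w
    have h3 : m59epo_lB (R := K) hlM H s hs hnice
        (m59epo_lBt (R := K) hlM H s hs hnice (π j w)) =
        π j (m59epo_lB (R := K) hlM H s hs hnice (m59epo_lBt (R := K) hlM H s hs hnice w)) := h2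
    rw [hwB, map_zero, map_zero] at h3
    have h4 := congrArg (m59epo_lBt (R := K) hlM H s hs hnice) h3
    rw [m59epo_lBt_lB, map_zero, ← Nat.cast_smul_eq_nsmul K] at h4
    exact (smul_eq_zero.mp h4).resolve_left hl1
  have hU := hmem j w
  have hAt0 : m59epo_At hlM H s hs hnice (π j w).1 = 0 := by
    have := congrArg Subtype.val hhA
    rw [m59epo_lAt_coe] at this
    exact this
  have hBt0 : m59epo_Bt hlM H s hs hnice (π j w).1 = 0 := by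
    have := congrArg Subtype.val hhB
    rw [m59epo_lBt_coe] at this
    exact this
  obtain ⟨hcA, hcB⟩ := m59epn_new Nk hlNk P hNk hN hlP hlM hM hMl htM htMl H hH hH' s hs hnice
    (ψ j) hm (hψm j) L N' hL hN' hA hL0 hdiv hdiv' hlN' ⟨(π j w).1, hU⟩ hAt0 hBt0
  refine ⟨twe_np_Phi (Nk * l) P hN hMl htMl (m59epo_Hl M l H) hH' (ψ j) hm (hψm j) L (N' * l)
    hL hA hL0 hdiv ⟨(π j w).1, hU⟩, ?_, ?_, hcA, hcB⟩
  · intro h0
    have h1 := twe_np_Phi_inj (Nk * l) P hN hMl htMl (m59epo_Hl M l H) hH' (ψ j) hm (hψm j) L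
      (N' * l) hL hA hL0 hdiv (h0.trans (map_zero _).symm)
    have h3 : ((π j w : ↥(twe_wl_V K K (twe_GamH (M * l) (m59epo_Hl M l H)))) :
        Additive ↥(twe_GamH (M * l) (m59epo_Hl M l H)) →+ K) = 0 := congrArg Subtype.val h1
    exact hj (Subtype.ext h3)
  · intro i x
    have := F.hq i
    rw [← twe_np_Phi_hecke (Nk * l) P hN hMl htMl (m59epo_Hl M l H) hH' (ψ j) hm (hψm j) L
      (N' * l) hL hA hL0 hdiv (F.hM i) (hqA i) (F.s i) (F.hs i)]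
    have h1 : twe_np_TU htMl (m59epo_Hl M l H) (ψ j) (F.hM i) (F.s i) (F.hs i)
        ⟨(π j w).1, hU⟩ =
        a i • (⟨(π j w).1, hU⟩ : ↥(twe_nio_U htMl (ψ j) (m59epo_Hl M l H))) := by
      apply Subtype.ext
      have h3 : ((@twe_wl_T K _ K _ _ (M * l) (q i) (F.hq i) (F.hM i) (m59epo_Hl M l H) (F.s i)
          (F.hs i) (π j w) : ↥(twe_wl_V K K (twe_GamH (M * l) (m59epo_Hl M l H)))) :
          Additive ↥(twe_GamH (M * l) (m59epo_Hl M l H)) →+ K) =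
          ((a i • π j w : ↥(twe_wl_V K K (twe_GamH (M * l) (m59epo_Hl M l H)))) :
            Additive ↥(twe_GamH (M * l) (m59epo_Hl M l H)) →+ K) :=
        congrArg Subtype.val (hhT i)
      exact h3
    rw [h1, map_smul]
    rfl

end core

/-! ### Base change -/

section general

variable {𝒪 K : Type*} [CommRing 𝒪] [Field K] [Algebra 𝒪 K]
  {MX M0 : Type*} [AddCommGroup MX] [Module 𝒪 MX] [AddCommGroup M0] [Module 𝒪 M0]
  {V V0 : Type*} [AddCommGroup V] [Module K V] [Module 𝒪 V] [IsScalarTower 𝒪 K V]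
  [AddCommGroup V0] [Module K V0] [Module 𝒪 V0] [IsScalarTower 𝒪 K V0]

/-- two-module version of main's `twe_nab_equivariant`. -/
theorem m59epn_equivariant₂ (f : MX →ₗ[𝒪] V) (f0 : M0 →ₗ[𝒪] V0) (S : MX →ₗ[𝒪] M0)
    (S' : V →ₗ[K] V0) (h : ∀ x, f0 (S x) = S' (f x)) (v : K ⊗[𝒪] MX) :
    f0.liftBaseChange K (S.baseChange K v) = S' (f.liftBaseChange K v) := by
  induction v using TensorProduct.induction_on with
  | zero => rw [map_zero, map_zero, map_zero, map_zero]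
  | tmul c x =>
    rw [LinearMap.baseChange_tmul, LinearMap.liftBaseChange_tmul, LinearMap.liftBaseChange_tmul, h,
      map_smul]
  | add a b ha hb => rw [map_add, map_add, map_add, map_add, ha, hb]

end general

section cmp

variable (𝒪 K : Type*) [CommRing 𝒪] [Field K] [Algebra 𝒪 K]
  {M l : ℕ} [Fact l.Prime] (hlM : ¬ l ∣ M) (H : Subgroup (ZMod M)ˣ) (s : Gamma0 M)
  (hs : twe_dUnit M s * twe_dUnit M s * (twe_hk_lU hlM)⁻¹ ∈ H)
  (hnice : twe_hc_Nice l (s : SL(2, ℤ)))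

/-- the comparison `W(·, 𝒪) → W(·, K)` commutes with `At`. -/
theorem m59epn_cmp_lAt (z : ↥(twe_wl_V 𝒪 𝒪 (twe_GamH (M * l) (m59epo_Hl M l H)))) :
    twe_nab_cmp 𝒪 K H (m59epo_lAt (R := 𝒪) hlM H s hs hnice z) =
      m59epo_lAt (R := K) hlM H s hs hnice (twe_nab_cmp 𝒪 K (m59epo_Hl M l H) z) := by
  apply Subtype.ext
  rw [twe_nab_cmp_coe, m59epo_lAt_coe, m59epo_lAt_coe, twe_nab_cmp_coe]
  exact (m59epo_At_comp hlM H s hs hnice (Algebra.linearMap 𝒪 K).toAddMonoidHom z.1).symm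

/-- the comparison `W(·, 𝒪) → W(·, K)` commutes with `Bt`. -/
theorem m59epn_cmp_lBt (z : ↥(twe_wl_V 𝒪 𝒪 (twe_GamH (M * l) (m59epo_Hl M l H)))) :
    twe_nab_cmp 𝒪 K H (m59epo_lBt (R := 𝒪) hlM H s hs hnice z) =
      m59epo_lBt (R := K) hlM H s hs hnice (twe_nab_cmp 𝒪 K (m59epo_Hl M l H) z) := by
  apply Subtype.ext
  rw [twe_nab_cmp_coe, m59epo_lBt_coe, m59epo_lBt_coe, twe_nab_cmp_coe]
  exact (m59epo_Bt_comp hlM H s hs hnice (Algebra.linearMap 𝒪 K).toAddMonoidHom z.1).symm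

end cmp

section bc

variable (Nk : ℕ) {l : ℕ} [Fact l.Prime] (hlNk : ¬ l ∣ Nk) [NeZero Nk] [NeZero (Nk * l)]
  (P : Finset ℕ) [hP : ∀ t : ↥P, Fact (Nat.Prime (t : ℕ))] (hNk : ∀ t : ↥P, ¬ (t : ℕ) ∣ Nk)
  (hN : ∀ t : ↥P, ¬ (t : ℕ) ∣ Nk * l) (hlP : ∀ t : ↥P, (t : ℕ) ≠ l)
  {M : ℕ} [NeZero (M * l)] (hlM : ¬ l ∣ M) (hM : M = Nk * ∏ t ∈ P, t)
  (hMl : M * l = Nk * l * ∏ t ∈ P, t)
  (htM : ∀ t : ↥P, (t : ℕ) ∣ M) (htMl : ∀ t : ↥P, (t : ℕ) ∣ M * l)
  (H : Subgroup (ZMod M)ˣ)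
  (hH : ∀ u : (ZMod M)ˣ, (∀ t : ↥P, ZMod.unitsMap (htM t) u = 1) → u ∈ H)
  (hH' : ∀ u : (ZMod (M * l))ˣ, (∀ t : ↥P, ZMod.unitsMap (htMl t) u = 1) → u ∈ m59epo_Hl M l H)
  (s : Gamma0 M) (hs : twe_dUnit M s * twe_dUnit M s * (twe_hk_lU hlM)⁻¹ ∈ H)
  (hnice : twe_hc_Nice l (s : SL(2, ℤ)))
  {𝒪 : Type*} [CommRing 𝒪]
  {K : Type} [Field K] [IsAlgClosed K] [CharZero K] [Algebra 𝒪 K] [Module.Flat 𝒪 K]
  {m : ℕ} (hm : Odd m) (hHm : ∀ u : (ZMod M)ˣ, u ^ m ∈ H)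
  {I : Type} (q : I → ℕ) (F : twe_sm_Frame (M * l) (m59epo_Hl M l H) q)
  (L N' : ℕ) (hL : L = ∏ t ∈ P, t) (hN' : N' = Nk * L * L)
  (hA : N' * l = Nk * l * L * L) (hL0 : L ≠ 0) (hdiv : L * (Nk * l) ∣ N' * l)
  (hdiv' : L * Nk ∣ N') (hlN' : ¬ l ∣ N')
  {MX M0 : Type*} [AddCommGroup MX] [Module 𝒪 MX] [AddCommGroup M0] [Module 𝒪 M0]

include hlNk hNk hN hlP hM hMl htM htMl hH hH' hm hHm hL hN' hA hL0 hdiv hdiv' in
/-- **the wrapper of [EP-NEW], semi-abstract form** (twin of main's `twe_nab_newAt`). -/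
theorem m59epn_bc [NeZero (N' * l)] (hqA : ∀ i, ¬ q i ∣ N' * l)
    (ι : MX →ₗ[𝒪] ↥(twe_wl_V 𝒪 𝒪 (twe_GamH (M * l) (m59epo_Hl M l H))))
    (hι : Function.Injective ι)
    (ι₀ : M0 →ₗ[𝒪] ↥(twe_wl_V 𝒪 𝒪 (twe_GamH M H)))
    (Tm : I → (MX →ₗ[𝒪] MX))
    (hTm : ∀ i x, ι (Tm i x) =
      @twe_wl_T 𝒪 _ 𝒪 _ _ (M * l) (q i) (F.hq i) (F.hM i) (m59epo_Hl M l H) (F.s i) (F.hs i) (ι x))
    (At Bt : MX →ₗ[𝒪] M0)
    (hAt : ∀ x, ι₀ (At x) = m59epo_lAt (R := 𝒪) hlM H s hs hnice (ι x))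
    (hBt : ∀ x, ι₀ (Bt x) = m59epo_lBt (R := 𝒪) hlM H s hs hnice (ι x))
    (v : K ⊗[𝒪] MX) (hv : v ≠ 0) (a : I → K)
    (hvT : ∀ i, (Tm i).baseChange K v = a i • v)
    (hvA : At.baseChange K v = 0) (hvB : Bt.baseChange K v = 0) :
    ∃ c : gh_H (N' * l) →+ K, c ≠ 0 ∧
      (∀ (i : I) (x : gh_H (N' * l)), c (t2f_TH (N' * l) (q i) x) = a i * c x) ∧
      c.comp (lrh_At hlN') = 0 ∧ c.comp (lrh_Bt hlN') = 0 := by
  have hfg : Group.FG ↥(twe_GamH (M * l) (m59epo_Hl M l H)) := by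
    have := twe_wl_fg_SL2
    exact Subgroup.fg_of_index_ne_zero (twe_GamH (M * l) (m59epo_Hl M l H))
  -- the comparison maps
  let f : MX →ₗ[𝒪] ↥(twe_wl_V K K (twe_GamH (M * l) (m59epo_Hl M l H))) :=
    twe_nab_cmp 𝒪 K (m59epo_Hl M l H) ∘ₗ ι
  let f0 : M0 →ₗ[𝒪] ↥(twe_wl_V K K (twe_GamH M H)) := twe_nab_cmp 𝒪 K H ∘ₗ ι₀
  have hcoe : ∀ u : K ⊗[𝒪] MX,
      ((f.liftBaseChange K u : ↥(twe_wl_V K K (twe_GamH (M * l) (m59epo_Hl M l H)))) :
        Additive ↥(twe_GamH (M * l) (m59epo_Hl M l H)) →+ K) =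
        (twe_nab_ext 𝒪 K ↥(twe_GamH (M * l) (m59epo_Hl M l H)) ∘ₗ
          ((twe_wl_V 𝒪 𝒪 (twe_GamH (M * l) (m59epo_Hl M l H))).subtype ∘ₗ ι)).liftBaseChange K
            u := by
    intro u
    induction u using TensorProduct.induction_on with
    | zero => rw [map_zero, map_zero]; rfl
    | tmul c x => rfl
    | add a b ha hb =>
      rw [map_add, map_add, ← ha, ← hb]
      rfl
  have hw : f.liftBaseChange K v ≠ 0 := by
    intro h0
    apply hv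
    refine twe_nab_injective (K := K)
      ((twe_wl_V 𝒪 𝒪 (twe_GamH (M * l) (m59epo_Hl M l H))).subtype ∘ₗ ι)
      ((Subtype.val_injective).comp hι) ?_
    rw [map_zero, ← hcoe v, h0]
    rfl
  refine m59epn_core Nk hlNk P hNk hN hlP hlM hM hMl htM htMl H hH hH' s hs hnice hm hHm q F L N'
    hL hN' hA hL0 hdiv hdiv' hlN' hqA (f.liftBaseChange K v) hw a (fun i => ?_) ?_ ?_
  · rw [← twe_nab_equivariant f (Tm i)
      (@twe_wl_T K _ K _ _ (M * l) (q i) (F.hq i) (F.hM i) (m59epo_Hl M l H) (F.s i) (F.hs i)) ?_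
      v, hvT i, map_smul]
    intro x
    show twe_nab_cmp 𝒪 K (m59epo_Hl M l H) (ι (Tm i x)) = _
    rw [hTm i x]
    exact @twe_nab_cmp_T 𝒪 K _ _ _ (M * l) (m59epo_Hl M l H) (q i) (F.hq i) (F.hM i) (F.s i)
      (F.hs i) (ι x)
  · rw [← m59epn_equivariant₂ f f0 At (m59epo_lAt (R := K) (A := K) hlM H s hs hnice) ?_ v, hvA,
      map_zero]
    intro x
    show twe_nab_cmp 𝒪 K H (ι₀ (At x)) = _
    rw [hAt x]
    exact m59epn_cmp_lAt 𝒪 K hlM H s hs hnice (ι x)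
  · rw [← m59epn_equivariant₂ f f0 Bt (m59epo_lBt (R := K) (A := K) hlM H s hs hnice) ?_ v, hvB,
      map_zero]
    intro x
    show twe_nab_cmp 𝒪 K H (ι₀ (Bt x)) = _
    rw [hBt x]
    exact m59epn_cmp_lBt 𝒪 K hlM H s hs hnice (ι x)

end bc

end Fermat.Agent.M59
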