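import Mathlib
import Fermat.Agent.TW.Aut.NewAtWrap
import Fermat.Agent.M59.EP.NewWrap
import Fermat.Agent.M59.EP.PrimRing
import Fermat.Agent.M59.EP.AlgInst

/-!
# M59 / block [E'] / cell [EP-NEW] (helper2), part 7: the wrapper in the vocabulary of
`M59/EP/PrimRing.lean` (prefix `m59epn_`)

For two consecutive contexts `C₀` at `(M₀, H₀)`, `C₁` at `(M₀ l, m59epo_Hl M₀ l H₀)` and a link
`Λ : m59epr_Link C₀ C₁`:

* `m59epn_bridge` : the automorphic bridge (no hypothesis `l ≠ p`; serves the step at `l = p`):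
  such an eigenvector killed by the two transfers gives a nonzero `l`-new eigenclass on
  `H₁(X₀(N' l))`, `N' l = twe_Nbal N₁ Q ∅`;
* `m59epn_hnewP`, `m59epn_hnew` : a common eigenvector `v ≠ 0` of the Hecke ring `C₁.data.B'.T` in
  `K ⊗[𝒪] C₁.data.P` (eigensystem `χ`) killed by `m59epr_cAt Λ` and `m59epr_cBt Λ` forces
  `χ ((tr ρ(Frob_l))² - (l + 1)²) = 0` (`l ≠ p`): the hypothesis `hnew` of helper22's
  `m59epa_step_new`, LITERALLY;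
* `m59epn_stepNew` : the hypothesis `hnew` of helper3's `m59epr_stepData`, LITERALLY.

The only hypothesis which is not a field of the contexts: `hH` (the units `≡ 1` modulo every
`t ∈ Q` lie in `H₀`).
-/

set_option autoImplicit false
set_option linter.unusedSectionVars false
set_option linter.unusedVariables false
set_option synthInstance.maxHeartbeats 400000
set_option maxHeartbeats 1000000

noncomputable section

namespace Fermat.Agent.M59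

open IsLocalRing Polynomial CuspForm Fermat.Agent.JT3 Fermat.Agent.LR Fermat.Agent.TW
  CongruenceSubgroup
open scoped MatrixGroups TensorProduct

section hnew

variable {p : ℕ} [Fact p.Prime]
  {𝒪 : Type} [CommRing 𝒪] [IsDomain 𝒪] [IsDiscreteValuationRing 𝒪]
  [IsAdicComplete (maximalIdeal 𝒪) 𝒪] [Finite (ResidueField 𝒪)] [CharZero 𝒪]
  {N₀ N₁ : ℕ} [NeZero N₀] [NeZero N₁] {S₀ S₁ : Finset ℕ}
  {θ₀ : heckeAlgebra N₀ 2 (↑S₀ : Set ℕ) →+* ResidueField 𝒪}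
  {θ₁ : heckeAlgebra N₁ 2 (↑S₁ : Set ℕ) →+* ResidueField 𝒪}
  {ρbar : ResidualGaloisRep (ResidueField 𝒪)}
  {B₀ : twe_Base 𝒪 N₀ S₀ θ₀} {B₁ : twe_Base 𝒪 N₁ S₁ θ₁}
  {Q : Finset ℕ} [NeZero (twe_Nbal N₀ Q ∅)] [NeZero (twe_Nbal N₁ Q ∅)]
  {M₀ : ℕ} [NeZero M₀] {l : ℕ} [Fact l.Prime] [NeZero (M₀ * l)] {H₀ : Subgroup (ZMod M₀)ˣ}
  {C₀ : m59epr_Ctx ρbar B₀ p Q M₀ H₀}
  {C₁ : m59epr_Ctx ρbar B₁ p Q (M₀ * l) (m59epo_Hl M₀ l H₀)}

/-- **[EP-NEW], the bridge** (no hypothesis `l ≠ p`): a common eigenvector `v ≠ 0` of the Hecke ring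
`C₁.data.B'.T` in `K ⊗[𝒪] C₁.data.P` (eigensystem `χ`) killed by `m59epr_cAt Λ` and `m59epr_cBt Λ`
produces a NONZERO `l`-new eigenclass `c` on `H₁(X₀(N' l))`, `N' l` = the balanced level of `C₁`,
with the eigensystem `χ`. -/
theorem m59epn_bridge (Λ : m59epr_Link C₀ C₁)
    (hH : ∀ (htM : ∀ t : ↥Q, (t : ℕ) ∣ M₀) (u : (ZMod M₀)ˣ),
      (∀ t : ↥Q, ZMod.unitsMap (htM t) u = 1) → u ∈ H₀)
    {K : Type} [Field K] [IsAlgClosed K] [Algebra 𝒪 K]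
    (hK : Function.Injective (algebraMap 𝒪 K))
    (χ : C₁.data.B'.T →ₐ[𝒪] K) (v : K ⊗[𝒪] C₁.data.P) (hv : v ≠ 0)
    (heig : ∀ x, (C₁.data.ψ x).baseChange K v = χ x • v)
    (hAt : (m59epr_cAt Λ).baseChange K v = 0) (hBt : (m59epr_cBt Λ).baseChange K v = 0) :
    ∃ (N' : ℕ) (_ : NeZero N') (_ : twe_Nbal N₁ Q ∅ = N' * l) (hlN' : ¬ l ∣ N')
      (c : gh_H (N' * l) →+ K), c ≠ 0 ∧
        (∀ (ℓ : ℕ) (hℓ : ℓ.Prime) (h1 : ¬ ℓ ∣ twe_Nbal N₁ Q ∅) (h2 : ℓ ∉ (↑(S₁ ∪ Q) : Set ℕ))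
          (h : gh_H (N' * l)),
          c (t2f_TH (N' * l) ℓ h) = χ (C₁.B'.H.π (heckeAlgebra.T hℓ h1 h2)) * c h) ∧
        c.comp (lrh_At hlN') = 0 ∧ c.comp (lrh_Bt hlN') = 0 := by
  classical
  have hl : l.Prime := Fact.out
  -- the arithmetic of the levels
  have hQp : ∀ t ∈ Q, t.Prime := fun t ht => (C₀.hTW t ht).1
  have hP' : ∀ t : ↥Q, Fact (Nat.Prime (t : ℕ)) := fun t => ⟨hQp t.1 t.2⟩
  have hQN : ∀ t ∈ Q, ¬ t ∣ N₀ := fun t ht hd => C₀.hQS t ht (C₀.hNS t (hQp t ht) hd)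
  set L : ℕ := ∏ t ∈ Q, t with hLdef
  have hL0 : L ≠ 0 := Finset.prod_ne_zero_iff.mpr fun t ht => (hQp t ht).ne_zero
  have hM0 : M₀ = N₀ * L := C₀.hM
  have hM1 : M₀ * l = N₁ * L := C₁.hM
  have hN1 : N₁ = N₀ * l := by
    have h1 : N₁ * L = N₀ * l * L := by rw [← hM1, hM0]; ring
    exact Nat.eq_of_mul_eq_mul_right (Nat.pos_of_ne_zero hL0) h1
  have htM : ∀ t : ↥Q, (t : ℕ) ∣ M₀ := fun t => by
    rw [hM0]
    exact Dvd.dvd.mul_left (Finset.dvd_prod_of_mem (fun t => t) t.2) N₀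
  have htMl : ∀ t : ↥Q, (t : ℕ) ∣ M₀ * l := fun t => Dvd.dvd.mul_right (htM t) l
  have hlM : ¬ l ∣ M₀ := Λ.hlM
  have hlNk : ¬ l ∣ N₀ := fun h => hlM (by rw [hM0]; exact Dvd.dvd.mul_right h L)
  have hlP : ∀ t : ↥Q, (t : ℕ) ≠ l := fun t h => hlM (h ▸ htM t)
  have hNk : ∀ t : ↥Q, ¬ (t : ℕ) ∣ N₀ := fun t => hQN t.1 t.2
  have hN : ∀ t : ↥Q, ¬ (t : ℕ) ∣ N₀ * l := fun t hd => by
    rcases (Nat.Prime.dvd_mul (hQp t.1 t.2)).mp hd with h | h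
    · exact hNk t h
    · exact hlP t ((Nat.prime_dvd_prime_iff_eq (hQp t.1 t.2) hl).mp h)
  have hMl : M₀ * l = N₀ * l * ∏ t ∈ Q, t := by rw [hM0]; ring
  have hH0 : ∀ u : (ZMod M₀)ˣ, (∀ t : ↥Q, ZMod.unitsMap (htM t) u = 1) → u ∈ H₀ := hH htM
  have hH' : ∀ u : (ZMod (M₀ * l))ˣ, (∀ t : ↥Q, ZMod.unitsMap (htMl t) u = 1) →
      u ∈ m59epo_Hl M₀ l H₀ := by
    intro u hu
    show ZMod.unitsMap (dvd_mul_right M₀ l) u ∈ H₀
    refine hH0 _ fun t => ?_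
    rw [← hu t, ← MonoidHom.comp_apply, ZMod.unitsMap_comp]
  set N' : ℕ := N₀ * L * L with hN'def
  have hA : N' * l = N₀ * l * L * L := by rw [hN'def]; ring
  have hdiv : L * (N₀ * l) ∣ N' * l := ⟨L, by rw [hN'def]; ring⟩
  have hdiv' : L * N₀ ∣ N' := ⟨L, by rw [hN'def]; ring⟩
  have hlN' : ¬ l ∣ N' := by
    intro hd
    rcases (Nat.Prime.dvd_mul hl).mp hd with h | h
    · exact hlM (hM0 ▸ h)
    · exact hlM (by rw [hM0]; exact Dvd.dvd.mul_left h N₀)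
  have hNb : twe_Nbal N₁ Q ∅ = N' * l := by
    rw [twe_Nbal, Finset.prod_empty, mul_one, Finset.prod_pow, hN1, hN'def]
    ring
  have i1 : NeZero (N₀ * l) := ⟨hN1 ▸ NeZero.ne N₁⟩
  have i2 : NeZero (N' * l) := ⟨hNb ▸ NeZero.ne (twe_Nbal N₁ Q ∅)⟩
  have i3 : NeZero N' := ⟨fun h => i2.out (by rw [h, zero_mul])⟩
  have : CharZero K := charZero_of_injective_algebraMap hK
  have : Module.Flat 𝒪 K := twe_naw_flat K hK
  -- the class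
  obtain ⟨c, hc0, hcT, hcA, hcB⟩ := m59epn_bc (hP := hP') (K := K) N₀ hlNk Q hNk hN hlP hlM hM0
    hMl htM htMl H₀ hH0 hH' Λ.s Λ.hs Λ.hnice Λ.hm Λ.hHm
    (twe_sm_q (twe_Nbal N₁ Q ∅) (S₁ ∪ Q)) C₁.F L N' rfl rfl hA hL0 hdiv hdiv' hlN'
    (fun i => by rw [← hNb]; exact i.2.2.1)
    (twe_pr_prim (twe_sm_TY 𝒪 C₁.F) C₁.a).subtype Subtype.val_injective
    (twe_pr_prim (twe_sm_TY 𝒪 C₀.F) C₀.a).subtype
    (fun i => C₁.data.ψ (twe_sa_tau C₁.B' i))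
    (fun i x => twe_smod_psi_tau C₁.B' C₁.hfull' C₁.hNS' C₁.F C₁.a C₁.ha C₁.hrel i x)
    (m59epr_cAt Λ) (m59epr_cBt Λ) (fun x => rfl) (fun x => rfl) v hv
    (fun i => χ (twe_sa_tau C₁.B' i)) (fun i => heig _) hAt hBt
  exact ⟨N', i3, hNb, hlN', c, hc0, fun ℓ hℓ h1 h2 h => hcT ⟨ℓ, hℓ, h1, h2⟩ h, hcA, hcB⟩

/-- **[EP-NEW], the wrapper**: the hypothesis `hnew` of `m59epa_step_new` for the step
`m59epr_stepData Λ` (= the body of `m59eps_NewPtH_stmt`). -/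
theorem m59epn_hnewP (Λ : m59epr_Link C₀ C₁)
    (hH : ∀ (htM : ∀ t : ↥Q, (t : ℕ) ∣ M₀) (u : (ZMod M₀)ˣ),
      (∀ t : ↥Q, ZMod.unitsMap (htM t) u = 1) → u ∈ H₀)
    (hlp : l ≠ p)
    {K : Type} [Field K] [IsAlgClosed K] [Algebra 𝒪 K]
    (hK : Function.Injective (algebraMap 𝒪 K))
    (P : ValuationSubring (AlgebraicClosure ℚ)) (hP : P.LiesOverPrime l)
    (σ : AlgebraicClosure ℚ ≃ₐ[ℚ] AlgebraicClosure ℚ) (hσ : P.IsFrobeniusAt σ l)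
    (χ : C₁.data.B'.T →ₐ[𝒪] K) (v : K ⊗[𝒪] C₁.data.P) (hv : v ≠ 0)
    (heig : ∀ x, (C₁.data.ψ x).baseChange K v = χ x • v)
    (hAt : (m59epr_cAt Λ).baseChange K v = 0) (hBt : (m59epr_cBt Λ).baseChange K v = 0) :
    χ ((C₁.data.B'.H.ρ.trace σ) ^ 2 - ((l : C₁.data.B'.T) + 1) ^ 2) = 0 := by
  obtain ⟨N', _, hNb, hlN', c, hc0, hce, hcA, hcB⟩ :=
    m59epn_bridge Λ hH hK χ v hv heig hAt hBt
  have key := m59epn_gal (𝒪 := 𝒪) (p := p) C₁.hp𝒪 (Nb := twe_Nbal N₁ Q ∅) (S' := S₁ ∪ Q)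
    C₁.B'.H (Finset.mem_union_left _ C₁.hpS) C₁.hNS' K hK χ N' l hNb hlp hlN' c hc0
    hce hcA hcB P hP σ hσ
  rw [map_sub, map_pow, map_pow, map_add, map_natCast, map_one]
  exact sub_eq_zero.mpr key

/-- `m59epn_hnewP` under the name consumed by `M59/EP/AsmNew.lean` (explicit `l ≠ p`; no
arithmetic field `hN, hS, hlS, hlQ` of `m59epr_Link` is used anywhere in this file). -/
theorem m59epn_hnew (Λ : m59epr_Link C₀ C₁)
    (hH : ∀ (htM : ∀ t : ↥Q, (t : ℕ) ∣ M₀) (u : (ZMod M₀)ˣ),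
      (∀ t : ↥Q, ZMod.unitsMap (htM t) u = 1) → u ∈ H₀)
    (hlp : l ≠ p)
    {K : Type} [Field K] [IsAlgClosed K] [Algebra 𝒪 K]
    (hK : Function.Injective (algebraMap 𝒪 K))
    (P : ValuationSubring (AlgebraicClosure ℚ)) (hP : P.LiesOverPrime l)
    (σ : AlgebraicClosure ℚ ≃ₐ[ℚ] AlgebraicClosure ℚ) (hσ : P.IsFrobeniusAt σ l)
    (χ : C₁.data.B'.T →ₐ[𝒪] K) (v : K ⊗[𝒪] C₁.data.P) (hv : v ≠ 0)
    (heig : ∀ x, (C₁.data.ψ x).baseChange K v = χ x • v)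
    (hAt : (m59epr_cAt Λ).baseChange K v = 0) (hBt : (m59epr_cBt Λ).baseChange K v = 0) :
    χ ((C₁.data.B'.H.ρ.trace σ) ^ 2 - ((l : C₁.data.B'.T) + 1) ^ 2) = 0 :=
  m59epn_hnewP Λ hH hlp hK P hP σ hσ χ v hv heig hAt hBt

/-- `𝒪 ↪ AlgebraicClosure (FractionRing 𝒪)`. -/
theorem m59epn_algClosure_injective :
    Function.Injective (algebraMap 𝒪 (AlgebraicClosure (FractionRing 𝒪))) := by
  rw [IsScalarTower.algebraMap_eq 𝒪 (FractionRing 𝒪) (AlgebraicClosure (FractionRing 𝒪))]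
  exact (algebraMap (FractionRing 𝒪) (AlgebraicClosure (FractionRing 𝒪))).injective.comp
    (IsFractionRing.injective 𝒪 (FractionRing 𝒪))

/-- **[EP-NEW], (I3)**: the hypothesis `hnew` of `m59epr_stepData Λ`, LITERALLY, from (I1). -/
theorem m59epn_stepNew (Λ : m59epr_Link C₀ C₁)
    (hH : ∀ (htM : ∀ t : ↥Q, (t : ℕ) ∣ M₀) (u : (ZMod M₀)ˣ),
      (∀ t : ↥Q, ZMod.unitsMap (htM t) u = 1) → u ∈ H₀)
    (hlp : l ≠ p)
    (hsplit : ∃ r : C₁.data.P →ₗ[𝒪] C₀.data.P × C₀.data.P,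
      (∀ (δ : twe_Delta p Q) (m : C₁.data.P),
        r (C₁.data.ρ δ m) = (C₀.data.ρ δ (r m).1, C₀.data.ρ δ (r m).2)) ∧
      ∀ x y : C₀.data.P, r (m59epr_cA Λ x + m59epr_cB Λ y) = (x, y)) :
    ∀ P : ValuationSubring (AlgebraicClosure ℚ), P.LiesOverPrime l →
      ∀ σ : AlgebraicClosure ℚ ≃ₐ[ℚ] AlgebraicClosure ℚ, P.IsFrobeniusAt σ l →
      ∀ m : C₁.data.P, ∃ x y : C₀.data.P,
        C₁.data.ψ (((C₁.data.B'.H.ρ.trace σ) ^ 2 - ((l : C₁.data.B'.T) + 1) ^ 2) ^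
          (B₁.d * 2 ^ Q.card)) m = m59epr_cA Λ x + m59epr_cB Λ y := by
  intro P hP σ hσ
  refine m59epa_step_new C₀.data C₁.data (m59epr_piT Λ) (m59epr_cA Λ) (m59epr_cB Λ)
    (m59epr_cAt Λ) (m59epr_cBt Λ) (m59epr_cA_dia Λ) (m59epr_cB_dia Λ) (m59epr_cA_hecke Λ)
    (m59epr_cB_hecke Λ) (m59epr_cAt_hecke Λ) (m59epr_cBt_hecke Λ)
    hsplit (K := AlgebraicClosure (FractionRing 𝒪)) m59epn_algClosure_injective _
    (fun χ v hv heig hAt hBt =>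
      m59epn_hnewP Λ hH hlp m59epn_algClosure_injective P hP σ hσ χ v hv heig hAt hBt)

/-- **the P-level step of the chain** from (I1), (I2) alone: `m59epr_stepData Λ` with
(I3) discharged by `m59epn_stepNew`. -/
def m59epn_stepData (Λ : m59epr_Link C₀ C₁)
    (hH : ∀ (htM : ∀ t : ↥Q, (t : ℕ) ∣ M₀) (u : (ZMod M₀)ˣ),
      (∀ t : ↥Q, ZMod.unitsMap (htM t) u = 1) → u ∈ H₀)
    (hlp : l ≠ p)
    (hsplit : ∃ r : C₁.data.P →ₗ[𝒪] C₀.data.P × C₀.data.P,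
      (∀ (δ : twe_Delta p Q) (m : C₁.data.P),
        r (C₁.data.ρ δ m) = (C₀.data.ρ δ (r m).1, C₀.data.ρ δ (r m).2)) ∧
      ∀ x y : C₀.data.P, r (m59epr_cA Λ x + m59epr_cB Λ y) = (x, y))
    (honto : ∀ x y : C₀.data.P, ∃ m : C₁.data.P, m59epr_cAt Λ m = x ∧ m59epr_cBt Λ m = y) :
    m59eps_StepData C₀.data C₁.data l :=
  m59epr_stepData Λ hsplit honto (m59epn_stepNew Λ hH hlp hsplit)

end hnew

end Fermat.Agent.M59
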