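/-
Project M59 (S59), block [E'] (architect helper3), cell [EP-ASM] part 4, tag `m59eps_`.

THE THIRD LEAF IS CLOSED: `m59eps_newPtH : m59eps_NewPtH_stmt` is helper2's `m59epn_hnewP`
(`M59/EP/NewWrapCtx.lean`), so block [E'] is down to the two Ihara leaves:
`m59eps_chain_of2 : m59eps_IhInv_stmt → m59eps_IhOnto_stmt → m59ep_Chain_stmt`.
-/
import Mathlib
import Fermat.Agent.M59.EP.AsmChain
import Fermat.Agent.M59.EP.NewWrapCtx

set_option autoImplicit false
set_option linter.unusedSectionVars false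
set_option linter.unusedVariables false
set_option synthInstance.maxHeartbeats 400000
set_option maxHeartbeats 1000000

noncomputable section

namespace Fermat.Agent.M59

open IsLocalRing Polynomial CuspForm Fermat.Agent.JT3 Fermat.Agent.LR Fermat.Agent.TW
  CongruenceSubgroup
open scoped MatrixGroups

/-- **leaf (I3) of block [E'] is a theorem** (helper2's `m59epn_hnewP`). -/
theorem m59eps_newPtH : m59eps_NewPtH_stmt := by
  intro p _ 𝒪 _ _ _ _ _ _ N₀ N₁ _ _ S₀ S₁ θ₀ θ₁ ρbar B₀ B₁ Q _ _ M₀ _ l _ _ H₀ C₀ C₁ Λ hH hlp K _ _ _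
    hK P hP σ hσ χ v hv hχ hAt hBt
  exact m59epn_hnewP Λ hH hlp hK P hP σ hσ χ v hv hχ hAt hBt

/-- **block [E'] from the two Ihara leaves.** -/
theorem m59eps_chain_of2 (h1 : m59eps_IhInv_stmt) (h2 : m59eps_IhOnto_stmt) :
    m59ep_Chain_stmt :=
  m59eps_chain_of h1 h2 m59eps_newPtH

end Fermat.Agent.M59
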