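/-
Project M59 (S59), block [E'] (architect helper3), cell [AlgRad], tag `m59epa_` (helper22).

The radical `m59epa_rad ρ = 𝔪 P + I_Δ P` (AlgNak.lean) READ THROUGH THE COINVARIANT MAP `c` of a level
(`c` onto with kernel `I_Δ P`):  `u ∈ rad ↔ c u ∈ 𝔪 • ⊤ ↔ every coordinate of c u lies in 𝔪`.
This is the form in which the hypotheses of `m59epa_step_split` / `m59epa_step_onto` are produced
from the `Γ0`-level statements (`m59epi_inj_int`, `m59epi_onto_int`) by the glue (4)(c).
-/
import Mathlib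
import Fermat.Agent.TW.Aut.SeamMk
import Fermat.Agent.M59.EP.AlgNak

set_option autoImplicit false
set_option linter.unusedSectionVars false

namespace Fermat.Agent.M59

open Polynomial CuspForm IsLocalRing Fermat.Agent.JT3 Fermat.Agent.TW

noncomputable section

section gen

variable {𝒪 : Type*} [CommRing 𝒪] [IsLocalRing 𝒪] {Δ : Type*} [CommGroup Δ]
  {P M₀ : Type*} [AddCommGroup P] [Module 𝒪 P] [AddCommGroup M₀] [Module 𝒪 M₀]

/-- the radical through a coinvariant map. -/
theorem m59epa_rad_iff_c (ρ : Representation 𝒪 Δ P) (c : P →ₗ[𝒪] M₀)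
    (hc : Function.Surjective c)
    (hker : LinearMap.ker c = ⨆ δ : Δ, LinearMap.range (ρ δ - 1)) (u : P) :
    u ∈ m59epa_rad ρ ↔ c u ∈ maximalIdeal 𝒪 • (⊤ : Submodule 𝒪 M₀) := by
  constructor
  · intro hu
    have key : m59epa_rad ρ ≤ (maximalIdeal 𝒪 • (⊤ : Submodule 𝒪 M₀)).comap c := by
      refine sup_le ?_ ?_
      · refine Submodule.smul_le.2 fun a ha x _ => ?_
        rw [Submodule.mem_comap, map_smul]
        exact Submodule.smul_mem_smul ha Submodule.mem_top
      · rw [← hker]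
        intro x hx
        rw [Submodule.mem_comap, LinearMap.mem_ker.1 hx]
        exact Submodule.zero_mem _
    exact key hu
  · intro hu
    have h1 : maximalIdeal 𝒪 • (⊤ : Submodule 𝒪 M₀) =
        (maximalIdeal 𝒪 • (⊤ : Submodule 𝒪 P)).map c := by
      rw [Submodule.map_smul'', Submodule.map_top, LinearMap.range_eq_top.2 hc]
    rw [h1] at hu
    obtain ⟨u', hu', hcu⟩ := hu
    have h2 : u - u' ∈ LinearMap.ker c := by
      rw [LinearMap.mem_ker, map_sub, hcu, sub_self]
    rw [hker] at h2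
    have : u = u' + (u - u') := by abel
    rw [this]
    exact Submodule.add_mem _ (Submodule.mem_sup_left hu') (Submodule.mem_sup_right h2)

/-- membership in `𝔪 • ⊤` of a function module, coordinatewise. -/
theorem m59epa_pi_mem_iff {ι κ : Type*} [Finite ι] [Finite κ] (f : ι → κ → 𝒪) :
    f ∈ maximalIdeal 𝒪 • (⊤ : Submodule 𝒪 (ι → κ → 𝒪)) ↔ ∀ i j, f i j ∈ maximalIdeal 𝒪 := by
  classical
  cases nonempty_fintype ι
  cases nonempty_fintype κ
  constructor
  · intro hf i j
    refine Submodule.smul_induction_on hf ?_ ?_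
    · intro a ha g _
      exact Ideal.mul_mem_right _ _ ha
    · intro g g' hg hg'
      exact Ideal.add_mem _ hg hg'
  · intro hf
    have : f = ∑ i, ∑ j, f i j • (Pi.single i (Pi.single j (1 : 𝒪)) : ι → κ → 𝒪) := by
      ext i j
      simp only [Finset.sum_apply, Pi.smul_apply, smul_eq_mul]
      rw [Finset.sum_eq_single i, Finset.sum_eq_single j]
      · simp
      · intro j' _ hj'
        simp [Pi.single_eq_of_ne hj'.symm]
      · intro h; exact absurd (Finset.mem_univ _) h
      · intro i' _ hi'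
        refine Finset.sum_eq_zero fun j' _ => ?_
        simp [Pi.single_eq_of_ne hi'.symm]
      · intro h; exact absurd (Finset.mem_univ _) h
    rw [this]
    refine Submodule.sum_mem _ fun i _ => Submodule.sum_mem _ fun j _ => ?_
    exact Submodule.smul_mem_smul (hf i j) Submodule.mem_top

end gen

variable {𝒪 : Type} [CommRing 𝒪] [IsDomain 𝒪] [IsDiscreteValuationRing 𝒪]
  [IsAdicComplete (maximalIdeal 𝒪) 𝒪]
  {N₀ : ℕ} [NeZero N₀] {S₀ : Finset ℕ}
  {θ₀ : heckeAlgebra N₀ 2 (↑S₀ : Set ℕ) →+* ResidueField 𝒪}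
  {B₀ : twe_Base 𝒪 N₀ S₀ θ₀} {p : ℕ} {Q : Finset ℕ}
  [NeZero (twe_Nbal N₀ Q ∅)]

/-- **the radical of a level through its coinvariant map `D.c`**. -/
theorem m59epa_step_rad_iff (D : twe_mk_LevelData B₀ p Q) (u : D.P) :
    u ∈ m59epa_rad D.ρ ↔ ∀ i j, D.c u i j ∈ maximalIdeal 𝒪 := by
  rw [m59epa_rad_iff_c D.ρ D.c D.c_surjective D.c_ker, m59epa_pi_mem_iff]

end

end Fermat.Agent.M59
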