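import Mathlib
import Fermat.Agent.TW.Aut.FreeAbs

/-!
# M59 / block [E'] / cell [EP-IH](b), part 1 (helper8): the abstract Ihara step (prefix `m59epi_`)

Linear algebra over a field `k`.  Two finite-dimensional spaces `V₀` (level `M`), `V₁` (level `M l`)
with commuting families `T₀, T₁ : L → End`, the two pull-backs `iA, iB : V₀ → V₁`, the two transfers
`cA, cB : V₁ → V₀`, all Hecke-equivariant, Poincaré pairings `Ω₀, Ω₁` (non-degenerate, `T`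
self-adjoint, `iA ⊣ cA`, `iB ⊣ cB`), and **Ihara's lemma in Eisenstein form**: on the kernel of
`(x, y) ↦ iA x + iB y` every `T₀ ℓ` acts through `e ℓ`.  Then on the localisations at a
non-Eisenstein eigen-system `a` (`a ℓ₀ ≠ e ℓ₀`):

* `m59epi_abs_inj`  : `(x, y) ↦ iA x + iB y` is injective on `loc₀ × loc₀`;
* `m59epi_abs_onto` : `z ↦ (cA z, cB z) : loc₁ → loc₀ × loc₀` is onto.
-/

set_option autoImplicit false
set_option linter.unusedSectionVars false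

noncomputable section

namespace Fermat.Agent.M59

open Fermat.Agent.TW Module

/-- **adjoint of an injective map is surjective** (finite dimension, non-degenerate pairings). -/
theorem m59epi_surj_of_adj {k : Type*} [Field k] {U U' : Type*} [AddCommGroup U] [Module k U]
    [FiniteDimensional k U] [AddCommGroup U'] [Module k U']
    (Ω : U →ₗ[k] U →ₗ[k] k) (hnd : ∀ x, (∀ y, Ω x y = 0) → x = 0)
    (Ω' : U' →ₗ[k] U' →ₗ[k] k) (hnd' : ∀ x, (∀ y, Ω' x y = 0) → x = 0)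
    (i : U →ₗ[k] U') (c : U' →ₗ[k] U) (hadj : ∀ u z, Ω' (i u) z = Ω u (c z))
    (hinj : ∀ u, i u = 0 → u = 0) : Function.Surjective c := by
  rw [← LinearMap.dualMap_injective_iff]
  rw [← LinearMap.ker_eq_bot, LinearMap.ker_eq_bot']
  intro φ hφ
  have hΩinj : Function.Injective Ω := by
    rw [← LinearMap.ker_eq_bot, LinearMap.ker_eq_bot']
    intro x hx
    refine hnd x fun y => ?_
    have := LinearMap.congr_fun hx y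
    rw [LinearMap.zero_apply] at this
    exact this
  have hΩsurj : Function.Surjective Ω :=
    (LinearMap.injective_iff_surjective_of_finrank_eq_finrank
      (Subspace.dual_finrank_eq (K := k) (V := U)).symm).1 hΩinj
  obtain ⟨x, rfl⟩ := hΩsurj φ
  have h2 : i x = 0 := by
    refine hnd' (i x) fun z => ?_
    rw [hadj]
    have := LinearMap.congr_fun hφ z
    rw [LinearMap.zero_apply] at this
    exact this
  rw [hinj x h2, map_zero]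

section ihara

variable {k : Type*} [Field k] {L : Type*}
  {V₀ V₁ : Type*} [AddCommGroup V₀] [Module k V₀] [AddCommGroup V₁] [Module k V₁]
  (T₀ : L → Module.End k V₀) (T₁ : L → Module.End k V₁)
  (iA iB : V₀ →ₗ[k] V₁) (cA cB : V₁ →ₗ[k] V₀) (e : L → k)
  (hiA : ∀ ℓ x, iA (T₀ ℓ x) = T₁ ℓ (iA x)) (hiB : ∀ ℓ x, iB (T₀ ℓ x) = T₁ ℓ (iB x))
  (hcA : ∀ ℓ z, cA (T₁ ℓ z) = T₀ ℓ (cA z)) (hcB : ∀ ℓ z, cB (T₁ ℓ z) = T₀ ℓ (cB z))
  (hIh : ∀ x y, iA x + iB y = 0 → ∀ ℓ, T₀ ℓ x = e ℓ • x ∧ T₀ ℓ y = e ℓ • y)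
  (a : L → k) (ℓ₀ : L) (hne : a ℓ₀ ≠ e ℓ₀)

include hIh hne in
/-- **Ihara's lemma on the non-Eisenstein localisation.** -/
theorem m59epi_abs_inj {x y : V₀} (hx : x ∈ twe_fa_loc T₀ a) (hy : y ∈ twe_fa_loc T₀ a)
    (hxy : iA x + iB y = 0) : x = 0 ∧ y = 0 :=
  ⟨twe_fa_eq_zero_of_eigen (twe_fa_loc_le T₀ a ℓ₀ hx) (e ℓ₀) hne (hIh x y hxy ℓ₀).1,
    twe_fa_eq_zero_of_eigen (twe_fa_loc_le T₀ a ℓ₀ hy) (e ℓ₀) hne (hIh x y hxy ℓ₀).2⟩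

variable [FiniteDimensional k V₀] [FiniteDimensional k V₁]
  (Ω₀ : V₀ →ₗ[k] V₀ →ₗ[k] k) (Ω₁ : V₁ →ₗ[k] V₁ →ₗ[k] k)
  (hnd₀ : ∀ x, (∀ y, Ω₀ x y = 0) → x = 0) (hnd₁ : ∀ x, (∀ y, Ω₁ x y = 0) → x = 0)
  (hcomm₀ : ∀ ℓ ℓ', Commute (T₀ ℓ) (T₀ ℓ')) (hcomm₁ : ∀ ℓ ℓ', Commute (T₁ ℓ) (T₁ ℓ'))
  (hsa₀ : ∀ ℓ x y, Ω₀ (T₀ ℓ x) y = Ω₀ x (T₀ ℓ y))
  (hsa₁ : ∀ ℓ x y, Ω₁ (T₁ ℓ x) y = Ω₁ x (T₁ ℓ y))
  (hadjA : ∀ x z, Ω₁ (iA x) z = Ω₀ x (cA z)) (hadjB : ∀ x z, Ω₁ (iB x) z = Ω₀ x (cB z))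

include hiA hiB hcA hcB hIh hne hnd₀ hnd₁ hcomm₀ hcomm₁ hsa₀ hsa₁ hadjA hadjB in
/-- **the dual Ihara lemma**: the two transfers are jointly onto on the non-Eisenstein
localisations. -/
theorem m59epi_abs_onto {x y : V₀} (hx : x ∈ twe_fa_loc T₀ a) (hy : y ∈ twe_fa_loc T₀ a) :
    ∃ z ∈ twe_fa_loc T₁ a, cA z = x ∧ cB z = y := by
  set A0 := twe_fa_loc T₀ a with hA0
  set A1 := twe_fa_loc T₁ a with hA1
  -- the restricted maps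
  let iAr : A0 →ₗ[k] A1 := iA.restrict (fun u hu => twe_fa_map_loc iA T₀ T₁ hiA a hu)
  let iBr : A0 →ₗ[k] A1 := iB.restrict (fun u hu => twe_fa_map_loc iB T₀ T₁ hiB a hu)
  let cAr : A1 →ₗ[k] A0 := cA.restrict (fun u hu => twe_fa_map_loc cA T₁ T₀ hcA a hu)
  let cBr : A1 →ₗ[k] A0 := cB.restrict (fun u hu => twe_fa_map_loc cB T₁ T₀ hcB a hu)
  let i : (A0 × A0) →ₗ[k] A1 := iAr.coprod iBr
  let c : A1 →ₗ[k] (A0 × A0) := cAr.prod cBr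
  let Ωr₀ : A0 →ₗ[k] A0 →ₗ[k] k := Ω₀.domRestrict₁₂ A0 A0
  let Ωr₁ : A1 →ₗ[k] A1 →ₗ[k] k := Ω₁.domRestrict₁₂ A1 A1
  let ΩP : (A0 × A0) →ₗ[k] (A0 × A0) →ₗ[k] k :=
    Ωr₀.compl₁₂ (LinearMap.fst k A0 A0) (LinearMap.fst k A0 A0) +
      Ωr₀.compl₁₂ (LinearMap.snd k A0 A0) (LinearMap.snd k A0 A0)
  have hΩP : ∀ u w : A0 × A0, ΩP u w = Ω₀ (u.1 : V₀) (w.1 : V₀) + Ω₀ (u.2 : V₀) (w.2 : V₀) :=
    fun u w => rfl
  have hr₀ : ∀ u : A0, (∀ w : A0, Ω₀ (u : V₀) (w : V₀) = 0) → u = 0 := by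
    intro u hu
    apply Subtype.ext
    exact twe_fa_nondeg_loc Ω₀ hnd₀ T₀ hcomm₀ hsa₀ a u u.2 (fun w hw => hu ⟨w, hw⟩)
  have hndP : ∀ u, (∀ w, ΩP u w = 0) → u = 0 := by
    intro u hu
    refine Prod.ext (hr₀ u.1 fun w => ?_) (hr₀ u.2 fun w => ?_)
    · have := hu (w, 0)
      rw [hΩP] at this
      simpa using this
    · have := hu (0, w)
      rw [hΩP] at this
      simpa using this
  have hnd1 : ∀ u : A1, (∀ w, Ωr₁ u w = 0) → u = 0 := by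
    intro u hu
    apply Subtype.ext
    exact twe_fa_nondeg_loc Ω₁ hnd₁ T₁ hcomm₁ hsa₁ a u u.2 (fun w hw => hu ⟨w, hw⟩)
  have hadj : ∀ u z, Ωr₁ (i u) z = ΩP u (c z) := by
    intro u z
    rw [hΩP]
    show Ω₁ (iA (u.1 : V₀) + iB (u.2 : V₀)) (z : V₁) =
      Ω₀ (u.1 : V₀) (cA (z : V₁)) + Ω₀ (u.2 : V₀) (cB (z : V₁))
    rw [map_add, LinearMap.add_apply, hadjA, hadjB]
  have hinj : ∀ u, i u = 0 → u = 0 := by
    intro u hu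
    have h1 : iA (u.1 : V₀) + iB (u.2 : V₀) = 0 := congrArg Subtype.val hu
    obtain ⟨e1, e2⟩ := m59epi_abs_inj T₀ iA iB e hIh a ℓ₀ hne u.1.2 u.2.2 h1
    exact Prod.ext (Subtype.ext e1) (Subtype.ext e2)
  obtain ⟨z, hz⟩ := m59epi_surj_of_adj ΩP hndP Ωr₁ hnd1 i c hadj hinj (⟨x, hx⟩, ⟨y, hy⟩)
  refine ⟨z, z.2, ?_, ?_⟩
  · exact congrArg (fun w : A0 × A0 => (w.1 : V₀)) hz
  · exact congrArg (fun w : A0 × A0 => (w.2 : V₀)) hz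

end ihara

end Fermat.Agent.M59
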