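import Mathlib
import Fermat.Agent.TW.Aut.WPair
import Fermat.Agent.TW.Aut.FreeO
import Fermat.Agent.LR.MTX.EquivCor
import Fermat.Agent.LR.MTX.EquivResB
import Fermat.Agent.LR.PD.Closed
import Fermat.Agent.LR.IH.Glue
import Fermat.Agent.LR.AMALG.Adapt
import Fermat.Agent.LR.CSP.FinalClosed
import Fermat.Agent.M59.AtP.IharaP
import Fermat.Agent.M59.EP.IhAbs

/-!
# M59 / block [E'] / cell [EP-IH](b), part 2 (helper8): Ihara and dual Ihara at the level `Γ₀(M)`,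
coefficients in a field (prefix `m59epi_`)

* `m59epi_rA, m59epi_rB : W(Γ₀(M), A) → W(Γ₀(M l), A)`, `m59epi_cA, m59epi_cB` back : the four maps of
  `LR/MTX/Level.lean` (`lrm_resA, lrm_resB, lrm_corA, lrm_corB`) as `R`-linear maps on `twe_wl_V`;
* `m59epi_Ihara M l hlM V` : Ihara's lemma in Eisenstein form as a HYPOTHESIS; producers
  `m59epi_ihara_ne` (`l ≠ p`, main's `lrih_eisenstein`) and `m59epi_ihara_p` (`l = p`, helper10's
  `m59p_eisenstein`);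
* `m59epi_inj`  : `(x, y) ↦ rA x + rB y` is injective on the non-Eisenstein localisation;
* `m59epi_onto` : `z ↦ (cA z, cB z)` is onto between the non-Eisenstein localisations.
-/

set_option autoImplicit false
set_option linter.unusedSectionVars false

noncomputable section

open CongruenceSubgroup Matrix.SpecialLinearGroup
open scoped MatrixGroups

namespace Fermat.Agent.M59

open Fermat.Agent.JT3 Fermat.Agent.LR Fermat.Agent.TW

/-! ### The four maps as linear maps -/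

section wrappers

variable {R : Type*} [CommRing R] {A : Type*} [AddCommGroup A] [Module R A]
variable {M l : ℕ} [Fact l.Prime]

/-- `A^*` on `W(Γ₀(M), A)`. -/
def m59epi_rA (M l : ℕ) :
    ↥(twe_wl_V R A (Gamma0 M)) →ₗ[R] ↥(twe_wl_V R A (Gamma0 (M * l))) where
  toFun x := ⟨lrm_resA M l x.1,
    (twe_wl_PE_iff_parEll _).2 (lrh_resA_mem ((twe_wl_PE_iff_parEll _).1 x.2))⟩
  map_add' _ _ := rfl
  map_smul' _ _ := rfl

/-- `B^*` on `W(Γ₀(M), A)`. -/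
def m59epi_rB (hlM : ¬ l ∣ M) :
    ↥(twe_wl_V R A (Gamma0 M)) →ₗ[R] ↥(twe_wl_V R A (Gamma0 (M * l))) where
  toFun x := ⟨lrm_resB hlM x.1,
    (twe_wl_PE_iff_parEll _).2 (lrh_resB_mem hlM ((twe_wl_PE_iff_parEll _).1 x.2))⟩
  map_add' _ _ := rfl
  map_smul' _ _ := rfl

/-- `A_*` on `W(Γ₀(M l), A)`. -/
def m59epi_cA (hlM : ¬ l ∣ M) :
    ↥(twe_wl_V R A (Gamma0 (M * l))) →ₗ[R] ↥(twe_wl_V R A (Gamma0 M)) where
  toFun z := ⟨lrm_corA hlM z.1,
    (twe_wl_PE_iff_parEll _).2 (lrh_corA_mem hlM ((twe_wl_PE_iff_parEll _).1 z.2))⟩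
  map_add' z z' := by
    apply Subtype.ext
    show lrm_corA hlM (z.1 + z'.1) = _
    rw [map_add]
    rfl
  map_smul' a z := by
    apply Subtype.ext
    show lrm_corA hlM (a • z.1) = a • lrm_corA hlM z.1
    rw [twe_wl_smul_eq_comp, lrh_corA_comp, ← twe_wl_smul_eq_comp]

/-- `B_*` on `W(Γ₀(M l), A)`. -/
def m59epi_cB (hlM : ¬ l ∣ M) :
    ↥(twe_wl_V R A (Gamma0 (M * l))) →ₗ[R] ↥(twe_wl_V R A (Gamma0 M)) where
  toFun z := ⟨lrm_corB hlM z.1,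
    (twe_wl_PE_iff_parEll _).2 (lrh_corB_mem hlM ((twe_wl_PE_iff_parEll _).1 z.2))⟩
  map_add' z z' := by
    apply Subtype.ext
    show lrm_corB hlM (z.1 + z'.1) = _
    rw [map_add]
    rfl
  map_smul' a z := by
    apply Subtype.ext
    show lrm_corB hlM (a • z.1) = a • lrm_corB hlM z.1
    rw [twe_wl_smul_eq_comp, lrh_corB_comp, ← twe_wl_smul_eq_comp]

theorem m59epi_rA_coe (x : ↥(twe_wl_V R A (Gamma0 M))) :
    ((m59epi_rA (R := R) M l x : ↥(twe_wl_V R A (Gamma0 (M * l)))) :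
      Additive ↥(Gamma0 (M * l)) →+ A) = lrm_resA M l x.1 := rfl

theorem m59epi_rB_coe (hlM : ¬ l ∣ M) (x : ↥(twe_wl_V R A (Gamma0 M))) :
    ((m59epi_rB (R := R) hlM x : ↥(twe_wl_V R A (Gamma0 (M * l)))) :
      Additive ↥(Gamma0 (M * l)) →+ A) = lrm_resB hlM x.1 := rfl

theorem m59epi_cA_coe (hlM : ¬ l ∣ M) (z : ↥(twe_wl_V R A (Gamma0 (M * l)))) :
    ((m59epi_cA (R := R) hlM z : ↥(twe_wl_V R A (Gamma0 M))) :
      Additive ↥(Gamma0 M) →+ A) = lrm_corA hlM z.1 := rfl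

theorem m59epi_cB_coe (hlM : ¬ l ∣ M) (z : ↥(twe_wl_V R A (Gamma0 (M * l)))) :
    ((m59epi_cB (R := R) hlM z : ↥(twe_wl_V R A (Gamma0 M))) :
      Additive ↥(Gamma0 M) →+ A) = lrm_corB hlM z.1 := rfl

/-! ### Hecke equivariance -/

variable {q : ℕ} [Fact q.Prime]

theorem m59epi_rA_T (hqM : ¬ q ∣ M) (hqMl : ¬ q ∣ M * l) (x : ↥(twe_wl_V R A (Gamma0 M))) :
    m59epi_rA (R := R) M l (twe_wl_T0 hqM x) = twe_wl_T0 hqMl (m59epi_rA M l x) := by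
  apply Subtype.ext
  rw [m59epi_rA_coe, twe_wl_T0_coe, twe_wl_T0_coe, m59epi_rA_coe]
  exact lre_resA_T hqM hqMl x.1

theorem m59epi_rB_T (hlM : ¬ l ∣ M) (hqM : ¬ q ∣ M) (hqMl : ¬ q ∣ M * l)
    (x : ↥(twe_wl_V R A (Gamma0 M))) :
    m59epi_rB (R := R) hlM (twe_wl_T0 hqM x) = twe_wl_T0 hqMl (m59epi_rB hlM x) := by
  apply Subtype.ext
  rw [m59epi_rB_coe, twe_wl_T0_coe, twe_wl_T0_coe, m59epi_rB_coe]
  exact lre_resB_T hlM hqM hqMl x.1

theorem m59epi_cA_T (hlM : ¬ l ∣ M) (hqM : ¬ q ∣ M) (hqMl : ¬ q ∣ M * l)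
    (z : ↥(twe_wl_V R A (Gamma0 (M * l)))) :
    m59epi_cA (R := R) hlM (twe_wl_T0 hqMl z) = twe_wl_T0 hqM (m59epi_cA hlM z) := by
  apply Subtype.ext
  rw [m59epi_cA_coe, twe_wl_T0_coe, twe_wl_T0_coe, m59epi_cA_coe]
  exact (lre_corA_T hlM hqM hqMl z.1).symm

theorem m59epi_cB_T (hlM : ¬ l ∣ M) (hqM : ¬ q ∣ M) (hqMl : ¬ q ∣ M * l)
    (z : ↥(twe_wl_V R A (Gamma0 (M * l)))) :
    m59epi_cB (R := R) hlM (twe_wl_T0 hqMl z) = twe_wl_T0 hqM (m59epi_cB hlM z) := by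
  apply Subtype.ext
  rw [m59epi_cB_coe, twe_wl_T0_coe, twe_wl_T0_coe, m59epi_cB_coe]
  exact (lre_corB_T hlM hqM hqMl z.1).symm

end wrappers

/-! ### Ihara's lemma as a hypothesis, and its two producers -/

/-- **Ihara's lemma in Eisenstein form** at `(M, l)` for the coefficients `V`. -/
def m59epi_Ihara (M l : ℕ) [Fact l.Prime] (hlM : ¬ l ∣ M) (V : Type) [AddCommGroup V] : Prop :=
  ∀ x y : Additive (Gamma0 M) →+ V, x ∈ gh_parEllHoms M V → y ∈ gh_parEllHoms M V →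
    lrm_resA M l x + lrm_resB hlM y = 0 →
    ∀ (ℓ : ℕ) [Fact ℓ.Prime] (hℓM : ¬ ℓ ∣ M),
      t2c_Tadd hℓM x = (ℓ + 1) • x ∧ t2c_Tadd hℓM y = (ℓ + 1) • y

/-- a field of characteristic `p` has no prime-to-`p` torsion. -/
theorem m59epi_pTors (k : Type) [Field k] (p : ℕ) [Fact p.Prime] [CharP k p] : csp_PTors p k := by
  intro n v hn hv
  rw [nsmul_eq_mul] at hv
  rcases mul_eq_zero.mp hv with h | h
  · exfalso
    have h1 : p ∣ n := (CharP.cast_eq_zero_iff k p n).mp h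
    have h2 : p ∣ Nat.gcd n p := Nat.dvd_gcd h1 dvd_rfl
    rw [hn] at h2
    exact (Fact.out : p.Prime).one_lt.ne' (Nat.dvd_one.mp h2)
  · exact h

/-- **producer, `l ≠ p`**: main's `lrih_eisenstein`. -/
theorem m59epi_ihara_ne (k : Type) [Field k] (p : ℕ) [Fact p.Prime] [CharP k p] (hp2 : p ≠ 2)
    {M l : ℕ} [NeZero M] [Fact l.Prime] (hlM : ¬ l ∣ M) (hlp : l ≠ p) :
    m59epi_Ihara M l hlM k := by
  intro x y hx hy hxy ℓ _ hℓM
  exact lrih_eisenstein lra_amalg_stmt.{0} csp_x_closed.{0} (Nat.pos_of_ne_zero (NeZero.ne M)) hlM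
    (Fact.out : p.Prime) hp2 hlp (m59epi_pTors k p) x y hx hy hxy ℓ hℓM

/-- **producer, `l = p`**: helper10's `m59p_eisenstein`. -/
theorem m59epi_ihara_p (k : Type) [Field k] {M l : ℕ} [NeZero M] [Fact l.Prime] [CharP k l]
    (hl2 : l ≠ 2) (hlM : ¬ l ∣ M) : m59epi_Ihara M l hlM k := by
  intro x y hx hy hxy ℓ _ hℓM
  refine m59p_eisenstein lra_amalg_stmt.{0} csp_x_closed.{0} (Nat.pos_of_ne_zero (NeZero.ne M)) hlM
    hl2 (m59epi_pTors k l) (fun v => ?_) x y hx hy hxy ℓ hℓM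
  rw [nsmul_eq_mul, CharP.cast_eq_zero k l, zero_mul]

/-! ### Over a field -/

section field

variable {k : Type} [Field k] (h2 : (2 : k) ≠ 0) {M l : ℕ} [NeZero M] [Fact l.Prime]
  (hlM : ¬ l ∣ M) {L : Type*} (q : L → ℕ) [hqF : ∀ i, Fact (q i).Prime]
  (hq : ∀ i, ¬ q i ∣ M * l)

include hq in
/-- the good primes of the level `M l` are good for the level `M`. -/
theorem m59epi_hqM (i : L) : ¬ q i ∣ M := fun h => hq i (Dvd.dvd.mul_right h l)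

variable (a : L → k) (i₀ : L) (hne : a i₀ ≠ (q i₀ : k) + 1) (hIh : m59epi_Ihara M l hlM k)

include hne hIh in
/-- **Ihara's lemma on the non-Eisenstein localisation** of `W(Γ₀(M), k)`. -/
theorem m59epi_inj {x y : ↥(twe_wl_V k k (Gamma0 M))}
    (hx : x ∈ twe_fa_loc (twe_fo_T0 k k q (m59epi_hqM q hq)) a)
    (hy : y ∈ twe_fa_loc (twe_fo_T0 k k q (m59epi_hqM q hq)) a)
    (hxy : m59epi_rA M l x + m59epi_rB hlM y = 0) : x = 0 ∧ y = 0 := by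
  refine m59epi_abs_inj (twe_fo_T0 k k q (m59epi_hqM q hq)) (m59epi_rA M l) (m59epi_rB hlM)
    (fun i => ((q i + 1 : ℕ) : k)) ?_ a i₀ (by push_cast; exact hne) hx hy hxy
  intro x y hxy i
  have h0 : lrm_resA M l x.1 + lrm_resB hlM y.1 = 0 := congrArg Subtype.val hxy
  obtain ⟨e1, e2⟩ := hIh x.1 y.1 ((twe_wl_PE_iff_parEll _).1 x.2) ((twe_wl_PE_iff_parEll _).1 y.2)
    h0 (q i) (m59epi_hqM q hq i)
  constructor
  · apply Subtype.ext
    show t2c_Tadd (m59epi_hqM q hq i) x.1 = ((q i + 1 : ℕ) : k) • x.1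
    rw [e1, Nat.cast_smul_eq_nsmul]
  · apply Subtype.ext
    show t2c_Tadd (m59epi_hqM q hq i) y.1 = ((q i + 1 : ℕ) : k) • y.1
    rw [e2, Nat.cast_smul_eq_nsmul]

/-- adjointness of `A^*` and `A_*` for the Poincaré pairings. -/
theorem m59epi_adjA (S : lrpd_SFam k) (x : ↥(twe_wl_V k k (Gamma0 M)))
    (z : ↥(twe_wl_V k k (Gamma0 (M * l)))) [NeZero (M * l)] :
    twe_wp_Om S (Gamma0 (M * l)) (twe_wp_neg_mem_Gamma0 (M * l)) (m59epi_rA M l x) z =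
      twe_wp_Om S (Gamma0 M) (twe_wp_neg_mem_Gamma0 M) x (m59epi_cA hlM z) := by
  have e1 := twe_ha_Om_eq S (lrm_resA M l x.1) z.1 (m59epi_rA (R := k) M l x).2 z.2
  have e2 := twe_ha_Om_eq S x.1 (lrm_corA hlM z.1) x.2 (m59epi_cA (R := k) hlM z).2
  show S.Om (Gamma0 (M * l)) (lrm_resA M l x.1) z.1 = S.Om (Gamma0 M) x.1 (lrm_corA hlM z.1)
  rw [← e1, ← e2]
  exact lrpd_ad_adjA (lrpd_pa_theory S) hlM x.1 z.1 ((twe_wl_PE_iff_parEll _).1 x.2)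
    ((twe_wl_PE_iff_parEll _).1 z.2)

/-- adjointness of `B^*` and `B_*` for the Poincaré pairings. -/
theorem m59epi_adjB (S : lrpd_SFam k) (x : ↥(twe_wl_V k k (Gamma0 M)))
    (z : ↥(twe_wl_V k k (Gamma0 (M * l)))) [NeZero (M * l)] :
    twe_wp_Om S (Gamma0 (M * l)) (twe_wp_neg_mem_Gamma0 (M * l)) (m59epi_rB hlM x) z =
      twe_wp_Om S (Gamma0 M) (twe_wp_neg_mem_Gamma0 M) x (m59epi_cB hlM z) := by
  have e1 := twe_ha_Om_eq S (lrm_resB hlM x.1) z.1 (m59epi_rB (R := k) hlM x).2 z.2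
  have e2 := twe_ha_Om_eq S x.1 (lrm_corB hlM z.1) x.2 (m59epi_cB (R := k) hlM z).2
  show S.Om (Gamma0 (M * l)) (lrm_resB hlM x.1) z.1 = S.Om (Gamma0 M) x.1 (lrm_corB hlM z.1)
  rw [← e1, ← e2]
  exact lrpd_ad_adjB (lrpd_pa_theory S) hlM x.1 z.1 ((twe_wl_PE_iff_parEll _).1 x.2)
    ((twe_wl_PE_iff_parEll _).1 z.2)

/-- the operators `T_{q i}` on `W(Γ₀(M'), k)` commute. -/
theorem m59epi_T0_commute {M' : ℕ} (hM' : ∀ i, ¬ q i ∣ M') (i j : L) :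
    Commute (twe_fo_T0 k k q hM' i) (twe_fo_T0 k k q hM' j) := by
  show _ * _ = _ * _
  refine LinearMap.ext fun x => Subtype.ext ?_
  rw [Module.End.mul_apply, Module.End.mul_apply]
  show t2c_Tadd (hM' i) (t2c_Tadd (hM' j) x.1) = t2c_Tadd (hM' j) (t2c_Tadd (hM' i) x.1)
  exact t2k_Tadd_comm (hM' i) (hM' j) x.1

include h2 hne hIh in
/-- **the dual Ihara lemma**: the two transfers are jointly onto between the non-Eisenstein
localisations of `W(Γ₀(M l), k)` and `W(Γ₀(M), k)`. -/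
theorem m59epi_onto {x y : ↥(twe_wl_V k k (Gamma0 M))}
    (hx : x ∈ twe_fa_loc (twe_fo_T0 k k q (m59epi_hqM q hq)) a)
    (hy : y ∈ twe_fa_loc (twe_fo_T0 k k q (m59epi_hqM q hq)) a) :
    ∃ z ∈ twe_fa_loc (twe_fo_T0 k k q hq) a, m59epi_cA hlM z = x ∧ m59epi_cB hlM z = y := by
  have hl0 : l ≠ 0 := (Fact.out : l.Prime).ne_zero
  have : NeZero (M * l) := ⟨mul_ne_zero (NeZero.ne M) hl0⟩
  have : Module.Finite k ↥(twe_wl_V k k (Gamma0 M)) := twe_wl_finite_V (Gamma0 M)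
  have : Module.Finite k ↥(twe_wl_V k k (Gamma0 (M * l))) := twe_wl_finite_V (Gamma0 (M * l))
  set S := lrpd_sfam_closed k h2 with hS
  refine m59epi_abs_onto (twe_fo_T0 k k q (m59epi_hqM q hq)) (twe_fo_T0 k k q hq)
    (m59epi_rA M l) (m59epi_rB hlM) (m59epi_cA hlM) (m59epi_cB hlM)
    (fun i => ((q i + 1 : ℕ) : k))
    (fun i x => m59epi_rA_T (m59epi_hqM q hq i) (hq i) x)
    (fun i x => m59epi_rB_T hlM (m59epi_hqM q hq i) (hq i) x)
    (fun i z => m59epi_cA_T hlM (m59epi_hqM q hq i) (hq i) z)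
    (fun i z => m59epi_cB_T hlM (m59epi_hqM q hq i) (hq i) z)
    ?_ a i₀ (by push_cast; exact hne)
    (twe_wp_Om S (Gamma0 M) (twe_wp_neg_mem_Gamma0 M))
    (twe_wp_Om S (Gamma0 (M * l)) (twe_wp_neg_mem_Gamma0 (M * l)))
    (fun x hx => twe_wp_nd S _ _ x hx) (fun x hx => twe_wp_nd S _ _ x hx)
    (m59epi_T0_commute q (m59epi_hqM q hq)) (m59epi_T0_commute q hq)
    (fun i x y => twe_wp_sa0 S (m59epi_hqM q hq i) x y) (fun i x y => twe_wp_sa0 S (hq i) x y)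
    (fun x z => m59epi_adjA hlM S x z) (fun x z => m59epi_adjB hlM S x z) hx hy
  intro x y hxy i
  have h0 : lrm_resA M l x.1 + lrm_resB hlM y.1 = 0 := congrArg Subtype.val hxy
  obtain ⟨e1, e2⟩ := hIh x.1 y.1 ((twe_wl_PE_iff_parEll _).1 x.2) ((twe_wl_PE_iff_parEll _).1 y.2)
    h0 (q i) (m59epi_hqM q hq i)
  constructor
  · apply Subtype.ext
    show t2c_Tadd (m59epi_hqM q hq i) x.1 = ((q i + 1 : ℕ) : k) • x.1
    rw [e1, Nat.cast_smul_eq_nsmul]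
  · apply Subtype.ext
    show t2c_Tadd (m59epi_hqM q hq i) y.1 = ((q i + 1 : ℕ) : k) • y.1
    rw [e2, Nat.cast_smul_eq_nsmul]

end field

end Fermat.Agent.M59
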