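import Mathlib
import Fermat.Agent.M59.EP.OpsLin
import Fermat.Agent.M59.EP.OpsAbsT
import Fermat.Agent.M59.EP.OpsHkB
import Fermat.Agent.M59.EP.OpsHkBt
import Fermat.Agent.M59.EP.IhTop

/-!
# M59 / block [E'] / cell [EP-OPS](2)(d), part 1 (helper8): compatibility of the four maps with the
restrictions from `Γ₀` (prefix `m59epot_`)

`res₀ : W(Γ₀(M), A) → W(Γ_H(M), A)`, `res₁ : W(Γ₀(M l), A) → W(Γ_{H'}(M l), A)` the restrictions,
`rA, rB, cA, cB` the four maps at the level of `Γ₀` (`m59epi_rA` … of `IhTop.lean`, i.e. main's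
`lrm_resA, lrm_resB, lrm_corA, lrm_corB`), `lA, lB, lAt, lBt` helper3's maps on `W(Γ_H)`:

* `m59epot_lA_res`  : `lA ∘ res₀ = res₁ ∘ rA`;
* `m59epot_lB_res`  : `lB ∘ res₀ = res₁ ∘ rB`;
* `m59epot_res_cA`  : `res₀ ∘ cA = lAt ∘ res₁`  (Mackey, single double coset);
* `m59epot_res_cB`  : `res₀ ∘ cB = lBt ∘ res₁`.
-/

set_option autoImplicit false
set_option linter.unusedSectionVars false

noncomputable section

open CongruenceSubgroup Matrix.SpecialLinearGroup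
open P2MW.S_ModularForm_heckeT_slash_eq_self_of_mem_Gamma0.ModularForm.HeckeSlashInvariance
open scoped MatrixGroups OnePoint

namespace Fermat.Agent.M59

open Fermat.Agent.JT3 Fermat.Agent.LR Fermat.Agent.TW

section res

variable {R : Type*} [CommRing R] {A : Type*} [AddCommGroup A] [Module R A]
variable {M l : ℕ} [Fact l.Prime] (hlM : ¬ l ∣ M) (H : Subgroup (ZMod M)ˣ) (s : Gamma0 M)
  (hs : twe_dUnit M s * twe_dUnit M s * (twe_hk_lU hlM)⁻¹ ∈ H)
  (hnice : twe_hc_Nice l (s : SL(2, ℤ)))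

/-- the inclusion `Γ_{H'}(M l) → Γ₀(M l)`. -/
def m59epot_up1 : ↥(twe_GamH (M * l) (m59epo_Hl M l H)) →* Gamma0 (M * l) :=
  Subgroup.inclusion (twe_GamH_le (M * l) (m59epo_Hl M l H))

/-- **`lA ∘ res₀ = res₁ ∘ rA`**. -/
theorem m59epot_lA_res (y : ↥(twe_wl_V R A (Gamma0 M))) :
    m59epo_lA (R := R) hlM H s hs hnice (twe_wl_res (twe_GamH_le M H) y) =
      twe_wl_res (twe_GamH_le (M * l) (m59epo_Hl M l H)) (m59epi_rA M l y) :=
  Subtype.ext rfl

/-- `β'(γ) = s_∞⁻¹ β(γ) s_∞` in `Γ₀(M)`. -/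
theorem m59epot_beta (γ : ↥(twe_GamH (M * l) (m59epo_Hl M l H))) :
    twe_hk_up H (m59epoh_beta hlM H s hs γ) =
      (twe_hk_sx s (∞ : OnePoint (ZMod l)))⁻¹ * lrm_beta hlM (m59epot_up1 H γ) *
        twe_hk_sx s (∞ : OnePoint (ZMod l)) := by
  have hfix : t2c_act ((twe_hk_up H ((m59epo_toStab hlM H s hs γ :
      lrt_stab (twe_hk_data hlM H s hs) _) : ↥(twe_GamH M H)) : Gamma0 M) : SL(2, ℤ))
      (∞ : OnePoint (ZMod l)) = ∞ := (m59epo_toStab hlM H s hs γ).2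
  apply Subtype.ext
  show ((twe_hk_coc hlM s (∞ : OnePoint (ZMod l)) (twe_hk_up H ((m59epo_toStab hlM H s hs γ :
      lrt_stab (twe_hk_data hlM H s hs) _) : ↥(twe_GamH M H))) : Gamma0 M) : SL(2, ℤ)) = _
  unfold twe_hk_coc
  rw [hfix]
  rfl

/-- **`lB ∘ res₀ = res₁ ∘ rB`**. -/
theorem m59epot_lB_res (y : ↥(twe_wl_V R A (Gamma0 M))) :
    m59epo_lB (R := R) hlM H s hs hnice (twe_wl_res (twe_GamH_le M H) y) =
      twe_wl_res (twe_GamH_le (M * l) (m59epo_Hl M l H)) (m59epi_rB hlM y) := by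
  apply Subtype.ext
  refine AddMonoidHom.ext fun γ => ?_
  obtain ⟨γ, rfl⟩ := Additive.ofMul.surjective γ
  show y.1 (Additive.ofMul (twe_hk_up H (m59epoh_beta hlM H s hs γ))) =
    y.1 (Additive.ofMul (lrm_beta hlM (m59epot_up1 H γ)))
  rw [m59epot_beta, ofMul_mul, ofMul_mul, ofMul_inv, map_add, map_add, map_neg]
  abel

/-! ### Mackey for `A_*` -/

/-- the representatives `m59epo_r0` viewed in `Γ₀(M)` are representatives for the datum of `Γ₀(M)`
at the base point `∞`. -/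
theorem m59epot_r0_spec (x : OnePoint (ZMod l)) :
    (lrm_data hlM).act (twe_hk_up H (m59epo_r0 hlM H x)) ∞ = x :=
  (m59epo_exists_rep_infty hlM H x).choose_spec

/-- **`res₀ ∘ cA = lAt ∘ res₁`**. -/
theorem m59epot_res_cA (w : ↥(twe_wl_V R A (Gamma0 (M * l)))) :
    twe_wl_res (twe_GamH_le M H) (m59epi_cA hlM w) =
      m59epo_lAt (R := R) hlM H s hs hnice
        (twe_wl_res (twe_GamH_le (M * l) (m59epo_Hl M l H)) w) := by
  apply Subtype.ext
  refine AddMonoidHom.ext fun n => ?_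
  obtain ⟨n, rfl⟩ := Additive.ofMul.surjective n
  have hind := m59epo_abs_cor_indep (lrm_data hlM) (∞ : OnePoint (ZMod l)) (lrm_rInf hlM)
    (fun x => twe_hk_up H (m59epo_r0 hlM H x)) (lrm_rInf_spec hlM)
    (m59epot_r0_spec hlM H) (lrm_pull (lrm_gamInf hlM) w.1)
  show lrt_ev (lrt_cor (lrm_data hlM) (∞ : OnePoint (ZMod l)) (lrm_rInf hlM) (lrm_rInf_spec hlM)
      (lrm_pull (lrm_gamInf hlM) w.1)) (twe_hk_up H n) =
    lrt_ev (lrt_cor (twe_hk_data hlM H s hs) (∞ : OnePoint (ZMod l)) (m59epo_r0 hlM H)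
      (m59epo_r0_spec hlM H s hs) (lrm_pull (m59epo_ofStab hlM H s hs)
        (twe_wl_res (twe_GamH_le (M * l) (m59epo_Hl M l H)) w).1)) n
  rw [hind, lrt_cor_ev, lrt_cor_ev]
  refine Finset.sum_congr rfl fun x _ => ?_
  rfl

/-! ### Mackey for `B_*` -/

/-- the representatives `m59epo_r1` viewed in `Γ₀(M)` are representatives for the datum of `Γ₀(M)`
at the base point `0`. -/
theorem m59epot_r1_spec (x : OnePoint (ZMod l)) :
    (lrm_data hlM).act (twe_hk_up H (m59epo_r1 hlM H x)) ((0 : ZMod l) : OnePoint (ZMod l)) = x :=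
  (m59epo_exists_rep_zero hlM H x).choose_spec

/-- an element of `Stab_H(0)` viewed in the stabiliser of `0` in `Γ₀(M)`. -/
def m59epot_stabUp (c : lrt_stab (twe_hk_data hlM H s hs) ((0 : ZMod l) : OnePoint (ZMod l))) :
    lrt_stab (lrm_data hlM) ((0 : ZMod l) : OnePoint (ZMod l)) :=
  ⟨twe_hk_up H (c : ↥(twe_GamH M H)), c.2⟩

/-- `ψ(c) = s⁻¹ γ₀(c) s` in `Γ₀(M l)`. -/
theorem m59epot_om (c : lrt_stab (twe_hk_data hlM H s hs) ((0 : ZMod l) : OnePoint (ZMod l))) :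
    m59epot_up1 H (m59epo_ofStab hlM H s hs (m59epo_om hlM H s hs hnice c)) =
      (m59epo_up hlM s hnice)⁻¹ * lrm_gamZero hlM (m59epot_stabUp hlM H s hs c) *
        m59epo_up hlM s hnice := by
  have hfix : t2c_act ((twe_hk_up H (c : ↥(twe_GamH M H)) : Gamma0 M) : SL(2, ℤ))
      ((0 : ZMod l) : OnePoint (ZMod l)) = ((0 : ZMod l) : OnePoint (ZMod l)) := c.2
  apply Subtype.ext
  show ((twe_hk_coc hlM s ((0 : ZMod l) : OnePoint (ZMod l))
      (twe_hk_up H (c : ↥(twe_GamH M H))) : Gamma0 M) : SL(2, ℤ)) = _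
  unfold twe_hk_coc
  rw [hfix]
  rfl

/-- **`res₀ ∘ cB = lBt ∘ res₁`**. -/
theorem m59epot_res_cB (w : ↥(twe_wl_V R A (Gamma0 (M * l)))) :
    twe_wl_res (twe_GamH_le M H) (m59epi_cB hlM w) =
      m59epo_lBt (R := R) hlM H s hs hnice
        (twe_wl_res (twe_GamH_le (M * l) (m59epo_Hl M l H)) w) := by
  apply Subtype.ext
  refine AddMonoidHom.ext fun n => ?_
  obtain ⟨n, rfl⟩ := Additive.ofMul.surjective n
  have hind := m59epo_abs_cor_indep (lrm_data hlM) ((0 : ZMod l) : OnePoint (ZMod l))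
    (lrm_rZero hlM) (fun x => twe_hk_up H (m59epo_r1 hlM H x)) (lrm_rZero_spec hlM)
    (m59epot_r1_spec hlM H) (lrm_pull (lrm_gamZero hlM) w.1)
  show lrt_ev (lrt_cor (lrm_data hlM) ((0 : ZMod l) : OnePoint (ZMod l)) (lrm_rZero hlM)
      (lrm_rZero_spec hlM) (lrm_pull (lrm_gamZero hlM) w.1)) (twe_hk_up H n) =
    lrt_ev (lrt_cor (twe_hk_data hlM H s hs) ((0 : ZMod l) : OnePoint (ZMod l)) (m59epo_r1 hlM H)
      (m59epo_r1_spec hlM H s hs) (lrm_pull (m59epo_om hlM H s hs hnice)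
        (lrm_pull (m59epo_ofStab hlM H s hs)
          (twe_wl_res (twe_GamH_le (M * l) (m59epo_Hl M l H)) w).1))) n
  rw [hind, lrt_cor_ev, lrt_cor_ev]
  refine Finset.sum_congr rfl fun x _ => ?_
  set c := lrt_a (twe_hk_data hlM H s hs) ((0 : ZMod l) : OnePoint (ZMod l)) (m59epo_r1 hlM H)
    (m59epo_r1_spec hlM H s hs) x n with hc
  show w.1 (Additive.ofMul (lrm_gamZero hlM (m59epot_stabUp hlM H s hs c))) =
    w.1 (Additive.ofMul (m59epot_up1 H (m59epo_ofStab hlM H s hs (m59epo_om hlM H s hs hnice c))))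
  rw [m59epot_om, ofMul_mul, ofMul_mul, ofMul_inv, map_add, map_add, map_neg]
  abel

end res

end Fermat.Agent.M59
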