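/-
Project M59 (S59), block [E'] (architect helper3), glue (4)(c), tag `m59epg_` (helper22).

THE LEAVES (L1) `m59eps_IhInv_stmt` AND (L2) `m59eps_IhOnto_stmt` of `AsmCells.lean`, from

* helper8's integral Ihara lemmas at the level of `Γ₀` (`m59epi_inj_int`, `m59epi_onto_int`,
  `m59epi_ihara_ne` for `l ≠ p` and `m59epi_ihara_p` for `l = p`; `IhInt.lean`, `IhTop.lean`);
* the total transfer `cor : P = prim W(Γ_H) → prim W(Γ₀(M))` of a context (`m59epw_fk_main`: onto,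
  kernel the augmentation submodule), through which the radical `𝔪 P + I_Δ P` is the preimage of
  `𝔪 W(Γ₀(M))` (`m59epg_pack`, "Lemma A"; uses the saturation `m59epg_prim_sat` of the primary part);
* THE FOUR COMPATIBILITIES (C) of the level-raising maps with the total transfers
  (`m59epg_CorCompat`; helper8's `m59epot_cor_lA, _cor_lB, _cor_lAt, _cor_lBt` of OpsTop part 2),
  taken as a HYPOTHESIS here;
* pure algebra: on an orbit-basis module the `Δ`-invariants modulo `𝔪` are norms modulo `𝔪`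
  (`m59epg_inv_norm`), so the radical form (G1) of Ihara gives the invariants form (L1)
  (`m59epg_inv_of_rad`).

Headlines: `m59epg_inj_rad` (G1), `m59epg_onto` (G2) for one link, and
`m59epg_ihInv : m59epg_CorCompat_stmt → m59eps_IhInv_stmt`,
`m59epg_ihOnto : m59epg_CorCompat_stmt → m59eps_IhOnto_stmt`.
-/
import Mathlib
import Fermat.Agent.M59.EP.AsmCells
import Fermat.Agent.M59.EP.AlgRad
import Fermat.Agent.M59.EP.IhInt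
import Fermat.Agent.M59.EP.OpsTop

set_option autoImplicit false
set_option linter.unusedSectionVars false
set_option linter.unusedVariables false
set_option linter.style.haveILetI false
set_option synthInstance.maxHeartbeats 400000
set_option maxHeartbeats 1000000

noncomputable section

namespace Fermat.Agent.M59

open IsLocalRing Polynomial CuspForm Fermat.Agent.JT3 Fermat.Agent.LR Fermat.Agent.TW
  CongruenceSubgroup TensorProduct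
open scoped MatrixGroups

/-! ### A. pure algebra: invariants modulo `𝔪` are norms modulo `𝔪` -/


section invnorm

variable {𝒪 : Type*} [CommRing 𝒪] [IsLocalRing 𝒪] {Δ : Type*} [CommGroup Δ] [Fintype Δ]
  {P : Type*} [AddCommGroup P] [Module 𝒪 P] {ι : Type*} [Finite ι]

/-- an element of an orbit-basis module which is `Δ`-invariant modulo `𝔪` is a norm modulo `𝔪`. -/
theorem m59epg_inv_norm (ρ : Representation 𝒪 Δ P) (v : ι → P)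
    (b : Module.Basis (Δ × ι) 𝒪 P) (hb : ∀ δ i, b (δ, i) = ρ δ (v i)) {x : P}
    (hx : ∀ δ, ρ δ x - x ∈ maximalIdeal 𝒪 • (⊤ : Submodule 𝒪 P)) :
    ∃ x' : P, x - (∑ δ : Δ, ρ δ) x' ∈ maximalIdeal 𝒪 • (⊤ : Submodule 𝒪 P) := by
  classical
  cases nonempty_fintype ι
  have hb' : ∀ δ δ' i, ρ δ (b (δ', i)) = b (δ * δ', i) := by
    intro δ δ' i
    rw [hb, hb, map_mul, Module.End.mul_apply]
  have hshift : ∀ δ δ' i (z : P), b.repr (ρ δ z) (δ * δ', i) = b.repr z (δ', i) := by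
    intro δ δ' i z
    have : (b.coord (δ * δ', i)) ∘ₗ (ρ δ) = b.coord (δ', i) := by
      refine b.ext fun ⟨δ'', j⟩ => ?_
      rw [LinearMap.comp_apply, hb', Module.Basis.coord_apply, Module.Basis.coord_apply,
        Module.Basis.repr_self, Module.Basis.repr_self, Finsupp.single_apply, Finsupp.single_apply]
      by_cases h : (δ'', j) = (δ', i)
      · obtain ⟨rfl, rfl⟩ := Prod.mk.inj h
        rw [if_pos rfl, if_pos rfl]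
      · rw [if_neg h, if_neg]
        intro h'
        apply h
        obtain ⟨h1, h2⟩ := Prod.mk.inj h'
        rw [mul_left_cancel h1, h2]
    exact LinearMap.congr_fun this z
  have hc : ∀ δ i, b.repr x (δ, i) - b.repr x (1, i) ∈ maximalIdeal 𝒪 := by
    intro δ i
    have h1 := m59epa_repr_mem b _ (hx δ) (δ, i)
    rw [map_sub, Finsupp.sub_apply] at h1
    have h2 := hshift δ 1 i x
    rw [mul_one] at h2
    rw [h2] at h1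
    rw [← neg_sub]
    exact neg_mem h1
  refine ⟨∑ i, b.repr x (1, i) • b (1, i), ?_⟩
  have hN : (∑ δ : Δ, ρ δ) (∑ i, b.repr x (1, i) • b (1, i)) =
      ∑ κ : Δ × ι, b.repr x (1, κ.2) • b κ := by
    rw [LinearMap.sum_apply, Fintype.sum_prod_type]
    refine Finset.sum_congr rfl fun δ _ => ?_
    rw [map_sum]
    refine Finset.sum_congr rfl fun i _ => ?_
    rw [map_smul, hb', mul_one]
  have hxs : x - ∑ κ : Δ × ι, b.repr x (1, κ.2) • b κ =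
      ∑ κ : Δ × ι, (b.repr x κ - b.repr x (1, κ.2)) • b κ := by
    simp_rw [sub_smul]
    rw [Finset.sum_sub_distrib, b.sum_repr]
  rw [hN, hxs]
  refine Submodule.sum_mem _ fun κ _ => ?_
  exact Submodule.smul_mem_smul (hc κ.1 κ.2) Submodule.mem_top

end invnorm


section invrad

variable {𝒪 : Type*} [CommRing 𝒪] [IsLocalRing 𝒪] {Δ : Type*} [CommGroup Δ] [Fintype Δ]
  {P₀ P₁ : Type*} [AddCommGroup P₀] [Module 𝒪 P₀] [AddCommGroup P₁] [Module 𝒪 P₁]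
  {ι₀ ι₁ : Type*} [Finite ι₀] [Finite ι₁]

/-- **from the radical form to the invariants form** of (I1): if `(x, y) ↦ A x + B y` is injective
modulo the radicals then it is injective modulo `𝔪` on the `Δ`-invariants modulo `𝔪`. -/
theorem m59epg_inv_of_rad
    (ρ₀ : Representation 𝒪 Δ P₀) (v₀ : ι₀ → P₀) (b₀ : Module.Basis (Δ × ι₀) 𝒪 P₀)
    (hb₀ : ∀ δ i, b₀ (δ, i) = ρ₀ δ (v₀ i))
    (ρ₁ : Representation 𝒪 Δ P₁) (v₁ : ι₁ → P₁) (b₁ : Module.Basis (Δ × ι₁) 𝒪 P₁)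
    (hb₁ : ∀ δ i, b₁ (δ, i) = ρ₁ δ (v₁ i))
    (A B : P₀ →ₗ[𝒪] P₁) (hA : ∀ δ m, A (ρ₀ δ m) = ρ₁ δ (A m))
    (hB : ∀ δ m, B (ρ₀ δ m) = ρ₁ δ (B m))
    (h : ∀ x y : P₀, A x + B y ∈ m59epa_rad ρ₁ → x ∈ m59epa_rad ρ₀ ∧ y ∈ m59epa_rad ρ₀)
    (x y : P₀)
    (hx : ∀ δ, ρ₀ δ x - x ∈ maximalIdeal 𝒪 • (⊤ : Submodule 𝒪 P₀))
    (hy : ∀ δ, ρ₀ δ y - y ∈ maximalIdeal 𝒪 • (⊤ : Submodule 𝒪 P₀))
    (hxy : A x + B y ∈ maximalIdeal 𝒪 • (⊤ : Submodule 𝒪 P₁)) :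
    x ∈ maximalIdeal 𝒪 • (⊤ : Submodule 𝒪 P₀) ∧ y ∈ maximalIdeal 𝒪 • (⊤ : Submodule 𝒪 P₀) := by
  obtain ⟨x', hx'⟩ := m59epg_inv_norm ρ₀ v₀ b₀ hb₀ hx
  obtain ⟨y', hy'⟩ := m59epg_inv_norm ρ₀ v₀ b₀ hb₀ hy
  have hcomm : ∀ (f : P₀ →ₗ[𝒪] P₁), (∀ δ m, f (ρ₀ δ m) = ρ₁ δ (f m)) → ∀ z,
      f ((∑ δ' : Δ, ρ₀ δ') z) = (∑ δ' : Δ, ρ₁ δ') (f z) := by
    intro f hf z
    rw [LinearMap.sum_apply, LinearMap.sum_apply, map_sum]
    exact Finset.sum_congr rfl fun δ' _ => hf δ' z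
  have hmap : ∀ (f : P₀ →ₗ[𝒪] P₁) {z : P₀}, z ∈ maximalIdeal 𝒪 • (⊤ : Submodule 𝒪 P₀) →
      f z ∈ maximalIdeal 𝒪 • (⊤ : Submodule 𝒪 P₁) := by
    intro f z hz
    have h1 : f z ∈ (maximalIdeal 𝒪 • (⊤ : Submodule 𝒪 P₀)).map f := Submodule.mem_map_of_mem hz
    rw [Submodule.map_smul''] at h1
    exact Submodule.smul_mono le_rfl le_top h1
  have hN : (∑ δ' : Δ, ρ₁ δ') (A x' + B y') ∈ maximalIdeal 𝒪 • (⊤ : Submodule 𝒪 P₁) := by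
    have e : (∑ δ' : Δ, ρ₁ δ') (A x' + B y') =
        (A x + B y) - (A (x - (∑ δ' : Δ, ρ₀ δ') x') + B (y - (∑ δ' : Δ, ρ₀ δ') y')) := by
      rw [map_add, ← hcomm A hA, ← hcomm B hB, map_sub, map_sub]
      abel
    rw [e]
    exact Submodule.sub_mem _ hxy (Submodule.add_mem _ (hmap A hx') (hmap B hy'))
  obtain ⟨hx'', hy''⟩ := h x' y' (m59epa_of_norm_mem ρ₁ v₁ b₁ hb₁ hN)
  have hxN := m59epa_norm_rad ρ₀ hx''
  have hyN := m59epa_norm_rad ρ₀ hy''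
  constructor
  · have : x = (x - (∑ δ' : Δ, ρ₀ δ') x') + (∑ δ' : Δ, ρ₀ δ') x' := by abel
    rw [this]
    exact Submodule.add_mem _ hx' hxN
  · have : y = (y - (∑ δ' : Δ, ρ₀ δ') y') + (∑ δ' : Δ, ρ₀ δ') y' := by abel
    rw [this]
    exact Submodule.add_mem _ hy' hyN

end invrad


/-! ### B. saturation of the primary part and the total transfer of a context -/


universe uL

section sat

variable {𝒪 : Type} [CommRing 𝒪] [IsLocalRing 𝒪] [IsNoetherianRing 𝒪]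
  [IsAdicComplete (maximalIdeal 𝒪) 𝒪]
  {X : Type} [AddCommGroup X] [Module 𝒪 X] [Module.Finite 𝒪 X] {L : Type uL}

/-- the primary part is saturated: an element of `prim` lying in `𝔪 X` lies in `𝔪 prim`. -/
theorem m59epg_prim_sat (T : L → Module.End 𝒪 X) (hcomm : ∀ ℓ ℓ', Commute (T ℓ) (T ℓ'))
    (a : L → 𝒪) (y : ↥(twe_pr_prim T a))
    (hy : (y : X) ∈ maximalIdeal 𝒪 • (⊤ : Submodule 𝒪 X)) :
    y ∈ maximalIdeal 𝒪 • (⊤ : Submodule 𝒪 ↥(twe_pr_prim T a)) := by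
  obtain ⟨E, hE, -, hfix, -⟩ := twe_pr_exists_end.{0, 0, uL} T hcomm a
  have hmem : ∀ x, E x ∈ twe_pr_prim T a := fun x =>
    (hfix (E x)).mp (by rw [← Module.End.mul_apply, hE.eq])
  let Ep : X →ₗ[𝒪] ↥(twe_pr_prim T a) := E.codRestrict _ hmem
  have h1 : Ep y.1 = y := Subtype.ext ((hfix y.1).mpr y.2)
  rw [← h1]
  exact twe_pr_map_mem _ Ep hy

end sat


section lemA

variable {p : ℕ} [Fact p.Prime]
  {𝒪 : Type} [CommRing 𝒪] [IsDomain 𝒪] [IsDiscreteValuationRing 𝒪]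
  [IsAdicComplete (maximalIdeal 𝒪) 𝒪] [Finite (ResidueField 𝒪)] [CharZero 𝒪]
  {N : ℕ} [NeZero N] {S : Finset ℕ} {θ : heckeAlgebra N 2 (↑S : Set ℕ) →+* ResidueField 𝒪}
  {ρbar : ResidualGaloisRep (ResidueField 𝒪)} {B : twe_Base 𝒪 N S θ}
  {Q : Finset ℕ} [NeZero (twe_Nbal N Q ∅)] {M : ℕ} [NeZero M] {H : Subgroup (ZMod M)ˣ}

/-- the total transfer `W(Γ_H) → W(Γ₀(M))` of a context (representatives `twe_smod_rep`). -/
def m59epg_cor (C : m59epr_Ctx ρbar B p Q M H) :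
    ↥(twe_wl_V 𝒪 𝒪 (twe_GamH M H)) →ₗ[𝒪] ↥(twe_wl_V 𝒪 𝒪 (Gamma0 M)) :=
  letI : Fintype (twe_Delta p Q) := twe_sld_fintype p Q
  twe_wl_cor (R := 𝒪) (twe_smod_rep_mem C.d C.hd) (twe_smod_rep_bij C.d C.hd C.hdk)

/-- the primary part of `W(Γ₀(M), 𝒪)` of a context. -/
def m59epg_P0 (C : m59epr_Ctx ρbar B p Q M H) : Submodule 𝒪 ↥(twe_wl_V 𝒪 𝒪 (Gamma0 M)) :=
  twe_pr_prim (twe_br_T0fam (𝒪 := 𝒪) (twe_sm_q (twe_Nbal N Q ∅) (S ∪ Q)) C.F.hq C.F.hM) C.a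

/-- **Lemma A**: the total transfer maps `P` onto the primary part of `W(Γ₀(M))`, and the radical
`𝔪 P + I_Δ P` is the preimage of `𝔪 W(Γ₀(M))`. -/
theorem m59epg_pack (C : m59epr_Ctx ρbar B p Q M H) :
    (∀ y ∈ twe_pr_prim (twe_sm_TY 𝒪 C.F) C.a, m59epg_cor C y ∈ m59epg_P0 C) ∧
    (∀ y ∈ m59epg_P0 C, ∃ z : C.data.P, m59epg_cor C z.1 = y) ∧
    (∀ u : C.data.P, u ∈ m59epa_rad C.data.ρ ↔
      m59epg_cor C u.1 ∈
        maximalIdeal 𝒪 • (⊤ : Submodule 𝒪 ↥(twe_wl_V 𝒪 𝒪 (Gamma0 M)))) := by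
  letI : Fintype (twe_Delta p Q) := twe_sld_fintype p Q
  haveI := C.F.hq
  obtain ⟨hcorT, r, v, b, hb, hsurj, hker, hfin, hfree, hrank⟩ :=
    m59epw_fk_main (𝒪 := 𝒪) H C.hneg C.hPE C.d C.hd C.hdk (Fact.out : p.Prime) C.hp2 C.hp𝒪 C.hΔ
      (twe_sm_q (twe_Nbal N Q ∅) (S ∪ Q)) C.F.hM Subtype.val_injective C.F.s C.F.hs C.a C.i₀ C.hne
      (twe_smod_rep_mem C.d C.hd) (twe_smod_rep_bij C.d C.hd C.hdk)
  have hmem : ∀ y ∈ twe_pr_prim (twe_sm_TY 𝒪 C.F) C.a, m59epg_cor C y ∈ m59epg_P0 C :=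
    fun y hy => twe_pr_map_prim _ _ _ (fun i z => hcorT i z) C.a hy
  obtain ⟨cor, hcor, hcs, hck⟩ := twe_smod_cor_abs (twe_pr_prim (twe_sm_TY 𝒪 C.F) C.a)
    (m59epg_P0 C) (m59epg_cor C) hmem (twe_smod_rho C.d C.hd C.hdk C.F C.a) C.d C.hd
    (fun g => twe_wl_conj (R := 𝒪) H g) (fun g y => twe_smod_rho_coe C.d C.hd C.hdk C.F C.a g y)
    hsurj hker
    (fun g z => twe_fo_cor_conj H (twe_smod_rep_mem C.d C.hd) (twe_smod_rep_bij C.d C.hd C.hdk) g z)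
  refine ⟨hmem, ?_, ?_⟩
  · intro y hy
    obtain ⟨z, hz⟩ := hcs ⟨y, hy⟩
    exact ⟨z, by rw [← hcor, hz]⟩
  · intro u
    have hck' := hck
    rw [twe_smod_aug_eq] at hck'
    have h1 := m59epa_rad_iff_c (𝒪 := 𝒪) (Δ := twe_Delta p Q)
      (P := ↥(twe_pr_prim (twe_sm_TY 𝒪 C.F) C.a)) (M₀ := ↥(m59epg_P0 C))
      (twe_smod_rho C.d C.hd C.hdk C.F C.a) cor hcs hck' u
    have hfinX : Module.Finite 𝒪 ↥(twe_wl_V 𝒪 𝒪 (Gamma0 M)) := twe_rd_finite (Gamma0 M)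
    have h2 : cor u ∈ maximalIdeal 𝒪 • (⊤ : Submodule 𝒪 ↥(m59epg_P0 C)) ↔
        m59epg_cor C u.1 ∈
          maximalIdeal 𝒪 • (⊤ : Submodule 𝒪 ↥(twe_wl_V 𝒪 𝒪 (Gamma0 M))) := by
      have e := hcor u
      constructor
      · intro h
        have h3 : (m59epg_P0 C).subtype (cor u) ∈
            maximalIdeal 𝒪 • (⊤ : Submodule 𝒪 ↥(twe_wl_V 𝒪 𝒪 (Gamma0 M))) :=
          twe_pr_map_mem (X := ↥(m59epg_P0 C)) (Y := ↥(twe_wl_V 𝒪 𝒪 (Gamma0 M)))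
            (maximalIdeal 𝒪) (m59epg_P0 C).subtype h
        rw [Submodule.subtype_apply, e] at h3
        exact h3
      · intro h
        have h4 : ((cor u : ↥(m59epg_P0 C)) : ↥(twe_wl_V 𝒪 𝒪 (Gamma0 M))) ∈
            maximalIdeal 𝒪 • (⊤ : Submodule 𝒪 ↥(twe_wl_V 𝒪 𝒪 (Gamma0 M))) := by
          rw [e]
          exact h
        exact m59epg_prim_sat (X := ↥(twe_wl_V 𝒪 𝒪 (Gamma0 M)))
          (twe_br_T0fam (𝒪 := 𝒪) (twe_sm_q (twe_Nbal N Q ∅) (S ∪ Q)) C.F.hq C.F.hM)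
          (m59epi_T0_commute' _ C.F.hM) C.a (cor u) h4
    exact h1.trans h2

end lemA


/-! ### C. the glue for one link -/


section glue

variable {p : ℕ} [Fact p.Prime]
  {𝒪 : Type} [CommRing 𝒪] [IsDomain 𝒪] [IsDiscreteValuationRing 𝒪]
  [IsAdicComplete (maximalIdeal 𝒪) 𝒪] [Finite (ResidueField 𝒪)] [CharZero 𝒪]
  {N₀ N₁ : ℕ} [NeZero N₀] [NeZero N₁] {S₀ S₁ : Finset ℕ}
  {θ₀ : heckeAlgebra N₀ 2 (↑S₀ : Set ℕ) →+* ResidueField 𝒪}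
  {θ₁ : heckeAlgebra N₁ 2 (↑S₁ : Set ℕ) →+* ResidueField 𝒪}
  {ρbar : ResidualGaloisRep (ResidueField 𝒪)}
  {B₀ : twe_Base 𝒪 N₀ S₀ θ₀} {B₁ : twe_Base 𝒪 N₁ S₁ θ₁}
  {Q : Finset ℕ} [NeZero (twe_Nbal N₀ Q ∅)] [NeZero (twe_Nbal N₁ Q ∅)]
  {M₀ : ℕ} [NeZero M₀] {l : ℕ} [Fact l.Prime] [NeZero (M₀ * l)] {H₀ : Subgroup (ZMod M₀)ˣ}
  {C₀ : m59epr_Ctx ρbar B₀ p Q M₀ H₀}
  {C₁ : m59epr_Ctx ρbar B₁ p Q (M₀ * l) (m59epo_Hl M₀ l H₀)}

/-- **the four compatibilities (C)** of the level-raising maps with the total transfers of the two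
contexts (helper8's `m59epot_cor_lA, _cor_lB, _cor_lAt, _cor_lBt`). -/
def m59epg_CorCompat (Λ : m59epr_Link C₀ C₁) : Prop :=
  (∀ x, m59epg_cor C₁ (m59epo_lA Λ.hlM H₀ Λ.s Λ.hs Λ.hnice x) =
      m59epi_rA M₀ l (m59epg_cor C₀ x)) ∧
  (∀ x, m59epg_cor C₁ (m59epo_lB Λ.hlM H₀ Λ.s Λ.hs Λ.hnice x) =
      m59epi_rB Λ.hlM (m59epg_cor C₀ x)) ∧
  (∀ z, m59epg_cor C₀ (m59epo_lAt Λ.hlM H₀ Λ.s Λ.hs Λ.hnice z) =
      m59epi_cA Λ.hlM (m59epg_cor C₁ z)) ∧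
  (∀ z, m59epg_cor C₀ (m59epo_lBt Λ.hlM H₀ Λ.s Λ.hs Λ.hnice z) =
      m59epi_cB Λ.hlM (m59epg_cor C₁ z))

/-- the good primes of the upper level do not divide `M₀`. -/
theorem m59epg_hqM (C₁ : m59epr_Ctx ρbar B₁ p Q (M₀ * l) (m59epo_Hl M₀ l H₀))
    (i : twe_sm_Idx (twe_Nbal N₁ Q ∅) (S₁ ∪ Q)) :
    ¬ twe_sm_q (twe_Nbal N₁ Q ∅) (S₁ ∪ Q) i ∣ M₀ :=
  fun h => C₁.F.hM i (Dvd.dvd.mul_right h l)

/-- the primary part of `W(Γ₀(M₀))` for the lower context lies in the primary part for the family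
of the upper context (the good primes of the upper level, the lifts of the upper level). -/
theorem m59epg_down (Λ : m59epr_Link C₀ C₁) {y : ↥(twe_wl_V 𝒪 𝒪 (Gamma0 M₀))}
    (hy : y ∈ m59epg_P0 C₀) :
    y ∈ twe_pr_prim (twe_br_T0fam (𝒪 := 𝒪) (twe_sm_q (twe_Nbal N₁ Q ∅) (S₁ ∪ Q)) C₁.F.hq
      (m59epg_hqM C₁)) C₁.a := by
  have h1 := m59epr_prim_reindex _ C₀.a Λ.e hy
  exact m59epr_prim_congr _ _ C₁.a Λ.hres h1


/-- the residue characteristic. -/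
theorem m59epg_charP (C : m59epr_Ctx ρbar B₀ p Q M₀ H₀) : CharP (ResidueField 𝒪) p := by
  have hpk : ((p : ℕ) : ResidueField 𝒪) = 0 := by
    have h1 : residue 𝒪 (p : 𝒪) = 0 := (residue_eq_zero_iff _).mpr C.hp𝒪
    rwa [map_natCast] at h1
  exact (CharP.charP_iff_prime_eq_zero (Fact.out : p.Prime)).2 hpk

/-- Ihara's lemma for the step (both cases `l ≠ p` and `l = p`; no arithmetic field of the link is
used). -/
theorem m59epg_ihara (Λ : m59epr_Link C₀ C₁) : m59epi_Ihara M₀ l Λ.hlM (ResidueField 𝒪) := by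
  haveI := m59epg_charP C₀
  by_cases hlp : l = p
  · haveI : CharP (ResidueField 𝒪) l := by
      rw [hlp]
      exact m59epg_charP C₀
    have hl2 : l ≠ 2 := by
      rw [hlp]
      exact C₀.hp2
    exact m59epi_ihara_p (ResidueField 𝒪) hl2 Λ.hlM
  · exact m59epi_ihara_ne (ResidueField 𝒪) p C₀.hp2 Λ.hlM hlp

/-- the non-Eisenstein condition in helper8's form. -/
theorem m59epg_hne (C₁ : m59epr_Ctx ρbar B₁ p Q (M₀ * l) (m59epo_Hl M₀ l H₀)) :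
    residue 𝒪 (C₁.a C₁.i₀) ≠
      ((twe_sm_q (twe_Nbal N₁ Q ∅) (S₁ ∪ Q) C₁.i₀ : ℕ) : ResidueField 𝒪) + 1 := by
  have h := C₁.hne
  rwa [Nat.cast_succ] at h

/-- **(G2) = (L2)**: the dual Ihara lemma modulo the radical. -/
theorem m59epg_onto (Λ : m59epr_Link C₀ C₁) (hC : m59epg_CorCompat Λ) (x y : C₀.data.P) :
    ∃ m : C₁.data.P, m59epr_cAt Λ m - x ∈ m59epa_rad C₀.data.ρ ∧
      m59epr_cBt Λ m - y ∈ m59epa_rad C₀.data.ρ := by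
  obtain ⟨hmem₀, hsurj₀, hrad₀⟩ := m59epg_pack C₀
  obtain ⟨hmem₁, hsurj₁, hrad₁⟩ := m59epg_pack C₁
  haveI := C₁.F.hq
  haveI := m59epg_charP C₀
  have h2 : (2 : ResidueField 𝒪) ≠ 0 := by
    have := CharP.cast_ne_zero_of_ne_of_prime (R := ResidueField 𝒪) (p := p) Nat.prime_two C₀.hp2
    exact_mod_cast this
  have hξ := m59epg_down Λ (hmem₀ x.1 x.2)
  have hη := m59epg_down Λ (hmem₀ y.1 y.2)
  obtain ⟨z, hz, hzA, hzB⟩ := m59epi_onto_int h2 Λ.hlM (twe_sm_q (twe_Nbal N₁ Q ∅) (S₁ ∪ Q))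
    C₁.F.hM C₁.a C₁.i₀ (m59epg_hne C₁) (m59epg_ihara Λ) hξ hη
  obtain ⟨m, hm⟩ := hsurj₁ z hz
  refine ⟨m, (hrad₀ _).mpr ?_, (hrad₀ _).mpr ?_⟩
  · have e : m59epg_cor C₀ ((m59epr_cAt Λ m - x : C₀.data.P).1) =
        m59epi_cA Λ.hlM z - m59epg_cor C₀ x.1 := by
      rw [← hm, ← hC.2.2.1]
      exact map_sub (m59epg_cor C₀) _ _
    rw [e]
    exact hzA
  · have e : m59epg_cor C₀ ((m59epr_cBt Λ m - y : C₀.data.P).1) =
        m59epi_cB Λ.hlM z - m59epg_cor C₀ y.1 := by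
      rw [← hm, ← hC.2.2.2]
      exact map_sub (m59epg_cor C₀) _ _
    rw [e]
    exact hzB


/-- **(G1)**: Ihara's lemma modulo the radicals. -/
theorem m59epg_inj_rad (Λ : m59epr_Link C₀ C₁) (hC : m59epg_CorCompat Λ) (x y : C₀.data.P)
    (hxy : m59epr_cA Λ x + m59epr_cB Λ y ∈ m59epa_rad C₁.data.ρ) :
    x ∈ m59epa_rad C₀.data.ρ ∧ y ∈ m59epa_rad C₀.data.ρ := by
  obtain ⟨hmem₀, hsurj₀, hrad₀⟩ := m59epg_pack C₀
  obtain ⟨hmem₁, hsurj₁, hrad₁⟩ := m59epg_pack C₁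
  haveI := C₁.F.hq
  have hξ := m59epg_down Λ (hmem₀ x.1 x.2)
  have hη := m59epg_down Λ (hmem₀ y.1 y.2)
  have h1 := (hrad₁ _).mp hxy
  have e : m59epg_cor C₁ ((m59epr_cA Λ x + m59epr_cB Λ y : C₁.data.P).1) =
      m59epi_rA M₀ l (m59epg_cor C₀ x.1) + m59epi_rB Λ.hlM (m59epg_cor C₀ y.1) := by
    rw [← hC.1, ← hC.2.1]
    exact map_add (m59epg_cor C₁) _ _
  rw [e] at h1
  obtain ⟨hx, hy⟩ := m59epi_inj_int Λ.hlM (twe_sm_q (twe_Nbal N₁ Q ∅) (S₁ ∪ Q))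
    C₁.F.hM C₁.a C₁.i₀ (m59epg_hne C₁) (m59epg_ihara Λ) hξ hη h1
  exact ⟨(hrad₀ x).mpr hx, (hrad₀ y).mpr hy⟩

end glue


/-! ### D. the two leaves -/

/-- **the hypothesis (C)** for all links (helper8's OpsTop part 2). -/
def m59epg_CorCompat_stmt : Prop :=
  ∀ {p : ℕ} [Fact p.Prime]
    {𝒪 : Type} [CommRing 𝒪] [IsDomain 𝒪] [IsDiscreteValuationRing 𝒪]
    [IsAdicComplete (maximalIdeal 𝒪) 𝒪] [Finite (ResidueField 𝒪)] [CharZero 𝒪]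
    {N₀ N₁ : ℕ} [NeZero N₀] [NeZero N₁] {S₀ S₁ : Finset ℕ}
    {θ₀ : heckeAlgebra N₀ 2 (↑S₀ : Set ℕ) →+* ResidueField 𝒪}
    {θ₁ : heckeAlgebra N₁ 2 (↑S₁ : Set ℕ) →+* ResidueField 𝒪}
    {ρbar : ResidualGaloisRep (ResidueField 𝒪)}
    {B₀ : twe_Base 𝒪 N₀ S₀ θ₀} {B₁ : twe_Base 𝒪 N₁ S₁ θ₁}
    {Q : Finset ℕ} [NeZero (twe_Nbal N₀ Q ∅)] [NeZero (twe_Nbal N₁ Q ∅)]
    {M₀ : ℕ} [NeZero M₀] {l : ℕ} [Fact l.Prime] [NeZero (M₀ * l)] {H₀ : Subgroup (ZMod M₀)ˣ}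
    (C₀ : m59epr_Ctx ρbar B₀ p Q M₀ H₀)
    (C₁ : m59epr_Ctx ρbar B₁ p Q (M₀ * l) (m59epo_Hl M₀ l H₀)) (Λ : m59epr_Link C₀ C₁),
    m59epg_CorCompat Λ

/-- **leaf (L1)** from the compatibilities (C). -/
theorem m59epg_ihInv (hC : m59epg_CorCompat_stmt) : m59eps_IhInv_stmt := by
  intro p _ 𝒪 _ _ _ _ _ _ N₀ N₁ _ _ S₀ S₁ θ₀ θ₁ ρbar B₀ B₁ Q _ _ M₀ _ l _ _ H₀ C₀ C₁ Λ x y hx hy hxy
  letI : Fintype (twe_Delta p Q) := twe_sld_fintype p Q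
  exact m59epg_inv_of_rad C₀.data.ρ C₀.data.v C₀.data.b C₀.data.hb C₁.data.ρ C₁.data.v C₁.data.b
    C₁.data.hb (m59epr_cA Λ) (m59epr_cB Λ) (m59epr_cA_dia Λ) (m59epr_cB_dia Λ)
    (fun x y h => m59epg_inj_rad Λ (hC C₀ C₁ Λ) x y h) x y hx hy hxy

/-- **leaf (L2)** from the compatibilities (C). -/
theorem m59epg_ihOnto (hC : m59epg_CorCompat_stmt) : m59eps_IhOnto_stmt := by
  intro p _ 𝒪 _ _ _ _ _ _ N₀ N₁ _ _ S₀ S₁ θ₀ θ₁ ρbar B₀ B₁ Q _ _ M₀ _ l _ _ H₀ C₀ C₁ Λ x y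
  exact m59epg_onto Λ (hC C₀ C₁ Λ) x y

end Fermat.Agent.M59
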