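/-
Project M59 (S59), block [E'] (architect helper3), glue (4)(c), tag `m59epg_` (helper22).

THE LEAF (L1) `m59eps_IhInv_stmt` CLOSED (and a second proof of (L2) `m59eps_IhOnto_stmt`, closed by
helper8 as `m59epgo_ihOnto`): `IhGlue.lean` + helper8's four transfer compatibilities
`m59epot_cor_lA, _cor_lB, _cor_lAt, _cor_lBt` (`OpsTopCor.lean`) at the representatives
`twe_smod_rep` of the two contexts.
-/
import Mathlib
import Fermat.Agent.M59.EP.IhGlue
import Fermat.Agent.M59.EP.OpsTopCor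

set_option autoImplicit false
set_option linter.unusedSectionVars false
set_option linter.unusedVariables false
set_option linter.style.haveILetI false
set_option synthInstance.maxHeartbeats 400000
set_option maxHeartbeats 1000000

noncomputable section

namespace Fermat.Agent.M59

open IsLocalRing Polynomial CuspForm Fermat.Agent.JT3 Fermat.Agent.LR Fermat.Agent.TW
  CongruenceSubgroup TensorProduct
open scoped MatrixGroups

/-- **the four compatibilities (C)** hold for every link (helper8's `OpsTopCor.lean`). -/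
theorem m59epg_corCompat : m59epg_CorCompat_stmt := by
  intro p _ 𝒪 _ _ _ _ _ _ N₀ N₁ _ _ S₀ S₁ θ₀ θ₁ ρbar B₀ B₁ Q _ _ M₀ _ l _ _ H₀ C₀ C₁ Λ
  letI : Fintype (twe_Delta p Q) := twe_sld_fintype p Q
  refine ⟨fun x => ?_, fun x => ?_, fun z => ?_, fun z => ?_⟩
  · exact m59epot_cor_lA Λ.hlM H₀ Λ.s Λ.hs Λ.hnice
      (twe_smod_rep_mem C₀.d C₀.hd) (twe_smod_rep_bij C₀.d C₀.hd C₀.hdk)
      (twe_smod_rep_mem C₁.d C₁.hd) (twe_smod_rep_bij C₁.d C₁.hd C₁.hdk) x
  · exact m59epot_cor_lB Λ.hlM H₀ Λ.s Λ.hs Λ.hnice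
      (twe_smod_rep_mem C₀.d C₀.hd) (twe_smod_rep_bij C₀.d C₀.hd C₀.hdk)
      (twe_smod_rep_mem C₁.d C₁.hd) (twe_smod_rep_bij C₁.d C₁.hd C₁.hdk) x
  · exact m59epot_cor_lAt Λ.hlM H₀ Λ.s Λ.hs Λ.hnice
      (twe_smod_rep_mem C₀.d C₀.hd) (twe_smod_rep_bij C₀.d C₀.hd C₀.hdk)
      (twe_smod_rep_mem C₁.d C₁.hd) (twe_smod_rep_bij C₁.d C₁.hd C₁.hdk) z
  · exact m59epot_cor_lBt Λ.hlM H₀ Λ.s Λ.hs Λ.hnice
      (twe_smod_rep_mem C₀.d C₀.hd) (twe_smod_rep_bij C₀.d C₀.hd C₀.hdk)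
      (twe_smod_rep_mem C₁.d C₁.hd) (twe_smod_rep_bij C₁.d C₁.hd C₁.hdk) z

/-- **leaf (L1) CLOSED**: mod-`λ` Ihara on the `Δ`-invariants modulo `𝔪`. -/
theorem m59epg_ihInv_closed : m59eps_IhInv_stmt := m59epg_ihInv m59epg_corCompat

/-- **leaf (L2) CLOSED** (second proof; helper8's `m59epgo_ihOnto` is the first). -/
theorem m59epg_ihOnto_closed : m59eps_IhOnto_stmt := m59epg_ihOnto m59epg_corCompat

end Fermat.Agent.M59
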