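import Mathlib
import Fermat.Agent.TW.Aut.Red
import Fermat.Agent.TW.Aut.PrimRed
import Fermat.Agent.M59.EP.IhTop

/-!
# M59 / block [E'] / cell [EP-IH](b), part 3 (helper8): Ihara and dual Ihara at the level `Γ₀(M)`,
integral forms (prefix `m59epi_`)

`𝒪` a complete discrete valuation ring, `k` its residue field, `2 ≠ 0` in `k`.  For ONE index family
`q : L → ℕ` of primes not dividing `M l` and ONE family of lifts `a : L → 𝒪` with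
`a i₀ ≢ q i₀ + 1 mod 𝔪` (non-Eisenstein), `P₀ = prim W(Γ₀(M), 𝒪)`, `P₁ = prim W(Γ₀(M l), 𝒪)`:

* `m59epi_inj_int`  : `x, y ∈ P₀`, `rA x + rB y ∈ 𝔪 W(Γ₀(M l), 𝒪)` ⟹ `x, y ∈ 𝔪 W(Γ₀(M), 𝒪)`;
* `m59epi_onto_int` : `x, y ∈ P₀` ⟹ `∃ z ∈ P₁`, `cA z - x, cB z - y ∈ 𝔪 W(Γ₀(M), 𝒪)`.

These are the hypotheses of the Nakayama lemmas `m59epa_split`, `m59epa_onto` after the transfer to
`Γ₀`.  Ihara's lemma for the coefficients `k` is the hypothesis `hIh` (`m59epi_ihara_ne`,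
`m59epi_ihara_p`).
-/

set_option autoImplicit false
set_option linter.unusedSectionVars false

noncomputable section

open CongruenceSubgroup Matrix.SpecialLinearGroup
open scoped MatrixGroups

namespace Fermat.Agent.M59

open IsLocalRing Fermat.Agent.JT3 Fermat.Agent.LR Fermat.Agent.TW

/-- the operators `T_{q i}` on `W(Γ₀(M'), A)` commute (any coefficients). -/
theorem m59epi_T0_commute' {R : Type*} [CommRing R] {A : Type*} [AddCommGroup A] [Module R A]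
    {L : Type*} (q : L → ℕ) [hqF : ∀ i, Fact (q i).Prime] {M' : ℕ} (hM' : ∀ i, ¬ q i ∣ M')
    (i j : L) : Commute (twe_fo_T0 R A q hM' i) (twe_fo_T0 R A q hM' j) := by
  show _ * _ = _ * _
  refine LinearMap.ext fun x => Subtype.ext ?_
  rw [Module.End.mul_apply, Module.End.mul_apply]
  show t2c_Tadd (hM' i) (t2c_Tadd (hM' j) x.1) = t2c_Tadd (hM' j) (t2c_Tadd (hM' i) x.1)
  exact t2k_Tadd_comm (hM' i) (hM' j) x.1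

section red

variable {𝒪 : Type*} [CommRing 𝒪] [IsLocalRing 𝒪] {M l : ℕ} [Fact l.Prime]

/-- the reduction kills `𝔪 W`. -/
theorem m59epi_red_of_mem (Γ : Subgroup SL(2, ℤ)) {x : ↥(twe_wl_V 𝒪 𝒪 Γ)}
    (hx : x ∈ (maximalIdeal 𝒪) • (⊤ : Submodule 𝒪 ↥(twe_wl_V 𝒪 𝒪 Γ))) :
    twe_rd_red 𝒪 Γ x = 0 := by
  refine Submodule.smul_induction_on (p := fun z => twe_rd_red 𝒪 Γ z = 0) hx ?_ ?_
  · intro c hc z _
    exact twe_lam_red_smul_of_mem (twe_rd_red 𝒪 Γ) hc z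
  · intro y z hy hz
    rw [map_add, hy, hz, add_zero]

theorem m59epi_red_rA (x : ↥(twe_wl_V 𝒪 𝒪 (Gamma0 M))) :
    twe_rd_red 𝒪 (Gamma0 (M * l)) (m59epi_rA M l x) =
      m59epi_rA M l (twe_rd_red 𝒪 (Gamma0 M) x) := rfl

theorem m59epi_red_rB (hlM : ¬ l ∣ M) (x : ↥(twe_wl_V 𝒪 𝒪 (Gamma0 M))) :
    twe_rd_red 𝒪 (Gamma0 (M * l)) (m59epi_rB hlM x) =
      m59epi_rB hlM (twe_rd_red 𝒪 (Gamma0 M) x) := rfl

theorem m59epi_red_cA (hlM : ¬ l ∣ M) (z : ↥(twe_wl_V 𝒪 𝒪 (Gamma0 (M * l)))) :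
    twe_rd_red 𝒪 (Gamma0 M) (m59epi_cA hlM z) =
      m59epi_cA hlM (twe_rd_red 𝒪 (Gamma0 (M * l)) z) := by
  apply Subtype.ext
  rw [twe_rd_red_coe, m59epi_cA_coe, m59epi_cA_coe, twe_rd_red_coe]
  exact (lrh_corA_comp hlM _ z.1).symm

theorem m59epi_red_cB (hlM : ¬ l ∣ M) (z : ↥(twe_wl_V 𝒪 𝒪 (Gamma0 (M * l)))) :
    twe_rd_red 𝒪 (Gamma0 M) (m59epi_cB hlM z) =
      m59epi_cB hlM (twe_rd_red 𝒪 (Gamma0 (M * l)) z) := by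
  apply Subtype.ext
  rw [twe_rd_red_coe, m59epi_cB_coe, m59epi_cB_coe, twe_rd_red_coe]
  exact (lrh_corB_comp hlM _ z.1).symm

end red

section int

variable {𝒪 : Type} [CommRing 𝒪] [IsDomain 𝒪] [IsDiscreteValuationRing 𝒪]
  (h2 : (2 : ResidueField 𝒪) ≠ 0) {M l : ℕ} [NeZero M] [Fact l.Prime] (hlM : ¬ l ∣ M)
  {L : Type*} (q : L → ℕ) [hqF : ∀ i, Fact (q i).Prime] (hq : ∀ i, ¬ q i ∣ M * l)
  (a : L → 𝒪) (i₀ : L) (hne : residue 𝒪 (a i₀) ≠ (q i₀ : ResidueField 𝒪) + 1)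
  (hIh : m59epi_Ihara M l hlM (ResidueField 𝒪))

/-- the reduction of a primary element lies in the localisation. -/
theorem m59epi_red_mem_loc {M' : ℕ} (hM' : ∀ i, ¬ q i ∣ M') {x : ↥(twe_wl_V 𝒪 𝒪 (Gamma0 M'))}
    (hx : x ∈ twe_pr_prim (twe_fo_T0 𝒪 𝒪 q hM') a) :
    twe_rd_red 𝒪 (Gamma0 M') x ∈
      twe_fa_loc (twe_fo_T0 (ResidueField 𝒪) (ResidueField 𝒪) q hM')
        (fun i => residue 𝒪 (a i)) :=
  twe_pr_red_mem_loc (twe_rd_red 𝒪 (Gamma0 M')) (twe_fo_T0 𝒪 𝒪 q hM')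
    (twe_fo_T0 (ResidueField 𝒪) (ResidueField 𝒪) q hM') (fun i x => twe_rd_T0 (hM' i) x) a hx

include hne hIh in
/-- **Ihara's lemma, integral form.** -/
theorem m59epi_inj_int {x y : ↥(twe_wl_V 𝒪 𝒪 (Gamma0 M))}
    (hx : x ∈ twe_pr_prim (twe_fo_T0 𝒪 𝒪 q (m59epi_hqM q hq)) a)
    (hy : y ∈ twe_pr_prim (twe_fo_T0 𝒪 𝒪 q (m59epi_hqM q hq)) a)
    (hxy : m59epi_rA M l x + m59epi_rB hlM y ∈
      (maximalIdeal 𝒪) • (⊤ : Submodule 𝒪 ↥(twe_wl_V 𝒪 𝒪 (Gamma0 (M * l))))) :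
    x ∈ (maximalIdeal 𝒪) • (⊤ : Submodule 𝒪 ↥(twe_wl_V 𝒪 𝒪 (Gamma0 M))) ∧
      y ∈ (maximalIdeal 𝒪) • (⊤ : Submodule 𝒪 ↥(twe_wl_V 𝒪 𝒪 (Gamma0 M))) := by
  have h0 := m59epi_red_of_mem (Gamma0 (M * l)) hxy
  rw [map_add, m59epi_red_rA, m59epi_red_rB] at h0
  obtain ⟨e1, e2⟩ := m59epi_inj hlM q hq (fun i => residue 𝒪 (a i)) i₀ hne hIh
    (m59epi_red_mem_loc q a (m59epi_hqM q hq) hx) (m59epi_red_mem_loc q a (m59epi_hqM q hq) hy) h0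
  exact ⟨twe_rd_ker (Gamma0 M) (LinearMap.mem_ker.mpr e1),
    twe_rd_ker (Gamma0 M) (LinearMap.mem_ker.mpr e2)⟩

variable [IsAdicComplete (maximalIdeal 𝒪) 𝒪]

include h2 hne hIh in
/-- **the dual Ihara lemma, integral form.** -/
theorem m59epi_onto_int {x y : ↥(twe_wl_V 𝒪 𝒪 (Gamma0 M))}
    (hx : x ∈ twe_pr_prim (twe_fo_T0 𝒪 𝒪 q (m59epi_hqM q hq)) a)
    (hy : y ∈ twe_pr_prim (twe_fo_T0 𝒪 𝒪 q (m59epi_hqM q hq)) a) :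
    ∃ z ∈ twe_pr_prim (twe_fo_T0 𝒪 𝒪 q hq) a,
      m59epi_cA hlM z - x ∈ (maximalIdeal 𝒪) • (⊤ : Submodule 𝒪 ↥(twe_wl_V 𝒪 𝒪 (Gamma0 M))) ∧
      m59epi_cB hlM z - y ∈ (maximalIdeal 𝒪) • (⊤ : Submodule 𝒪 ↥(twe_wl_V 𝒪 𝒪 (Gamma0 M))) := by
  have hl0 : l ≠ 0 := (Fact.out : l.Prime).ne_zero
  have : NeZero (M * l) := ⟨mul_ne_zero (NeZero.ne M) hl0⟩
  have : Module.Finite 𝒪 ↥(twe_wl_V 𝒪 𝒪 (Gamma0 (M * l))) := twe_rd_finite (Gamma0 (M * l))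
  obtain ⟨zbar, hzbar, ezA, ezB⟩ := m59epi_onto h2 hlM q hq (fun i => residue 𝒪 (a i)) i₀ hne hIh
    (m59epi_red_mem_loc q a (m59epi_hqM q hq) hx) (m59epi_red_mem_loc q a (m59epi_hqM q hq) hy)
  obtain ⟨z, hz⟩ := twe_prr_pi_surjective (twe_fo_T0 𝒪 𝒪 q hq) (m59epi_T0_commute' q hq) a
    (twe_rd_red 𝒪 (Gamma0 (M * l))) (twe_fo_T0 (ResidueField 𝒪) (ResidueField 𝒪) q hq)
    (fun i x => twe_rd_T0 (hq i) x)
    (twe_rd_surjective (Gamma0 (M * l)) (twe_wp_neg_mem_Gamma0 (M * l)))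
    (twe_rd_ker (Gamma0 (M * l))) ⟨zbar, hzbar⟩
  have hz' : twe_rd_red 𝒪 (Gamma0 (M * l)) (z : ↥(twe_wl_V 𝒪 𝒪 (Gamma0 (M * l)))) = zbar :=
    congrArg Subtype.val hz
  refine ⟨z.1, z.2, twe_rd_ker (Gamma0 M) (LinearMap.mem_ker.mpr ?_),
    twe_rd_ker (Gamma0 M) (LinearMap.mem_ker.mpr ?_)⟩
  · rw [map_sub, m59epi_red_cA, hz', ezA, sub_self]
  · rw [map_sub, m59epi_red_cB, hz', ezB, sub_self]

end int

end Fermat.Agent.M59
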