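/-
Project M59 (S59), block [E'] (architect helper3), cell [EP-ASM] leaf (L2) part 1 (helper8),
tag `m59epgo_`.

The total transfer of a context `C : m59epr_Ctx ρbar B p Q M H` in CONCRETE form:
`cor : C.data.P → prim W(Γ₀(M), 𝒪)`, with coercion `twe_wl_cor` of the coset representatives of the
presentation `C.d`, onto, with kernel the augmentation submodule `I_Δ P`; the purity of the primary
part; the radical `m59epa_rad C.data.ρ` read through `cor`.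
-/
import Mathlib
import Fermat.Agent.TW.Aut.PrimRed
import Fermat.Agent.M59.EP.PrimRing
import Fermat.Agent.M59.EP.AlgRad
import Fermat.Agent.M59.EP.IhInt

set_option autoImplicit false
set_option linter.unusedSectionVars false
set_option linter.unusedVariables false
set_option linter.style.haveILetI false
set_option synthInstance.maxHeartbeats 400000
set_option maxHeartbeats 1000000

noncomputable section

namespace Fermat.Agent.M59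

open IsLocalRing Polynomial CuspForm Fermat.Agent.JT3 Fermat.Agent.LR Fermat.Agent.TW
  CongruenceSubgroup
open scoped MatrixGroups

section pure

variable {𝒪 : Type} [CommRing 𝒪] [IsLocalRing 𝒪] [IsNoetherianRing 𝒪]
  [IsAdicComplete (maximalIdeal 𝒪) 𝒪]
  {X : Type} [AddCommGroup X] [Module 𝒪 X] [Module.Finite 𝒪 X] {L : Type*}

/-- **purity of the primary part**: `prim ∩ 𝔪 X = 𝔪 prim`. -/
theorem m59epgo_pure (T : L → Module.End 𝒪 X) (hcomm : ∀ ℓ ℓ', Commute (T ℓ) (T ℓ'))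
    (a : L → 𝒪) (x : ↥(twe_pr_prim T a))
    (hx : (x : X) ∈ maximalIdeal 𝒪 • (⊤ : Submodule 𝒪 X)) :
    x ∈ maximalIdeal 𝒪 • (⊤ : Submodule 𝒪 ↥(twe_pr_prim T a)) := by
  obtain ⟨f, hf, -⟩ := twe_prr_exists_proj.{0, 0} T hcomm a
  have h2 := twe_pr_map_mem (maximalIdeal 𝒪) f hx
  rwa [hf x] at h2

end pure

section ctx

variable {p : ℕ} [Fact p.Prime]
  {𝒪 : Type} [CommRing 𝒪] [IsDomain 𝒪] [IsDiscreteValuationRing 𝒪]
  [IsAdicComplete (maximalIdeal 𝒪) 𝒪] [Finite (ResidueField 𝒪)] [CharZero 𝒪]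
  {N : ℕ} [NeZero N] {S : Finset ℕ} {θ : heckeAlgebra N 2 (↑S : Set ℕ) →+* ResidueField 𝒪}
  {ρbar : ResidualGaloisRep (ResidueField 𝒪)} {B : twe_Base 𝒪 N S θ}
  {Q : Finset ℕ} [NeZero (twe_Nbal N Q ∅)] {M : ℕ} [NeZero M] {H : Subgroup (ZMod M)ˣ}

/-- the transfer `W(Γ_H(M), 𝒪) → W(Γ₀(M), 𝒪)` of a context (coset representatives of `C.d`). -/
def m59epgo_corW (C : m59epr_Ctx ρbar B p Q M H) :
    ↥(twe_wl_V 𝒪 𝒪 (twe_GamH M H)) →ₗ[𝒪] ↥(twe_wl_V 𝒪 𝒪 (Gamma0 M)) :=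
  letI : Fintype (twe_Delta p Q) := twe_sld_fintype p Q
  twe_wl_cor (R := 𝒪) (twe_smod_rep_mem C.d C.hd) (twe_smod_rep_bij C.d C.hd C.hdk)

/-- the inclusion `C.data.P ⊆ W(Γ_H(M), 𝒪)`. -/
def m59epgo_val (C : m59epr_Ctx ρbar B p Q M H) :
    C.data.P →ₗ[𝒪] ↥(twe_wl_V 𝒪 𝒪 (twe_GamH M H)) :=
  (twe_pr_prim (twe_sm_TY 𝒪 C.F) C.a).subtype

theorem m59epgo_val_mem (C : m59epr_Ctx ρbar B p Q M H) (y : C.data.P) :
    m59epgo_val C y ∈ twe_pr_prim (twe_sm_TY 𝒪 C.F) C.a :=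
  Subtype.property (p := fun z => z ∈ twe_pr_prim (twe_sm_TY 𝒪 C.F) C.a) y

/-- the primary part of `W(Γ₀(M), 𝒪)` of a context. -/
def m59epgo_P0 (C : m59epr_Ctx ρbar B p Q M H) : Submodule 𝒪 ↥(twe_wl_V 𝒪 𝒪 (Gamma0 M)) :=
  twe_pr_prim (twe_br_T0fam (𝒪 := 𝒪) (twe_sm_q (twe_Nbal N Q ∅) (S ∪ Q)) C.F.hq C.F.hM) C.a

/-- the concrete form of E/Free for a context. -/
theorem m59epgo_free (C : m59epr_Ctx ρbar B p Q M H) :
    (∀ i z, m59epgo_corW C (twe_sm_TY 𝒪 C.F i z) =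
      twe_br_T0fam (𝒪 := 𝒪) (twe_sm_q (twe_Nbal N Q ∅) (S ∪ Q)) C.F.hq C.F.hM i
        (m59epgo_corW C z)) ∧
    (∀ y ∈ m59epgo_P0 C, ∃ z ∈ twe_pr_prim (twe_sm_TY 𝒪 C.F) C.a, m59epgo_corW C z = y) ∧
    (∀ z ∈ twe_pr_prim (twe_sm_TY 𝒪 C.F) C.a, m59epgo_corW C z = 0 →
      z ∈ Submodule.span 𝒪 {w | ∃ g : Gamma0 M,
        ∃ u ∈ twe_pr_prim (twe_sm_TY 𝒪 C.F) C.a, w = twe_wl_conj H g u - u}) := by
  let _ : Fintype (twe_Delta p Q) := twe_sld_fintype p Q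
  have := C.F.hq
  obtain ⟨hcorT, r, v, b, hb, hsurj, hker, hfin, hfree, hrank⟩ :=
    m59epw_fk_main (𝒪 := 𝒪) H C.hneg C.hPE C.d C.hd C.hdk (Fact.out : p.Prime) C.hp2 C.hp𝒪 C.hΔ
      (twe_sm_q (twe_Nbal N Q ∅) (S ∪ Q)) C.F.hM Subtype.val_injective C.F.s C.F.hs C.a C.i₀ C.hne
      (twe_smod_rep_mem C.d C.hd) (twe_smod_rep_bij C.d C.hd C.hdk)
  exact ⟨hcorT, hsurj, hker⟩

/-- **the total transfer of a context on the primary parts**, concrete form. -/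
theorem m59epgo_exists_cor (C : m59epr_Ctx ρbar B p Q M H) :
    ∃ cor : C.data.P →ₗ[𝒪] ↥(m59epgo_P0 C),
      (∀ y : C.data.P, ((cor y : ↥(m59epgo_P0 C)) : ↥(twe_wl_V 𝒪 𝒪 (Gamma0 M))) =
        m59epgo_corW C (m59epgo_val C y)) ∧
      Function.Surjective cor ∧
      LinearMap.ker cor = ⨆ δ : twe_Delta p Q, LinearMap.range (C.data.ρ δ - 1) := by
  obtain ⟨hcorT, hsurj, hker⟩ := m59epgo_free C
  letI : Fintype (twe_Delta p Q) := twe_sld_fintype p Q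
  exact twe_smod_cor_abs (twe_pr_prim (twe_sm_TY 𝒪 C.F) C.a) (m59epgo_P0 C) (m59epgo_corW C)
    (fun y hy => twe_pr_map_prim _ _ _ (fun i z => hcorT i z) C.a hy)
    (twe_smod_rho C.d C.hd C.hdk C.F C.a) C.d C.hd (fun g => twe_wl_conj (R := 𝒪) H g)
    (fun g y => twe_smod_rho_coe C.d C.hd C.hdk C.F C.a g y) hsurj hker
    (fun g z => twe_fo_cor_conj H (twe_smod_rep_mem C.d C.hd)
      (twe_smod_rep_bij C.d C.hd C.hdk) g z)

/-- the operators of the family of `m59epgo_P0` commute. -/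
theorem m59epgo_T0_commute (C : m59epr_Ctx ρbar B p Q M H)
    (i j : twe_sm_Idx (twe_Nbal N Q ∅) (S ∪ Q)) :
    Commute (twe_br_T0fam (𝒪 := 𝒪) (twe_sm_q (twe_Nbal N Q ∅) (S ∪ Q)) C.F.hq C.F.hM i)
      (twe_br_T0fam (𝒪 := 𝒪) (twe_sm_q (twe_Nbal N Q ∅) (S ∪ Q)) C.F.hq C.F.hM j) :=
  haveI := C.F.hq
  m59epi_T0_commute' (twe_sm_q (twe_Nbal N Q ∅) (S ∪ Q)) C.F.hM i j

/-- **the radical of a context through the transfer**: `u ∈ 𝔪 P + I_Δ P` as soon as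
`cor u ∈ 𝔪 W(Γ₀(M), 𝒪)`. -/
theorem m59epgo_rad_of_cor (C : m59epr_Ctx ρbar B p Q M H) (u : C.data.P)
    (hu : m59epgo_corW C (m59epgo_val C u) ∈
      maximalIdeal 𝒪 • (⊤ : Submodule 𝒪 ↥(twe_wl_V 𝒪 𝒪 (Gamma0 M)))) :
    u ∈ m59epa_rad C.data.ρ := by
  obtain ⟨cor, hcor, hcs, hck⟩ := m59epgo_exists_cor C
  rw [m59epa_rad_iff_c (M₀ := ↥(m59epgo_P0 C)) C.data.ρ cor hcs hck]
  have : Module.Finite 𝒪 ↥(twe_wl_V 𝒪 𝒪 (Gamma0 M)) := twe_rd_finite (Gamma0 M)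
  refine m59epgo_pure _ (m59epgo_T0_commute C) C.a (cor u) ?_
  rw [hcor]
  exact hu

end ctx

end Fermat.Agent.M59
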