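/-
Project M59 (S59), block [E'] (architect helper3), cell [EP-ASM] leaf (L2) part 2 (helper8),
tag `m59epgo_`.

**THE LEAF (L2) `m59eps_IhOnto_stmt` IS A THEOREM**: `m59epgo_ihOnto`.

Route: `x, y ∈ P₀ = prim W(Γ_H(M₀), 𝒪)`; their total transfers `cor₀ x, cor₀ y` lie in
`prim W(Γ₀(M₀), 𝒪)`; the dual Ihara lemma `m59epi_onto_int` gives `z ∈ prim W(Γ₀(M₀ l), 𝒪)` with
`cA z ≡ cor₀ x`, `cB z ≡ cor₀ y` modulo `𝔪`; `z = cor₁ m` with `m ∈ P₁` (E/Free at the upper level);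
`cor₀ (At m) = cA (cor₁ m)`, `cor₀ (Bt m) = cB (cor₁ m)` (`m59epot_cor_lAt`, `m59epot_cor_lBt`), and
`u ∈ rad` as soon as `cor₀ u ∈ 𝔪 W(Γ₀(M₀), 𝒪)` (`m59epgo_rad_of_cor`).  Ihara's lemma for the residue
field: `m59epi_ihara_ne` if `l ≠ p`, `m59epi_ihara_p` if `l = p` (no use of `Λ.hlS`).
-/
import Mathlib
import Fermat.Agent.M59.EP.AsmCells
import Fermat.Agent.M59.EP.IhOntoCor
import Fermat.Agent.M59.EP.OpsTopCor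

set_option autoImplicit false
set_option linter.unusedSectionVars false
set_option linter.unusedVariables false
set_option linter.style.haveILetI false
set_option synthInstance.maxHeartbeats 400000
set_option maxHeartbeats 1000000

noncomputable section

namespace Fermat.Agent.M59

open IsLocalRing Polynomial CuspForm Fermat.Agent.JT3 Fermat.Agent.LR Fermat.Agent.TW
  CongruenceSubgroup
open scoped MatrixGroups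

section onto

variable {p : ℕ} [Fact p.Prime]
  {𝒪 : Type} [CommRing 𝒪] [IsDomain 𝒪] [IsDiscreteValuationRing 𝒪]
  [IsAdicComplete (maximalIdeal 𝒪) 𝒪] [Finite (ResidueField 𝒪)] [CharZero 𝒪]
  {N₀ N₁ : ℕ} [NeZero N₀] [NeZero N₁] {S₀ S₁ : Finset ℕ}
  {θ₀ : heckeAlgebra N₀ 2 (↑S₀ : Set ℕ) →+* ResidueField 𝒪}
  {θ₁ : heckeAlgebra N₁ 2 (↑S₁ : Set ℕ) →+* ResidueField 𝒪}
  {ρbar : ResidualGaloisRep (ResidueField 𝒪)}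
  {B₀ : twe_Base 𝒪 N₀ S₀ θ₀} {B₁ : twe_Base 𝒪 N₁ S₁ θ₁}
  {Q : Finset ℕ} [NeZero (twe_Nbal N₀ Q ∅)] [NeZero (twe_Nbal N₁ Q ∅)]
  {M₀ : ℕ} [NeZero M₀] {l : ℕ} [Fact l.Prime] [NeZero (M₀ * l)] {H₀ : Subgroup (ZMod M₀)ˣ}
  {C₀ : m59epr_Ctx ρbar B₀ p Q M₀ H₀}
  {C₁ : m59epr_Ctx ρbar B₁ p Q (M₀ * l) (m59epo_Hl M₀ l H₀)}

/-- the residue field of a context has characteristic `p`. -/
theorem m59epgo_charP (C₀ : m59epr_Ctx ρbar B₀ p Q M₀ H₀) : CharP (ResidueField 𝒪) p := by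
  have hpk : ((p : ℕ) : ResidueField 𝒪) = 0 := by
    have h1 : residue 𝒪 (p : 𝒪) = 0 := (residue_eq_zero_iff _).mpr C₀.hp𝒪
    rwa [map_natCast] at h1
  exact (CharP.charP_iff_prime_eq_zero (Fact.out : p.Prime)).2 hpk

/-- Ihara's lemma for the residue field at the step of a link (both cases `l ≠ p`, `l = p`). -/
theorem m59epgo_ihara (C₀ : m59epr_Ctx ρbar B₀ p Q M₀ H₀) (hlM : ¬ l ∣ M₀) :
    m59epi_Ihara M₀ l hlM (ResidueField 𝒪) := by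
  haveI : CharP (ResidueField 𝒪) p := m59epgo_charP C₀
  by_cases hlp : l = p
  · haveI : CharP (ResidueField 𝒪) l := by rw [hlp]; infer_instance
    exact m59epi_ihara_p (ResidueField 𝒪) (by rw [hlp]; exact C₀.hp2) hlM
  · exact m59epi_ihara_ne (ResidueField 𝒪) p C₀.hp2 hlM hlp

/-- `2 ≠ 0` in the residue field of a context. -/
theorem m59epgo_two_ne (C₀ : m59epr_Ctx ρbar B₀ p Q M₀ H₀) : (2 : ResidueField 𝒪) ≠ 0 := by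
  haveI : CharP (ResidueField 𝒪) p := m59epgo_charP C₀
  have := CharP.cast_ne_zero_of_ne_of_prime (R := ResidueField 𝒪) (p := p) Nat.prime_two C₀.hp2
  exact_mod_cast this

/-- the transfer of an element of `P₀` lies in the primary part of `W(Γ₀(M₀), 𝒪)`. -/
theorem m59epgo_cor_mem (C₀ : m59epr_Ctx ρbar B₀ p Q M₀ H₀) (x : C₀.data.P) :
    m59epgo_corW C₀ (m59epgo_val C₀ x) ∈ m59epgo_P0 C₀ :=
  twe_pr_map_prim (m59epgo_corW C₀) (twe_sm_TY 𝒪 C₀.F)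
    (twe_br_T0fam (𝒪 := 𝒪) (twe_sm_q (twe_Nbal N₀ Q ∅) (S₀ ∪ Q)) C₀.F.hq C₀.F.hM)
    (fun i z => (m59epgo_free C₀).1 i z) C₀.a (m59epgo_val_mem C₀ x)

/-- the transfer of an element of `P₀` lies in the primary part of `W(Γ₀(M₀), 𝒪)` for the index
family and the lifts of the UPPER level. -/
theorem m59epgo_cor_mem_up (Λ : m59epr_Link C₀ C₁) (x : C₀.data.P) :
    haveI := C₁.F.hq
    m59epgo_corW C₀ (m59epgo_val C₀ x) ∈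
      twe_pr_prim (twe_fo_T0 𝒪 𝒪 (twe_sm_q (twe_Nbal N₁ Q ∅) (S₁ ∪ Q))
        (m59epi_hqM (l := l) (twe_sm_q (twe_Nbal N₁ Q ∅) (S₁ ∪ Q)) C₁.F.hM)) C₁.a := by
  haveI := C₁.F.hq
  have h0 : m59epgo_corW C₀ (m59epgo_val C₀ x) ∈ twe_pr_prim
    (twe_br_T0fam (𝒪 := 𝒪) (twe_sm_q (twe_Nbal N₀ Q ∅) (S₀ ∪ Q)) C₀.F.hq C₀.F.hM) C₀.a :=
    m59epgo_cor_mem C₀ x
  have h1 : m59epgo_corW C₀ (m59epgo_val C₀ x) ∈ twe_pr_prim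
      (fun i => twe_br_T0fam (𝒪 := 𝒪) (twe_sm_q (twe_Nbal N₀ Q ∅) (S₀ ∪ Q)) C₀.F.hq C₀.F.hM
        (Λ.e i)) (fun i => C₀.a (Λ.e i)) :=
    m59epr_prim_reindex (twe_br_T0fam (𝒪 := 𝒪) (twe_sm_q (twe_Nbal N₀ Q ∅) (S₀ ∪ Q)) C₀.F.hq
      C₀.F.hM) C₀.a Λ.e h0
  have h2 : m59epgo_corW C₀ (m59epgo_val C₀ x) ∈ twe_pr_prim
      (fun i => twe_br_T0fam (𝒪 := 𝒪) (twe_sm_q (twe_Nbal N₀ Q ∅) (S₀ ∪ Q)) C₀.F.hq C₀.F.hM
        (Λ.e i)) C₁.a :=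
    m59epr_prim_congr (fun i => twe_br_T0fam (𝒪 := 𝒪) (twe_sm_q (twe_Nbal N₀ Q ∅) (S₀ ∪ Q))
      C₀.F.hq C₀.F.hM (Λ.e i)) (fun i => C₀.a (Λ.e i)) C₁.a Λ.hres h1
  exact h2

/-- **the leaf (L2)**: dual Ihara modulo the radical. -/
theorem m59epgo_onto (Λ : m59epr_Link C₀ C₁) (x y : C₀.data.P) :
    ∃ m : C₁.data.P,
      m59epr_cAt Λ m - x ∈ m59epa_rad C₀.data.ρ ∧ m59epr_cBt Λ m - y ∈ m59epa_rad C₀.data.ρ := by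
  letI : Fintype (twe_Delta p Q) := twe_sld_fintype p Q
  haveI := C₁.F.hq
  have hne' : residue 𝒪 (C₁.a C₁.i₀) ≠
      ((twe_sm_q (twe_Nbal N₁ Q ∅) (S₁ ∪ Q) C₁.i₀ : ℕ) : ResidueField 𝒪) + 1 := by
    have h := C₁.hne
    push_cast at h
    exact h
  obtain ⟨z, hz, hzA, hzB⟩ := m59epi_onto_int (m59epgo_two_ne C₀) Λ.hlM
    (twe_sm_q (twe_Nbal N₁ Q ∅) (S₁ ∪ Q)) C₁.F.hM C₁.a C₁.i₀ hne' (m59epgo_ihara C₀ Λ.hlM)
    (m59epgo_cor_mem_up Λ x) (m59epgo_cor_mem_up Λ y)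
  obtain ⟨m, hm, hmz⟩ := (m59epgo_free C₁).2.1 z hz
  refine ⟨⟨m, hm⟩, m59epgo_rad_of_cor C₀ _ ?_, m59epgo_rad_of_cor C₀ _ ?_⟩
  · rw [map_sub, map_sub]
    have h1 : m59epgo_corW C₀ (m59epgo_val C₀ (m59epr_cAt Λ ⟨m, hm⟩)) = m59epi_cA Λ.hlM z := by
      rw [← hmz]
      exact m59epot_cor_lAt Λ.hlM H₀ Λ.s Λ.hs Λ.hnice (twe_smod_rep_mem C₀.d C₀.hd)
        (twe_smod_rep_bij C₀.d C₀.hd C₀.hdk) (twe_smod_rep_mem C₁.d C₁.hd)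
        (twe_smod_rep_bij C₁.d C₁.hd C₁.hdk) m
    rw [h1]
    exact hzA
  · rw [map_sub, map_sub]
    have h1 : m59epgo_corW C₀ (m59epgo_val C₀ (m59epr_cBt Λ ⟨m, hm⟩)) = m59epi_cB Λ.hlM z := by
      rw [← hmz]
      exact m59epot_cor_lBt Λ.hlM H₀ Λ.s Λ.hs Λ.hnice (twe_smod_rep_mem C₀.d C₀.hd)
        (twe_smod_rep_bij C₀.d C₀.hd C₀.hdk) (twe_smod_rep_mem C₁.d C₁.hd)
        (twe_smod_rep_bij C₁.d C₁.hd C₁.hdk) m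
    rw [h1]
    exact hzB

end onto

/-- **(L2) `m59eps_IhOnto_stmt`.** -/
theorem m59epgo_ihOnto : m59eps_IhOnto_stmt := by
  intro p _ 𝒪 _ _ _ _ _ _ N₀ N₁ _ _ S₀ S₁ θ₀ θ₁ ρbar B₀ B₁ Q _ _ M₀ _ l _ _ H₀ C₀ C₁ Λ x y
  exact m59epgo_onto Λ x y

end Fermat.Agent.M59
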