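/-
Project M59 (S59), block [E'] (architect helper3), cell [EP-ASM] part 5, tag `m59eps_`.

BLOCK [E'] IS CLOSED: `m59eps_chain : m59ep_Chain_stmt`, no hypothesis.  The three leaves:
(L1) `m59epg_ihInv_closed` (helper22, `IhGlueClosed.lean`), (L2) `m59epgo_ihOnto` (helper8,
`IhOnto.lean`), (L3) `m59eps_newPtH` (helper2's `m59epn_hnew`, `AsmNew.lean`).
-/
import Mathlib
import Fermat.Agent.M59.EP.AsmNew
import Fermat.Agent.M59.EP.IhGlueClosed
import Fermat.Agent.M59.EP.IhOnto

set_option autoImplicit false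

namespace Fermat.Agent.M59

/-- **block [E'], the chain of level-raising steps: CLOSED.** -/
theorem m59eps_chain : m59ep_Chain_stmt :=
  m59eps_chain_of2 m59epg_ihInv_closed m59epgo_ihOnto

end Fermat.Agent.M59
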