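/-
Project M59 (S59), blocks [E'] / [P-STEP], cell [EP-ASM] part 6 (helper3), tag `m59eps_`.

THE TOP OF THE CHAIN AT `l = p`: `m59eps_chainP_of : m59eps_StepOfLinkP_stmt → m59p_ChainP_stmt`.
On top of the chain of [E'] (`m59eps_chain_ctx`, which exports its contexts) one more context at the
level `(M_m · p, m59epo_Hl M_m p H_m)`, the link at `l = p` (`m59eps_link_nonempty`; the bad set does
not change), and the step `m59p_StepP` from the ONE hypothesis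

* `m59eps_StepOfLinkP_stmt` : a link at `l = p` between two contexts with the same bad set (and
  `H₀ ⊇ {u ≡ 1 mod every t ∈ Q}`) gives a step `m59p_StepP` (block [P-STEP]: operators, `T_p`,
  (I1), (I2), (ES-p)₀, [STRICT-p]).
-/
import Mathlib
import Fermat.Agent.M59.EP.ChainClosed
import Fermat.Agent.M59.AtP.Seams

set_option autoImplicit false
set_option linter.unusedSectionVars false
set_option linter.unusedVariables false
set_option linter.style.haveILetI false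
set_option synthInstance.maxHeartbeats 400000
set_option maxHeartbeats 1000000

noncomputable section

namespace Fermat.Agent.M59

open IsLocalRing Polynomial CuspForm Fermat.Agent.JT3 Fermat.Agent.LR Fermat.Agent.TW
  CongruenceSubgroup
open scoped MatrixGroups

/-- **the step at `l = p` from a link** (what block [P-STEP] proves for the contexts and links of
`PrimRing.lean` at `l := p`, same bad set at the two levels). -/
def m59eps_StepOfLinkP_stmt : Prop :=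
  ∀ {p : ℕ} [Fact p.Prime]
    {𝒪 : Type} [CommRing 𝒪] [IsDomain 𝒪] [IsDiscreteValuationRing 𝒪]
    [IsAdicComplete (maximalIdeal 𝒪) 𝒪] [Finite (ResidueField 𝒪)] [CharZero 𝒪]
    {N₀ N₁ : ℕ} [NeZero N₀] [NeZero N₁] {S : Finset ℕ}
    {θ₀ : heckeAlgebra N₀ 2 (↑S : Set ℕ) →+* ResidueField 𝒪}
    {θ₁ : heckeAlgebra N₁ 2 (↑S : Set ℕ) →+* ResidueField 𝒪}
    {ρbar : ResidualGaloisRep (ResidueField 𝒪)}
    {B₀ : twe_Base 𝒪 N₀ S θ₀} {B₁ : twe_Base 𝒪 N₁ S θ₁}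
    {Q : Finset ℕ} [NeZero (twe_Nbal N₀ Q ∅)] [NeZero (twe_Nbal N₁ Q ∅)]
    {M₀ : ℕ} [NeZero M₀] [NeZero (M₀ * p)] {H₀ : Subgroup (ZMod M₀)ˣ}
    (C₀ : m59epr_Ctx ρbar B₀ p Q M₀ H₀)
    (C₁ : m59epr_Ctx ρbar B₁ p Q (M₀ * p) (m59epo_Hl M₀ p H₀)) (Λ : m59epr_Link C₀ C₁),
    (∀ (htM : ∀ t : ↥Q, (t : ℕ) ∣ M₀) (u : (ZMod M₀)ˣ),
      (∀ t : ↥Q, ZMod.unitsMap (htM t) u = 1) → u ∈ H₀) →
    Nonempty (m59p_StepP C₀.data.toLevel C₁.data.toLevel)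

/-- `p` does not divide the levels of the chain. -/
theorem m59eps_p_not_dvd_lvl {p : ℕ} (hp : p.Prime) {N : ℕ} (hpN : ¬ p ∣ N) {m : ℕ}
    (l : Fin m → ℕ) (hl : ∀ i, (l i).Prime ∧ l i ≠ p) (k : ℕ) : ¬ p ∣ m59ep_lvl N l k := by
  intro h
  unfold m59ep_lvl at h
  rcases (Nat.Prime.dvd_mul hp).1 h with h | h
  · exact hpN h
  · obtain ⟨i, -, hi⟩ := (Prime.dvd_finsetProd_iff hp.prime _).1 h
    by_cases hik : (i : ℕ) < k
    · rw [if_pos hik] at hi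
      exact (hl i).2 ((Nat.prime_dvd_prime_iff_eq hp (hl i).1).1 hi).symm
    · rw [if_neg hik] at hi
      exact hp.ne_one (Nat.dvd_one.1 hi)

/-- **[P-STEP], the chain with the `p`-step on top**, from the step-of-a-link statement. -/
theorem m59eps_chainP_of (hstep : m59eps_StepOfLinkP_stmt) : m59p_ChainP_stmt := by
  intro p _ hp2 𝒪 _ _ _ _ _ _ hp𝒪 N _ hrig hpN S₀ hpS hNS m l hinj hl _ _ θ θp ρbar hcompat hcompatp
    hirr
  have hp : p.Prime := Fact.out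
  have hpSk : ∀ k, p ∈ m59ep_bad S₀ l k := fun k => (m59eps_mem_bad l S₀ k p).2 (Or.inl hpS)
  have hNSk : ∀ k, ∀ ℓ : ℕ, ℓ.Prime → ℓ ∣ m59ep_lvl N l k → ℓ ∈ m59ep_bad S₀ l k :=
    fun k => m59eps_hNS l N S₀ hNS (fun i => (hl i).1) k
  have hNSp : ∀ ℓ : ℕ, ℓ.Prime → ℓ ∣ m59ep_lvl N l m * p → ℓ ∈ m59ep_bad S₀ l m := by
    intro ℓ hℓ hd
    rcases (Nat.Prime.dvd_mul hℓ).1 hd with h | h
    · exact hNSk m ℓ hℓ h
    · rw [(Nat.prime_dvd_prime_iff_eq hℓ hp).1 h]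
      exact hpSk m
  have hrigp : m59ep_Rigid p (m59ep_lvl N l m * p) := by
    intro h3
    obtain ⟨r, hr, hrN, hr3⟩ := hrig h3
    exact ⟨r, hr, (hrN.trans (Dvd.intro _ rfl)).mul_right p, hr3⟩
  choose B hfull using fun k => m59epw_dt_M1F p hp2 𝒪 hp𝒪 (m59ep_lvl N l k) (m59ep_bad S₀ l k)
    (hpSk k) (hNSk k) (θ k) ρbar (hcompat k) hirr
  obtain ⟨Bp, hfullp⟩ := m59epw_dt_M1F p hp2 𝒪 hp𝒪 (m59ep_lvl N l m * p) (m59ep_bad S₀ l m)
    (hpSk m) hNSp θp ρbar hcompatp hirr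
  refine ⟨B, Bp, fun Q _ _ hQ hTW hTWp _ => ?_⟩
  have hQp : ∀ t ∈ Q, t.Prime := fun t ht => (hTW 0 t ht).1
  haveI : ∀ k : ℕ, NeZero (m59eps_MH p Q N l hQp k).1 := fun k =>
    m59eps_MH_neZero p Q N l hQp k
  obtain ⟨C, hCd, hLG, hsteps⟩ := m59eps_chain_ctx m59epg_ihInv_closed m59epgo_ihOnto
    m59eps_newPtH hp2 hp𝒪 hrig hpS hNS hinj hl hcompat hirr B hfull Q hQ hTW hQp
  -- the level `M_m · p`
  have hMm : (m59eps_MH p Q N l hQp m).1 = m59ep_lvl N l m * ∏ t ∈ Q, t :=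
    m59eps_MH_fst p Q N l hQp m
  have hQMm : ∀ t ∈ Q, t ∣ (m59eps_MH p Q N l hQp m).1 := twe_sli_dvd_M hMm
  have hHm : (m59eps_MH p Q N l hQp m).2 =
      (twe_di_hom p Q (m59eps_MH p Q N l hQp m).1 hQp hQMm).ker :=
    m59eps_MH_snd p Q N l hQp m hQMm
  have hMp : (m59eps_MH p Q N l hQp m).1 * p = m59ep_lvl N l m * p * ∏ t ∈ Q, t := by
    rw [hMm]
    ring
  have hQMp : ∀ t ∈ Q, t ∣ (m59eps_MH p Q N l hQp m).1 * p := twe_sli_dvd_M hMp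
  have hHp : m59epo_Hl (m59eps_MH p Q N l hQp m).1 p (m59eps_MH p Q N l hQp m).2 =
      (twe_di_hom p Q ((m59eps_MH p Q N l hQp m).1 * p) hQp hQMp).ker := by
    rw [hHm]
    exact m59eps_Hl_ker p Q _ _ hQp hQMm hQMp
  haveI : NeZero ((m59eps_MH p Q N l hQp m).1 * p) :=
    ⟨mul_ne_zero (NeZero.ne _) hp.ne_zero⟩
  have hQSm : ∀ t ∈ Q, t ∉ m59ep_bad S₀ l m := by
    intro t ht h
    rcases (m59eps_mem_bad l S₀ m t).1 h with h | ⟨i, -, hi⟩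
    · exact (hQ t ht).1 h
    · exact (hQ t ht).2 i hi.symm
  obtain ⟨θ'p, θ'_eqp, -, B'p, hfull'p⟩ := m59epw_slf_base hp2 hp𝒪 (hpSk m) hNSp ρbar hcompatp hirr
    Q hQSm hTWp
  obtain ⟨Fp⟩ : Nonempty (twe_sm_Frame ((m59eps_MH p Q N l hQp m).1 * p)
      (m59epo_Hl (m59eps_MH p Q N l hQp m).1 p (m59eps_MH p Q N l hQp m).2)
      (twe_sm_q (twe_Nbal (m59ep_lvl N l m * p) Q ∅) (m59ep_bad S₀ l m ∪ Q))) := by
    refine twe_fx_frame_pow _ _ _ (fun i => i.2.1) (fun i => twe_slc_not_dvd i.2 hMp) (p := p)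
      (n := twe_di_exp p Q) (hp.odd_of_ne_two hp2) (fun u => ?_)
    rw [hHp]
    exact MonoidHom.mem_ker.2 (twe_di_hom_pow_exp_mem p Q _ hQp hQMp u)
  obtain ⟨ap, hap⟩ := twe_slf_exists_lift θ'p
  let Cp : m59epr_Ctx ρbar Bp p Q ((m59eps_MH p Q N l hQp m).1 * p)
      (m59epo_Hl (m59eps_MH p Q N l hQp m).1 p (m59eps_MH p Q N l hQp m).2) :=
    m59eps_ctx hp2 hp𝒪 hrigp (hpSk m) hNSp ρbar hcompatp hirr Bp hfullp Q hQSm hTWp θ'p θ'_eqp B'p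
      hfull'p hMp hQp hQMp _ hHp Fp ap hap
  -- the link at `l = p`
  have hlN : ¬ p ∣ m59ep_lvl N l m :=
    m59eps_p_not_dvd_lvl hp hpN l (fun i => ⟨(hl i).1, (hl i).2.2⟩) m
  have hlQ : p ∉ Q := by
    intro h
    have h1 := (hTW 0 p h).2.1
    rw [Nat.mod_self] at h1
    exact zero_ne_one h1
  obtain ⟨Λ⟩ := m59eps_link_nonempty (l := p) (C m) Cp hQp hQMm hQMp hHm (hCd m hQMm) rfl rfl
    (fun x => ⟨fun h => Or.inl h, fun h => h.elim id (fun h => h ▸ hpSk m)⟩) hlN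
    (fun h => absurd rfl h) hlQ
  have hH : ∀ (htM : ∀ t : ↥Q, (t : ℕ) ∣ (m59eps_MH p Q N l hQp m).1)
      (u : (ZMod (m59eps_MH p Q N l hQp m).1)ˣ),
      (∀ t : ↥Q, ZMod.unitsMap (htM t) u = 1) → u ∈ (m59eps_MH p Q N l hQp m).2 := by
    intro htM u hu
    rw [hHm]
    exact MonoidHom.mem_ker.2 (twe_di_hom_eq_one_of_unitsMap p Q _ hQp hQMm u hu)
  refine ⟨fun k => (C k).data.toLevel, Cp.data.toLevel, hLG,
    m59eps_ctx_isLG2 hp2 hp𝒪 hrigp (hpSk m) hNSp ρbar hcompatp hirr Bp hfullp Q hQSm hTWp θ'p θ'_eqp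
      B'p hfull'p hMp hQp hQMp _ hHp Fp ap hap, hsteps, hstep (C m) Cp Λ hH⟩

end Fermat.Agent.M59
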