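import Mathlib
import Fermat.Agent.TW.Aut.NewAtWrap
import Fermat.Agent.M59.EP.PrimRing

/-!
# M59 / block [P-STEP], Layer 2, the bridge of (ES-p) (helper2; prefix `m59epn_`)

* `m59epn_transport` : ONE level `(M, H)`, `K` algebraically closed of characteristic zero.  For a
  `T'`-eigenvector `w ∈ W(Γ_H(M), K)` (frame `F`, eigenvalues `a i`) and a prime `ℓ₀ ∤ M`: a linear
  relation `α c + β c ∘ T_{ℓ₀} = 0` which holds for EVERY eigenclass `c` on `H₁(X₀(A))`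
  (`A = N₀ L²` the balanced level) with the eigenvalues `a i` holds for `w`:
  `α w + β T'_{ℓ₀} w = 0` (`ψ`-components by main's `twe_nac_decomp`, `Φ = twe_np_Phi` injective and
  Hecke-equivariant at `ℓ₀`).
* `m59epn_transport_bc` : the same for an eigenvector `v` of `K ⊗[𝒪] MX`, `MX ↪ W(Γ_H(M), 𝒪)`;
* `m59epn_espBridge` : the same for an eigenvector `v` of `K ⊗[𝒪] C₀.data.P`, `C₀` a context of
  `M59/EP/PrimRing.lean`, and any endomorphism `Tℓ` of `C₀.data.P` induced by `T'_{ℓ₀}`.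
-/

set_option autoImplicit false
set_option linter.unusedSectionVars false
set_option linter.unusedVariables false
set_option synthInstance.maxHeartbeats 400000
set_option maxHeartbeats 1000000

noncomputable section

open CongruenceSubgroup Matrix.SpecialLinearGroup
open scoped MatrixGroups TensorProduct

namespace Fermat.Agent.M59

open IsLocalRing Polynomial CuspForm Fermat.Agent.JT3 Fermat.Agent.LR Fermat.Agent.TW

section transport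

variable (N₀ : ℕ) [NeZero N₀] (P : Finset ℕ) [hP : ∀ t : ↥P, Fact (Nat.Prime (t : ℕ))]
  (hN : ∀ t : ↥P, ¬ (t : ℕ) ∣ N₀) {M : ℕ} [NeZero M] (hM : M = N₀ * ∏ t ∈ P, t)
  (htM : ∀ t : ↥P, (t : ℕ) ∣ M) (H : Subgroup (ZMod M)ˣ)
  (hH : ∀ u : (ZMod M)ˣ, (∀ t : ↥P, ZMod.unitsMap (htM t) u = 1) → u ∈ H)
  {m : ℕ} (hm : Odd m) (hHm : ∀ u : (ZMod M)ˣ, u ^ m ∈ H)
  {I : Type} (q : I → ℕ) (F : twe_sm_Frame M H q)
  {K : Type} [Field K] [IsAlgClosed K] [CharZero K]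
  (L A : ℕ) (hL : L = ∏ t ∈ P, t) (hA : A = N₀ * L * L) (hL0 : L ≠ 0) (hdiv : L * N₀ ∣ A)

attribute [local instance] twe_nw_fintypeSub

include hN hM hH hm hHm hL hA hL0 hdiv in
/-- **transport of a Hecke relation at a good prime** from the eigenclasses on `H₁(X₀(A))` to the
eigenvectors of `W(Γ_H(M), K)`. -/
theorem m59epn_transport [NeZero A] (hqA : ∀ i, ¬ q i ∣ A)
    {ℓ₀ : ℕ} [Fact ℓ₀.Prime] (hℓM : ¬ ℓ₀ ∣ M) (hℓA : ¬ ℓ₀ ∣ A) (s₀ : Gamma0 M)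
    (hs₀ : twe_dUnit M s₀ * twe_dUnit M s₀ * (twe_hk_lU hℓM)⁻¹ ∈ H)
    (w : ↥(twe_wl_V K K (twe_GamH M H))) (a : I → K)
    (hwT : ∀ i, @twe_wl_T K _ K _ _ M (q i) (F.hq i) (F.hM i) H (F.s i) (F.hs i) w = a i • w)
    (α β : K)
    (hyp : ∀ c : gh_H A →+ K, (∀ (i : I) (x : gh_H A), c (t2f_TH A (q i) x) = a i * c x) →
      ∀ x : gh_H A, α * c x + β * c (t2f_TH A ℓ₀ x) = 0) :
    α • w + β • twe_wl_T (R := K) hℓM H s₀ hs₀ w = 0 := by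
  classical
  obtain ⟨J, _, π, ψ, hsum, hψm, hmem, hcomm⟩ := twe_nac_decomp (K := K) htM H hH hHm
  -- `T'_{ℓ₀}` commutes with the projectors
  have hT0 : ∀ j, twe_wl_T (R := K) hℓM H s₀ hs₀ (π j w) =
      π j (twe_wl_T (R := K) hℓM H s₀ hs₀ w) := fun j =>
    hcomm j (twe_wl_T (R := K) (A := K) hℓM H s₀ hs₀).toAddMonoidHom
      (fun c v => map_smul (twe_wl_T (R := K) (A := K) hℓM H s₀ hs₀) c v)
      (fun γ v => (twe_wl_T_conj (R := K) (A := K) hℓM H s₀ hs₀ γ v).symm) w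
  -- every component satisfies the relation
  have hj : ∀ j, π j (α • w + β • twe_wl_T (R := K) hℓM H s₀ hs₀ w) = 0 := by
    intro j
    have hhT : ∀ i, @twe_wl_T K _ K _ _ M (q i) (F.hq i) (F.hM i) H (F.s i) (F.hs i) (π j w) =
        a i • π j w := by
      intro i
      have h2 := hcomm j (@twe_wl_T K _ K _ _ M (q i) (F.hq i) (F.hM i) H (F.s i)
          (F.hs i)).toAddMonoidHom
        (fun c v => map_smul (@twe_wl_T K _ K _ _ M (q i) (F.hq i) (F.hM i) H (F.s i) (F.hs i))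
          c v)
        (fun γ v => (@twe_wl_T_conj K _ K _ _ M (q i) (F.hq i) (F.hM i) H (F.s i) (F.hs i) γ
          v).symm) w
      have h3 : @twe_wl_T K _ K _ _ M (q i) (F.hq i) (F.hM i) H (F.s i) (F.hs i) (π j w) =
          π j (@twe_wl_T K _ K _ _ M (q i) (F.hq i) (F.hM i) H (F.s i) (F.hs i) w) := h2
      rw [h3, hwT i, map_smul]
    have hU := hmem j w
    set h : ↥(twe_nio_U htM (ψ j) H) := ⟨(π j w).1, hU⟩ with hh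
    set Φ := twe_np_Phi N₀ P hN hM htM H hH (ψ j) hm (hψm j) L A hL hA hL0 hdiv with hΦ
    -- the class `Φ h` is an eigenclass
    have hce : ∀ (i : I) (x : gh_H A), Φ h (t2f_TH A (q i) x) = a i * Φ h x := by
      intro i x
      have := F.hq i
      rw [hΦ, ← twe_np_Phi_hecke N₀ P hN hM htM H hH (ψ j) hm (hψm j) L A hL hA hL0 hdiv
        (F.hM i) (hqA i) (F.s i) (F.hs i)]
      have h1 : twe_np_TU htM H (ψ j) (F.hM i) (F.s i) (F.hs i) h = a i • h := by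
        apply Subtype.ext
        have h3 : ((@twe_wl_T K _ K _ _ M (q i) (F.hq i) (F.hM i) H (F.s i) (F.hs i) (π j w) :
            ↥(twe_wl_V K K (twe_GamH M H))) : Additive ↥(twe_GamH M H) →+ K) =
            ((a i • π j w : ↥(twe_wl_V K K (twe_GamH M H))) : Additive ↥(twe_GamH M H) →+ K) :=
          congrArg Subtype.val (hhT i)
        exact h3
      rw [h1, map_smul]
      rfl
    -- the relation for `Φ h`, pulled back by the injectivity of `Φ`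
    have hrel : Φ (α • h + β • twe_np_TU htM H (ψ j) hℓM s₀ hs₀ h) = 0 := by
      refine AddMonoidHom.ext fun x => ?_
      rw [map_add, map_smul, map_smul, AddMonoidHom.add_apply, AddMonoidHom.smul_apply,
        AddMonoidHom.smul_apply, smul_eq_mul, smul_eq_mul, hΦ,
        twe_np_Phi_hecke N₀ P hN hM htM H hH (ψ j) hm (hψm j) L A hL hA hL0 hdiv hℓM hℓA s₀ hs₀]
      exact hyp (Φ h) hce x
    have h0 : α • h + β • twe_np_TU htM H (ψ j) hℓM s₀ hs₀ h = 0 :=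
      twe_np_Phi_inj N₀ P hN hM htM H hH (ψ j) hm (hψm j) L A hL hA hL0 hdiv
        (hrel.trans (map_zero _).symm)
    rw [map_add, map_smul, map_smul, ← hT0 j]
    apply Subtype.ext
    have h1 := congrArg Subtype.val h0
    exact h1
  rw [← hsum (α • w + β • twe_wl_T (R := K) hℓM H s₀ hs₀ w)]
  exact Finset.sum_eq_zero fun j _ => hj j

end transport

section espbc

variable (N₀ : ℕ) [NeZero N₀] (P : Finset ℕ) [hP : ∀ t : ↥P, Fact (Nat.Prime (t : ℕ))]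
  (hN : ∀ t : ↥P, ¬ (t : ℕ) ∣ N₀) {M : ℕ} [NeZero M] (hM : M = N₀ * ∏ t ∈ P, t)
  (htM : ∀ t : ↥P, (t : ℕ) ∣ M) (H : Subgroup (ZMod M)ˣ)
  (hH : ∀ u : (ZMod M)ˣ, (∀ t : ↥P, ZMod.unitsMap (htM t) u = 1) → u ∈ H)
  {m : ℕ} (hm : Odd m) (hHm : ∀ u : (ZMod M)ˣ, u ^ m ∈ H)
  {I : Type} (q : I → ℕ) (F : twe_sm_Frame M H q)
  {𝒪 : Type*} [CommRing 𝒪]
  {K : Type} [Field K] [IsAlgClosed K] [CharZero K] [Algebra 𝒪 K] [Module.Flat 𝒪 K]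
  (L A : ℕ) (hL : L = ∏ t ∈ P, t) (hA : A = N₀ * L * L) (hL0 : L ≠ 0) (hdiv : L * N₀ ∣ A)
  {MX : Type*} [AddCommGroup MX] [Module 𝒪 MX]

include hN hM hH hm hHm hL hA hL0 hdiv in
/-- `m59epn_transport` for an eigenvector of `K ⊗[𝒪] MX`, `MX ↪ W(Γ_H(M), 𝒪)`. -/
theorem m59epn_transport_bc [NeZero A] (hqA : ∀ i, ¬ q i ∣ A)
    {ℓ₀ : ℕ} [Fact ℓ₀.Prime] (hℓM : ¬ ℓ₀ ∣ M) (hℓA : ¬ ℓ₀ ∣ A) (s₀ : Gamma0 M)
    (hs₀ : twe_dUnit M s₀ * twe_dUnit M s₀ * (twe_hk_lU hℓM)⁻¹ ∈ H)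
    (ι : MX →ₗ[𝒪] ↥(twe_wl_V 𝒪 𝒪 (twe_GamH M H))) (hι : Function.Injective ι)
    (Tm : I → (MX →ₗ[𝒪] MX))
    (hTm : ∀ i x, ι (Tm i x) =
      @twe_wl_T 𝒪 _ 𝒪 _ _ M (q i) (F.hq i) (F.hM i) H (F.s i) (F.hs i) (ι x))
    (Tℓ : MX →ₗ[𝒪] MX) (hTℓ : ∀ x, ι (Tℓ x) = twe_wl_T (R := 𝒪) hℓM H s₀ hs₀ (ι x))
    (v : K ⊗[𝒪] MX) (a : I → K) (hvT : ∀ i, (Tm i).baseChange K v = a i • v)
    (α β : K)
    (hyp : ∀ c : gh_H A →+ K, (∀ (i : I) (x : gh_H A), c (t2f_TH A (q i) x) = a i * c x) →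
      ∀ x : gh_H A, α * c x + β * c (t2f_TH A ℓ₀ x) = 0) :
    α • v + β • Tℓ.baseChange K v = 0 := by
  have hfg : Group.FG ↥(twe_GamH M H) := by
    have := twe_wl_fg_SL2
    exact Subgroup.fg_of_index_ne_zero (twe_GamH M H)
  let f : MX →ₗ[𝒪] ↥(twe_wl_V K K (twe_GamH M H)) := twe_nab_cmp 𝒪 K H ∘ₗ ι
  have hcoe : ∀ u : K ⊗[𝒪] MX,
      ((f.liftBaseChange K u : ↥(twe_wl_V K K (twe_GamH M H))) : Additive ↥(twe_GamH M H) →+ K) =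
        (twe_nab_ext 𝒪 K ↥(twe_GamH M H) ∘ₗ
          ((twe_wl_V 𝒪 𝒪 (twe_GamH M H)).subtype ∘ₗ ι)).liftBaseChange K u := by
    intro u
    induction u using TensorProduct.induction_on with
    | zero => rw [map_zero, map_zero]; rfl
    | tmul c x => rfl
    | add a b ha hb =>
      rw [map_add, map_add, ← ha, ← hb]
      rfl
  have hinj : ∀ u : K ⊗[𝒪] MX, f.liftBaseChange K u = 0 → u = 0 := by
    intro u h0
    refine twe_nab_injective (K := K) ((twe_wl_V 𝒪 𝒪 (twe_GamH M H)).subtype ∘ₗ ι)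
      ((Subtype.val_injective).comp hι) ?_
    rw [map_zero, ← hcoe u, h0]
    rfl
  have hwT : ∀ i, @twe_wl_T K _ K _ _ M (q i) (F.hq i) (F.hM i) H (F.s i) (F.hs i)
      (f.liftBaseChange K v) = a i • f.liftBaseChange K v := by
    intro i
    rw [← twe_nab_equivariant f (Tm i)
      (@twe_wl_T K _ K _ _ M (q i) (F.hq i) (F.hM i) H (F.s i) (F.hs i)) ?_ v, hvT i, map_smul]
    intro x
    show twe_nab_cmp 𝒪 K H (ι (Tm i x)) = _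
    rw [hTm i x]
    exact @twe_nab_cmp_T 𝒪 K _ _ _ M H (q i) (F.hq i) (F.hM i) (F.s i) (F.hs i) (ι x)
  have key := m59epn_transport N₀ P hN hM htM H hH hm hHm q F L A hL hA hL0 hdiv hqA hℓM hℓA
    s₀ hs₀ (f.liftBaseChange K v) a hwT α β hyp
  apply hinj
  rw [map_add, map_smul, map_smul,
    twe_nab_equivariant f Tℓ (twe_wl_T (R := K) (A := K) hℓM H s₀ hs₀) ?_ v]
  · exact key
  · intro x
    show twe_nab_cmp 𝒪 K H (ι (Tℓ x)) = _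
    rw [hTℓ x]
    exact twe_nab_cmp_T 𝒪 K H hℓM s₀ hs₀ (ι x)

end espbc

section ctx

variable {p : ℕ} [Fact p.Prime]
  {𝒪 : Type} [CommRing 𝒪] [IsDomain 𝒪] [IsDiscreteValuationRing 𝒪]
  [IsAdicComplete (maximalIdeal 𝒪) 𝒪] [Finite (ResidueField 𝒪)] [CharZero 𝒪]
  {N₀ : ℕ} [NeZero N₀] {S₀ : Finset ℕ}
  {θ₀ : heckeAlgebra N₀ 2 (↑S₀ : Set ℕ) →+* ResidueField 𝒪}
  {ρbar : ResidualGaloisRep (ResidueField 𝒪)}
  {B₀ : twe_Base 𝒪 N₀ S₀ θ₀}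
  {Q : Finset ℕ} [NeZero (twe_Nbal N₀ Q ∅)]
  {M₀ : ℕ} [NeZero M₀] {H₀ : Subgroup (ZMod M₀)ˣ}

/-- **the bridge of (ES-p), Layer 2**: a linear relation `α c + β c ∘ T_{ℓ₀} = 0` valid for every
eigenclass `c` of the balanced level with the eigensystem `χ` holds on every `χ`-eigenvector `v` of
`K ⊗[𝒪] C₀.data.P`: `α v + β Tℓ v = 0`, `Tℓ` the endomorphism of `C₀.data.P` induced by the
fixed-determinant Hecke operator `T'_{ℓ₀}` (`ℓ₀ ∤ M₀`; `ℓ₀` may lie in the bad set `S₀`). -/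
theorem m59epn_espBridge (C₀ : m59epr_Ctx ρbar B₀ p Q M₀ H₀)
    (hH : ∀ (htM : ∀ t : ↥Q, (t : ℕ) ∣ M₀) (u : (ZMod M₀)ˣ),
      (∀ t : ↥Q, ZMod.unitsMap (htM t) u = 1) → u ∈ H₀)
    {m : ℕ} (hm : Odd m) (hHm : ∀ u : (ZMod M₀)ˣ, u ^ m ∈ H₀)
    {ℓ₀ : ℕ} [Fact ℓ₀.Prime] (hℓM : ¬ ℓ₀ ∣ M₀) (s₀ : Gamma0 M₀)
    (hs₀ : twe_dUnit M₀ s₀ * twe_dUnit M₀ s₀ * (twe_hk_lU hℓM)⁻¹ ∈ H₀)
    (Tℓ : C₀.data.P →ₗ[𝒪] C₀.data.P)
    (hTℓ : ∀ y : C₀.data.P,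
      (twe_pr_prim (twe_sm_TY 𝒪 C₀.F) C₀.a).subtype (Tℓ y) =
        twe_wl_T (R := 𝒪) hℓM H₀ s₀ hs₀ ((twe_pr_prim (twe_sm_TY 𝒪 C₀.F) C₀.a).subtype y))
    {K : Type} [Field K] [IsAlgClosed K] [Algebra 𝒪 K]
    (hK : Function.Injective (algebraMap 𝒪 K))
    (χ : C₀.data.B'.T →ₐ[𝒪] K) (v : K ⊗[𝒪] C₀.data.P)
    (heig : ∀ x, (C₀.data.ψ x).baseChange K v = χ x • v)
    (α β : K)
    (hyp : ∀ c : gh_H (twe_Nbal N₀ Q ∅) →+ K,
      (∀ (ℓ : ℕ) (hℓ : ℓ.Prime) (h1 : ¬ ℓ ∣ twe_Nbal N₀ Q ∅) (h2 : ℓ ∉ (↑(S₀ ∪ Q) : Set ℕ))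
        (h : gh_H (twe_Nbal N₀ Q ∅)),
        c (t2f_TH (twe_Nbal N₀ Q ∅) ℓ h) = χ (C₀.B'.H.π (heckeAlgebra.T hℓ h1 h2)) * c h) →
      ∀ h : gh_H (twe_Nbal N₀ Q ∅), α * c h + β * c (t2f_TH (twe_Nbal N₀ Q ∅) ℓ₀ h) = 0) :
    α • v + β • Tℓ.baseChange K v = 0 := by
  classical
  have hℓ₀ : ℓ₀.Prime := Fact.out
  -- the arithmetic of the level
  have hQp : ∀ t ∈ Q, t.Prime := fun t ht => (C₀.hTW t ht).1
  have hP' : ∀ t : ↥Q, Fact (Nat.Prime (t : ℕ)) := fun t => ⟨hQp t.1 t.2⟩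
  have hN : ∀ t : ↥Q, ¬ (t : ℕ) ∣ N₀ :=
    fun t hd => C₀.hQS t.1 t.2 (C₀.hNS t.1 (hQp t.1 t.2) hd)
  set L : ℕ := ∏ t ∈ Q, t with hLdef
  have hL0 : L ≠ 0 := Finset.prod_ne_zero_iff.mpr fun t ht => (hQp t ht).ne_zero
  have hM0 : M₀ = N₀ * L := C₀.hM
  have htM : ∀ t : ↥Q, (t : ℕ) ∣ M₀ := fun t => by
    rw [hM0]
    exact Dvd.dvd.mul_left (Finset.dvd_prod_of_mem (fun t => t) t.2) N₀
  have hH0 : ∀ u : (ZMod M₀)ˣ, (∀ t : ↥Q, ZMod.unitsMap (htM t) u = 1) → u ∈ H₀ := hH htM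
  have hA : twe_Nbal N₀ Q ∅ = N₀ * L * L := by
    rw [twe_Nbal, Finset.prod_empty, mul_one, Finset.prod_pow]
    ring
  have hdiv : L * N₀ ∣ twe_Nbal N₀ Q ∅ := ⟨L, by rw [hA]; ring⟩
  have hℓA : ¬ ℓ₀ ∣ twe_Nbal N₀ Q ∅ := by
    rw [hA]
    intro hd
    rcases (Nat.Prime.dvd_mul hℓ₀).mp hd with h | h
    · exact hℓM (hM0 ▸ h)
    · exact hℓM (by rw [hM0]; exact Dvd.dvd.mul_left h N₀)
  have : CharZero K := charZero_of_injective_algebraMap hK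
  have : Module.Flat 𝒪 K := twe_naw_flat K hK
  exact m59epn_transport_bc (hP := hP') (K := K) N₀ Q hN hM0 htM H₀ hH0 hm hHm
    (twe_sm_q (twe_Nbal N₀ Q ∅) (S₀ ∪ Q)) C₀.F L (twe_Nbal N₀ Q ∅) rfl hA hL0 hdiv
    (fun i => i.2.2.1) hℓM hℓA s₀ hs₀
    (twe_pr_prim (twe_sm_TY 𝒪 C₀.F) C₀.a).subtype Subtype.val_injective
    (fun i => C₀.data.ψ (twe_sa_tau C₀.B' i))
    (fun i x => twe_smod_psi_tau C₀.B' C₀.hfull' C₀.hNS' C₀.F C₀.a C₀.ha C₀.hrel i x)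
    Tℓ hTℓ v (fun i => χ (twe_sa_tau C₀.B' i)) (fun i => heig _) α β
    (fun c hc => hyp c (fun ℓ hℓ h1 h2 h => hc ⟨ℓ, hℓ, h1, h2⟩ h))

end ctx

end Fermat.Agent.M59
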