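import Mathlib
import Fermat.Agent.M59.EP.NewWrapCtx
import Fermat.Agent.M59.EP.NewEsp
import Fermat.Agent.M59.AtP.GalP

/-!
# M59 / block [P-STEP], Layer 2: the two pointwise statements at `l = p` (helper2; prefix `m59epn_`)

`C₀` a context at `(M₀, H₀)`, `C₁` a context at `(M₀ p, m59epo_Hl M₀ p H₀)`, `Λ : m59epr_Link C₀ C₁`
a link AT `l = p` (`M59/EP/PrimRing.lean`), `K ⊇ 𝒪` algebraically closed.

* `m59epn_espPt`  (P3): `z` the eigenvalue of a Frobenius element at `p` on an unramified quotient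
  line of the representation of the lower level, `v` an eigenvector of the Hecke ring in
  `K ⊗ C₀.data.P` with eigensystem `χ`: `χ z • Tp v = (χ z ² + p) • v`, `Tp = cAt ∘ cB`
  (bridge `m59epn_espBridge` + helper10's Galois half `m59p_espGal`);
* `m59epn_newPtP` (P4): `z'` the same at the upper level, `v ≠ 0` an eigenvector in `K ⊗ C₁.data.P`
  killed by the two transfers: `χ (z' ² - 1) = 0` (bridge `m59epn_bridge` + helper10's `m59p_newGal`,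
  conditional on helper4's leaf `m59p_StrictForm_stmt`).
-/

set_option autoImplicit false
set_option linter.unusedSectionVars false
set_option linter.unusedVariables false
set_option synthInstance.maxHeartbeats 400000
set_option maxHeartbeats 1000000

noncomputable section

namespace Fermat.Agent.M59

open IsLocalRing Polynomial CuspForm Fermat.Agent.JT3 Fermat.Agent.LR Fermat.Agent.TW
  CongruenceSubgroup
open scoped MatrixGroups TensorProduct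

section atp

variable {p : ℕ} [Fact p.Prime]
  {𝒪 : Type} [CommRing 𝒪] [IsDomain 𝒪] [IsDiscreteValuationRing 𝒪]
  [IsAdicComplete (maximalIdeal 𝒪) 𝒪] [Finite (ResidueField 𝒪)] [CharZero 𝒪]
  {N₀ N₁ : ℕ} [NeZero N₀] [NeZero N₁] {S₀ S₁ : Finset ℕ}
  {θ₀ : heckeAlgebra N₀ 2 (↑S₀ : Set ℕ) →+* ResidueField 𝒪}
  {θ₁ : heckeAlgebra N₁ 2 (↑S₁ : Set ℕ) →+* ResidueField 𝒪}
  {ρbar : ResidualGaloisRep (ResidueField 𝒪)}
  {B₀ : twe_Base 𝒪 N₀ S₀ θ₀} {B₁ : twe_Base 𝒪 N₁ S₁ θ₁}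
  {Q : Finset ℕ} [NeZero (twe_Nbal N₀ Q ∅)] [NeZero (twe_Nbal N₁ Q ∅)]
  {M₀ : ℕ} [NeZero M₀] [NeZero (M₀ * p)] {H₀ : Subgroup (ZMod M₀)ˣ}
  {C₀ : m59epr_Ctx ρbar B₀ p Q M₀ H₀}
  {C₁ : m59epr_Ctx ρbar B₁ p Q (M₀ * p) (m59epo_Hl M₀ p H₀)}

/-- **(P3)**, the pointwise form of (ES-p)₀ at the level of the contexts. -/
theorem m59epn_espPt (Λ : m59epr_Link C₀ C₁)
    (hH : ∀ (htM : ∀ t : ↥Q, (t : ℕ) ∣ M₀) (u : (ZMod M₀)ˣ),
      (∀ t : ↥Q, ZMod.unitsMap (htM t) u = 1) → u ∈ H₀)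
    {K : Type} [Field K] [IsAlgClosed K] [Algebra 𝒪 K]
    (hK : Function.Injective (algebraMap 𝒪 K))
    (P : ValuationSubring (AlgebraicClosure ℚ)) (hP : P.LiesOverPrime p)
    (σ : AlgebraicClosure ℚ ≃ₐ[ℚ] AlgebraicClosure ℚ) (hσ : P.IsFrobeniusAt σ p)
    (z : C₀.data.B'.T) (hz : m59p_IsUrEig C₀.data.B'.H.ρ P σ z)
    (χ : C₀.data.B'.T →ₐ[𝒪] K) (v : K ⊗[𝒪] C₀.data.P)
    (heig : ∀ x, (C₀.data.ψ x).baseChange K v = χ x • v) :
    χ z • ((m59epr_cAt Λ).comp (m59epr_cB Λ)).baseChange K v = (χ z ^ 2 + (p : K)) • v := by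
  have hp : p.Prime := Fact.out
  -- `p ∤` the balanced level
  have hpN : ¬ p ∣ twe_Nbal N₀ Q ∅ := by
    have hM0 : M₀ = N₀ * ∏ t ∈ Q, t := C₀.hM
    have hA : twe_Nbal N₀ Q ∅ = N₀ * (∏ t ∈ Q, t) * ∏ t ∈ Q, t := by
      rw [twe_Nbal, Finset.prod_empty, mul_one, Finset.prod_pow]
      ring
    rw [hA]
    intro hd
    rcases (Nat.Prime.dvd_mul hp).mp hd with h | h
    · exact Λ.hlM (hM0 ▸ h)
    · exact Λ.hlM (by rw [hM0]; exact Dvd.dvd.mul_left h N₀)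
  have key := m59epn_espBridge C₀ hH Λ.hm Λ.hHm Λ.hlM Λ.s Λ.hs
    ((m59epr_cAt Λ).comp (m59epr_cB Λ))
    (fun y => m59epo_lAt_lB (R := 𝒪) Λ.hlM H₀ Λ.s Λ.hs Λ.hnice _)
    hK χ v heig (χ z ^ 2 + (p : K)) (- χ z)
    (fun c hc h => by
      have h1 := m59p_espGal C₀.hp2 C₀.hp𝒪 C₀.B'.H (Finset.mem_union_left _ C₀.hpS) C₀.hNS' hpN
        K hK χ c hc P hP σ hσ z hz h
      linear_combination h1)
  linear_combination (norm := module) (-1 : K) • key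

/-- **(P4)**, the pointwise form of [STRICT-p] at the level of the contexts. -/
theorem m59epn_newPtP (hstrict : m59p_StrictForm_stmt) (Λ : m59epr_Link C₀ C₁)
    (hH : ∀ (htM : ∀ t : ↥Q, (t : ℕ) ∣ M₀) (u : (ZMod M₀)ˣ),
      (∀ t : ↥Q, ZMod.unitsMap (htM t) u = 1) → u ∈ H₀)
    {K : Type} [Field K] [IsAlgClosed K] [Algebra 𝒪 K]
    (hK : Function.Injective (algebraMap 𝒪 K))
    (P : ValuationSubring (AlgebraicClosure ℚ)) (hP : P.LiesOverPrime p)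
    (σ : AlgebraicClosure ℚ ≃ₐ[ℚ] AlgebraicClosure ℚ) (hσ : P.IsFrobeniusAt σ p)
    (z' : C₁.data.B'.T) (hz' : m59p_IsUrEig C₁.data.B'.H.ρ P σ z')
    (χ : C₁.data.B'.T →ₐ[𝒪] K) (v : K ⊗[𝒪] C₁.data.P) (hv : v ≠ 0)
    (heig : ∀ x, (C₁.data.ψ x).baseChange K v = χ x • v)
    (hAt : (m59epr_cAt Λ).baseChange K v = 0) (hBt : (m59epr_cBt Λ).baseChange K v = 0) :
    χ (z' ^ 2 - 1) = 0 := by
  obtain ⟨N', _, hNb, hpN', c, hc0, hce, hcA, hcB⟩ :=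
    m59epn_bridge Λ hH hK χ v hv heig hAt hBt
  have key := m59p_newGal hstrict C₁.hp2 C₁.hp𝒪 C₁.B'.H (Finset.mem_union_left _ C₁.hpS)
    C₁.hNS' K hK χ N' hNb hpN' c hc0 hce hcA hcB P hP σ hσ z' hz'
  rw [map_sub, map_pow, map_one]
  exact sub_eq_zero.mpr key

end atp

end Fermat.Agent.M59
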