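import Mathlib
import Fermat.Agent.M59.EP.NewP
import Fermat.Agent.M59.AtP.SeamsP

/-!
# M59 / block [P-STEP], Layer 2: THE TWO POINTWISE LEAVES ARE CLOSED (helper2; prefix `m59epn_`)

* `m59epn_espPt_closed  : m59p_EspPt_stmt` (P3), unconditional;
* `m59epn_newPtP_closed : m59p_StrictForm_stmt → m59p_NewPtP_stmt` (P4).
-/

set_option autoImplicit false

namespace Fermat.Agent.M59

/-- **(P3)** of `M59/AtP/SeamsP.lean`. -/
theorem m59epn_espPt_closed : m59p_EspPt_stmt :=
  fun _ _ Λ hH _ _ _ _ hK P hP σ hσ z hz χ v _ heig => by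
    have h := m59epn_espPt Λ hH hK P hP σ hσ z hz χ v heig
    rw [LinearMap.baseChange_comp] at h
    exact h

/-- **(P4)** of `M59/AtP/SeamsP.lean`, conditional on the leaf [STRICT-p]. -/
theorem m59epn_newPtP_closed (hstrict : m59p_StrictForm_stmt) : m59p_NewPtP_stmt :=
  fun _ _ Λ hH _ _ _ _ hK P hP σ hσ z' hz' χ v hv heig hAt hBt =>
    m59epn_newPtP hstrict Λ hH hK P hP σ hσ z' hz' χ v hv heig hAt hBt

end Fermat.Agent.M59
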