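/-
Project M59 (S59), block [P-STEP] (architect helper10) / [E'] algebra family, tag `m59epa_` (helper22).

THE ALGEBRA OF (ES-p)₀: the field `esp` of `m59p_StepDataP` from the pointwise statement over an
algebraically closed field `K ⊇ 𝒪` (helper10's (P3) `m59p_EspPt_stmt`):
every common eigenvector `v ≠ 0` of `T` in `K ⊗ P₀` has `χ a • Tp_K v = χ b • v`.

`m59epa_esp` : then `Y := ψ₀ a ∘ Tp − ψ₀ b` satisfies `Y ^ r₀ = 0`, `r₀` = the `Δ`-rank of `P₀`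
(in iterate form, as in `m59p_StepDataP.esp`).

Route: `Y` commutes with `Δ` and (as `Tp` commutes with `ψ₀`) `Y_K` lies in the image of the
commutative ring `T[t]`, `t ↦ Tp_K`; every common eigenvector of `T[t]` is a common eigenvector of
`T`, hence killed by `Y_K`; so `Y_K` is nilpotent (`m59epa_nil_on`), `Y` is nilpotent, and `𝒪[Δ]` is
reduced, so `Y ^ r₀ = 0` (`m59epa_pow_rank`).
-/
import Mathlib
import Fermat.Agent.M59.EP.AlgNew
import Fermat.Agent.M59.EP.AlgInst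

set_option autoImplicit false
set_option linter.unusedSectionVars false
set_option linter.style.haveILetI false

namespace Fermat.Agent.M59

open Polynomial CuspForm IsLocalRing Fermat.Agent.JT3 Fermat.Agent.TW TensorProduct Module

noncomputable section

section esp

variable {𝒪 : Type*} [CommRing 𝒪] [IsDomain 𝒪] [IsLocalRing 𝒪] [CharZero 𝒪]
  {Δ : Type*} [CommGroup Δ] [Finite Δ]
  {P₀ : Type*} [AddCommGroup P₀] [Module 𝒪 P₀]
  {ι₀ : Type*} [Fintype ι₀]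
  {T : Type*} [CommRing T] [Algebra 𝒪 T]

/-- **THE ALGEBRA OF (ES-p)₀**: see the header. -/
theorem m59epa_esp {K : Type*} [Field K] [IsAlgClosed K] [Algebra 𝒪 K]
    (hK : Function.Injective (algebraMap 𝒪 K))
    (ρ₀ : Representation 𝒪 Δ P₀) (v₀ : ι₀ → P₀)
    (b₀ : Module.Basis (Δ × ι₀) 𝒪 P₀) (hb₀ : ∀ δ i, b₀ (δ, i) = ρ₀ δ (v₀ i))
    (ψ₀ : T →ₐ[𝒪] Module.End 𝒪 P₀)
    (comm₀ : ∀ x δ m, ψ₀ x (ρ₀ δ m) = ρ₀ δ (ψ₀ x m))
    (Tp : P₀ →ₗ[𝒪] P₀) (hTd : ∀ δ m, Tp (ρ₀ δ m) = ρ₀ δ (Tp m))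
    (hTh : ∀ x m, Tp (ψ₀ x m) = ψ₀ x (Tp m)) (a b : T)
    (hpt : ∀ (χ : T →ₐ[𝒪] K) (v : K ⊗[𝒪] P₀), v ≠ 0 →
      (∀ x, (ψ₀ x).baseChange K v = χ x • v) → χ a • Tp.baseChange K v = χ b • v) :
    ∀ m : P₀, ((fun m' : P₀ => ψ₀ a (Tp m') - ψ₀ b m')^[Fintype.card ι₀]) m = 0 := by
  classical
  haveI : Module.Finite 𝒪 P₀ := Module.Finite.of_basis b₀
  haveI : Module.Free 𝒪 P₀ := Module.Free.of_basis b₀
  haveI : FaithfulSMul 𝒪 K := (faithfulSMul_iff_algebraMap_injective 𝒪 K).2 hK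
  let Y : Module.End 𝒪 P₀ := ψ₀ a ∘ₗ Tp - ψ₀ b
  have hY : ∀ m, Y m = ψ₀ a (Tp m) - ψ₀ b m := fun m => rfl
  have hYeq : ∀ δ m, Y (ρ₀ δ m) = ρ₀ δ (Y m) := by
    intro δ m
    rw [hY, hY, hTd, comm₀, comm₀, map_sub]
  -- over `K`
  let φ₀ : T →+* Module.End K (K ⊗[𝒪] P₀) :=
    ((Module.End.baseChangeHom 𝒪 K P₀ : Module.End 𝒪 P₀ →ₐ[𝒪] _) : Module.End 𝒪 P₀ →+* _).comp
      (ψ₀ : T →+* Module.End 𝒪 P₀)
  have hφ₀ : ∀ x, φ₀ x = (ψ₀ x).baseChange K := fun x => rfl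
  have hφ𝒪 : ∀ (c : 𝒪) (w : K ⊗[𝒪] P₀), φ₀ (algebraMap 𝒪 T c) w = algebraMap 𝒪 K c • w := by
    intro c w
    rw [hφ₀, AlgHom.commutes, Algebra.algebraMap_eq_smul_one, LinearMap.baseChange_smul,
      LinearMap.baseChange_one, LinearMap.smul_apply, Module.End.one_apply, algebraMap_smul]
  let tK : Module.End K (K ⊗[𝒪] P₀) := Tp.baseChange K
  have hct : ∀ x, Commute (φ₀ x) tK := by
    intro x
    have h0 : (ψ₀ x) ∘ₗ Tp = Tp ∘ₗ (ψ₀ x) := LinearMap.ext fun m => (hTh x m).symm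
    change (ψ₀ x).baseChange K * Tp.baseChange K = Tp.baseChange K * (ψ₀ x).baseChange K
    rw [Module.End.mul_eq_comp, Module.End.mul_eq_comp, ← LinearMap.baseChange_comp,
      ← LinearMap.baseChange_comp, h0]
  let φ : Polynomial T →+* Module.End K (K ⊗[𝒪] P₀) := Polynomial.eval₂RingHom' φ₀ tK hct
  have hφC : ∀ x, φ (Polynomial.C x) = φ₀ x := fun x => Polynomial.eval₂_C _ _
  have hφX : φ Polynomial.X = tK := Polynomial.eval₂_X _ _
  let Z : Polynomial T := Polynomial.C a * Polynomial.X - Polynomial.C b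
  have hφZ : φ Z = Y.baseChange K := by
    change φ (Polynomial.C a * Polynomial.X - Polynomial.C b) = (ψ₀ a ∘ₗ Tp - ψ₀ b).baseChange K
    rw [map_sub, map_mul, hφC, hφC, hφX, LinearMap.baseChange_sub, LinearMap.baseChange_comp]
    rfl
  have hnil := m59epa_nil_on φ ⊤ (fun _ _ _ => Submodule.mem_top) Z (by
    intro v _ hv0 hv1
    have hv1' : ∀ x, ∃ c : K, φ₀ x v = c • v := fun x => by
      rw [← hφC]
      exact hv1 (Polynomial.C x)
    obtain ⟨χ, hχ⟩ := m59epa_eigenchar (𝒪 := 𝒪) φ₀ hφ𝒪 v hv0 hv1'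
    have h0 := hpt χ v hv0 (fun x => hχ x)
    have h1 : φ₀ a (tK v) = tK (φ₀ a v) := by
      rw [← Module.End.mul_apply, ← Module.End.mul_apply, (hct a).eq]
    change φ (Polynomial.C a * Polynomial.X - Polynomial.C b) v = 0
    rw [map_sub, map_mul, hφC, hφC, hφX, LinearMap.sub_apply, Module.End.mul_apply, h1, hχ a,
      map_smul, hχ b]
    exact sub_eq_zero.2 h0)
  have hYnil : IsNilpotent Y := by
    refine ⟨finrank K (K ⊗[𝒪] P₀), ?_⟩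
    have h1 : (Y ^ finrank K (K ⊗[𝒪] P₀)).baseChange K = 0 := by
      rw [LinearMap.baseChange_pow, ← hφZ]
      exact LinearMap.ext fun w => hnil w Submodule.mem_top
    refine LinearMap.ext fun m => ?_
    have h2 := LinearMap.congr_fun h1 ((1 : K) ⊗ₜ[𝒪] m)
    rw [LinearMap.baseChange_tmul, LinearMap.zero_apply] at h2
    rw [LinearMap.zero_apply]
    apply Module.Flat.tensorProduct_mk_injective 𝒪 P₀ K
    rw [TensorProduct.mk_apply, h2, map_zero]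
  have hY0 := m59epa_pow_rank ρ₀ v₀ b₀ hb₀ Y hYeq hYnil
  have hit : ∀ (n : ℕ) (m : P₀),
      ((fun m' : P₀ => ψ₀ a (Tp m') - ψ₀ b m')^[n]) m = (Y ^ n) m := by
    intro n
    induction n with
    | zero => intro m; rfl
    | succ n ih =>
      intro m
      rw [Function.iterate_succ_apply', ih, pow_succ', Module.End.mul_apply, hY]
  intro m
  rw [hit, hY0, LinearMap.zero_apply]

end esp

section inst

variable {𝒪 : Type} [CommRing 𝒪] [IsDomain 𝒪] [IsDiscreteValuationRing 𝒪]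
  [IsAdicComplete (maximalIdeal 𝒪) 𝒪]
  {N₀ : ℕ} [NeZero N₀] {S₀ : Finset ℕ}
  {θ₀ : heckeAlgebra N₀ 2 (↑S₀ : Set ℕ) →+* ResidueField 𝒪}
  {B₀ : twe_Base 𝒪 N₀ S₀ θ₀} {p : ℕ} {Q : Finset ℕ}
  [NeZero (twe_Nbal N₀ Q ∅)]

/-- **(ES-p)₀**, the body of the field `esp` of `m59p_StepDataP` for one element `z` of the Hecke
algebra of the lower level, from the pointwise statement over an algebraically closed field
`K ⊇ 𝒪` (helper10's (P3)). -/
theorem m59epa_step_esp [CharZero 𝒪] (D₀ : twe_mk_LevelData B₀ p Q) (Tp : D₀.P →ₗ[𝒪] D₀.P)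
    (hTd : ∀ (δ : twe_Delta p Q) (m : D₀.P), Tp (D₀.ρ δ m) = D₀.ρ δ (Tp m))
    (hTh : ∀ (x : D₀.B'.T) (m : D₀.P), Tp (D₀.ψ x m) = D₀.ψ x (Tp m))
    {K : Type*} [Field K] [IsAlgClosed K] [Algebra 𝒪 K]
    (hK : Function.Injective (algebraMap 𝒪 K)) (z : D₀.B'.T)
    (hpt : ∀ (χ : D₀.B'.T →ₐ[𝒪] K) (v : K ⊗[𝒪] D₀.P), v ≠ 0 →
      (∀ x, (D₀.ψ x).baseChange K v = χ x • v) →
      χ z • Tp.baseChange K v = (χ z ^ 2 + (p : K)) • v) :
    ∀ m : D₀.P, ((fun m' : D₀.P => D₀.ψ z (Tp m') - D₀.ψ (z ^ 2 + (p : D₀.B'.T)) m')^[B₀.d *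
      2 ^ Q.card]) m = 0 := by
  have h := m59epa_esp hK D₀.ρ D₀.v D₀.b D₀.hb D₀.ψ D₀.comm Tp hTd hTh z
    (z ^ 2 + (p : D₀.B'.T)) (fun χ v hv hχ => by
      rw [map_add, map_pow, map_natCast]
      exact hpt χ v hv hχ)
  rwa [Fintype.card_fin, m59epa_rank D₀] at h

end inst

end

end Fermat.Agent.M59
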