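import Fermat.Agent.M59.EP.OpsPair

/-!
# M59 / block [E'] / cell [EP-OPS] (helper3): forwarding module

The abstract calculus of the four maps (`m59epo_Pair`, `m59epo_a`, `m59epo_b`, `m59epo_at`,
`m59epo_bt` and their four relations) lives in `OpsPair.lean`; this file only re-imports it (it was
the original home of those declarations; after a file-name collision they moved).  helper8's
abstract calculus (`m59epo_abs_*`) is `OpsAbsT.lean`.
-/
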