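/-
Project M59 (S59), block [E'] (architect helper3), cell [EP-OPS](c), part A (helper22).
Tag `m59epoq_`, namespace `Fermat.Agent.M59`.

HECKE COMMUTATION OF THE LEVEL-RAISING MAPS AT `Γ_H`-LEVEL, part A: the restriction.

`M`, `l` arbitrary, `q ∤ M l` prime; `G = Γ_H(M)`, `G' = Γ_{H'}(M l) ≤ G`.  The fixed-determinant
operators `T'_q` (`twe_hk_T`) at the two levels are computed with twists `t ∈ Γ₀(M)`,
`t' ∈ Γ₀(M l)` which are THE SAME matrix.

* `m59epoq_coc_level`  : the twisted cocycles at the two levels coincide (as matrices);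
* `m59epoq_res_T`      : `res ∘ T'_q = T'_q ∘ res` on raw characters;
* `m59epoq_wl_res_T`   : the same for `twe_wl_res`, `twe_wl_T` on `W(Γ, A)`.
-/
import Mathlib
import Fermat.Agent.TW.Aut.WLin
import Fermat.Agent.TW.Aut.HeckeComm

set_option autoImplicit false
set_option linter.unusedSectionVars false
set_option linter.unusedVariables false

noncomputable section

open CongruenceSubgroup Matrix.SpecialLinearGroup
open P2MW.S_ModularForm_heckeT_slash_eq_self_of_mem_Gamma0.ModularForm.HeckeSlashInvariance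
open P2MW.S_ModularForm_heckeT_slash_eq_self_of_mem_Gamma0.ModularForm
open scoped MatrixGroups OnePoint

namespace Fermat.Agent.M59

open Fermat.Agent.JT3 Fermat.Agent.LR Fermat.Agent.TW

variable {M l q : ℕ} [Fact q.Prime]

/-- the untwisted cocycles at the levels `M` and `M l` coincide. -/
theorem m59epoq_t2c_coc_level (hqM : ¬ q ∣ M) (hqMl : ¬ q ∣ M * l) (y : OnePoint (ZMod q))
    (γ : Gamma0 M) (γ' : Gamma0 (M * l)) (hγ : (γ' : SL(2, ℤ)) = (γ : SL(2, ℤ))) :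
    ((t2c_coc hqMl y γ' : Gamma0 (M * l)) : SL(2, ℤ)) =
      ((t2c_coc hqM y γ : Gamma0 M) : SL(2, ℤ)) := by
  apply t2c_coc_unique
  rw [hγ]
  exact t2c_coc_spec hqM y γ

theorem m59epoq_sx_level (t : Gamma0 M) (t' : Gamma0 (M * l))
    (htt : (t' : SL(2, ℤ)) = (t : SL(2, ℤ))) (y : OnePoint (ZMod q)) :
    ((twe_hk_sx t' y : Gamma0 (M * l)) : SL(2, ℤ)) = ((twe_hk_sx t y : Gamma0 M) : SL(2, ℤ)) := by
  induction y using OnePoint.rec with
  | infty =>
    simp only [twe_hk_sx, OnePoint.elim_infty, Subgroup.coe_inv]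
    rw [htt]
  | coe j =>
    simp only [twe_hk_sx, OnePoint.elim_some]
    exact htt

/-- **the twisted cocycles at the levels `M` and `M l` coincide** when the twists are the same
matrix. -/
theorem m59epoq_coc_level (hqM : ¬ q ∣ M) (hqMl : ¬ q ∣ M * l) (t : Gamma0 M) (t' : Gamma0 (M * l))
    (htt : (t' : SL(2, ℤ)) = (t : SL(2, ℤ))) (y : OnePoint (ZMod q))
    (γ : Gamma0 M) (γ' : Gamma0 (M * l)) (hγ : (γ' : SL(2, ℤ)) = (γ : SL(2, ℤ))) :
    ((twe_hk_coc hqMl t' y γ' : Gamma0 (M * l)) : SL(2, ℤ)) =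
      ((twe_hk_coc hqM t y γ : Gamma0 M) : SL(2, ℤ)) := by
  unfold twe_hk_coc
  simp only [Subgroup.coe_mul, Subgroup.coe_inv]
  rw [m59epoq_sx_level t t' htt, m59epoq_sx_level t t' htt,
    m59epoq_t2c_coc_level hqM hqMl y γ γ' hγ, hγ]

variable {A : Type*} [AddCommGroup A]

/-- **(c-a)** restriction from `Γ_H(M)` to `Γ_{H'}(M l)` commutes with `T'_q`. -/
theorem m59epoq_res_T (hqM : ¬ q ∣ M) (hqMl : ¬ q ∣ M * l) (H : Subgroup (ZMod M)ˣ)
    (H' : Subgroup (ZMod (M * l))ˣ) (hle : twe_GamH (M * l) H' ≤ twe_GamH M H)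
    (t : Gamma0 M) (t' : Gamma0 (M * l)) (htt : (t' : SL(2, ℤ)) = (t : SL(2, ℤ)))
    (ht : twe_dUnit M t * twe_dUnit M t * (twe_hk_lU hqM)⁻¹ ∈ H)
    (ht' : twe_dUnit (M * l) t' * twe_dUnit (M * l) t' * (twe_hk_lU hqMl)⁻¹ ∈ H')
    (z : Additive ↥(twe_GamH M H) →+ A) :
    lrpd_pull (Subgroup.inclusion hle) (twe_hk_T hqM H t ht z) =
      twe_hk_T hqMl H' t' ht' (lrpd_pull (Subgroup.inclusion hle) z) := by
  refine AddMonoidHom.ext fun γ => ?_
  obtain ⟨γ, rfl⟩ := Additive.ofMul.surjective γ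
  rw [lrpd_pull_apply, twe_hk_T_apply, twe_hk_T_apply]
  refine Finset.sum_congr rfl fun y _ => ?_
  rw [lrpd_pull_apply]
  congr 2
  apply Subtype.ext
  exact (m59epoq_coc_level hqM hqMl t t' htt y _ _ rfl).symm

variable {R : Type*} [CommRing R] [Module R A]

/-- **(c-a)** on `W(Γ, A)`. -/
theorem m59epoq_wl_res_T (hqM : ¬ q ∣ M) (hqMl : ¬ q ∣ M * l) (H : Subgroup (ZMod M)ˣ)
    (H' : Subgroup (ZMod (M * l))ˣ) (hle : twe_GamH (M * l) H' ≤ twe_GamH M H)
    (t : Gamma0 M) (t' : Gamma0 (M * l)) (htt : (t' : SL(2, ℤ)) = (t : SL(2, ℤ)))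
    (ht : twe_dUnit M t * twe_dUnit M t * (twe_hk_lU hqM)⁻¹ ∈ H)
    (ht' : twe_dUnit (M * l) t' * twe_dUnit (M * l) t' * (twe_hk_lU hqMl)⁻¹ ∈ H')
    (z : ↥(twe_wl_V R A (twe_GamH M H))) :
    twe_wl_res hle (twe_wl_T (R := R) hqM H t ht z) =
      twe_wl_T hqMl H' t' ht' (twe_wl_res hle z) := by
  apply Subtype.ext
  rw [twe_wl_res_coe, twe_wl_T_coe, twe_wl_T_coe, twe_wl_res_coe]
  exact m59epoq_res_T hqM hqMl H H' hle t t' htt ht ht' z.1

end Fermat.Agent.M59
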