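/-
Project M59 (S59), block [E'] (architect helper3), cell [EP-OPS](c), part B (helper22).
Tag `m59epoq_`, namespace `Fermat.Agent.M59`.

HECKE COMMUTATION OF THE LEVEL-RAISING MAPS AT `Γ_H`-LEVEL, part B: THE TRANSFERS, uniform statement
(twin of `lre_cor_T` of `LR/MTX/EquivCor.lean` with `Γ₀(N)`, `Γ₀(N q)` replaced by `G = Γ_H(M)`,
`G' = Γ_{H'}(M l)`, the Hecke datum `lrm_data` at the level-raising prime by `twe_hk_data hlM H s hs`,
and the coset operator `T_l` by the fixed-determinant operators `T'_q` = `twe_hk_T` with twists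
`t ∈ Γ₀(M)`, `t' ∈ Γ₀(M l)`).

`x₀ ∈ ℙ¹(𝔽_l)` a base point, `r x ∈ G` with `x₀ ⋆ r x = x`, `κ : Stab_G(x₀) →* G'` SURJECTIVE,
`ρ ∈ GL₂(ℝ)` with `ρ · g = κ(g) · ρ` on the stabiliser.  Two coset systems from `G` to `G'`:
`S(x, y) = α''_y ρ r_x` and `R(x, y) = ρ r_x α'_y` (`α'_y = t_y⁻¹ α_y`, `α''_y = t'_y⁻¹ α_y`), compared by
`lre_sum_eq`:

* `m59epoq_cor_T` : `T'_q ∘ (cor ∘ κ^*) = (cor ∘ κ^*) ∘ T'_q`, from a matching
  `α''_y ρ = ρ · u_y · α'_{σ y}` (`u_y ∈ G`) and the entry condition `hS`.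
-/
import Mathlib
import Fermat.Agent.TW.Aut.HeckeComm
import Fermat.Agent.LR.MTX.EquivCor

set_option autoImplicit false
set_option linter.unusedSectionVars false
set_option linter.unusedVariables false

noncomputable section

open CongruenceSubgroup Matrix.SpecialLinearGroup
open P2MW.S_ModularForm_heckeT_slash_eq_self_of_mem_Gamma0.ModularForm.HeckeSlashInvariance
open P2MW.S_ModularForm_heckeT_slash_eq_self_of_mem_Gamma0.ModularForm
open scoped MatrixGroups OnePoint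

namespace Fermat.Agent.M59

open Fermat.Agent.JT3 Fermat.Agent.LR Fermat.Agent.TW

/-! ### The twisted representatives -/

section reps

variable {M q : ℕ} [Fact q.Prime]

/-- `α'_y γ = c'_y(γ) α'_{y ⋆ γ}` for `γ ∈ Γ_H`, in the vocabulary of `twe_hk_data`. -/
theorem m59epoq_rep_spec (hqM : ¬ q ∣ M) (H : Subgroup (ZMod M)ˣ) (t : Gamma0 M)
    (ht : twe_dUnit M t * twe_dUnit M t * (twe_hk_lU hqM)⁻¹ ∈ H) (y : OnePoint (ZMod q))
    (γ : ↥(twe_GamH M H)) :
    twe_hc_rep t y * twe_hc_iota H γ =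
      twe_hc_iota H ((twe_hk_data hqM H t ht).coc y γ) *
        twe_hc_rep t (t2c_act ((γ : ↥(twe_GamH M H)) : SL(2, ℤ)) y) := by
  have e := twe_hc_rep_spec hqM t y (twe_hk_up H γ)
  rw [twe_hk_up_coe] at e
  exact e

/-- the `q + 1` cosets `SL(2, ℤ) · α'_y` are pairwise distinct. -/
theorem m59epoq_rep_sep (t : Gamma0 M) (y y' : OnePoint (ZMod q)) (g : SL(2, ℤ))
    (h : twe_hc_rep t y = mapGL ℝ g * twe_hc_rep t y') : y = y' := by
  unfold twe_hc_rep at h
  refine lre_alpha_sep y y'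
    (((twe_hk_sx t y : Gamma0 M) : SL(2, ℤ)) * g * ((twe_hk_sx t y' : Gamma0 M) : SL(2, ℤ))⁻¹) ?_
  rw [map_mul, map_mul, map_inv]
  calc heckeRep q y
      = mapGL ℝ ((twe_hk_sx t y : Gamma0 M) : SL(2, ℤ)) *
          ((mapGL ℝ ((twe_hk_sx t y : Gamma0 M) : SL(2, ℤ)))⁻¹ * heckeRep q y) := by
        rw [mul_inv_cancel_left]
    _ = _ := by rw [h]; group

end reps

/-! ### The uniform statement -/

section corComm

variable {M l q : ℕ} [Fact l.Prime] [Fact q.Prime] {A : Type*} [AddCommGroup A]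
variable (hlM : ¬ l ∣ M) (hqM : ¬ q ∣ M) (hqMl : ¬ q ∣ M * l)
variable (H : Subgroup (ZMod M)ˣ) (H' : Subgroup (ZMod (M * l))ˣ)
variable (s : Gamma0 M) (hs : twe_dUnit M s * twe_dUnit M s * (twe_hk_lU hlM)⁻¹ ∈ H)
variable (t : Gamma0 M) (ht : twe_dUnit M t * twe_dUnit M t * (twe_hk_lU hqM)⁻¹ ∈ H)
variable (t' : Gamma0 (M * l))
  (ht' : twe_dUnit (M * l) t' * twe_dUnit (M * l) t' * (twe_hk_lU hqMl)⁻¹ ∈ H')
variable (x₀ : OnePoint (ZMod l)) (r : OnePoint (ZMod l) → ↥(twe_GamH M H))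
  (hr : ∀ x, (twe_hk_data hlM H s hs).act (r x) x₀ = x)
  (κ : lrt_stab (twe_hk_data hlM H s hs) x₀ →* ↥(twe_GamH (M * l) H'))
  (ρ : GL (Fin 2) ℝ)
  (hρ : ∀ g : lrt_stab (twe_hk_data hlM H s hs) x₀,
    ρ * twe_hc_iota H (g : ↥(twe_GamH M H)) = twe_hc_iota H' (κ g) * ρ)

include hρ in
/-- the system `S(x, y) = α''_y ρ r_x`. -/
theorem m59epoq_S_spec (x : OnePoint (ZMod l)) (y : OnePoint (ZMod q)) (γ : ↥(twe_GamH M H)) :
    twe_hc_rep t' y * ρ * twe_hc_iota H (r x) * twe_hc_iota H γ =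
      twe_hc_iota H' ((twe_hk_data hqMl H' t' ht').coc y
          (κ (lrt_a (twe_hk_data hlM H s hs) x₀ r hr x γ))) *
        (twe_hc_rep t' (t2c_act
            (((κ (lrt_a (twe_hk_data hlM H s hs) x₀ r hr x γ) : ↥(twe_GamH (M * l) H')) :
              SL(2, ℤ))) y) *
          ρ * twe_hc_iota H (r ((twe_hk_data hlM H s hs).act γ x))) := by
  set a := lrt_a (twe_hk_data hlM H s hs) x₀ r hr x γ with ha
  have h1 : r x * γ = (a : ↥(twe_GamH M H)) * r ((twe_hk_data hlM H s hs).act γ x) := by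
    rw [ha, lrt_a_coe]; group
  have h2 := m59epoq_rep_spec hqMl H' t' ht' y (κ a)
  calc twe_hc_rep t' y * ρ * twe_hc_iota H (r x) * twe_hc_iota H γ
      = twe_hc_rep t' y * ρ * twe_hc_iota H (r x * γ) := by rw [map_mul]; simp only [mul_assoc]
    _ = twe_hc_rep t' y * (ρ * twe_hc_iota H (a : ↥(twe_GamH M H))) *
          twe_hc_iota H (r ((twe_hk_data hlM H s hs).act γ x)) := by
        rw [h1, map_mul]; simp only [mul_assoc]
    _ = (twe_hc_rep t' y * twe_hc_iota H' (κ a)) * ρ *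
          twe_hc_iota H (r ((twe_hk_data hlM H s hs).act γ x)) := by
        rw [hρ]; simp only [mul_assoc]
    _ = _ := by rw [h2]; simp only [mul_assoc]

include hρ in
/-- the system `R(x, y) = ρ r_x α'_y`. -/
theorem m59epoq_R_spec (x : OnePoint (ZMod l)) (y : OnePoint (ZMod q)) (γ : ↥(twe_GamH M H)) :
    ρ * twe_hc_iota H (r x) * twe_hc_rep t y * twe_hc_iota H γ =
      twe_hc_iota H' (κ (lrt_a (twe_hk_data hlM H s hs) x₀ r hr x
          ((twe_hk_data hqM H t ht).coc y γ))) *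
        (ρ * twe_hc_iota H (r ((twe_hk_data hlM H s hs).act
            ((twe_hk_data hqM H t ht).coc y γ) x)) *
          twe_hc_rep t (t2c_act ((γ : ↥(twe_GamH M H)) : SL(2, ℤ)) y)) := by
  set c := (twe_hk_data hqM H t ht).coc y γ with hc
  set a := lrt_a (twe_hk_data hlM H s hs) x₀ r hr x c with ha
  have h1 : r x * c = (a : ↥(twe_GamH M H)) * r ((twe_hk_data hlM H s hs).act c x) := by
    rw [ha, lrt_a_coe]; group
  have h2 : twe_hc_rep t y * twe_hc_iota H γ =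
      twe_hc_iota H c * twe_hc_rep t (t2c_act ((γ : ↥(twe_GamH M H)) : SL(2, ℤ)) y) :=
    m59epoq_rep_spec hqM H t ht y γ
  calc ρ * twe_hc_iota H (r x) * twe_hc_rep t y * twe_hc_iota H γ
      = ρ * twe_hc_iota H (r x) * (twe_hc_rep t y * twe_hc_iota H γ) := by simp only [mul_assoc]
    _ = ρ * twe_hc_iota H (r x * c) *
          twe_hc_rep t (t2c_act ((γ : ↥(twe_GamH M H)) : SL(2, ℤ)) y) := by
        rw [h2, map_mul]; simp only [mul_assoc]
    _ = (ρ * twe_hc_iota H (a : ↥(twe_GamH M H))) *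
          twe_hc_iota H (r ((twe_hk_data hlM H s hs).act c x)) *
          twe_hc_rep t (t2c_act ((γ : ↥(twe_GamH M H)) : SL(2, ℤ)) y) := by
        rw [h1, map_mul]; simp only [mul_assoc]
    _ = _ := by rw [hρ]; simp only [mul_assoc]

include hr hρ in
theorem m59epoq_R_sep (hκ : Function.Surjective κ) (x x' : OnePoint (ZMod l))
    (y y' : OnePoint (ZMod q)) (g : ↥(twe_GamH (M * l) H'))
    (h : ρ * twe_hc_iota H (r x) * twe_hc_rep t y =
      twe_hc_iota H' g * (ρ * twe_hc_iota H (r x') * twe_hc_rep t y')) : x = x' ∧ y = y' := by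
  obtain ⟨k, rfl⟩ := hκ g
  have h2 : ρ * (twe_hc_iota H (r x) * twe_hc_rep t y) =
      ρ * (twe_hc_iota H (k : ↥(twe_GamH M H)) * twe_hc_iota H (r x') * twe_hc_rep t y') := by
    calc ρ * (twe_hc_iota H (r x) * twe_hc_rep t y)
        = ρ * twe_hc_iota H (r x) * twe_hc_rep t y := (mul_assoc _ _ _).symm
      _ = twe_hc_iota H' (κ k) * (ρ * twe_hc_iota H (r x') * twe_hc_rep t y') := h
      _ = (twe_hc_iota H' (κ k) * ρ) * (twe_hc_iota H (r x') * twe_hc_rep t y') := by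
          simp only [mul_assoc]
      _ = (ρ * twe_hc_iota H (k : ↥(twe_GamH M H))) * (twe_hc_iota H (r x') * twe_hc_rep t y') := by
          rw [hρ]
      _ = _ := by simp only [mul_assoc]
  have h3 := mul_left_cancel h2
  have h1 : twe_hc_rep t y =
      twe_hc_iota H ((r x)⁻¹ * (k : ↥(twe_GamH M H)) * r x') * twe_hc_rep t y' := by
    rw [map_mul, map_mul, map_inv]
    calc twe_hc_rep t y = (twe_hc_iota H (r x))⁻¹ * (twe_hc_iota H (r x) * twe_hc_rep t y) := by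
          rw [inv_mul_cancel_left]
      _ = _ := by rw [h3]; simp only [mul_assoc]
  have hy : y = y' := m59epoq_rep_sep t y y' _ (by rw [← twe_hc_iota_apply]; exact h1)
  subst hy
  have h4 : twe_hc_iota H ((r x)⁻¹ * (k : ↥(twe_GamH M H)) * r x') = 1 :=
    mul_right_cancel (by rw [← h1, one_mul] : _ * twe_hc_rep t y = 1 * twe_hc_rep t y)
  have h5 : (r x)⁻¹ * (k : ↥(twe_GamH M H)) * r x' = 1 :=
    twe_hc_iota_injective H (by rw [h4, map_one])
  have h6 : r x = (k : ↥(twe_GamH M H)) * r x' := by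
    rw [mul_assoc, inv_mul_eq_one] at h5
    exact h5
  refine ⟨?_, rfl⟩
  rw [← hr x, h6, (twe_hk_data hlM H s hs).act_mul,
    (show (twe_hk_data hlM H s hs).act (k : ↥(twe_GamH M H)) x₀ = x₀ from k.2), hr]

include hr in
theorem m59epoq_S_sep
    (hS : ∀ (y y' : OnePoint (ZMod q)) (h : ↥(twe_GamH M H)) (g : ↥(twe_GamH (M * l) H')),
      twe_hc_rep t' y * ρ * twe_hc_iota H h = twe_hc_iota H' g * twe_hc_rep t' y' * ρ →
        h ∈ lrt_stab (twe_hk_data hlM H s hs) x₀)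
    (x x' : OnePoint (ZMod l)) (y y' : OnePoint (ZMod q)) (g : ↥(twe_GamH (M * l) H'))
    (h : twe_hc_rep t' y * ρ * twe_hc_iota H (r x) =
      twe_hc_iota H' g * (twe_hc_rep t' y' * ρ * twe_hc_iota H (r x'))) : x = x' ∧ y = y' := by
  have h1 : twe_hc_rep t' y * ρ * twe_hc_iota H (r x * (r x')⁻¹) =
      twe_hc_iota H' g * twe_hc_rep t' y' * ρ := by
    rw [map_mul, map_inv, ← mul_assoc, h]
    simp only [mul_assoc, mul_inv_cancel, mul_one]
  have hmem := hS y y' _ g h1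
  have hx : x = x' := by
    have h2 : r x = (r x * (r x')⁻¹) * r x' := by group
    rw [← hr x, h2, (twe_hk_data hlM H s hs).act_mul,
      (show (twe_hk_data hlM H s hs).act (r x * (r x')⁻¹) x₀ = x₀ from hmem), hr]
  subst hx
  refine ⟨rfl, ?_⟩
  rw [mul_inv_cancel, map_one, mul_one] at h1
  have h3 : twe_hc_rep t' y = twe_hc_iota H' g * twe_hc_rep t' y' := mul_right_cancel h1
  exact m59epoq_rep_sep t' y y' _ (by rw [← twe_hc_iota_apply]; exact h3)

include hr hρ hqM ht in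
theorem m59epoq_match (σ : OnePoint (ZMod q) → OnePoint (ZMod q))
    (u : OnePoint (ZMod q) → ↥(twe_GamH M H))
    (hσ : ∀ y, twe_hc_rep t' y * ρ = ρ * twe_hc_iota H (u y) * twe_hc_rep t (σ y))
    (x : OnePoint (ZMod l)) (y : OnePoint (ZMod q)) :
    ∃ (x' : OnePoint (ZMod l)) (y' : OnePoint (ZMod q)) (τ : ↥(twe_GamH (M * l) H')),
      twe_hc_rep t' y * ρ * twe_hc_iota H (r x) =
        twe_hc_iota H' τ * (ρ * twe_hc_iota H (r x') * twe_hc_rep t y') := by
  set h : ↥(twe_GamH M H) := u y * (twe_hk_data hqM H t ht).coc (σ y) (r x) with hh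
  set x' := (twe_hk_data hlM H s hs).act h x₀ with hx'
  have hmem : h * (r x')⁻¹ ∈ lrt_stab (twe_hk_data hlM H s hs) x₀ := by
    show (twe_hk_data hlM H s hs).act (h * (r x')⁻¹) x₀ = x₀
    rw [(twe_hk_data hlM H s hs).act_mul, ← hx']
    have h1 := lrt_act_inv (twe_hk_data hlM H s hs) (r x') x₀
    rwa [hr] at h1
  refine ⟨x', t2c_act (((r x : ↥(twe_GamH M H))) : SL(2, ℤ)) (σ y), κ ⟨h * (r x')⁻¹, hmem⟩, ?_⟩
  have h2 := m59epoq_rep_spec hqM H t ht (σ y) (r x)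
  have h3 := hρ ⟨h * (r x')⁻¹, hmem⟩
  have h4 : twe_hc_iota H h = twe_hc_iota H (h * (r x')⁻¹) * twe_hc_iota H (r x') := by
    rw [← map_mul, inv_mul_cancel_right]
  have h5 : twe_hc_iota H h = twe_hc_iota H (u y) *
      twe_hc_iota H ((twe_hk_data hqM H t ht).coc (σ y) (r x)) := by
    rw [hh, map_mul]
  calc twe_hc_rep t' y * ρ * twe_hc_iota H (r x)
      = ρ * twe_hc_iota H (u y) * (twe_hc_rep t (σ y) * twe_hc_iota H (r x)) := by
        rw [hσ]; simp only [mul_assoc]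
    _ = ρ * twe_hc_iota H h *
          twe_hc_rep t (t2c_act (((r x : ↥(twe_GamH M H))) : SL(2, ℤ)) (σ y)) := by
        rw [h2, h5]; simp only [mul_assoc]
    _ = (ρ * twe_hc_iota H (h * (r x')⁻¹)) * twe_hc_iota H (r x') *
          twe_hc_rep t (t2c_act (((r x : ↥(twe_GamH M H))) : SL(2, ℤ)) (σ y)) := by
        rw [h4]; simp only [mul_assoc]
    _ = _ := by
        rw [show twe_hc_iota H (h * (r x')⁻¹) =
          twe_hc_iota H ((⟨h * (r x')⁻¹, hmem⟩ : lrt_stab (twe_hk_data hlM H s hs) x₀) :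
            ↥(twe_GamH M H)) from rfl, h3]
        simp only [mul_assoc]

include hρ in
/-- **the transfer `cor ∘ κ^*` commutes with `T'_q`** (uniform statement for `at` and `bt`). -/
theorem m59epoq_cor_T (hκ : Function.Surjective κ)
    (σ : OnePoint (ZMod q) → OnePoint (ZMod q)) (u : OnePoint (ZMod q) → ↥(twe_GamH M H))
    (hσ : ∀ y, twe_hc_rep t' y * ρ = ρ * twe_hc_iota H (u y) * twe_hc_rep t (σ y))
    (hS : ∀ (y y' : OnePoint (ZMod q)) (h : ↥(twe_GamH M H)) (g : ↥(twe_GamH (M * l) H')),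
      twe_hc_rep t' y * ρ * twe_hc_iota H h = twe_hc_iota H' g * twe_hc_rep t' y' * ρ →
        h ∈ lrt_stab (twe_hk_data hlM H s hs) x₀)
    (φ : Additive ↥(twe_GamH (M * l) H') →+ A) :
    twe_hk_T hqM H t ht (lrt_cor (twe_hk_data hlM H s hs) x₀ r hr (lrm_pull κ φ)) =
      lrt_cor (twe_hk_data hlM H s hs) x₀ r hr (lrm_pull κ (twe_hk_T hqMl H' t' ht' φ)) := by
  classical
  refine lrt_ext fun γ => ?_
  -- the matching
  choose fx fy fτ hf using fun z : OnePoint (ZMod l) × OnePoint (ZMod q) =>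
    m59epoq_match hlM hqM H H' s hs t ht t' x₀ r hr κ ρ hρ σ u hσ z.1 z.2
  set ω : OnePoint (ZMod l) × OnePoint (ZMod q) → OnePoint (ZMod l) × OnePoint (ZMod q) :=
    fun z => (fx z, fy z) with hω
  have hinj : Function.Injective ω :=
    lre_match_injective (twe_hc_iota H')
      (fun z : OnePoint (ZMod l) × OnePoint (ZMod q) =>
        twe_hc_rep t' z.2 * ρ * twe_hc_iota H (r z.1))
      (fun z : OnePoint (ZMod l) × OnePoint (ZMod q) =>
        ρ * twe_hc_iota H (r z.1) * twe_hc_rep t z.2)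
      (fun z z' δ h => by
        obtain ⟨h1, h2⟩ := m59epoq_S_sep hlM H H' s hs t' x₀ r hr ρ hS z.1 z'.1 z.2 z'.2 δ h
        exact Prod.ext h1 h2) ω fτ hf
  have hbij : Function.Bijective ω := by
    rw [Fintype.bijective_iff_injective_and_card]
    exact ⟨hinj, rfl⟩
  have key := lre_sum_eq (twe_hc_iota H) (twe_hc_iota H')
    (fun z : OnePoint (ZMod l) × OnePoint (ZMod q) =>
      twe_hc_rep t' z.2 * ρ * twe_hc_iota H (r z.1))
    (fun z : OnePoint (ZMod l) × OnePoint (ZMod q) =>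
      ρ * twe_hc_iota H (r z.1) * twe_hc_rep t z.2)
    (fun γ => Equiv.prodShear (lrt_perm (twe_hk_data hlM H s hs) γ) fun x =>
      t2c_perm (((κ (lrt_a (twe_hk_data hlM H s hs) x₀ r hr x γ) :
        ↥(twe_GamH (M * l) H')) : SL(2, ℤ))))
    (fun γ z => ((twe_hk_data hlM H s hs).act ((twe_hk_data hqM H t ht).coc z.2 γ) z.1,
      t2c_act ((γ : ↥(twe_GamH M H)) : SL(2, ℤ)) z.2))
    (fun z γ => (twe_hk_data hqMl H' t' ht').coc z.2
      (κ (lrt_a (twe_hk_data hlM H s hs) x₀ r hr z.1 γ)))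
    (fun z γ => κ (lrt_a (twe_hk_data hlM H s hs) x₀ r hr z.1
      ((twe_hk_data hqM H t ht).coc z.2 γ)))
    (fun z γ => m59epoq_S_spec hlM hqMl H H' s hs t' ht' x₀ r hr κ ρ hρ z.1 z.2 γ)
    (fun z γ => m59epoq_R_spec hlM hqM H H' s hs t ht x₀ r hr κ ρ hρ z.1 z.2 γ)
    (twe_hc_iota_injective H')
    (fun z z' δ h => by
      obtain ⟨h1, h2⟩ := m59epoq_R_sep hlM H H' s hs t x₀ r hr κ ρ hρ hκ z.1 z'.1 z.2 z'.2 δ h
      exact Prod.ext h1 h2)
    ω hbij fτ hf φ γ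
  -- unfold both sides
  have hL : lrt_ev (twe_hk_T hqM H t ht
      (lrt_cor (twe_hk_data hlM H s hs) x₀ r hr (lrm_pull κ φ))) γ =
      ∑ y : OnePoint (ZMod q), ∑ x : OnePoint (ZMod l),
        lrt_ev φ (κ (lrt_a (twe_hk_data hlM H s hs) x₀ r hr x
          ((twe_hk_data hqM H t ht).coc y γ))) := by
    show twe_hk_T hqM H t ht _ (Additive.ofMul γ) = _
    rw [twe_hk_T_apply]
    rfl
  have hR : lrt_ev (lrt_cor (twe_hk_data hlM H s hs) x₀ r hr
      (lrm_pull κ (twe_hk_T hqMl H' t' ht' φ))) γ =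
      ∑ x : OnePoint (ZMod l), ∑ y : OnePoint (ZMod q),
        lrt_ev φ ((twe_hk_data hqMl H' t' ht').coc y
          (κ (lrt_a (twe_hk_data hlM H s hs) x₀ r hr x γ))) := by
    rw [lrt_cor_ev]
    rfl
  rw [hL, hR, Finset.sum_comm, ← Fintype.sum_prod_type', ← Fintype.sum_prod_type']
  exact key.symm

end corComm

end Fermat.Agent.M59
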