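/-
Project M59 (S59), block [E'] (architect helper3), cell [EP-OPS](c), part C (helper22).
Tag `m59epoq_`, namespace `Fermat.Agent.M59`.

THE STABILISER MAPS AT `Γ_H`-LEVEL.  `l ∤ M` prime, `G = Γ_H(M)`, `G' = Γ_{H'}(M l)`, where the only thing
used about `H'` is

  `hGG' : ∀ g, g ∈ Γ_{H'}(M l) ↔ g ∈ Γ_H(M) ∧ l ∣ g 1 0`        (`m59epoq_GG'`),

proved in `m59epoq_GG'_comap` for `H' = H.comap (ZMod.unitsMap _)`.  `D = twe_hk_data hlM H s hs`.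

* `m59epoq_toStabInf : G' →* Stab_D(∞)`, `m59epoq_gamInf : Stab_D(∞) →* G'` (mutually inverse);
* `m59epoq_betaH : G' →* G`, `γ ↦ D.coc ∞ γ = s · δ γ δ⁻¹ · s⁻¹` (`δ = diag(l, 1)`), with
  `ρ = twe_hc_rep s ∞` intertwining (`m59epoq_betaH_spec`);
* `m59epoq_gamZero : Stab_D(0) →* G'`, `g ↦ D.coc 0 g = s⁻¹ · δ' g δ'⁻¹ · s` (`δ' = diag(1, l)`), which
  lands in `G'` because `l ∣ s 1 0`; `ρ = twe_hc_rep s 0` intertwines (`m59epoq_gamZero_spec`);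
  both `m59epoq_gamInf` and `m59epoq_gamZero` are surjective.
-/
import Mathlib
import Fermat.Agent.TW.Aut.HeckeComm
import Fermat.Agent.LR.MTX.EquivCor

set_option autoImplicit false
set_option linter.unusedSectionVars false
set_option linter.unusedVariables false

noncomputable section

open CongruenceSubgroup Matrix.SpecialLinearGroup
open P2MW.S_ModularForm_heckeT_slash_eq_self_of_mem_Gamma0.ModularForm.HeckeSlashInvariance
open P2MW.S_ModularForm_heckeT_slash_eq_self_of_mem_Gamma0.ModularForm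
open scoped MatrixGroups OnePoint

namespace Fermat.Agent.M59

open Fermat.Agent.JT3 Fermat.Agent.LR Fermat.Agent.TW

/-- the relation between the two groups: `Γ_{H'}(M l) = Γ_H(M) ∩ Γ₀(l)`. -/
def m59epoq_GG' (M l : ℕ) (H : Subgroup (ZMod M)ˣ) (H' : Subgroup (ZMod (M * l))ˣ) : Prop :=
  ∀ g : SL(2, ℤ), g ∈ twe_GamH (M * l) H' ↔ (g ∈ twe_GamH M H ∧ (l : ℤ) ∣ g 1 0)

section comap

variable {M l : ℕ} [Fact l.Prime]

/-- `hGG'` for `H' = H.comap (ZMod.unitsMap _)`. -/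
theorem m59epoq_GG'_comap (hlM : ¬ l ∣ M) (H : Subgroup (ZMod M)ˣ) :
    m59epoq_GG' M l H (H.comap (ZMod.unitsMap (Dvd.intro l rfl : M ∣ M * l))) := by
  intro g
  have hd : ∀ (h : g ∈ Gamma0 (M * l)) (h0 : g ∈ Gamma0 M),
      ZMod.unitsMap (Dvd.intro l rfl : M ∣ M * l) (twe_dUnit (M * l) ⟨g, h⟩) =
        twe_dUnit M ⟨g, h0⟩ := by
    intro h h0
    apply Units.ext
    rw [ZMod.unitsMap_def, Units.coe_map, twe_dUnit_coe]
    show ZMod.castHom (Dvd.intro l rfl : M ∣ M * l) (ZMod M)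
      ((twe_dUnit (M * l) ⟨g, h⟩ : (ZMod (M * l))ˣ) : ZMod (M * l)) = _
    rw [twe_dUnit_coe]
    simp
  constructor
  · intro hg
    obtain ⟨h, hH⟩ := twe_mem_GamH.mp hg
    have h0 : g ∈ Gamma0 M := lrm_le M l h
    refine ⟨twe_mem_GamH.mpr ⟨h0, ?_⟩, lrm_dvd_q M ⟨g, h⟩⟩
    rw [← hd h h0]
    exact hH
  · rintro ⟨hg, hl⟩
    obtain ⟨h0, hH⟩ := twe_mem_GamH.mp hg
    have h : g ∈ Gamma0 (M * l) := lrm_mem_of_dvd_dvd hlM (t2c_dvd_of_mem h0) hl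
    refine twe_mem_GamH.mpr ⟨h, ?_⟩
    show ZMod.unitsMap (Dvd.intro l rfl : M ∣ M * l) (twe_dUnit (M * l) ⟨g, h⟩) ∈ H
    rw [hd h h0]
    exact hH

end comap

section maps

variable {M l : ℕ} [Fact l.Prime]
variable (hlM : ¬ l ∣ M) (H : Subgroup (ZMod M)ˣ) (H' : Subgroup (ZMod (M * l))ˣ)
variable (hGG' : m59epoq_GG' M l H H')
variable (s : Gamma0 M) (hs : twe_dUnit M s * twe_dUnit M s * (twe_hk_lU hlM)⁻¹ ∈ H)

include hGG' in
theorem m59epoq_le : twe_GamH (M * l) H' ≤ twe_GamH M H := fun g hg => ((hGG' g).mp hg).1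

/-! ### The base point `∞` -/

/-- `G' → Stab_D(∞)`. -/
def m59epoq_toStabInf : ↥(twe_GamH (M * l) H') →* lrt_stab (twe_hk_data hlM H s hs) ∞ where
  toFun g := ⟨⟨(g : SL(2, ℤ)), ((hGG' _).mp g.2).1⟩, (lrm_act_infty _).mpr ((hGG' _).mp g.2).2⟩
  map_one' := rfl
  map_mul' _ _ := rfl

/-- `Stab_D(∞) → G'`. -/
def m59epoq_gamInf : lrt_stab (twe_hk_data hlM H s hs) ∞ →* ↥(twe_GamH (M * l) H') where
  toFun g := ⟨((g : ↥(twe_GamH M H)) : SL(2, ℤ)),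
    (hGG' _).mpr ⟨(g : ↥(twe_GamH M H)).2, (lrm_act_infty _).mp g.2⟩⟩
  map_one' := rfl
  map_mul' _ _ := rfl

@[simp] theorem m59epoq_gamInf_coe (g : lrt_stab (twe_hk_data hlM H s hs) ∞) :
    ((m59epoq_gamInf hlM H H' hGG' s hs g : ↥(twe_GamH (M * l) H')) : SL(2, ℤ)) =
      ((g : ↥(twe_GamH M H)) : SL(2, ℤ)) := rfl

@[simp] theorem m59epoq_toStabInf_coe (g : ↥(twe_GamH (M * l) H')) :
    (((m59epoq_toStabInf hlM H H' hGG' s hs g : lrt_stab (twe_hk_data hlM H s hs) ∞) :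
      ↥(twe_GamH M H)) : SL(2, ℤ)) = (g : SL(2, ℤ)) := rfl

theorem m59epoq_gamInf_toStabInf (g : ↥(twe_GamH (M * l) H')) :
    m59epoq_gamInf hlM H H' hGG' s hs (m59epoq_toStabInf hlM H H' hGG' s hs g) = g :=
  Subtype.ext rfl

theorem m59epoq_toStabInf_gamInf (g : lrt_stab (twe_hk_data hlM H s hs) ∞) :
    m59epoq_toStabInf hlM H H' hGG' s hs (m59epoq_gamInf hlM H H' hGG' s hs g) = g :=
  Subtype.ext (Subtype.ext rfl)

theorem m59epoq_gamInf_surjective : Function.Surjective (m59epoq_gamInf hlM H H' hGG' s hs) :=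
  fun g => ⟨m59epoq_toStabInf hlM H H' hGG' s hs g, m59epoq_gamInf_toStabInf hlM H H' hGG' s hs g⟩

/-- `ρ = 1` intertwines `Stab_D(∞) ⊆ G` and `G'`. -/
theorem m59epoq_gamInf_spec (g : lrt_stab (twe_hk_data hlM H s hs) ∞) :
    (1 : GL (Fin 2) ℝ) * twe_hc_iota H (g : ↥(twe_GamH M H)) =
      twe_hc_iota H' (m59epoq_gamInf hlM H H' hGG' s hs g) * 1 := by
  rw [one_mul, mul_one]
  rfl

/-- **`β' : G' →* G`**, `γ ↦ D.coc ∞ γ = s · δ γ δ⁻¹ · s⁻¹`. -/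
def m59epoq_betaH : ↥(twe_GamH (M * l) H') →* ↥(twe_GamH M H) :=
  (lrt_beta (twe_hk_data hlM H s hs) ∞).comp (m59epoq_toStabInf hlM H H' hGG' s hs)

/-- `ρ = α'_∞ = mapGL(s) · diag(l, 1)` intertwines `G'` and `β'`. -/
theorem m59epoq_betaH_spec (g : ↥(twe_GamH (M * l) H')) :
    twe_hc_rep s (∞ : OnePoint (ZMod l)) * twe_hc_iota H' g =
      twe_hc_iota H (m59epoq_betaH hlM H H' hGG' s hs g) * twe_hc_rep s (∞ : OnePoint (ZMod l)) := by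
  have hg0 : (g : SL(2, ℤ)) ∈ twe_GamH M H := ((hGG' _).mp g.2).1
  have e := twe_hc_rep_spec hlM s (∞ : OnePoint (ZMod l))
    (twe_hk_up H ⟨(g : SL(2, ℤ)), hg0⟩)
  rw [twe_hk_up_coe] at e
  have hact : t2c_act (((⟨(g : SL(2, ℤ)), hg0⟩ : ↥(twe_GamH M H)) : SL(2, ℤ)))
      (∞ : OnePoint (ZMod l)) = ∞ :=
    (lrm_act_infty _).mpr ((hGG' _).mp g.2).2
  rw [hact] at e
  exact e

/-! ### The base point `0` -/

/-- `D.coc 0 g ∈ Γ₀(l)` for `g ∈ Stab_D(0)`, when `l ∣ s 1 0`. -/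
theorem m59epoq_coc_zero_dvd (hsl : (l : ℤ) ∣ (s : SL(2, ℤ)) 1 0)
    (g : lrt_stab (twe_hk_data hlM H s hs) ((0 : ZMod l) : OnePoint (ZMod l))) :
    (l : ℤ) ∣ ((((twe_hk_data hlM H s hs).coc ((0 : ZMod l) : OnePoint (ZMod l))
      (g : ↥(twe_GamH M H)) : ↥(twe_GamH M H)) : SL(2, ℤ))) 1 0 := by
  have hact : t2c_act (((g : ↥(twe_GamH M H)) : SL(2, ℤ))) ((0 : ZMod l) : OnePoint (ZMod l)) =
      ((0 : ZMod l) : OnePoint (ZMod l)) := g.2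
  have h := t2c_coc_spec hlM ((0 : ZMod l) : OnePoint (ZMod l)) (twe_hk_up H (g : ↥(twe_GamH M H)))
  rw [twe_hk_up_coe, hact] at h
  have e := (lrm_entries_zero h).2.2.1
  -- the matrix `s⁻¹ c s`
  show (l : ℤ) ∣ ((twe_hk_coc hlM s ((0 : ZMod l) : OnePoint (ZMod l))
    (twe_hk_up H (g : ↥(twe_GamH M H))) : Gamma0 M) : SL(2, ℤ)) 1 0
  unfold twe_hk_coc
  rw [twe_hk_up_coe, hact]
  simp only [twe_hk_sx, OnePoint.elim_some, Subgroup.coe_mul, Subgroup.coe_inv]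
  set c : SL(2, ℤ) := ((t2c_coc hlM ((0 : ZMod l) : OnePoint (ZMod l))
    (twe_hk_up H (g : ↥(twe_GamH M H))) : Gamma0 M) : SL(2, ℤ)) with hc
  have hc10 : (l : ℤ) ∣ c 1 0 := by rw [e]; exact dvd_mul_right _ _
  rw [Matrix.SpecialLinearGroup.coe_mul, Matrix.SpecialLinearGroup.coe_mul,
    Matrix.SpecialLinearGroup.SL2_inv_expl]
  simp only [Matrix.mul_apply, Fin.sum_univ_two, Matrix.cons_val_zero, Matrix.cons_val_one]
  obtain ⟨a, ha⟩ := hsl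
  obtain ⟨b, hb⟩ := hc10
  rw [ha, hb]
  exact ⟨(-(a * c 0 0) + (s : SL(2, ℤ)) 0 0 * b) * (s : SL(2, ℤ)) 0 0 +
    (-(a * c 0 1) * (l : ℤ) + (s : SL(2, ℤ)) 0 0 * c 1 1) * a, by ring⟩

/-- **`κ₀ : Stab_D(0) →* G'`**, `g ↦ D.coc 0 g = s⁻¹ · δ' g δ'⁻¹ · s`. -/
def m59epoq_gamZero (hsl : (l : ℤ) ∣ (s : SL(2, ℤ)) 1 0) :
    lrt_stab (twe_hk_data hlM H s hs) ((0 : ZMod l) : OnePoint (ZMod l)) →*
      ↥(twe_GamH (M * l) H') :=
  ((twe_GamH M H).subtype.comp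
    (lrt_beta (twe_hk_data hlM H s hs) ((0 : ZMod l) : OnePoint (ZMod l)))).codRestrict _
    fun g => (hGG' _).mpr ⟨((twe_hk_data hlM H s hs).coc _ (g : ↥(twe_GamH M H))).2,
      m59epoq_coc_zero_dvd hlM H s hs hsl g⟩

theorem m59epoq_gamZero_coe (hsl : (l : ℤ) ∣ (s : SL(2, ℤ)) 1 0)
    (g : lrt_stab (twe_hk_data hlM H s hs) ((0 : ZMod l) : OnePoint (ZMod l))) :
    ((m59epoq_gamZero hlM H H' hGG' s hs hsl g : ↥(twe_GamH (M * l) H')) : SL(2, ℤ)) =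
      (((twe_hk_data hlM H s hs).coc ((0 : ZMod l) : OnePoint (ZMod l))
        (g : ↥(twe_GamH M H)) : ↥(twe_GamH M H)) : SL(2, ℤ)) := rfl

/-- `ρ = α'_0 = mapGL(s)⁻¹ · diag(1, l)` intertwines `Stab_D(0) ⊆ G` and `κ₀`. -/
theorem m59epoq_gamZero_spec (hsl : (l : ℤ) ∣ (s : SL(2, ℤ)) 1 0)
    (g : lrt_stab (twe_hk_data hlM H s hs) ((0 : ZMod l) : OnePoint (ZMod l))) :
    twe_hc_rep s ((0 : ZMod l) : OnePoint (ZMod l)) * twe_hc_iota H (g : ↥(twe_GamH M H)) =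
      twe_hc_iota H' (m59epoq_gamZero hlM H H' hGG' s hs hsl g) *
        twe_hc_rep s ((0 : ZMod l) : OnePoint (ZMod l)) := by
  have hact : t2c_act (((g : ↥(twe_GamH M H)) : SL(2, ℤ))) ((0 : ZMod l) : OnePoint (ZMod l)) =
      ((0 : ZMod l) : OnePoint (ZMod l)) := g.2
  have e := twe_hc_rep_spec hlM s ((0 : ZMod l) : OnePoint (ZMod l))
    (twe_hk_up H (g : ↥(twe_GamH M H)))
  rw [twe_hk_up_coe, hact] at e
  exact e

end maps

end Fermat.Agent.M59
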