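/-
Project M59 (S59), block [E'] (architect helper3), cell [EP-OPS](c), part D (helper22).
Tag `m59epoq_`, namespace `Fermat.Agent.M59`.

HECKE COMMUTATION OF THE TWO TRANSFERS AT `Γ_H`-LEVEL: the instances of `m59epoq_cor_T`.

`l ∤ M`, `q ∤ M l` primes; `G = Γ_H(M)`, `G' = Γ_{H'}(M l) = G ∩ Γ₀(l)` (`hGG'`);
`D = twe_hk_data hlM H s hs`; the twists of `T'_q` at the two levels are THE SAME matrix
(`htt : (t' : SL(2, ℤ)) = t`).

* `m59epoq_corA_T` : `T'_q ∘ at = at ∘ T'_q` for `at = lrt_cor D ∞ r hr ∘ (m59epoq_gamInf)^*`;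
* `m59epoq_corB_T_nice` : `T'_q ∘ bt = bt ∘ T'_q` for `bt = lrt_cor D 0 r hr ∘ (m59epoq_gamZero)^*`, when
  `s ∈ Γ₀(M l)` (`hss'`) and `s ≡ 1` modulo `q` (`hsn`).
-/
import Mathlib
import Fermat.Agent.M59.EP.OpsHeckeA
import Fermat.Agent.M59.EP.OpsHeckeCor
import Fermat.Agent.M59.EP.OpsHeckeMaps

set_option autoImplicit false
set_option linter.unusedSectionVars false
set_option linter.unusedVariables false

noncomputable section

open CongruenceSubgroup Matrix.SpecialLinearGroup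
open P2MW.S_ModularForm_heckeT_slash_eq_self_of_mem_Gamma0.ModularForm.HeckeSlashInvariance
open P2MW.S_ModularForm_heckeT_slash_eq_self_of_mem_Gamma0.ModularForm
open scoped MatrixGroups OnePoint

namespace Fermat.Agent.M59

open Fermat.Agent.JT3 Fermat.Agent.LR Fermat.Agent.TW

/-! ### Matrix lemmas -/

section mat

variable {M l q : ℕ} [Fact l.Prime] [Fact q.Prime]

/-- `c_0(β v) = v` for `v ∈ Γ₀(M l)`. -/
theorem m59epoq_coc_zero_beta (hlM : ¬ l ∣ M) (v : Gamma0 (M * l)) :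
    ((t2c_coc hlM ((0 : ZMod l) : OnePoint (ZMod l)) (lrm_beta hlM v) : Gamma0 M) : SL(2, ℤ)) =
      (v : SL(2, ℤ)) := by
  obtain ⟨a, ha⟩ := lre_gamZero_surjective hlM v
  have h1 : lrm_beta hlM v = (a : Gamma0 M) := by
    rw [← ha, lrm_beta_gamZero]
  rw [h1, ← lrm_gamZero_coe, ha]

/-- `v · δ' = δ' · β(v)` for `v ∈ Γ₀(M l)`, `δ' = diag(1, l)`. -/
theorem m59epoq_delta0_beta (hlM : ¬ l ∣ M) (v : Gamma0 (M * l)) :
    t2k_iota (M * l) v * heckeRep l ((0 : ZMod l) : OnePoint (ZMod l)) =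
      heckeRep l ((0 : ZMod l) : OnePoint (ZMod l)) * t2k_iota M (lrm_beta hlM v) := by
  have h := t2c_coc_spec hlM ((0 : ZMod l) : OnePoint (ZMod l)) (lrm_beta hlM v)
  rw [(show t2c_act ((lrm_beta hlM v : Gamma0 M) : SL(2, ℤ)) ((0 : ZMod l) : OnePoint (ZMod l)) = _
    from lre_beta_mem_stab_zero hlM v), m59epoq_coc_zero_beta hlM v] at h
  rw [t2k_iota_apply, t2k_iota_apply]
  exact h.symm

/-- `d(β v) = d(v)` modulo `M`. -/
theorem m59epoq_dUnit_beta (hlM : ¬ l ∣ M) (v : Gamma0 (M * l)) :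
    twe_dUnit M (lrm_beta hlM v) = twe_dUnit M (lrm_incl M l v) := by
  apply Units.ext
  rw [twe_dUnit_coe, twe_dUnit_coe, (lrm_beta_entries hlM v).2.2.2]
  rfl

/-- `α_y δ' = δ' · (translation) · α_{l y}`, and `y ↦ l y` preserves `∞`. -/
theorem m59epoq_hsigma_zero (M : ℕ) (y : OnePoint (ZMod q)) :
    ∃ (y'' : OnePoint (ZMod q)) (m : ℤ),
      heckeRep q y * heckeRep l ((0 : ZMod l) : OnePoint (ZMod l)) =
        heckeRep l ((0 : ZMod l) : OnePoint (ZMod l)) *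
          t2k_iota M ⟨t2k_trans m, t2k_trans_mem M m⟩ * heckeRep q y'' ∧
      (y = ∞ ↔ y'' = ∞) := by
  have hq : q.Prime := Fact.out
  have hq0 : q ≠ 0 := hq.ne_zero
  have hl0 : l ≠ 0 := (Fact.out : l.Prime).ne_zero
  obtain ⟨y'', m, h1, h2, h3⟩ := lre_exists_qmul (l := q) (q := l) y
  refine ⟨y'', m, ?_, ?_⟩
  · have h3' : (l : ℝ) * (t2k_b q y : ℝ) = (t2k_b q y'' : ℝ) + (m : ℝ) * (t2k_d q y : ℝ) := by
      exact_mod_cast h3
    apply Matrix.GeneralLinearGroup.ext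
    intro i j
    rw [t2k_iota_apply]
    simp only [Matrix.GeneralLinearGroup.coe_mul, t2k_val_heckeRep hq0, t2k_val_heckeRep hl0,
      Matrix.mul_apply, Fin.sum_univ_two]
    fin_cases i <;> fin_cases j <;>
      simp [t2k_trans_00, t2k_trans_01, t2k_trans_10, t2k_trans_11, h1, h2]
    · linarith
    · ring
  · induction y using OnePoint.rec with
    | infty =>
      induction y'' using OnePoint.rec with
      | infty => simp
      | coe j' =>
        exfalso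
        simp only [t2k_a_infty, t2k_a_coe] at h1
        exact hq.one_lt.ne' h1.symm
    | coe j =>
      induction y'' using OnePoint.rec with
      | infty =>
        exfalso
        simp only [t2k_a_infty, t2k_a_coe] at h1
        exact hq.one_lt.ne' h1
      | coe j' => simp

/-- moving a nice element of `Γ₀(M l)` across `α_y`. -/
theorem m59epoq_rep_nice (hqMl : ¬ q ∣ M * l) (s' : Gamma0 (M * l))
    (hsn : twe_hc_Nice q (s' : SL(2, ℤ))) (y : OnePoint (ZMod q)) :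
    heckeRep q y * (t2k_iota (M * l) s')⁻¹ =
      t2k_iota (M * l) (t2c_coc hqMl y s'⁻¹) * heckeRep q y := by
  have h := t2c_coc_spec hqMl y s'⁻¹
  have hact : t2c_act (((s'⁻¹ : Gamma0 (M * l))) : SL(2, ℤ)) y = y := by
    rw [Subgroup.coe_inv]
    exact twe_hc_nice_act (twe_hc_nice_inv hsn) y
  rw [hact, Subgroup.coe_inv, map_inv] at h
  rw [t2k_iota_apply, t2k_iota_apply]
  exact h

end mat

/-! ### The transfer at `∞` -/

section corA

variable {M l q : ℕ} [Fact l.Prime] [Fact q.Prime] {A : Type*} [AddCommGroup A]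
variable (hlM : ¬ l ∣ M) (hqM : ¬ q ∣ M) (hqMl : ¬ q ∣ M * l)
variable (H : Subgroup (ZMod M)ˣ) (H' : Subgroup (ZMod (M * l))ˣ) (hGG' : m59epoq_GG' M l H H')
variable (s : Gamma0 M) (hs : twe_dUnit M s * twe_dUnit M s * (twe_hk_lU hlM)⁻¹ ∈ H)
variable (t : Gamma0 M) (ht : twe_dUnit M t * twe_dUnit M t * (twe_hk_lU hqM)⁻¹ ∈ H)
variable (t' : Gamma0 (M * l))
  (ht' : twe_dUnit (M * l) t' * twe_dUnit (M * l) t' * (twe_hk_lU hqMl)⁻¹ ∈ H')
variable (htt : (t' : SL(2, ℤ)) = (t : SL(2, ℤ)))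

include htt in
theorem m59epoq_rep_level (y : OnePoint (ZMod q)) : twe_hc_rep t' y = twe_hc_rep t y := by
  unfold twe_hc_rep
  rw [m59epoq_sx_level t t' htt]

include htt in
/-- **(c-c)** `T'_q ∘ at = at ∘ T'_q`. -/
theorem m59epoq_corA_T (r : OnePoint (ZMod l) → ↥(twe_GamH M H))
    (hr : ∀ x, (twe_hk_data hlM H s hs).act (r x) ∞ = x)
    (φ : Additive ↥(twe_GamH (M * l) H') →+ A) :
    twe_hk_T hqM H t ht (lrt_cor (twe_hk_data hlM H s hs) ∞ r hr
        (lrm_pull (m59epoq_gamInf hlM H H' hGG' s hs) φ)) =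
      lrt_cor (twe_hk_data hlM H s hs) ∞ r hr
        (lrm_pull (m59epoq_gamInf hlM H H' hGG' s hs) (twe_hk_T hqMl H' t' ht' φ)) := by
  refine m59epoq_cor_T hlM hqM hqMl H H' s hs t ht t' ht' ∞ r hr
    (m59epoq_gamInf hlM H H' hGG' s hs) 1 (m59epoq_gamInf_spec hlM H H' hGG' s hs)
    (m59epoq_gamInf_surjective hlM H H' hGG' s hs) id (fun _ => 1) ?_ ?_ φ
  · intro y
    rw [map_one, mul_one, one_mul, one_mul, m59epoq_rep_level t t' htt]
    rfl
  · intro y y' h g e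
    show t2c_act ((h : ↥(twe_GamH M H)) : SL(2, ℤ)) (∞ : OnePoint (ZMod l)) = ∞
    rw [lrm_act_infty]
    have hg0 : (g : SL(2, ℤ)) ∈ Gamma0 (M * l) := twe_GamH_le _ _ g.2
    refine lre_hS_infty (l := q) (q := l) (N := M) hqMl y y' (twe_hk_up H h)
      (twe_hk_sx t' y * ⟨(g : SL(2, ℤ)), hg0⟩ * (twe_hk_sx t' y')⁻¹) ?_
    rw [mul_one, mul_one] at e ⊢
    unfold twe_hc_rep at e
    rw [t2k_iota_apply, t2k_iota_apply, twe_hk_up_coe]
    simp only [Subgroup.coe_mul, Subgroup.coe_inv, map_mul, map_inv]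
    rw [twe_hc_iota_apply, twe_hc_iota_apply] at e
    calc heckeRep q y * mapGL ℝ ((h : ↥(twe_GamH M H)) : SL(2, ℤ))
        = mapGL ℝ ((twe_hk_sx t' y : Gamma0 (M * l)) : SL(2, ℤ)) *
            ((mapGL ℝ ((twe_hk_sx t' y : Gamma0 (M * l)) : SL(2, ℤ)))⁻¹ * heckeRep q y *
              mapGL ℝ ((h : ↥(twe_GamH M H)) : SL(2, ℤ))) := by group
      _ = _ := by rw [e]; group

end corA

/-! ### The transfer at `0` -/

section corB

variable {M l q : ℕ} [Fact l.Prime] [Fact q.Prime] {A : Type*} [AddCommGroup A]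
variable (hlM : ¬ l ∣ M) (hqM : ¬ q ∣ M) (hqMl : ¬ q ∣ M * l)
variable (H : Subgroup (ZMod M)ˣ) (H' : Subgroup (ZMod (M * l))ˣ) (hGG' : m59epoq_GG' M l H H')
variable (s : Gamma0 M) (hs : twe_dUnit M s * twe_dUnit M s * (twe_hk_lU hlM)⁻¹ ∈ H)
variable (s' : Gamma0 (M * l)) (hss' : (s' : SL(2, ℤ)) = (s : SL(2, ℤ)))

include hss' in
theorem m59epoq_hsl : (l : ℤ) ∣ (s : SL(2, ℤ)) 1 0 := by
  rw [← hss']
  exact lrm_dvd_q M s'

include hss' in
/-- `κ₀` is surjective. -/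
theorem m59epoq_gamZero_surjective :
    Function.Surjective (m59epoq_gamZero hlM H H' hGG' s hs (m59epoq_hsl s s' hss')) := by
  intro g'
  have hg0 : (g' : SL(2, ℤ)) ∈ Gamma0 (M * l) := twe_GamH_le _ _ g'.2
  -- `w = s g' s⁻¹ ∈ Γ₀(M l)`
  set w : Gamma0 (M * l) := s' * ⟨(g' : SL(2, ℤ)), hg0⟩ * s'⁻¹ with hw
  have hwG : ((lrm_beta hlM w : Gamma0 M) : SL(2, ℤ)) ∈ twe_GamH M H := by
    refine twe_mem_GamH.mpr ⟨(lrm_beta hlM w).2, ?_⟩
    have h4 : (⟨((lrm_beta hlM w : Gamma0 M) : SL(2, ℤ)), (lrm_beta hlM w).2⟩ : Gamma0 M) =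
        lrm_beta hlM w := rfl
    rw [h4, m59epoq_dUnit_beta hlM w, hw]
    simp only [map_mul, map_inv]
    rw [mul_comm (twe_dUnit M (lrm_incl M l s')), mul_assoc, mul_inv_cancel, mul_one]
    obtain ⟨h1, h2⟩ := twe_mem_GamH.mp ((hGG' _).mp g'.2).1
    exact h2
  have hstab : (⟨_, hwG⟩ : ↥(twe_GamH M H)) ∈
      lrt_stab (twe_hk_data hlM H s hs) ((0 : ZMod l) : OnePoint (ZMod l)) :=
    lre_beta_mem_stab_zero hlM w
  refine ⟨⟨⟨_, hwG⟩, hstab⟩, ?_⟩
  apply Subtype.ext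
  rw [m59epoq_gamZero_coe]
  show ((twe_hk_coc hlM s ((0 : ZMod l) : OnePoint (ZMod l))
    (twe_hk_up H ⟨_, hwG⟩) : Gamma0 M) : SL(2, ℤ)) = (g' : SL(2, ℤ))
  have hup : twe_hk_up H ⟨_, hwG⟩ = lrm_beta hlM w := rfl
  have hact : t2c_act ((lrm_beta hlM w : Gamma0 M) : SL(2, ℤ))
      ((0 : ZMod l) : OnePoint (ZMod l)) = ((0 : ZMod l) : OnePoint (ZMod l)) :=
    lre_beta_mem_stab_zero hlM w
  unfold twe_hk_coc
  rw [hup, hact]
  simp only [twe_hk_sx, OnePoint.elim_some, Subgroup.coe_mul, Subgroup.coe_inv]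
  rw [m59epoq_coc_zero_beta hlM w, hw]
  simp only [Subgroup.coe_mul, Subgroup.coe_inv]
  rw [hss']
  group

variable (t : Gamma0 M) (ht : twe_dUnit M t * twe_dUnit M t * (twe_hk_lU hqM)⁻¹ ∈ H)
variable (t' : Gamma0 (M * l))
  (ht' : twe_dUnit (M * l) t' * twe_dUnit (M * l) t' * (twe_hk_lU hqMl)⁻¹ ∈ H')
variable (htt : (t' : SL(2, ℤ)) = (t : SL(2, ℤ)))
variable (hsn : twe_hc_Nice q (s : SL(2, ℤ)))

/-- the element `v_y = s · t_y⁻¹ · c_y(s⁻¹) ∈ Γ₀(M l)`. -/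
def m59epoq_v (y : OnePoint (ZMod q)) : Gamma0 (M * l) :=
  s' * (twe_hk_sx t' y)⁻¹ * t2c_coc hqMl y s'⁻¹

include hqM hss' htt hsn in
/-- `d(v_y) = d(t_y)⁻¹` modulo `M`. -/
theorem m59epoq_dUnit_v_nice (y : OnePoint (ZMod q)) :
    twe_dUnit M (lrm_incl M l (m59epoq_v hqMl s' t' y)) = (twe_dUnit M (twe_hk_sx t y))⁻¹ := by
  have h1 : lrm_incl M l s' = s := Subtype.ext hss'
  have h2 : lrm_incl M l (twe_hk_sx t' y) = twe_hk_sx t y :=
    Subtype.ext (m59epoq_sx_level t t' htt y)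
  have h3 : lrm_incl M l (t2c_coc hqMl y s'⁻¹) = t2c_coc hqM y s⁻¹ := by
    rw [← lre_coc_incl hqM hqMl, map_inv, h1]
  have hact : t2c_act (((s⁻¹ : Gamma0 M)) : SL(2, ℤ)) y = y := by
    rw [Subgroup.coe_inv]
    exact twe_hc_nice_act (twe_hc_nice_inv hsn) y
  unfold m59epoq_v
  simp only [map_mul, map_inv]
  rw [h1, h2, h3, twe_hk_dUnit_coc, hact, map_inv]
  rw [mul_comm (twe_hk_eU hqM y), mul_assoc ((twe_dUnit M) s)⁻¹, mul_inv_cancel, mul_one,
    mul_comm ((twe_dUnit M) s), mul_assoc, mul_inv_cancel, mul_one]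

include hss' htt hsn in
/-- **(c-d)** `T'_q ∘ bt = bt ∘ T'_q`. -/
theorem m59epoq_corB_T_nice (r : OnePoint (ZMod l) → ↥(twe_GamH M H))
    (hr : ∀ x, (twe_hk_data hlM H s hs).act (r x) ((0 : ZMod l) : OnePoint (ZMod l)) = x)
    (φ : Additive ↥(twe_GamH (M * l) H') →+ A) :
    twe_hk_T hqM H t ht (lrt_cor (twe_hk_data hlM H s hs) ((0 : ZMod l) : OnePoint (ZMod l)) r hr
        (lrm_pull (m59epoq_gamZero hlM H H' hGG' s hs (m59epoq_hsl s s' hss')) φ)) =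
      lrt_cor (twe_hk_data hlM H s hs) ((0 : ZMod l) : OnePoint (ZMod l)) r hr
        (lrm_pull (m59epoq_gamZero hlM H H' hGG' s hs (m59epoq_hsl s s' hss'))
          (twe_hk_T hqMl H' t' ht' φ)) := by
  classical
  have hsn' : twe_hc_Nice q (s' : SL(2, ℤ)) := by rw [hss']; exact hsn
  choose σ m hσm hσinf using fun y : OnePoint (ZMod q) => m59epoq_hsigma_zero (l := l) M y
  -- the elements `u_y`
  set u₀ : OnePoint (ZMod q) → Gamma0 M := fun y =>
    lrm_beta hlM (m59epoq_v hqMl s' t' y) * ⟨t2k_trans (m y), t2k_trans_mem M (m y)⟩ *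
      twe_hk_sx t (σ y) with hu₀
  have hu₀mem : ∀ y, ((u₀ y : Gamma0 M) : SL(2, ℤ)) ∈ twe_GamH M H := by
    intro y
    refine twe_mem_GamH.mpr ⟨(u₀ y).2, ?_⟩
    have h4 : (⟨((u₀ y : Gamma0 M) : SL(2, ℤ)), (u₀ y).2⟩ : Gamma0 M) = u₀ y := rfl
    have htr : twe_dUnit M ⟨t2k_trans (m y), t2k_trans_mem M (m y)⟩ = 1 := by
      apply Units.ext
      rw [twe_dUnit_coe]
      show (((t2k_trans (m y)) 1 1 : ℤ) : ZMod M) = ((1 : (ZMod M)ˣ) : ZMod M)
      rw [t2k_trans_11]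
      simp
    have hd : twe_dUnit M (u₀ y) = 1 := by
      rw [hu₀]
      simp only [map_mul]
      rw [m59epoq_dUnit_beta hlM, m59epoq_dUnit_v_nice hqM hqMl s s' hss' t t' htt hsn y, htr, mul_one,
        ← twe_hc_sx_congr t (hσinf y), inv_mul_cancel]
    rw [h4, hd]
    exact one_mem H
  set u : OnePoint (ZMod q) → ↥(twe_GamH M H) := fun y => ⟨_, hu₀mem y⟩ with hu
  -- the three matrix identities
  have hρ0 : twe_hc_rep s ((0 : ZMod l) : OnePoint (ZMod l)) =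
      (t2k_iota (M * l) s')⁻¹ * heckeRep l ((0 : ZMod l) : OnePoint (ZMod l)) := by
    unfold twe_hc_rep
    rw [t2k_iota_apply, hss']
    rfl
  refine m59epoq_cor_T hlM hqM hqMl H H' s hs t ht t' ht' _ r hr
    (m59epoq_gamZero hlM H H' hGG' s hs (m59epoq_hsl s s' hss'))
    (twe_hc_rep s ((0 : ZMod l) : OnePoint (ZMod l)))
    (m59epoq_gamZero_spec hlM H H' hGG' s hs (m59epoq_hsl s s' hss'))
    (m59epoq_gamZero_surjective hlM H H' hGG' s hs s' hss') σ u ?_ ?_ φ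
  · -- the matching
    intro y
    have hA := m59epoq_rep_nice hqMl s' hsn' y
    have hB := hσm y
    have hC := m59epoq_delta0_beta hlM (m59epoq_v hqMl s' t' y)
    have hv : t2k_iota (M * l) (m59epoq_v hqMl s' t' y) =
        t2k_iota (M * l) s' * (t2k_iota (M * l) (twe_hk_sx t' y))⁻¹ *
          t2k_iota (M * l) (t2c_coc hqMl y s'⁻¹) := by
      unfold m59epoq_v
      rw [map_mul, map_mul, map_inv]
    have hu1 : twe_hc_iota H (u y) =
        t2k_iota M (lrm_beta hlM (m59epoq_v hqMl s' t' y)) *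
          t2k_iota M ⟨t2k_trans (m y), t2k_trans_mem M (m y)⟩ *
            t2k_iota M (twe_hk_sx t (σ y)) := by
      rw [← map_mul, ← map_mul]
      rfl
    have hL : twe_hc_rep t' y = (t2k_iota (M * l) (twe_hk_sx t' y))⁻¹ * heckeRep q y := rfl
    have hR : twe_hc_rep t (σ y) = (t2k_iota M (twe_hk_sx t (σ y)))⁻¹ * heckeRep q (σ y) := rfl
    rw [hρ0, hu1, hL, hR]
    calc (t2k_iota (M * l) (twe_hk_sx t' y))⁻¹ * heckeRep q y *
          ((t2k_iota (M * l) s')⁻¹ * heckeRep l ((0 : ZMod l) : OnePoint (ZMod l)))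
        = (t2k_iota (M * l) (twe_hk_sx t' y))⁻¹ * (heckeRep q y * (t2k_iota (M * l) s')⁻¹) *
            heckeRep l ((0 : ZMod l) : OnePoint (ZMod l)) := by simp only [mul_assoc]
      _ = (t2k_iota (M * l) (twe_hk_sx t' y))⁻¹ * t2k_iota (M * l) (t2c_coc hqMl y s'⁻¹) *
            (heckeRep q y * heckeRep l ((0 : ZMod l) : OnePoint (ZMod l))) := by
          rw [hA]; simp only [mul_assoc]
      _ = (t2k_iota (M * l) s')⁻¹ * (t2k_iota (M * l) (m59epoq_v hqMl s' t' y) *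
            heckeRep l ((0 : ZMod l) : OnePoint (ZMod l))) *
              t2k_iota M ⟨t2k_trans (m y), t2k_trans_mem M (m y)⟩ * heckeRep q (σ y) := by
          rw [hB, hv]; group
      _ = _ := by rw [hC]; group
  · -- the entry condition
    intro y y' h g e
    show t2c_act ((h : ↥(twe_GamH M H)) : SL(2, ℤ)) ((0 : ZMod l) : OnePoint (ZMod l)) = _
    rw [lrm_act_zero]
    have hg0 : (g : SL(2, ℤ)) ∈ Gamma0 (M * l) := twe_GamH_le _ _ g.2
    refine lre_hS_zero (l := q) (q := l) (N := M) hqMl y y' (twe_hk_up H h)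
      ((t2c_coc hqMl y s'⁻¹)⁻¹ * twe_hk_sx t' y * ⟨(g : SL(2, ℤ)), hg0⟩ * (twe_hk_sx t' y')⁻¹ *
        t2c_coc hqMl y' s'⁻¹) ?_
    have hA := m59epoq_rep_nice hqMl s' hsn' y
    have hA' := m59epoq_rep_nice hqMl s' hsn' y'
    have hL : twe_hc_rep t' y = (t2k_iota (M * l) (twe_hk_sx t' y))⁻¹ * heckeRep q y := rfl
    have hL' : twe_hc_rep t' y' = (t2k_iota (M * l) (twe_hk_sx t' y'))⁻¹ * heckeRep q y' := rfl
    have hg1 : twe_hc_iota H' g = t2k_iota (M * l) ⟨(g : SL(2, ℤ)), hg0⟩ := rfl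
    have hh1 : twe_hc_iota H h = t2k_iota M (twe_hk_up H h) := rfl
    rw [hρ0, hL, hL', hg1, hh1] at e
    simp only [map_mul, map_inv]
    -- move the nice element across on both sides
    have e1 : (t2k_iota (M * l) (twe_hk_sx t' y))⁻¹ * t2k_iota (M * l) (t2c_coc hqMl y s'⁻¹) *
        (heckeRep q y * heckeRep l ((0 : ZMod l) : OnePoint (ZMod l)) *
          t2k_iota M (twe_hk_up H h)) =
        t2k_iota (M * l) ⟨(g : SL(2, ℤ)), hg0⟩ * (t2k_iota (M * l) (twe_hk_sx t' y'))⁻¹ *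
          t2k_iota (M * l) (t2c_coc hqMl y' s'⁻¹) *
            (heckeRep q y' * heckeRep l ((0 : ZMod l) : OnePoint (ZMod l))) := by
      calc (t2k_iota (M * l) (twe_hk_sx t' y))⁻¹ * t2k_iota (M * l) (t2c_coc hqMl y s'⁻¹) *
            (heckeRep q y * heckeRep l ((0 : ZMod l) : OnePoint (ZMod l)) *
              t2k_iota M (twe_hk_up H h))
          = (t2k_iota (M * l) (twe_hk_sx t' y))⁻¹ *
              (t2k_iota (M * l) (t2c_coc hqMl y s'⁻¹) * heckeRep q y) *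
                heckeRep l ((0 : ZMod l) : OnePoint (ZMod l)) * t2k_iota M (twe_hk_up H h) := by
            simp only [mul_assoc]
        _ = (t2k_iota (M * l) (twe_hk_sx t' y))⁻¹ * heckeRep q y *
              ((t2k_iota (M * l) s')⁻¹ * heckeRep l ((0 : ZMod l) : OnePoint (ZMod l))) *
                t2k_iota M (twe_hk_up H h) := by
            rw [← hA]; simp only [mul_assoc]
        _ = t2k_iota (M * l) ⟨(g : SL(2, ℤ)), hg0⟩ *
              ((t2k_iota (M * l) (twe_hk_sx t' y'))⁻¹ * heckeRep q y') *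
                ((t2k_iota (M * l) s')⁻¹ * heckeRep l ((0 : ZMod l) : OnePoint (ZMod l))) := e
        _ = t2k_iota (M * l) ⟨(g : SL(2, ℤ)), hg0⟩ * (t2k_iota (M * l) (twe_hk_sx t' y'))⁻¹ *
              (heckeRep q y' * (t2k_iota (M * l) s')⁻¹) *
                heckeRep l ((0 : ZMod l) : OnePoint (ZMod l)) := by simp only [mul_assoc]
        _ = _ := by rw [hA']; simp only [mul_assoc]
    calc heckeRep q y * heckeRep l ((0 : ZMod l) : OnePoint (ZMod l)) * t2k_iota M (twe_hk_up H h)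
        = (t2k_iota (M * l) (t2c_coc hqMl y s'⁻¹))⁻¹ * t2k_iota (M * l) (twe_hk_sx t' y) *
            ((t2k_iota (M * l) (twe_hk_sx t' y))⁻¹ * t2k_iota (M * l) (t2c_coc hqMl y s'⁻¹) *
              (heckeRep q y * heckeRep l ((0 : ZMod l) : OnePoint (ZMod l)) *
                t2k_iota M (twe_hk_up H h))) := by group
      _ = _ := by rw [e1]; group

end corB

end Fermat.Agent.M59
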