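/-
Project M59 (S59), block [E'] (architect helper3), cell [EP-OPS](c) (helper22).
Tag `m59epoq_`, namespace `Fermat.Agent.M59`.

`T'_q ∘ Bt = Bt ∘ T'_q` FOR helper3's CONSTANT `m59epo_Bt` (`OpsDef.lean`) AND `m59epo_lBt` (`OpsLin.lean`).

* `m59epoq_corB_T` : the instance of `m59epoq_cor_T` at the base point `0` WITHOUT the hypothesis
  `s ≡ 1` modulo `q` of `m59epoq_corB_T`: the matching is `σ y = l · (y ⋆ s⁻¹)` and the connecting
  elements `u_y` have `d`-class `f(y) f(y ⋆ s⁻¹)⁻¹ ∈ H` (`twe_hk_f_div_mem`);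
* `m59epoq_pull_om` : `m59epo_om^* ∘ m59epo_ofStab^* = (m59epoq_gamZero)^*`;
* **`m59epoq_Bt_T`**, **`m59epoq_lBt_T`** : the statements for `m59epo_Bt`, `m59epo_lBt`, binders as in
  helper8's `m59epoq_At_T` (`t₁ ∈ Γ₀(M l)`, `t = lrm_incl M l t₁`; NO niceness of `t₁` needed).
-/
import Mathlib
import Fermat.Agent.M59.EP.OpsLin
import Fermat.Agent.M59.EP.OpsDia
import Fermat.Agent.M59.EP.OpsHeckeCorInst

set_option autoImplicit false
set_option linter.unusedSectionVars false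
set_option linter.unusedVariables false

noncomputable section

open CongruenceSubgroup Matrix.SpecialLinearGroup
open P2MW.S_ModularForm_heckeT_slash_eq_self_of_mem_Gamma0.ModularForm.HeckeSlashInvariance
open P2MW.S_ModularForm_heckeT_slash_eq_self_of_mem_Gamma0.ModularForm
open scoped MatrixGroups OnePoint

namespace Fermat.Agent.M59

open Fermat.Agent.JT3 Fermat.Agent.LR Fermat.Agent.TW

section corB

variable {M l q : ℕ} [Fact l.Prime] [Fact q.Prime] {A : Type*} [AddCommGroup A]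
variable (hlM : ¬ l ∣ M) (hqM : ¬ q ∣ M) (hqMl : ¬ q ∣ M * l)
variable (H : Subgroup (ZMod M)ˣ) (H' : Subgroup (ZMod (M * l))ˣ) (hGG' : m59epoq_GG' M l H H')
variable (s : Gamma0 M) (hs : twe_dUnit M s * twe_dUnit M s * (twe_hk_lU hlM)⁻¹ ∈ H)
variable (s' : Gamma0 (M * l)) (hss' : (s' : SL(2, ℤ)) = (s : SL(2, ℤ)))
variable (t : Gamma0 M) (ht : twe_dUnit M t * twe_dUnit M t * (twe_hk_lU hqM)⁻¹ ∈ H)
variable (t' : Gamma0 (M * l))
  (ht' : twe_dUnit (M * l) t' * twe_dUnit (M * l) t' * (twe_hk_lU hqMl)⁻¹ ∈ H')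
variable (htt : (t' : SL(2, ℤ)) = (t : SL(2, ℤ)))

/-- moving an element of `Γ₀(M l)` across `α_y`. -/
theorem m59epoq_rep_move (y : OnePoint (ZMod q)) :
    heckeRep q y * (t2k_iota (M * l) s')⁻¹ =
      t2k_iota (M * l) (t2c_coc hqMl y s'⁻¹) *
        heckeRep q (t2c_act (((s'⁻¹ : Gamma0 (M * l))) : SL(2, ℤ)) y) := by
  have h := t2c_coc_spec hqMl y s'⁻¹
  rw [t2k_iota_apply, t2k_iota_apply, ← map_inv, ← Subgroup.coe_inv]
  exact h

include hqM hss' htt in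
/-- `d(v_y) = d(t_y)⁻¹ e(y) e(y ⋆ s⁻¹)⁻¹` modulo `M`. -/
theorem m59epoq_dUnit_v (y : OnePoint (ZMod q)) :
    twe_dUnit M (lrm_incl M l (m59epoq_v hqMl s' t' y)) =
      (twe_dUnit M (twe_hk_sx t y))⁻¹ * twe_hk_eU hqM y *
        (twe_hk_eU hqM (t2c_act (((s'⁻¹ : Gamma0 (M * l))) : SL(2, ℤ)) y))⁻¹ := by
  have h1 : lrm_incl M l s' = s := Subtype.ext hss'
  have h2 : lrm_incl M l (twe_hk_sx t' y) = twe_hk_sx t y :=
    Subtype.ext (m59epoq_sx_level t t' htt y)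
  have h3 : lrm_incl M l (t2c_coc hqMl y s'⁻¹) = t2c_coc hqM y s⁻¹ := by
    rw [← lre_coc_incl hqM hqMl, map_inv, h1]
  have hact : t2c_act (((s'⁻¹ : Gamma0 (M * l))) : SL(2, ℤ)) y =
      t2c_act (((s⁻¹ : Gamma0 M)) : SL(2, ℤ)) y := by
    rw [Subgroup.coe_inv, Subgroup.coe_inv, hss']
  unfold m59epoq_v
  simp only [map_mul, map_inv]
  rw [h1, h2, h3, twe_hk_dUnit_coc, hact, map_inv]
  set a := twe_dUnit M s
  set b := twe_dUnit M (twe_hk_sx t y)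
  set c := twe_hk_eU hqM y
  set d := twe_hk_eU hqM (t2c_act (((s⁻¹ : Gamma0 M)) : SL(2, ℤ)) y)
  calc a * b⁻¹ * (c * a⁻¹ * d⁻¹) = (a * a⁻¹) * (b⁻¹ * c * d⁻¹) := by
        simp only [mul_assoc, mul_comm, mul_left_comm]
    _ = b⁻¹ * c * d⁻¹ := by rw [mul_inv_cancel, one_mul]

include hss' htt in
/-- **`T'_q ∘ bt = bt ∘ T'_q`** at the base point `0`, for ANY `s ∈ Γ₀(M l)`. -/
theorem m59epoq_corB_T (r : OnePoint (ZMod l) → ↥(twe_GamH M H))
    (hr : ∀ x, (twe_hk_data hlM H s hs).act (r x) ((0 : ZMod l) : OnePoint (ZMod l)) = x)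
    (φ : Additive ↥(twe_GamH (M * l) H') →+ A) :
    twe_hk_T hqM H t ht (lrt_cor (twe_hk_data hlM H s hs) ((0 : ZMod l) : OnePoint (ZMod l)) r hr
        (lrm_pull (m59epoq_gamZero hlM H H' hGG' s hs (m59epoq_hsl s s' hss')) φ)) =
      lrt_cor (twe_hk_data hlM H s hs) ((0 : ZMod l) : OnePoint (ZMod l)) r hr
        (lrm_pull (m59epoq_gamZero hlM H H' hGG' s hs (m59epoq_hsl s s' hss'))
          (twe_hk_T hqMl H' t' ht' φ)) := by
  classical
  choose σ₀ m₀ hσm hσinf using fun y : OnePoint (ZMod q) => m59epoq_hsigma_zero (l := l) M y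
  -- `y₁ = y ⋆ s⁻¹`
  set y₁ : OnePoint (ZMod q) → OnePoint (ZMod q) :=
    fun y => t2c_act (((s'⁻¹ : Gamma0 (M * l))) : SL(2, ℤ)) y with hy₁
  set σ : OnePoint (ZMod q) → OnePoint (ZMod q) := fun y => σ₀ (y₁ y) with hσ
  -- the elements `u_y`
  set u₀ : OnePoint (ZMod q) → Gamma0 M := fun y =>
    lrm_beta hlM (m59epoq_v hqMl s' t' y) *
      ⟨t2k_trans (m₀ (y₁ y)), t2k_trans_mem M (m₀ (y₁ y))⟩ * twe_hk_sx t (σ y) with hu₀
  have hu₀mem : ∀ y, ((u₀ y : Gamma0 M) : SL(2, ℤ)) ∈ twe_GamH M H := by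
    intro y
    refine twe_mem_GamH.mpr ⟨(u₀ y).2, ?_⟩
    have h4 : (⟨((u₀ y : Gamma0 M) : SL(2, ℤ)), (u₀ y).2⟩ : Gamma0 M) = u₀ y := rfl
    have htr : twe_dUnit M ⟨t2k_trans (m₀ (y₁ y)), t2k_trans_mem M (m₀ (y₁ y))⟩ = 1 := by
      apply Units.ext
      rw [twe_dUnit_coe]
      show (((t2k_trans (m₀ (y₁ y))) 1 1 : ℤ) : ZMod M) = ((1 : (ZMod M)ˣ) : ZMod M)
      rw [t2k_trans_11]
      simp
    have hd : twe_dUnit M (u₀ y) =
        twe_hk_f hqM t y * (twe_hk_f hqM t (y₁ y))⁻¹ := by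
      rw [hu₀]
      simp only [map_mul]
      have hdv : twe_dUnit M (lrm_incl M l (m59epoq_v hqMl s' t' y)) =
          (twe_dUnit M (twe_hk_sx t y))⁻¹ * twe_hk_eU hqM y * (twe_hk_eU hqM (y₁ y))⁻¹ :=
        m59epoq_dUnit_v hqM hqMl s s' hss' t t' htt y
      rw [m59epoq_dUnit_beta hlM, hdv, htr, mul_one,
        hσ, ← twe_hc_sx_congr t (hσinf (y₁ y))]
      unfold twe_hk_f
      rw [mul_inv_rev, inv_inv]
      simp only [mul_assoc, mul_comm, mul_left_comm]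
    rw [h4, hd]
    exact twe_hk_f_div_mem hqM t ht _ _
  set u : OnePoint (ZMod q) → ↥(twe_GamH M H) := fun y => ⟨_, hu₀mem y⟩ with hu
  have hρ0 : twe_hc_rep s ((0 : ZMod l) : OnePoint (ZMod l)) =
      (t2k_iota (M * l) s')⁻¹ * heckeRep l ((0 : ZMod l) : OnePoint (ZMod l)) := by
    unfold twe_hc_rep
    rw [t2k_iota_apply, hss']
    rfl
  refine m59epoq_cor_T hlM hqM hqMl H H' s hs t ht t' ht' _ r hr
    (m59epoq_gamZero hlM H H' hGG' s hs (m59epoq_hsl s s' hss'))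
    (twe_hc_rep s ((0 : ZMod l) : OnePoint (ZMod l)))
    (m59epoq_gamZero_spec hlM H H' hGG' s hs (m59epoq_hsl s s' hss'))
    (m59epoq_gamZero_surjective hlM H H' hGG' s hs s' hss') σ u ?_ ?_ φ
  · -- the matching
    intro y
    have hA : heckeRep q y * (t2k_iota (M * l) s')⁻¹ =
        t2k_iota (M * l) (t2c_coc hqMl y s'⁻¹) * heckeRep q (y₁ y) :=
      m59epoq_rep_move hqMl s' y
    have hB : heckeRep q (y₁ y) * heckeRep l ((0 : ZMod l) : OnePoint (ZMod l)) =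
        heckeRep l ((0 : ZMod l) : OnePoint (ZMod l)) *
          t2k_iota M ⟨t2k_trans (m₀ (y₁ y)), t2k_trans_mem M (m₀ (y₁ y))⟩ *
            heckeRep q (σ y) := hσm (y₁ y)
    have hC := m59epoq_delta0_beta hlM (m59epoq_v hqMl s' t' y)
    have hv : t2k_iota (M * l) (m59epoq_v hqMl s' t' y) =
        t2k_iota (M * l) s' * (t2k_iota (M * l) (twe_hk_sx t' y))⁻¹ *
          t2k_iota (M * l) (t2c_coc hqMl y s'⁻¹) := by
      unfold m59epoq_v
      rw [map_mul, map_mul, map_inv]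
    have hu1 : twe_hc_iota H (u y) =
        t2k_iota M (lrm_beta hlM (m59epoq_v hqMl s' t' y)) *
          t2k_iota M ⟨t2k_trans (m₀ (y₁ y)), t2k_trans_mem M (m₀ (y₁ y))⟩ *
            t2k_iota M (twe_hk_sx t (σ y)) := by
      rw [← map_mul, ← map_mul]
      rfl
    have hL : twe_hc_rep t' y = (t2k_iota (M * l) (twe_hk_sx t' y))⁻¹ * heckeRep q y := rfl
    have hR : twe_hc_rep t (σ y) = (t2k_iota M (twe_hk_sx t (σ y)))⁻¹ * heckeRep q (σ y) := rfl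
    rw [hρ0, hu1, hL, hR]
    calc (t2k_iota (M * l) (twe_hk_sx t' y))⁻¹ * heckeRep q y *
          ((t2k_iota (M * l) s')⁻¹ * heckeRep l ((0 : ZMod l) : OnePoint (ZMod l)))
        = (t2k_iota (M * l) (twe_hk_sx t' y))⁻¹ * (heckeRep q y * (t2k_iota (M * l) s')⁻¹) *
            heckeRep l ((0 : ZMod l) : OnePoint (ZMod l)) := by simp only [mul_assoc]
      _ = (t2k_iota (M * l) (twe_hk_sx t' y))⁻¹ * t2k_iota (M * l) (t2c_coc hqMl y s'⁻¹) *
            (heckeRep q (y₁ y) * heckeRep l ((0 : ZMod l) : OnePoint (ZMod l))) := by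
          rw [hA]; simp only [mul_assoc]
      _ = (t2k_iota (M * l) s')⁻¹ * (t2k_iota (M * l) (m59epoq_v hqMl s' t' y) *
            heckeRep l ((0 : ZMod l) : OnePoint (ZMod l))) *
              t2k_iota M ⟨t2k_trans (m₀ (y₁ y)), t2k_trans_mem M (m₀ (y₁ y))⟩ *
                heckeRep q (σ y) := by
          rw [hB, hv]; group
      _ = _ := by rw [hC]; group
  · -- the entry condition
    intro y y' h g e
    show t2c_act ((h : ↥(twe_GamH M H)) : SL(2, ℤ)) ((0 : ZMod l) : OnePoint (ZMod l)) = _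
    rw [lrm_act_zero]
    have hg0 : (g : SL(2, ℤ)) ∈ Gamma0 (M * l) := twe_GamH_le _ _ g.2
    refine lre_hS_zero (l := q) (q := l) (N := M) hqMl (y₁ y) (y₁ y') (twe_hk_up H h)
      ((t2c_coc hqMl y s'⁻¹)⁻¹ * twe_hk_sx t' y * ⟨(g : SL(2, ℤ)), hg0⟩ * (twe_hk_sx t' y')⁻¹ *
        t2c_coc hqMl y' s'⁻¹) ?_
    have hA : heckeRep q y * (t2k_iota (M * l) s')⁻¹ =
        t2k_iota (M * l) (t2c_coc hqMl y s'⁻¹) * heckeRep q (y₁ y) :=
      m59epoq_rep_move hqMl s' y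
    have hA' : heckeRep q y' * (t2k_iota (M * l) s')⁻¹ =
        t2k_iota (M * l) (t2c_coc hqMl y' s'⁻¹) * heckeRep q (y₁ y') :=
      m59epoq_rep_move hqMl s' y'
    have hL : twe_hc_rep t' y = (t2k_iota (M * l) (twe_hk_sx t' y))⁻¹ * heckeRep q y := rfl
    have hL' : twe_hc_rep t' y' = (t2k_iota (M * l) (twe_hk_sx t' y'))⁻¹ * heckeRep q y' := rfl
    have hg1 : twe_hc_iota H' g = t2k_iota (M * l) ⟨(g : SL(2, ℤ)), hg0⟩ := rfl
    have hh1 : twe_hc_iota H h = t2k_iota M (twe_hk_up H h) := rfl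
    rw [hρ0, hL, hL', hg1, hh1] at e
    simp only [map_mul, map_inv]
    have e1 : (t2k_iota (M * l) (twe_hk_sx t' y))⁻¹ * t2k_iota (M * l) (t2c_coc hqMl y s'⁻¹) *
        (heckeRep q (y₁ y) * heckeRep l ((0 : ZMod l) : OnePoint (ZMod l)) *
          t2k_iota M (twe_hk_up H h)) =
        t2k_iota (M * l) ⟨(g : SL(2, ℤ)), hg0⟩ * (t2k_iota (M * l) (twe_hk_sx t' y'))⁻¹ *
          t2k_iota (M * l) (t2c_coc hqMl y' s'⁻¹) *
            (heckeRep q (y₁ y') * heckeRep l ((0 : ZMod l) : OnePoint (ZMod l))) := by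
      calc (t2k_iota (M * l) (twe_hk_sx t' y))⁻¹ * t2k_iota (M * l) (t2c_coc hqMl y s'⁻¹) *
            (heckeRep q (y₁ y) * heckeRep l ((0 : ZMod l) : OnePoint (ZMod l)) *
              t2k_iota M (twe_hk_up H h))
          = (t2k_iota (M * l) (twe_hk_sx t' y))⁻¹ *
              (t2k_iota (M * l) (t2c_coc hqMl y s'⁻¹) * heckeRep q (y₁ y)) *
                heckeRep l ((0 : ZMod l) : OnePoint (ZMod l)) * t2k_iota M (twe_hk_up H h) := by
            simp only [mul_assoc]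
        _ = (t2k_iota (M * l) (twe_hk_sx t' y))⁻¹ * heckeRep q y *
              ((t2k_iota (M * l) s')⁻¹ * heckeRep l ((0 : ZMod l) : OnePoint (ZMod l))) *
                t2k_iota M (twe_hk_up H h) := by
            rw [← hA]; simp only [mul_assoc]
        _ = t2k_iota (M * l) ⟨(g : SL(2, ℤ)), hg0⟩ *
              ((t2k_iota (M * l) (twe_hk_sx t' y'))⁻¹ * heckeRep q y') *
                ((t2k_iota (M * l) s')⁻¹ * heckeRep l ((0 : ZMod l) : OnePoint (ZMod l))) := e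
        _ = t2k_iota (M * l) ⟨(g : SL(2, ℤ)), hg0⟩ * (t2k_iota (M * l) (twe_hk_sx t' y'))⁻¹ *
              (heckeRep q y' * (t2k_iota (M * l) s')⁻¹) *
                heckeRep l ((0 : ZMod l) : OnePoint (ZMod l)) := by simp only [mul_assoc]
        _ = _ := by rw [hA']; simp only [mul_assoc]
    calc heckeRep q (y₁ y) * heckeRep l ((0 : ZMod l) : OnePoint (ZMod l)) *
          t2k_iota M (twe_hk_up H h)
        = (t2k_iota (M * l) (t2c_coc hqMl y s'⁻¹))⁻¹ * t2k_iota (M * l) (twe_hk_sx t' y) *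
            ((t2k_iota (M * l) (twe_hk_sx t' y))⁻¹ * t2k_iota (M * l) (t2c_coc hqMl y s'⁻¹) *
              (heckeRep q (y₁ y) * heckeRep l ((0 : ZMod l) : OnePoint (ZMod l)) *
                t2k_iota M (twe_hk_up H h))) := by group
      _ = _ := by rw [e1]; group

end corB

/-! ### The statements for `m59epo_Bt`, `m59epo_lBt` -/

section bridge

variable {M l q : ℕ} [Fact l.Prime] [Fact q.Prime] (hlM : ¬ l ∣ M) (hqM : ¬ q ∣ M)
  (hqMl : ¬ q ∣ M * l) (H : Subgroup (ZMod M)ˣ) (s : Gamma0 M)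
  (hs : twe_dUnit M s * twe_dUnit M s * (twe_hk_lU hlM)⁻¹ ∈ H)
  (hnice : twe_hc_Nice l (s : SL(2, ℤ)))
  (t₁ : Gamma0 (M * l))
  (ht : twe_dUnit M (lrm_incl M l t₁) * twe_dUnit M (lrm_incl M l t₁) * (twe_hk_lU hqM)⁻¹ ∈ H)
  (ht₁ : twe_dUnit (M * l) t₁ * twe_dUnit (M * l) t₁ * (twe_hk_lU hqMl)⁻¹ ∈ m59epo_Hl M l H)
  {A : Type*} [AddCommGroup A]

/-- `ω^* ∘ ofStab^* = κ₀^*`: helper3's `m59epo_om`, `m59epo_ofStab` compose to `m59epoq_gamZero`. -/
theorem m59epoq_pull_om (φ : Additive ↥(twe_GamH (M * l) (m59epo_Hl M l H)) →+ A) :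
    lrm_pull (m59epo_om hlM H s hs hnice) (lrm_pull (m59epo_ofStab hlM H s hs) φ) =
      lrm_pull (m59epoq_gamZero hlM H (m59epo_Hl M l H) (m59epo_mem_GamHl hlM H) s hs
        (m59epo_nice_dvd hnice)) φ := by
  refine lrt_ext fun g => ?_
  show lrt_ev φ (m59epo_ofStab hlM H s hs (m59epo_om hlM H s hs hnice g)) =
    lrt_ev φ (m59epoq_gamZero hlM H (m59epo_Hl M l H) (m59epo_mem_GamHl hlM H) s hs
      (m59epo_nice_dvd hnice) g)
  congr 1

/-- **`T'_q ∘ Bt = Bt ∘ T'_q`** for helper3's `m59epo_Bt`. -/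
theorem m59epoq_Bt_T (φ : Additive ↥(twe_GamH (M * l) (m59epo_Hl M l H)) →+ A) :
    twe_hk_T hqM H (lrm_incl M l t₁) ht (m59epo_Bt hlM H s hs hnice φ) =
      m59epo_Bt hlM H s hs hnice (twe_hk_T hqMl (m59epo_Hl M l H) t₁ ht₁ φ) := by
  have key := m59epoq_corB_T hlM hqM hqMl H (m59epo_Hl M l H) (m59epo_mem_GamHl hlM H) s hs
    (m59epo_up hlM s hnice) rfl (lrm_incl M l t₁) ht t₁ ht₁ rfl (m59epo_r1 hlM H)
    (m59epo_r1_spec hlM H s hs) φ
  have e1 : m59epo_Bt hlM H s hs hnice φ =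
      lrt_cor (twe_hk_data hlM H s hs) ((0 : ZMod l) : OnePoint (ZMod l)) (m59epo_r1 hlM H)
        (m59epo_r1_spec hlM H s hs)
        (lrm_pull (m59epo_om hlM H s hs hnice) (lrm_pull (m59epo_ofStab hlM H s hs) φ)) := rfl
  have e2 : m59epo_Bt hlM H s hs hnice (twe_hk_T hqMl (m59epo_Hl M l H) t₁ ht₁ φ) =
      lrt_cor (twe_hk_data hlM H s hs) ((0 : ZMod l) : OnePoint (ZMod l)) (m59epo_r1 hlM H)
        (m59epo_r1_spec hlM H s hs)
        (lrm_pull (m59epo_om hlM H s hs hnice) (lrm_pull (m59epo_ofStab hlM H s hs)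
          (twe_hk_T hqMl (m59epo_Hl M l H) t₁ ht₁ φ))) := rfl
  rw [e1, e2, m59epoq_pull_om, m59epoq_pull_om]
  exact key

variable {R : Type*} [CommRing R] [Module R A]

/-- **`T'_q ∘ Bt = Bt ∘ T'_q`** on `W(Γ_{H'}(Ml), A)`, for helper3's `m59epo_lBt`. -/
theorem m59epoq_lBt_T (z : ↥(twe_wl_V R A (twe_GamH (M * l) (m59epo_Hl M l H)))) :
    twe_wl_T hqM H (lrm_incl M l t₁) ht (m59epo_lBt (R := R) hlM H s hs hnice z) =
      m59epo_lBt hlM H s hs hnice (twe_wl_T hqMl (m59epo_Hl M l H) t₁ ht₁ z) := by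
  apply Subtype.ext
  rw [twe_wl_T_coe, m59epo_lBt_coe, m59epo_lBt_coe, twe_wl_T_coe]
  exact m59epoq_Bt_T hlM hqM hqMl H s hs hnice t₁ ht ht₁ z.1

end bridge

end Fermat.Agent.M59
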