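import Mathlib
import Fermat.Agent.TW.Aut.FreeO
import Fermat.Agent.TW.Aut.FreeAsm
import Fermat.Agent.M59.EP.OpsDia
import Fermat.Agent.M59.EP.OpsTop

/-!
# M59 / block [E'] / cell [EP-OPS](2)(d), part 2 (helper8): compatibility of the four maps with the
transfers to `Γ₀` (prefix `m59epot_`)

`𝒪` a domain of characteristic `0`.  `cor₀ : W(Γ_H(M), 𝒪) → W(Γ₀(M), 𝒪)`,
`cor₁ : W(Γ_{H'}(M l), 𝒪) → W(Γ₀(M l), 𝒪)` the transfers, for ARBITRARY systems of representatives: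

* `m59epot_cor_lA`  : `cor₁ ∘ lA = rA ∘ cor₀`;      * `m59epot_cor_lB`  : `cor₁ ∘ lB = rB ∘ cor₀`;
* `m59epot_cor_lAt` : `cor₀ ∘ lAt = cA ∘ cor₁`;     * `m59epot_cor_lBt` : `cor₀ ∘ lBt = cB ∘ cor₁`.

Route: the restriction is injective over `𝒪`, `res ∘ cor = ∑_{δ ∈ Δ} ⟨δ⟩` at both levels for the same
group `Δ = (ℤ/M)ˣ / H` (`twe_fo_res_cor_rho`), every class of `Δ` contains an element of `Γ₀(M)` which
is `≡ 1` modulo `l`, the four maps commute with the diamonds of such elements (`OpsDia.lean`), and the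
restriction compatibilities of `OpsTop.lean`.
-/

set_option autoImplicit false
set_option linter.unusedSectionVars false

noncomputable section

open CongruenceSubgroup Matrix.SpecialLinearGroup
open scoped MatrixGroups OnePoint

namespace Fermat.Agent.M59

open Fermat.Agent.JT3 Fermat.Agent.LR Fermat.Agent.TW

section delta

variable {M l : ℕ} [Fact l.Prime] (hlM : ¬ l ∣ M) (H : Subgroup (ZMod M)ˣ)

/-- `Γ₀(M) → Δ = (ℤ/M)ˣ / H`. -/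
def m59epot_d0 : Gamma0 M →* (ZMod M)ˣ ⧸ H :=
  (QuotientGroup.mk' H).comp (twe_dUnit M)

theorem m59epot_d0_surjective : Function.Surjective (m59epot_d0 H) :=
  (QuotientGroup.mk'_surjective H).comp (twe_fz_dUnit_surjective M)

theorem m59epot_d0_ker (g : Gamma0 M) :
    m59epot_d0 H g = 1 ↔ (g : SL(2, ℤ)) ∈ twe_GamH M H := by
  show (QuotientGroup.mk' H) (twe_dUnit M g) = 1 ↔ _
  rw [QuotientGroup.mk'_apply, QuotientGroup.eq_one_iff, twe_mem_GamH]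
  exact ⟨fun h => ⟨g.2, h⟩, fun ⟨_, h⟩ => h⟩

/-- `Γ₀(M l) → Δ`. -/
def m59epot_d1 : Gamma0 (M * l) →* (ZMod M)ˣ ⧸ H :=
  (m59epot_d0 H).comp (lrm_incl M l)

include hlM in
theorem m59epot_d1_ker (g : Gamma0 (M * l)) :
    m59epot_d1 (l := l) H g = 1 ↔ (g : SL(2, ℤ)) ∈ twe_GamH (M * l) (m59epo_Hl M l H) := by
  show m59epot_d0 H (lrm_incl M l g) = 1 ↔ _
  rw [m59epot_d0_ker, m59epo_mem_GamHl hlM H]
  exact ⟨fun h => ⟨h, lrm_dvd_q M g⟩, fun h => h.1⟩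

include hlM in
/-- every class of `Δ` contains an element of `Γ₀(M)` which is `≡ 1` modulo `l`. -/
theorem m59epot_exists_nice (δ : (ZMod M)ˣ ⧸ H) :
    ∃ g : Gamma0 M, m59epot_d0 H g = δ ∧ twe_hc_Nice l (g : SL(2, ℤ)) := by
  obtain ⟨g₀, rfl⟩ := m59epot_d0_surjective H δ
  obtain ⟨g, hd, hg⟩ := twe_hc_exists_nice hlM g₀
  refine ⟨g, ?_, hg⟩
  show (QuotientGroup.mk' H) (twe_dUnit M g) = (QuotientGroup.mk' H) (twe_dUnit M g₀)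
  rw [hd]

/-- the chosen nice representative of a class. -/
def m59epot_g (δ : (ZMod M)ˣ ⧸ H) : Gamma0 M := (m59epot_exists_nice hlM H δ).choose

theorem m59epot_g_d (δ : (ZMod M)ˣ ⧸ H) : m59epot_d0 H (m59epot_g hlM H δ) = δ :=
  (m59epot_exists_nice hlM H δ).choose_spec.1

theorem m59epot_g_nice (δ : (ZMod M)ˣ ⧸ H) : twe_hc_Nice l (m59epot_g hlM H δ : SL(2, ℤ)) :=
  (m59epot_exists_nice hlM H δ).choose_spec.2

theorem m59epot_g_d1 (δ : (ZMod M)ˣ ⧸ H) :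
    m59epot_d1 (l := l) H (m59epo_up hlM (m59epot_g hlM H δ) (m59epot_g_nice hlM H δ)) = δ := by
  have h : lrm_incl M l (m59epo_up hlM (m59epot_g hlM H δ) (m59epot_g_nice hlM H δ)) =
      m59epot_g hlM H δ := Subtype.ext rfl
  show m59epot_d0 H (lrm_incl M l _) = δ
  rw [h, m59epot_g_d]

include hlM in
theorem m59epot_d1_surjective : Function.Surjective (m59epot_d1 (l := l) H) :=
  fun δ => ⟨_, m59epot_g_d1 hlM H δ⟩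

end delta

section norm

variable {R : Type*} [CommRing R] {A : Type*} [AddCommGroup A] [Module R A]
variable {M l : ℕ} [NeZero M] [Fact l.Prime] (hlM : ¬ l ∣ M) (H : Subgroup (ZMod M)ˣ)

/-- `res₀ ∘ cor₀ = ∑_δ ⟨g_δ⟩`. -/
theorem m59epot_res_cor0 {ι₀ : Type*} [Fintype ι₀] {ρ₀ : ι₀ → SL(2, ℤ)}
    (hρ₀ : ∀ i, ρ₀ i ∈ Gamma0 M)
    (hbij₀ : ∀ γ ∈ Gamma0 M, ∃! i, (ρ₀ i)⁻¹ * γ ∈ twe_GamH M H)
    [Fintype ((ZMod M)ˣ ⧸ H)] (z : ↥(twe_wl_V R A (twe_GamH M H))) :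
    twe_wl_res (twe_GamH_le M H) (twe_wl_cor hρ₀ hbij₀ z) =
      ∑ δ : (ZMod M)ˣ ⧸ H, twe_wl_conj H (m59epot_g hlM H δ) z := by
  rw [twe_fo_res_cor_rho H (m59epot_d0 H) (m59epot_d0_surjective H) (m59epot_d0_ker H) hρ₀ hbij₀]
  refine Finset.sum_congr rfl fun δ _ => ?_
  have h := twe_fo_rho_apply (R := R) (A := A) H (m59epot_d0 H) (m59epot_d0_surjective H)
    (m59epot_d0_ker H) (m59epot_g hlM H δ)
  rw [m59epot_g_d] at h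
  rw [h]

/-- `res₁ ∘ cor₁ = ∑_δ ⟨g_δ⟩`. -/
theorem m59epot_res_cor1 {ι₁ : Type*} [Fintype ι₁] {ρ₁ : ι₁ → SL(2, ℤ)}
    (hρ₁ : ∀ i, ρ₁ i ∈ Gamma0 (M * l))
    (hbij₁ : ∀ γ ∈ Gamma0 (M * l), ∃! i, (ρ₁ i)⁻¹ * γ ∈ twe_GamH (M * l) (m59epo_Hl M l H))
    [Fintype ((ZMod M)ˣ ⧸ H)] (w : ↥(twe_wl_V R A (twe_GamH (M * l) (m59epo_Hl M l H)))) :
    twe_wl_res (twe_GamH_le (M * l) (m59epo_Hl M l H)) (twe_wl_cor hρ₁ hbij₁ w) =
      ∑ δ : (ZMod M)ˣ ⧸ H, twe_wl_conj (m59epo_Hl M l H)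
        (m59epo_up hlM (m59epot_g hlM H δ) (m59epot_g_nice hlM H δ)) w := by
  rw [twe_fo_res_cor_rho (m59epo_Hl M l H) (m59epot_d1 (l := l) H) (m59epot_d1_surjective hlM H)
    (m59epot_d1_ker hlM H) hρ₁ hbij₁]
  refine Finset.sum_congr rfl fun δ _ => ?_
  have h := twe_fo_rho_apply (R := R) (A := A) (m59epo_Hl M l H) (m59epot_d1 (l := l) H)
    (m59epot_d1_surjective hlM H) (m59epot_d1_ker hlM H)
    (m59epo_up hlM (m59epot_g hlM H δ) (m59epot_g_nice hlM H δ))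
  rw [m59epot_g_d1] at h
  rw [h]

end norm

section cor

variable {𝒪 : Type*} [CommRing 𝒪] [IsDomain 𝒪] [CharZero 𝒪]
variable {M l : ℕ} [NeZero M] [Fact l.Prime] (hlM : ¬ l ∣ M) (H : Subgroup (ZMod M)ˣ)
  (s : Gamma0 M) (hs : twe_dUnit M s * twe_dUnit M s * (twe_hk_lU hlM)⁻¹ ∈ H)
  (hnice : twe_hc_Nice l (s : SL(2, ℤ)))
  {ι₀ : Type*} [Fintype ι₀] {ρ₀ : ι₀ → SL(2, ℤ)} (hρ₀ : ∀ i, ρ₀ i ∈ Gamma0 M)
  (hbij₀ : ∀ γ ∈ Gamma0 M, ∃! i, (ρ₀ i)⁻¹ * γ ∈ twe_GamH M H)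
  {ι₁ : Type*} [Fintype ι₁] {ρ₁ : ι₁ → SL(2, ℤ)} (hρ₁ : ∀ i, ρ₁ i ∈ Gamma0 (M * l))
  (hbij₁ : ∀ γ ∈ Gamma0 (M * l), ∃! i, (ρ₁ i)⁻¹ * γ ∈ twe_GamH (M * l) (m59epo_Hl M l H))

/-- **`cor₁ ∘ lA = rA ∘ cor₀`**. -/
theorem m59epot_cor_lA (x : ↥(twe_wl_V 𝒪 𝒪 (twe_GamH M H))) :
    twe_wl_cor hρ₁ hbij₁ (m59epo_lA (R := 𝒪) hlM H s hs hnice x) =
      m59epi_rA M l (twe_wl_cor hρ₀ hbij₀ x) := by
  have : Fintype ((ZMod M)ˣ ⧸ H) := Fintype.ofFinite _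
  apply twe_fo_res_inj' (m59epo_Hl M l H) hρ₁ hbij₁
  rw [m59epot_res_cor1 hlM H hρ₁ hbij₁, ← m59epot_lA_res hlM H s hs hnice,
    m59epot_res_cor0 hlM H hρ₀ hbij₀, map_sum]
  refine Finset.sum_congr rfl fun δ _ => ?_
  exact (m59epo_lA_conj hlM H s hs hnice _ (m59epot_g_nice hlM H δ) x).symm

/-- **`cor₁ ∘ lB = rB ∘ cor₀`**. -/
theorem m59epot_cor_lB (x : ↥(twe_wl_V 𝒪 𝒪 (twe_GamH M H))) :
    twe_wl_cor hρ₁ hbij₁ (m59epo_lB (R := 𝒪) hlM H s hs hnice x) =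
      m59epi_rB hlM (twe_wl_cor hρ₀ hbij₀ x) := by
  have : Fintype ((ZMod M)ˣ ⧸ H) := Fintype.ofFinite _
  apply twe_fo_res_inj' (m59epo_Hl M l H) hρ₁ hbij₁
  rw [m59epot_res_cor1 hlM H hρ₁ hbij₁, ← m59epot_lB_res hlM H s hs hnice,
    m59epot_res_cor0 hlM H hρ₀ hbij₀, map_sum]
  refine Finset.sum_congr rfl fun δ _ => ?_
  exact (m59epo_lB_conj hlM H s hs hnice _ (m59epot_g_nice hlM H δ) x).symm

/-- **`cor₀ ∘ lAt = cA ∘ cor₁`**. -/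
theorem m59epot_cor_lAt (z : ↥(twe_wl_V 𝒪 𝒪 (twe_GamH (M * l) (m59epo_Hl M l H)))) :
    twe_wl_cor hρ₀ hbij₀ (m59epo_lAt (R := 𝒪) hlM H s hs hnice z) =
      m59epi_cA hlM (twe_wl_cor hρ₁ hbij₁ z) := by
  have : Fintype ((ZMod M)ˣ ⧸ H) := Fintype.ofFinite _
  apply twe_fo_res_inj' H hρ₀ hbij₀
  rw [m59epot_res_cor0 hlM H hρ₀ hbij₀, m59epot_res_cA hlM H s hs hnice,
    m59epot_res_cor1 hlM H hρ₁ hbij₁, map_sum]
  refine Finset.sum_congr rfl fun δ _ => ?_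
  exact (m59epo_lAt_conj hlM H s hs hnice _ (m59epot_g_nice hlM H δ) z).symm

/-- **`cor₀ ∘ lBt = cB ∘ cor₁`**. -/
theorem m59epot_cor_lBt (z : ↥(twe_wl_V 𝒪 𝒪 (twe_GamH (M * l) (m59epo_Hl M l H)))) :
    twe_wl_cor hρ₀ hbij₀ (m59epo_lBt (R := 𝒪) hlM H s hs hnice z) =
      m59epi_cB hlM (twe_wl_cor hρ₁ hbij₁ z) := by
  have : Fintype ((ZMod M)ˣ ⧸ H) := Fintype.ofFinite _
  apply twe_fo_res_inj' H hρ₀ hbij₀
  rw [m59epot_res_cor0 hlM H hρ₀ hbij₀, m59epot_res_cB hlM H s hs hnice,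
    m59epot_res_cor1 hlM H hρ₁ hbij₁, map_sum]
  refine Finset.sum_congr rfl fun δ _ => ?_
  exact (m59epo_lBt_conj hlM H s hs hnice _ (m59epot_g_nice hlM H δ) z).symm

end cor

end Fermat.Agent.M59
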