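/-
Project M59 (S59), block [E'] (architect helper3), cell [EP-PRIM/RING] part 2, tag `m59epr_`.

**Independence of the bad set at the level of `W(Γ_H, 𝒪)`**: for `S' ⊆ S''` the part of `W(Γ_H, 𝒪)`
which is `θ`-primary for the fixed-determinant operators at the good primes of `(A, S'')` is already
`θ`-primary for ALL the good primes of `(A, S')` (`A` the balanced level).  This is what makes the
transfers `At, Bt` land in the primary part of the lower level, where `l` is a GOOD prime.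

Route: `twe_is_coeff_mem` (E/IndepS on `Hom(gh_H A, 𝒪)`) writes `T_t` as a polynomial in the
`T_ℓ`, `ℓ` good for `S''`; (Rel) transports the relation to `W(Γ_H, 𝒪)`; the value of that
polynomial in the Hecke ring `B''.T` of a full base package of `(A, S'')` is sent to `T_t` by
`twe_sh_main`, hence is congruent to `a_t` modulo the maximal ideal; `twe_at_prim_of_local`.
-/
import Mathlib
import Fermat.Agent.TW.Aut.SeamHom
import Fermat.Agent.TW.Aut.IndepS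
import Fermat.Agent.M59.EP.Twin.SeamRing
import Fermat.Agent.M59.EP.Twin.DatumM1
import Fermat.Agent.M59.EP.PrimOps

set_option autoImplicit false
set_option linter.unusedSectionVars false

noncomputable section

namespace Fermat.Agent.M59

open IsLocalRing Polynomial CuspForm Fermat.Agent.JT3 Fermat.Agent.LR Fermat.Agent.TW
  CongruenceSubgroup
open scoped MatrixGroups

section rel

variable {𝒪 : Type*} [CommRing 𝒪] {X Y : Type*} [AddCommGroup X] [Module 𝒪 X] [AddCommGroup Y]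
  [Module 𝒪 Y] {L L' : Type*}

/-- the free-algebra map induced by a map of index sets. -/
def m59epr_fmap (𝒪 : Type*) [CommRing 𝒪] {L L' : Type*} (e : L' → L) :
    FreeAlgebra 𝒪 L' →ₐ[𝒪] FreeAlgebra 𝒪 L :=
  FreeAlgebra.lift 𝒪 (fun i => FreeAlgebra.ι 𝒪 (e i))

theorem m59epr_lift_fmap {E : Type*} [Semiring E] [Algebra 𝒪 E] (e : L' → L) (T : L → E)
    (G : FreeAlgebra 𝒪 L') :
    FreeAlgebra.lift 𝒪 T (m59epr_fmap 𝒪 e G) = FreeAlgebra.lift 𝒪 (fun i => T (e i)) G := by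
  have h : (FreeAlgebra.lift 𝒪 T).comp (m59epr_fmap 𝒪 e) =
      FreeAlgebra.lift 𝒪 (fun i => T (e i)) := by
    apply FreeAlgebra.hom_ext
    funext i
    simp [m59epr_fmap]
  exact congrArg (fun φ : FreeAlgebra 𝒪 L' →ₐ[𝒪] E => φ G) h

/-- (Rel) restricts along a map of index sets. -/
theorem m59epr_rel_reindex (e : L' → L) (TX : L → Module.End 𝒪 X) (TY : L → Module.End 𝒪 Y)
    (h : twe_at_Rel TX TY) : twe_at_Rel (fun i => TX (e i)) (fun i => TY (e i)) := by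
  intro G hG
  rw [← m59epr_lift_fmap] at hG ⊢
  exact h _ hG

end rel

section local_act

variable {𝒪 : Type*} [CommRing 𝒪] [IsLocalRing 𝒪] [IsNoetherianRing 𝒪]
  {S : Type*} [CommRing S] [IsLocalRing S] [Algebra 𝒪 S] [IsLocalHom (algebraMap 𝒪 S)]
  [Module.Finite 𝒪 S] {W : Type*} [AddCommGroup W] [Module 𝒪 W]

/-- an operator `T` on `W` which on a submodule `P` is the action of an element `x ≡ c` of a local
finite `𝒪`-algebra: `T - c` is topologically nilpotent on `P`. -/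
theorem m59epr_prim_of_act (P : Submodule 𝒪 W) (ψ : S →ₐ[𝒪] Module.End 𝒪 ↥P) (x : S) (c : 𝒪)
    (hx : x - algebraMap 𝒪 S c ∈ maximalIdeal S) (T : Module.End 𝒪 W)
    (hT : ∀ z : ↥P, ((ψ x z : ↥P) : W) = T (z : W)) (y : W) (hy : y ∈ P) (k : ℕ) :
    ∃ n, ((T - c • (1 : Module.End 𝒪 W)) ^ n) y ∈
      (maximalIdeal 𝒪) ^ k • (⊤ : Submodule 𝒪 W) := by
  have h2 := twe_at_prim_of_local (𝒪 := 𝒪) (L := Unit) (S := S) (Y₁ := ↥P)
    ψ (fun _ : Unit => x) (fun _ => c) (fun _ => hx) ⟨y, hy⟩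
  obtain ⟨n, hn⟩ := h2 () k
  refine ⟨n, ?_⟩
  have key : ∀ (m : ℕ) (z : ↥P),
      ((((ψ x - c • (1 : Module.End 𝒪 ↥P)) ^ m) z : ↥P) : W) =
        ((T - c • (1 : Module.End 𝒪 W)) ^ m) (z : W) := by
    intro m
    induction m with
    | zero => intro z; rfl
    | succ m ih =>
      intro z
      rw [pow_succ, pow_succ, Module.End.mul_apply, Module.End.mul_apply, ih]
      congr 1
      rw [LinearMap.sub_apply, LinearMap.sub_apply, LinearMap.smul_apply, LinearMap.smul_apply,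
        Module.End.one_apply, Module.End.one_apply, Submodule.coe_sub, Submodule.coe_smul, hT]
  have h5 := twe_pr_map_mem (maximalIdeal 𝒪 ^ k) P.subtype hn
  rw [Submodule.subtype_apply, key] at h5
  exact h5

end local_act

section indep

variable {𝒪 : Type} [CommRing 𝒪] [IsDomain 𝒪] [IsDiscreteValuationRing 𝒪]
  [IsAdicComplete (maximalIdeal 𝒪) 𝒪] [Finite (ResidueField 𝒪)] [CharZero 𝒪]
  {A : ℕ} [NeZero A] {S' S'' : Finset ℕ}

/-- the inclusion of the good primes of `(A, S'')` into those of `(A, S')`, `S' ⊆ S''`. -/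
def m59epr_e (A : ℕ) {S' S'' : Finset ℕ} (hSS : S' ⊆ S'') : twe_sm_Idx A S'' → twe_sm_Idx A S' :=
  fun i => ⟨i.1, i.2.1, i.2.2.1, fun h => i.2.2.2 (Finset.coe_subset.mpr hSS h)⟩

/-- the restriction of a frame to the good primes of a bigger bad set. -/
def m59epr_frameRes {M : ℕ} {H : Subgroup (ZMod M)ˣ} (hSS : S' ⊆ S'')
    (F : twe_sm_Frame M H (twe_sm_q A S')) : twe_sm_Frame M H (twe_sm_q A S'') where
  hq i := F.hq (m59epr_e A hSS i)
  hM i := F.hM (m59epr_e A hSS i)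
  s i := F.s (m59epr_e A hSS i)
  hs i := F.hs (m59epr_e A hSS i)

theorem m59epr_frameRes_TY {M : ℕ} {H : Subgroup (ZMod M)ˣ} (hSS : S' ⊆ S'')
    (F : twe_sm_Frame M H (twe_sm_q A S')) (i : twe_sm_Idx A S'') :
    twe_sm_TY 𝒪 (m59epr_frameRes hSS F) i = twe_sm_TY 𝒪 F (m59epr_e A hSS i) := rfl

set_option maxHeartbeats 1000000 in
/-- **independence of the bad set on `W(Γ_H, 𝒪)`**. -/
theorem m59epr_indep (p : ℕ) [Fact p.Prime] (hp2 : p ≠ 2) (hp𝒪 : (p : 𝒪) ∈ maximalIdeal 𝒪)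
    (hSS : S' ⊆ S'') (hpS' : p ∈ S') (hAS' : ∀ ℓ : ℕ, ℓ.Prime → ℓ ∣ A → ℓ ∈ S')
    (θ' : heckeAlgebra A 2 (↑S' : Set ℕ) →+* ResidueField 𝒪)
    (ρbar : ResidualGaloisRep (ResidueField 𝒪)) (hc : twt_Compat θ' ρbar)
    (hirr : ρbar.IsAbsolutelyIrreducible) (B' : twe_Base 𝒪 A S' θ')
    {M : ℕ} [NeZero M] {H : Subgroup (ZMod M)ˣ} (F : twe_sm_Frame M H (twe_sm_q A S'))
    (a : twe_sm_Idx A S' → 𝒪) (ha : twe_sm_IsLift θ' a)
    (hrel : twe_at_Rel (twe_sm_TX 𝒪 A (twe_sm_q A S')) (twe_sm_TY 𝒪 F)) :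
    twe_pr_prim (fun i : twe_sm_Idx A S'' => twe_sm_TY 𝒪 F (m59epr_e A hSS i))
        (fun i => a (m59epr_e A hSS i)) ≤ twe_pr_prim (twe_sm_TY 𝒪 F) a := by
  classical
  letI : Algebra ℤ_[p] 𝒪 := (cya_padicHom p 𝒪 hp𝒪).toAlgebra
  haveI : Module.Finite 𝒪 (gh_H A →+ 𝒪) := tm_hom_finite (gh_H A) 𝒪
  haveI : Module.Finite 𝒪 ↥(twe_wl_V 𝒪 𝒪 (twe_GamH M H)) := twe_rd_finite (twe_GamH M H)
  have hAS'' : ∀ ℓ : ℕ, ℓ.Prime → ℓ ∣ A → ℓ ∈ S'' := fun ℓ hℓ hd => hSS (hAS' ℓ hℓ hd)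
  obtain ⟨θ'', hθ'', hc'', B'', hfull''⟩ := m59epw_sg_base_at m59epw_dt_M1F p hp2 𝒪 hp𝒪 A S' θ'
    ρbar hc hirr A (dvd_refl A) S'' hSS (hSS hpS') hAS''
  obtain ⟨π, hπ⟩ := twe_sh_main 𝒪 A A S'' S' θ'' θ' B'' B' hfull'' (dvd_refl A) hSS hAS''
    (fun ℓ hℓ h1 h2 h3 h4 => hθ'' ℓ hℓ h1 h2 h3 h4)
  -- the data at `S''`
  have ha''L : twe_sm_IsLift θ'' (fun i => a (m59epr_e A hSS i)) := by
    intro ℓ
    rw [ha (m59epr_e A hSS ℓ)]
    exact (hθ'' ℓ.1 ℓ.2.1 ℓ.2.2.1 ℓ.2.2.2 _ _).symm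
  have hrel'' : twe_at_Rel (twe_sm_TX 𝒪 A (twe_sm_q A S''))
      (twe_sm_TY 𝒪 (m59epr_frameRes hSS F)) :=
    m59epr_rel_reindex (m59epr_e A hSS) _ _ hrel
  obtain ⟨ψ, hψ⟩ := twe_at_act (twe_sm_TX 𝒪 A (twe_sm_q A S''))
    (fun i j => twe_sa_commX A _ i j) (twe_sm_TY 𝒪 (m59epr_frameRes hSS F))
    (fun i j => twe_sa_commY (m59epr_frameRes hSS F) Subtype.val_injective i j)
    (fun i => a (m59epr_e A hSS i)) hrel''
    (twe_sa_actBase B'') (twe_sa_tau B'') (twe_sa_gen B'' hAS'') B''.ι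
    (fun ℓ y => twe_sa_iota_hecke B'' ℓ y)
    (fun x hx => ⟨1, one_ne_zero, by rw [one_smul]; exact hfull'' _ ha''L x hx⟩)
    (fun c x hc h => twe_sa_tfX A c x hc h)
  intro y hy t
  -- the polynomial `G` with `T_t = G(T_ℓ : ℓ good for S'')` on `Hom(gh_H A, 𝒪)`
  have hrange : Set.range (twe_sm_TX 𝒪 A (twe_sm_q A S'')) = twe_is_latSet A 𝒪 S'' := by
    ext z
    constructor
    · rintro ⟨ℓ, rfl⟩
      exact ⟨ℓ.1, ℓ.2, rfl⟩
    · rintro ⟨ℓ, hℓ, rfl⟩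
      exact ⟨⟨ℓ, hℓ⟩, rfl⟩
  have hmem : twe_sm_TX 𝒪 A (twe_sm_q A S') t ∈
      Algebra.adjoin 𝒪 (Set.range (twe_sm_TX 𝒪 A (twe_sm_q A S''))) := by
    rw [hrange]
    exact twe_is_coeff_mem A p 𝒪 hSS hpS' hAS' t.2
  rw [Algebra.adjoin_range_eq_range_freeAlgebra_lift] at hmem
  obtain ⟨G, hG⟩ := hmem
  -- the relation on `W(Γ_H, 𝒪)`
  have hR0 : FreeAlgebra.lift 𝒪 (twe_sm_TX 𝒪 A (twe_sm_q A S'))
      (FreeAlgebra.ι 𝒪 t - m59epr_fmap 𝒪 (m59epr_e A hSS) G) = 0 := by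
    rw [map_sub, FreeAlgebra.lift_ι_apply, m59epr_lift_fmap, sub_eq_zero]
    exact hG.symm
  have hR1 := hrel _ hR0
  rw [map_sub, FreeAlgebra.lift_ι_apply, m59epr_lift_fmap, sub_eq_zero] at hR1
  -- the element `x` of `B''.T`
  set x : B''.T := FreeAlgebra.lift 𝒪 (twe_sa_tau B'') G with hx
  have hπτ : ∀ i : twe_sm_Idx A S'', π (twe_sa_tau B'' i) = twe_sa_tau B' (m59epr_e A hSS i) :=
    fun i => hπ i.1 i.2.1 i.2.2.1 i.2.2.2 _ _
  have hπx : π x = FreeAlgebra.lift 𝒪 (fun i => twe_sa_tau B' (m59epr_e A hSS i)) G := by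
    have h0 : (π : B''.T →ₐ[𝒪] B'.T).comp (FreeAlgebra.lift 𝒪 (twe_sa_tau B'')) =
        FreeAlgebra.lift 𝒪 (fun i => twe_sa_tau B' (m59epr_e A hSS i)) := by
      apply FreeAlgebra.hom_ext
      funext i
      simp [hπτ]
    exact congrArg (fun φ : FreeAlgebra 𝒪 (twe_sm_Idx A S'') →ₐ[𝒪] B'.T => φ G) h0
  have hπx' : π x = twe_sa_tau B' t := by
    apply twe_sa_actBase_injective B'
    refine LinearMap.ext fun v => ?_
    apply B'.ι_injective
    rw [twe_sa_iota_hecke B' t v, hπx, ← twe_at_lift_act,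
      twe_at_lift_intertwine B'.ι (fun i => twe_sa_actBase B' (twe_sa_tau B' (m59epr_e A hSS i)))
        (fun i => twe_sm_TX 𝒪 A (twe_sm_q A S') (m59epr_e A hSS i))
        (fun i w => twe_sa_iota_hecke B' (m59epr_e A hSS i) w) G v]
    exact congrArg (fun f : Module.End 𝒪 (gh_H A →+ 𝒪) => f (B'.ι v)) hG
  have hxm : x - algebraMap 𝒪 B''.T (a t) ∈ maximalIdeal B''.T := by
    by_contra hnot
    have hu : IsUnit (x - algebraMap 𝒪 B''.T (a t)) := by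
      by_contra h
      exact hnot ((IsLocalRing.mem_maximalIdeal _).mpr h)
    have hu' := hu.map π
    rw [map_sub, hπx', AlgHom.commutes] at hu'
    exact (IsLocalRing.mem_maximalIdeal _).mp (twe_sa_tau_res B' a ha t) hu'
  -- conclusion
  have h4 : ∀ z : ↥(twe_pr_prim (twe_sm_TY 𝒪 (m59epr_frameRes hSS F))
      (fun i => a (m59epr_e A hSS i))),
      ((ψ x z : ↥(twe_pr_prim (twe_sm_TY 𝒪 (m59epr_frameRes hSS F))
      (fun i => a (m59epr_e A hSS i)))) : ↥(twe_wl_V 𝒪 𝒪 (twe_GamH M H))) =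
        twe_sm_TY 𝒪 F t (z : ↥(twe_wl_V 𝒪 𝒪 (twe_GamH M H))) := by
    intro z
    rw [hx, hψ G z, hR1]
    rfl
  exact fun k => m59epr_prim_of_act _ ψ x (a t) hxm _ h4 y hy k

end indep

end Fermat.Agent.M59
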